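/-
Igusa/AnaUnit (package A1): the modular units `W_β(τ) = D⁻¹² Δ((Aτ+B)/D) / Δ(τ)`,
`β = (A, B, D) ∈ CosetRep d`, their `SL(2, ℤ)`-equivariance and Laurent expansions at `i∞`.
-/
import Mathlib
import Fermat.Agent.X0.Mod.ModularPoly
import Fermat.Agent.X0.Ana.MerInfDiv
import Fermat.Prelude.Def_ModularCurve_X0ModL

set_option autoImplicit false
set_option linter.style.haveILetI false

noncomputable section

namespace Fermat.Agent.Igusa

open Fermat.Agent.X0
open UpperHalfPlane hiding I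
open scoped MatrixGroups Manifold

local notation "Δ" => ModularForm.discriminant

/-! ### Formal series -/

section formal

open ModularCurve

variable (R : Type*) [CommRing R]

/-- The formal `Δ = q ∏ (1 - qⁿ)²⁴` over any commutative ring. -/
def deltaSer : LaurentSeries R :=
  HahnSeries.single (1 : ℤ) (1 : R) *
    HahnSeries.ofPowerSeries ℤ R (dedekindEtaUnit.map (Int.castRingHom R))

/-- The formal `Δ⁻¹`. -/
def deltaInvSer : LaurentSeries R :=
  HahnSeries.single (-1 : ℤ) (1 : R) *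
    HahnSeries.ofPowerSeries ℤ R (dedekindEtaUnitInv.map (Int.castRingHom R))

/-- The formal twisted `Δ(ζ q)`. -/
def deltaTwSer (ζ : R) : LaurentSeries R :=
  HahnSeries.single (1 : ℤ) ζ *
    HahnSeries.ofPowerSeries ℤ R
      (PowerSeries.rescale ζ (dedekindEtaUnit.map (Int.castRingHom R)))

/-- The formal twisted `Δ(ζ q)⁻¹` (`ζi` is the inverse of `ζ`). -/
def deltaInvTwSer (ζ ζi : R) : LaurentSeries R :=
  HahnSeries.single (-1 : ℤ) ζi *
    HahnSeries.ofPowerSeries ℤ R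
      (PowerSeries.rescale ζ (dedekindEtaUnitInv.map (Int.castRingHom R)))

/-- The formal expansion of `W_β`: `c · Δ(ζ t^e) / Δ(t^N)`. -/
def unitSer (c ζ : R) (e N : ℕ) [NeZero e] [NeZero N] : LaurentSeries R :=
  HahnSeries.C c * qExpand R e (deltaTwSer R ζ) * qExpand R N (deltaInvSer R)

/-- The formal expansion of `W_β⁻¹`: `c · Δ(t^N) / Δ(ζ t^e)`. -/
def unitInvSer (c ζ ζi : R) (e N : ℕ) [NeZero e] [NeZero N] : LaurentSeries R :=
  HahnSeries.C c * qExpand R e (deltaInvTwSer R ζ ζi) * qExpand R N (deltaSer R)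

theorem etaUnit_map_mul_inv_map :
    dedekindEtaUnit.map (Int.castRingHom R) * dedekindEtaUnitInv.map (Int.castRingHom R) = 1 := by
  rw [← map_mul, dedekindEtaUnit_mul_inv, map_one]

theorem deltaSer_mul_deltaInvSer : deltaSer R * deltaInvSer R = 1 := by
  rw [deltaSer, deltaInvSer]
  calc _ = (HahnSeries.single (1 : ℤ) (1 : R) * HahnSeries.single (-1 : ℤ) (1 : R)) *
        (HahnSeries.ofPowerSeries ℤ R (dedekindEtaUnit.map (Int.castRingHom R)) *
          HahnSeries.ofPowerSeries ℤ R (dedekindEtaUnitInv.map (Int.castRingHom R))) := by ring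
    _ = 1 := by
      rw [HahnSeries.single_mul_single, ← map_mul, etaUnit_map_mul_inv_map, map_one]
      simp

theorem deltaTwSer_mul_deltaInvTwSer {ζ ζi : R} (h : ζ * ζi = 1) :
    deltaTwSer R ζ * deltaInvTwSer R ζ ζi = 1 := by
  rw [deltaTwSer, deltaInvTwSer]
  calc _ = (HahnSeries.single (1 : ℤ) ζ * HahnSeries.single (-1 : ℤ) ζi) *
        (HahnSeries.ofPowerSeries ℤ R
            (PowerSeries.rescale ζ (dedekindEtaUnit.map (Int.castRingHom R))) *
          HahnSeries.ofPowerSeries ℤ R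
            (PowerSeries.rescale ζ (dedekindEtaUnitInv.map (Int.castRingHom R)))) := by ring
    _ = 1 := by
      rw [HahnSeries.single_mul_single, ← map_mul, ← map_mul, etaUnit_map_mul_inv_map, map_one,
        map_one, h]
      simp

theorem deltaTwSer_one : deltaTwSer R 1 = deltaSer R := by
  rw [deltaTwSer, deltaSer, PowerSeries.rescale_one, RingHom.id_apply]

theorem unitSer_mul_unitInvSer {ζ ζi : R} (h : ζ * ζi = 1) (c c' : R) (e N : ℕ) [NeZero e]
    [NeZero N] : unitSer R c ζ e N * unitInvSer R c' ζ ζi e N = HahnSeries.C (c * c') := by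
  rw [unitSer, unitInvSer]
  calc _ = (HahnSeries.C c * HahnSeries.C c') *
        (qExpand R e (deltaTwSer R ζ) * qExpand R e (deltaInvTwSer R ζ ζi)) *
        (qExpand R N (deltaSer R) * qExpand R N (deltaInvSer R)) := by ring
    _ = _ := by
      rw [← map_mul, ← map_mul, ← map_mul, deltaTwSer_mul_deltaInvTwSer R h,
        deltaSer_mul_deltaInvSer, map_one, map_one, mul_one, mul_one]

variable {R}
variable {S : Type*} [CommRing S]

theorem map_map_intCast_powerSeries (f : R →+* S) (P : PowerSeries ℤ) :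
    (P.map (Int.castRingHom R)).map f = P.map (Int.castRingHom S) := by
  ext n
  simp [PowerSeries.coeff_map]

theorem map_rescale_powerSeries (f : R →+* S) (ζ : R) (P : PowerSeries R) :
    (PowerSeries.rescale ζ P).map f = PowerSeries.rescale (f ζ) (P.map f) := by
  ext n
  simp [PowerSeries.coeff_map, PowerSeries.coeff_rescale]

theorem coeffMap_qExpand_comm (f : R →+* S) (e : ℕ) [NeZero e] (F : LaurentSeries R) :
    coeffMap f (qExpand R e F) = qExpand S e (coeffMap f F) := by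
  ext k
  rw [coeffMap_coeff]
  by_cases hk : (e : ℤ) ∣ k
  · obtain ⟨m, rfl⟩ := hk
    rw [qExpand_coeff_mul, qExpand_coeff_mul, coeffMap_coeff]
  · rw [qExpand_coeff_of_not_dvd e _ hk, qExpand_coeff_of_not_dvd e _ hk, map_zero]

theorem coeffMap_C_hahn (f : R →+* S) (c : R) :
    coeffMap f (HahnSeries.C c : LaurentSeries R) = HahnSeries.C (f c) := by
  rw [HahnSeries.C_apply, HahnSeries.C_apply, coeffMap_single]

theorem coeffMap_deltaSer (f : R →+* S) : coeffMap f (deltaSer R) = deltaSer S := by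
  rw [deltaSer, deltaSer, map_mul, coeffMap_single, coeffMap_ofPowerSeries,
    map_map_intCast_powerSeries, map_one]

theorem coeffMap_deltaInvSer (f : R →+* S) : coeffMap f (deltaInvSer R) = deltaInvSer S := by
  rw [deltaInvSer, deltaInvSer, map_mul, coeffMap_single, coeffMap_ofPowerSeries,
    map_map_intCast_powerSeries, map_one]

theorem coeffMap_deltaTwSer (f : R →+* S) (ζ : R) :
    coeffMap f (deltaTwSer R ζ) = deltaTwSer S (f ζ) := by
  rw [deltaTwSer, deltaTwSer, map_mul, coeffMap_single, coeffMap_ofPowerSeries,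
    map_rescale_powerSeries, map_map_intCast_powerSeries]

theorem coeffMap_deltaInvTwSer (f : R →+* S) (ζ ζi : R) :
    coeffMap f (deltaInvTwSer R ζ ζi) = deltaInvTwSer S (f ζ) (f ζi) := by
  rw [deltaInvTwSer, deltaInvTwSer, map_mul, coeffMap_single, coeffMap_ofPowerSeries,
    map_rescale_powerSeries, map_map_intCast_powerSeries]

theorem coeffMap_unitSer (f : R →+* S) (c ζ : R) (e N : ℕ) [NeZero e] [NeZero N] :
    coeffMap f (unitSer R c ζ e N) = unitSer S (f c) (f ζ) e N := by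
  rw [unitSer, unitSer, map_mul, map_mul, coeffMap_C_hahn, coeffMap_qExpand_comm,
    coeffMap_qExpand_comm, coeffMap_deltaTwSer, coeffMap_deltaInvSer]

theorem coeffMap_unitInvSer (f : R →+* S) (c ζ ζi : R) (e N : ℕ) [NeZero e] [NeZero N] :
    coeffMap f (unitInvSer R c ζ ζi e N) = unitInvSer S (f c) (f ζ) (f ζi) e N := by
  rw [unitInvSer, unitInvSer, map_mul, map_mul, coeffMap_C_hahn, coeffMap_qExpand_comm,
    coeffMap_qExpand_comm, coeffMap_deltaInvTwSer, coeffMap_deltaSer]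

/-! #### Leading terms -/

/-- `qExpand` of a power series is a power series. -/
def expandPS (e : ℕ) (P : PowerSeries R) : PowerSeries R :=
  PowerSeries.mk fun n => if e ∣ n then PowerSeries.coeff (n / e) P else 0

theorem constantCoeff_expandPS (e : ℕ) (P : PowerSeries R) :
    PowerSeries.constantCoeff (expandPS e P) = PowerSeries.constantCoeff P := by
  rw [← PowerSeries.coeff_zero_eq_constantCoeff, expandPS, PowerSeries.coeff_mk]
  simp

theorem qExpand_ofPowerSeries (e : ℕ) [NeZero e] (P : PowerSeries R) :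
    qExpand R e (HahnSeries.ofPowerSeries ℤ R P) = HahnSeries.ofPowerSeries ℤ R (expandPS e P) := by
  have he : (0 : ℤ) < e := by exact_mod_cast Nat.pos_of_ne_zero (NeZero.ne e)
  ext k
  by_cases hk : (e : ℤ) ∣ k
  · obtain ⟨m, rfl⟩ := hk
    rw [qExpand_coeff_mul]
    rcases le_or_gt 0 m with hm | hm
    · lift m to ℕ using hm
      have : (e : ℤ) * (m : ℤ) = ((e * m : ℕ) : ℤ) := by push_cast; ring
      rw [this, HahnSeries.ofPowerSeries_apply_coeff, HahnSeries.ofPowerSeries_apply_coeff,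
        expandPS, PowerSeries.coeff_mk, if_pos (dvd_mul_right e m),
        Nat.mul_div_cancel_left m (Nat.pos_of_ne_zero (NeZero.ne e))]
    · rw [ofPowerSeries_coeff_of_neg _ hm, ofPowerSeries_coeff_of_neg _ (mul_neg_of_pos_of_neg he hm)]
  · rw [qExpand_coeff_of_not_dvd e _ hk]
    rcases le_or_gt 0 k with hk0 | hk0
    · lift k to ℕ using hk0
      rw [HahnSeries.ofPowerSeries_apply_coeff, expandPS, PowerSeries.coeff_mk, if_neg]
      intro h
      exact hk (by exact_mod_cast h)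
    · rw [ofPowerSeries_coeff_of_neg _ hk0]

theorem constantCoeff_rescale_etaUnit (ζ : R) :
    PowerSeries.constantCoeff
      (PowerSeries.rescale ζ (dedekindEtaUnit.map (Int.castRingHom R))) = 1 := by
  rw [← PowerSeries.coeff_zero_eq_constantCoeff, PowerSeries.coeff_rescale, pow_zero, one_mul,
    PowerSeries.coeff_map, PowerSeries.coeff_zero_eq_constantCoeff, constantCoeff_dedekindEtaUnit,
    map_one]

theorem constantCoeff_rescale_etaUnitInv (ζ : R) :
    PowerSeries.constantCoeff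
      (PowerSeries.rescale ζ (dedekindEtaUnitInv.map (Int.castRingHom R))) = 1 := by
  rw [← PowerSeries.coeff_zero_eq_constantCoeff, PowerSeries.coeff_rescale, pow_zero, one_mul,
    PowerSeries.coeff_map, PowerSeries.coeff_zero_eq_constantCoeff,
    constantCoeff_dedekindEtaUnitInv, map_one]

/-- **Leading term of `unitSer`**: `unitSer = (c ζ) t^(e - N) (1 + ⋯)`. -/
theorem unitSer_eq_single_mul (c ζ : R) (e N : ℕ) [NeZero e] [NeZero N] :
    ∃ U : PowerSeries R, PowerSeries.constantCoeff U = 1 ∧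
      unitSer R c ζ e N =
        HahnSeries.single ((e : ℤ) - N) (c * ζ) * HahnSeries.ofPowerSeries ℤ R U := by
  refine ⟨expandPS e (PowerSeries.rescale ζ (dedekindEtaUnit.map (Int.castRingHom R))) *
    expandPS N (dedekindEtaUnitInv.map (Int.castRingHom R)), ?_, ?_⟩
  · rw [map_mul, constantCoeff_expandPS, constantCoeff_expandPS, constantCoeff_rescale_etaUnit,
      ← PowerSeries.coeff_zero_eq_constantCoeff, PowerSeries.coeff_map,
      PowerSeries.coeff_zero_eq_constantCoeff, constantCoeff_dedekindEtaUnitInv]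
    simp
  · rw [unitSer, deltaTwSer, deltaInvSer, (qExpand R e).map_mul, (qExpand R N).map_mul,
      qExpand_single, qExpand_single, qExpand_ofPowerSeries, qExpand_ofPowerSeries,
      HahnSeries.C_apply, (HahnSeries.ofPowerSeries ℤ R).map_mul]
    have hs : HahnSeries.single (0 : ℤ) c * HahnSeries.single ((e : ℤ) * 1) ζ *
        HahnSeries.single ((N : ℤ) * (-1)) (1 : R) = HahnSeries.single ((e : ℤ) - N) (c * ζ) := by
      have e1 : (0 : ℤ) + (e : ℤ) * 1 + (N : ℤ) * (-1) = (e : ℤ) - N := by ring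
      rw [HahnSeries.single_mul_single, HahnSeries.single_mul_single, e1, mul_one]
    rw [← hs]
    ring

/-- **Leading term of `unitInvSer`**: `unitInvSer = (c ζi) t^(N - e) (1 + ⋯)`. -/
theorem unitInvSer_eq_single_mul (c ζ ζi : R) (e N : ℕ) [NeZero e] [NeZero N] :
    ∃ U : PowerSeries R, PowerSeries.constantCoeff U = 1 ∧
      unitInvSer R c ζ ζi e N =
        HahnSeries.single ((N : ℤ) - e) (c * ζi) * HahnSeries.ofPowerSeries ℤ R U := by
  refine ⟨expandPS e (PowerSeries.rescale ζ (dedekindEtaUnitInv.map (Int.castRingHom R))) *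
    expandPS N (dedekindEtaUnit.map (Int.castRingHom R)), ?_, ?_⟩
  · rw [map_mul, constantCoeff_expandPS, constantCoeff_expandPS, constantCoeff_rescale_etaUnitInv,
      ← PowerSeries.coeff_zero_eq_constantCoeff, PowerSeries.coeff_map,
      PowerSeries.coeff_zero_eq_constantCoeff, constantCoeff_dedekindEtaUnit]
    simp
  · rw [unitInvSer, deltaInvTwSer, deltaSer, (qExpand R e).map_mul, (qExpand R N).map_mul,
      qExpand_single, qExpand_single, qExpand_ofPowerSeries, qExpand_ofPowerSeries,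
      HahnSeries.C_apply, (HahnSeries.ofPowerSeries ℤ R).map_mul]
    have hs : HahnSeries.single (0 : ℤ) c * HahnSeries.single ((e : ℤ) * (-1)) ζi *
        HahnSeries.single ((N : ℤ) * 1) (1 : R) = HahnSeries.single ((N : ℤ) - e) (c * ζi) := by
      have e1 : (0 : ℤ) + (e : ℤ) * (-1) + (N : ℤ) * 1 = (N : ℤ) - e := by ring
      rw [HahnSeries.single_mul_single, HahnSeries.single_mul_single, e1, mul_one]
    rw [← hs]
    ring

theorem coeff_single_mul_ofPowerSeries_of_lt (m : ℤ) (a : R) (U : PowerSeries R) {k : ℤ}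
    (hk : k < m) : (HahnSeries.single m a * HahnSeries.ofPowerSeries ℤ R U).coeff k = 0 := by
  rw [HahnSeries.coeff_single_mul, ofPowerSeries_coeff_of_neg _ (by omega), mul_zero]

theorem coeff_single_mul_ofPowerSeries_self (m : ℤ) (a : R) (U : PowerSeries R) :
    (HahnSeries.single m a * HahnSeries.ofPowerSeries ℤ R U).coeff m =
      a * PowerSeries.constantCoeff U := by
  rw [HahnSeries.coeff_single_mul, sub_self]
  have := HahnSeries.ofPowerSeries_apply_coeff (Γ := ℤ) U 0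
  rw [Nat.cast_zero] at this
  rw [this, PowerSeries.coeff_zero_eq_constantCoeff]

theorem coeff_unitSer_of_lt (c ζ : R) (e N : ℕ) [NeZero e] [NeZero N] {k : ℤ}
    (hk : k < (e : ℤ) - N) : (unitSer R c ζ e N).coeff k = 0 := by
  obtain ⟨U, -, hU⟩ := unitSer_eq_single_mul c ζ e N
  rw [hU, coeff_single_mul_ofPowerSeries_of_lt _ _ _ hk]

theorem coeff_unitSer_top (c ζ : R) (e N : ℕ) [NeZero e] [NeZero N] :
    (unitSer R c ζ e N).coeff ((e : ℤ) - N) = c * ζ := by
  obtain ⟨U, hU1, hU⟩ := unitSer_eq_single_mul c ζ e N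
  rw [hU, coeff_single_mul_ofPowerSeries_self, hU1, mul_one]

theorem coeff_unitInvSer_of_lt (c ζ ζi : R) (e N : ℕ) [NeZero e] [NeZero N] {k : ℤ}
    (hk : k < (N : ℤ) - e) : (unitInvSer R c ζ ζi e N).coeff k = 0 := by
  obtain ⟨U, -, hU⟩ := unitInvSer_eq_single_mul c ζ ζi e N
  rw [hU, coeff_single_mul_ofPowerSeries_of_lt _ _ _ hk]

theorem coeff_unitInvSer_top (c ζ ζi : R) (e N : ℕ) [NeZero e] [NeZero N] :
    (unitInvSer R c ζ ζi e N).coeff ((N : ℤ) - e) = c * ζi := by
  obtain ⟨U, hU1, hU⟩ := unitInvSer_eq_single_mul c ζ ζi e N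
  rw [hU, coeff_single_mul_ofPowerSeries_self, hU1, mul_one]

theorem order_unitSer {c ζ : R} (h : c * ζ ≠ 0) (e N : ℕ) [NeZero e] [NeZero N] :
    (unitSer R c ζ e N).order = (e : ℤ) - N := by
  have h1 : (unitSer R c ζ e N).coeff ((e : ℤ) - N) ≠ 0 := by rwa [coeff_unitSer_top]
  refine le_antisymm (HahnSeries.order_le_of_coeff_ne_zero h1) ?_
  by_contra hlt
  rw [not_le] at hlt
  exact HahnSeries.ne_zero_of_coeff_ne_zero h1
    (HahnSeries.coeff_order_eq_zero.mp (coeff_unitSer_of_lt c ζ e N hlt))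

theorem order_unitInvSer {c ζi : R} (ζ : R) (h : c * ζi ≠ 0) (e N : ℕ) [NeZero e] [NeZero N] :
    (unitInvSer R c ζ ζi e N).order = (N : ℤ) - e := by
  have h1 : (unitInvSer R c ζ ζi e N).coeff ((N : ℤ) - e) ≠ 0 := by rwa [coeff_unitInvSer_top]
  refine le_antisymm (HahnSeries.order_le_of_coeff_ne_zero h1) ?_
  by_contra hlt
  rw [not_le] at hlt
  exact HahnSeries.ne_zero_of_coeff_ne_zero h1
    (HahnSeries.coeff_order_eq_zero.mp (coeff_unitInvSer_of_lt c ζ ζi e N hlt))

end formal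

/-! ### The functions -/

/-- `Δ` as an element of `HolH`. -/
def deltaH : HolH := ⟨Δ, mdifferentiable_discriminant⟩

/-- `1 / Δ` as an element of `HolH`. -/
def deltaInvH : HolH := ⟨fun τ => (Δ τ)⁻¹, by
  rw [mem_HolH, UpperHalfPlane.mdifferentiable_iff]
  have hΔ := UpperHalfPlane.mdifferentiable_iff.mp mdifferentiable_discriminant
  have : (fun τ : ℍ => (Δ τ)⁻¹) ∘ ofComplex = fun w => ((Δ ∘ ofComplex) w)⁻¹ := rfl
  rw [this]
  exact hΔ.inv fun w _ => ModularForm.discriminant_ne_zero _⟩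

@[simp] theorem deltaH_apply (τ : ℍ) : (deltaH : ℍ → ℂ) τ = Δ τ := rfl

@[simp] theorem deltaInvH_apply (τ : ℍ) : (deltaInvH : ℍ → ℂ) τ = (Δ τ)⁻¹ := rfl

theorem deltaH_mul_deltaInvH : deltaH * deltaInvH = 1 := by
  ext τ
  show Δ τ * (Δ τ)⁻¹ = 1
  exact mul_inv_cancel₀ (ModularForm.discriminant_ne_zero τ)

variable {d : ℕ} [NeZero d]

/-- `W_β(τ) = D⁻¹² Δ((Aτ+B)/D) / Δ(τ)`. -/
def unitW (β : CosetRep d) : HolH :=
  algebraMap ℂ HolH (((β.d : ℂ) ^ 12)⁻¹) * compGL β.glPos deltaH * deltaInvH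

/-- `1 / W_β`. -/
def unitWInv (β : CosetRep d) : HolH :=
  algebraMap ℂ HolH ((β.d : ℂ) ^ 12) * deltaH * compGL β.glPos deltaInvH

theorem unitW_apply (β : CosetRep d) (τ : ℍ) :
    (unitW β : ℍ → ℂ) τ = ((β.d : ℂ) ^ 12)⁻¹ * Δ (β.glPos • τ) / Δ τ := by
  show ((β.d : ℂ) ^ 12)⁻¹ * Δ (β.glPos • τ) * (Δ τ)⁻¹ = _
  rw [div_eq_mul_inv]

theorem unitWInv_apply (β : CosetRep d) (τ : ℍ) :
    (unitWInv β : ℍ → ℂ) τ = (β.d : ℂ) ^ 12 * Δ τ / Δ (β.glPos • τ) := by
  show (β.d : ℂ) ^ 12 * Δ τ * (Δ (β.glPos • τ))⁻¹ = _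
  rw [div_eq_mul_inv]

omit [NeZero d] in
theorem natCast_d_ne_zero (β : CosetRep d) : (β.d : ℂ) ≠ 0 := by
  exact_mod_cast β.d_pos.ne'

theorem unitW_mul_unitWInv (β : CosetRep d) : unitW β * unitWInv β = 1 := by
  ext τ
  show (unitW β : ℍ → ℂ) τ * (unitWInv β : ℍ → ℂ) τ = 1
  rw [unitW_apply, unitWInv_apply]
  have h1 := ModularForm.discriminant_ne_zero τ
  have h2 := ModularForm.discriminant_ne_zero (β.glPos • τ)
  have h3 := natCast_d_ne_zero β
  field_simp

theorem unitWInv_mul_unitW (β : CosetRep d) : unitWInv β * unitW β = 1 := by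
  rw [mul_comm, unitW_mul_unitWInv]

theorem unitW_ne_zero (β : CosetRep d) : unitW β ≠ 0 := by
  intro h
  have := unitW_mul_unitWInv β
  rw [h, zero_mul] at this
  exact zero_ne_one this

/-- The key cocycle identity: `Δ(β γ τ) / Δ(γ τ) = (D / D')¹² Δ(β' τ) / Δ(τ)`. -/
theorem discriminant_glPos_smul_smul (β : CosetRep d) (γ : SL(2, ℤ)) (τ : ℍ) :
    Δ (β.glPos • (γ • τ)) * (((β.act γ).d : ℂ) ^ 12 * Δ τ) =
      (β.d : ℂ) ^ 12 * Δ ((β.act γ).glPos • τ) * Δ (γ • τ) := by
  set β' := β.act γ with hβ'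
  set γ' := β.cofactor γ with hγ'
  have hsm : β.glPos • (γ • τ) = γ' • (β'.glPos • τ) := by
    rw [← slToGLPos_smul γ τ, ← mul_smul, CosetRep.glPos_mul, mul_smul, slToGLPos_smul]
  have h1 : Δ (γ' • (β'.glPos • τ)) = denom γ' ((β'.glPos • τ : ℍ) : ℂ) ^ (12 : ℤ) * Δ (β'.glPos • τ) :=
    modForm_smul_SL CuspForm.discriminant γ' _
  have h2 : Δ (γ • τ) = denom γ τ ^ (12 : ℤ) * Δ τ :=
    modForm_smul_SL CuspForm.discriminant γ τ
  -- the matrix identity
  have hM := β.toMatrix_mul γ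
  have h10 := congrFun (congrFun hM 1) 0
  have h11 := congrFun (congrFun hM 1) 1
  simp only [Matrix.mul_apply, Fin.sum_univ_two, CosetRep.toMatrix_zero_zero,
    CosetRep.toMatrix_zero_one, CosetRep.toMatrix_one_zero, CosetRep.toMatrix_one_one, mul_zero,
    add_zero, zero_mul, zero_add] at h10 h11
  have hD' : ((β'.d : ℕ) : ℂ) ≠ 0 := natCast_d_ne_zero β'
  -- the denominators
  have hden : denom γ' ((β'.glPos • τ : ℍ) : ℂ) * (β'.d : ℂ) = (β.d : ℂ) * denom γ τ := by
    rw [ModularGroup.denom_apply, ModularGroup.denom_apply, CosetRep.coe_glPos_smul]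
    have e10 : ((β.d : ℤ) : ℂ) * ((γ 1 0 : ℤ) : ℂ) = ((γ' 1 0 : ℤ) : ℂ) * ((β'.a : ℤ) : ℂ) := by
      exact_mod_cast congrArg (Int.cast : ℤ → ℂ) h10
    have e11 : ((β.d : ℤ) : ℂ) * ((γ 1 1 : ℤ) : ℂ) =
        ((γ' 1 0 : ℤ) : ℂ) * ((β'.b : ℤ) : ℂ) + ((γ' 1 1 : ℤ) : ℂ) * ((β'.d : ℤ) : ℂ) := by
      exact_mod_cast congrArg (Int.cast : ℤ → ℂ) h11
    push_cast at e10 e11 ⊢
    field_simp
    linear_combination (-(τ : ℂ)) * e10 - e11
  rw [hsm, h1, h2, zpow_ofNat, zpow_ofNat]
  have hden12 : denom γ' ((β'.glPos • τ : ℍ) : ℂ) ^ 12 * (β'.d : ℂ) ^ 12 =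
      (β.d : ℂ) ^ 12 * denom γ τ ^ 12 := by
    rw [← mul_pow, ← mul_pow, hden]
  linear_combination (Δ (β'.glPos • τ) * Δ τ) * hden12

theorem compSL_unitW (γ : SL(2, ℤ)) (β : CosetRep d) :
    compSL γ (unitW β) = unitW (β.act γ) := by
  ext τ
  rw [compSL_apply, unitW_apply, unitW_apply]
  have h := discriminant_glPos_smul_smul β γ τ
  have h1 := ModularForm.discriminant_ne_zero τ
  have h2 := ModularForm.discriminant_ne_zero (γ • τ)
  have h3 := natCast_d_ne_zero β
  have h4 := natCast_d_ne_zero (β.act γ)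
  field_simp
  linear_combination h

theorem compSL_unitWInv (γ : SL(2, ℤ)) (β : CosetRep d) :
    compSL γ (unitWInv β) = unitWInv (β.act γ) := by
  have h1 : compSL γ (unitW β) * compSL γ (unitWInv β) = 1 := by
    rw [← map_mul, unitW_mul_unitWInv, map_one]
  rw [compSL_unitW] at h1
  calc compSL γ (unitWInv β) = (unitWInv (β.act γ) * unitW (β.act γ)) * compSL γ (unitWInv β) := by
        rw [unitWInv_mul_unitW, one_mul]
    _ = unitWInv (β.act γ) * (unitW (β.act γ) * compSL γ (unitWInv β)) := by ring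
    _ = unitWInv (β.act γ) := by rw [h1, mul_one]

/-! ### Expansions -/

section expansions

open ModularCurve

theorem isMerInf_discriminant_one : IsMerInf 1 (Δ : ℍ → ℂ) :=
  IsMerInf.of_isHolInf isHolInf_discriminant

theorem expandFun_discriminant_one : expandFun 1 (Δ : ℍ → ℂ) = deltaSer ℂ := by
  rw [expandFun_of_isHolInf one_pos isHolInf_discriminant, qExpansion_discriminant,
    (HahnSeries.ofPowerSeries ℤ ℂ).map_mul, HahnSeries.ofPowerSeries_X, deltaSer]

theorem twistSeries_deltaSer {ζ : ℂ} (hζ : ζ ≠ 0) : twistSeries ζ (deltaSer ℂ) = deltaTwSer ℂ ζ := by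
  ext k
  rw [twistSeries_coeff, deltaSer, deltaTwSer, HahnSeries.coeff_single_mul,
    HahnSeries.coeff_single_mul, one_mul, ofPowerSeries_coeff_int, ofPowerSeries_coeff_int]
  split_ifs with hk
  · obtain ⟨n, hn⟩ := Int.eq_ofNat_of_zero_le hk
    rw [hn, Int.toNat_natCast, PowerSeries.coeff_rescale]
    have hk' : k = (n : ℤ) + 1 := by omega
    rw [hk', zpow_add_one₀ hζ, zpow_natCast]
    ring
  · rw [mul_zero, mul_zero]

theorem twistSeries_deltaInvSer {ζ : ℂ} (hζ : ζ ≠ 0) :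
    twistSeries ζ (deltaInvSer ℂ) = deltaInvTwSer ℂ ζ ζ⁻¹ := by
  ext k
  rw [twistSeries_coeff, deltaInvSer, deltaInvTwSer, HahnSeries.coeff_single_mul,
    HahnSeries.coeff_single_mul, one_mul, ofPowerSeries_coeff_int, ofPowerSeries_coeff_int]
  split_ifs with hk
  · obtain ⟨n, hn⟩ := Int.eq_ofNat_of_zero_le hk
    rw [hn, Int.toNat_natCast, PowerSeries.coeff_rescale]
    have hk' : k = (n : ℤ) - 1 := by omega
    rw [hk', zpow_sub_one₀ hζ, zpow_natCast]
    ring
  · rw [mul_zero, mul_zero]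

variable {d : ℕ} [NeZero d] {N : ℕ} [NeZero N]

/-- `Δ` as a function of period `N`. -/
theorem isMerInf_discriminant : IsMerInf N (Δ : ℍ → ℂ) := by
  have hN : 0 < N := Nat.pos_of_ne_zero (NeZero.ne N)
  have h := (expandFun_comp_affine (f := (Δ : ℍ → ℂ)) (a := 1) (d := 1) (N := N) (e := N) (b := 0)
    (σ := id) isMerInf_discriminant_one one_pos hN (by ring) hN (fun τ => by simp)).1
  rwa [Function.comp_id] at h

theorem expandFun_discriminant : expandFun N (Δ : ℍ → ℂ) = qExpand ℂ N (deltaSer ℂ) := by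
  have hN : 0 < N := Nat.pos_of_ne_zero (NeZero.ne N)
  have h := expandFun_comp_affine_eq (f := (Δ : ℍ → ℂ)) (a := 1) (d := 1) (N := N) (e := N)
    (b := 0) (σ := id) isMerInf_discriminant_one one_pos hN (by ring) (fun τ => by simp)
  rw [Function.comp_id, zetaOf_zero, twistSeries_one, expandFun_discriminant_one] at h
  exact h

theorem coe_compGL_deltaH (β : CosetRep d) :
    (compGL β.glPos deltaH : ℍ → ℂ) = (Δ : ℍ → ℂ) ∘ (fun τ => β.glPos • τ) := rfl

theorem isMerInf_compGL_deltaH (h : d ∣ N) (β : CosetRep d) :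
    IsMerInf N (compGL β.glPos deltaH : ℍ → ℂ) := by
  rw [coe_compGL_deltaH]
  exact (expandFun_comp_affine isMerInf_discriminant_one β.d_pos
    (Nat.pos_of_ne_zero (NeZero.ne N)) (β.expo_mul h) (β.expo_pos h)
    (fun τ => by rw [CosetRep.coe_glPos_smul])).1

theorem expandFun_compGL_deltaH (h : d ∣ N) (β : CosetRep d) :
    haveI : NeZero (β.expo N) := ⟨(β.expo_pos h).ne'⟩
    expandFun N (compGL β.glPos deltaH : ℍ → ℂ) =
      qExpand ℂ (β.expo N) (deltaTwSer ℂ (zetaOf β.b β.d)) := by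
  haveI : NeZero (β.expo N) := ⟨(β.expo_pos h).ne'⟩
  rw [coe_compGL_deltaH, expandFun_comp_affine_eq isMerInf_discriminant_one β.d_pos
    (Nat.pos_of_ne_zero (NeZero.ne N)) (β.expo_mul h) (fun τ => by rw [CosetRep.coe_glPos_smul]),
    expandFun_discriminant_one, twistSeries_deltaSer (zetaOf_ne_zero _ _)]


theorem coe_unitW_mul (β : CosetRep d) :
    (unitW β : ℍ → ℂ) * ((fun _ => (β.d : ℂ) ^ 12) * (Δ : ℍ → ℂ)) =
      (compGL β.glPos deltaH : ℍ → ℂ) := by
  funext τ
  simp only [Pi.mul_apply]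
  rw [unitW_apply, compGL_apply, deltaH_apply]
  have h1 := ModularForm.discriminant_ne_zero τ
  have h3 := natCast_d_ne_zero β
  field_simp

theorem coe_unitWInv_mul (β : CosetRep d) :
    (unitWInv β : ℍ → ℂ) * (compGL β.glPos deltaH : ℍ → ℂ) =
      (fun _ => (β.d : ℂ) ^ 12) * (Δ : ℍ → ℂ) := by
  funext τ
  simp only [Pi.mul_apply]
  rw [unitWInv_apply, compGL_apply, deltaH_apply]
  have h2 := ModularForm.discriminant_ne_zero (β.glPos • τ)
  field_simp

omit [NeZero d] in
theorem const_mul_discriminant_ne_zero (β : CosetRep d) :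
    ((fun _ => (β.d : ℂ) ^ 12) * (Δ : ℍ → ℂ) : ℍ → ℂ) ≠ 0 := by
  intro h0
  have := congrFun h0 UpperHalfPlane.I
  simp only [Pi.mul_apply, Pi.zero_apply] at this
  exact mul_ne_zero (pow_ne_zero 12 (natCast_d_ne_zero β))
    (ModularForm.discriminant_ne_zero _) this

theorem coe_compGL_deltaH_ne_zero (β : CosetRep d) :
    (compGL β.glPos deltaH : ℍ → ℂ) ≠ 0 := by
  intro h0
  have := congrFun h0 UpperHalfPlane.I
  rw [compGL_apply, deltaH_apply] at this
  exact ModularForm.discriminant_ne_zero _ this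

omit [NeZero d] in
theorem isMerInf_const_mul_discriminant (β : CosetRep d) :
    IsMerInf N ((fun _ => (β.d : ℂ) ^ 12) * (Δ : ℍ → ℂ)) :=
  (IsMerInf.const _ _).mul isMerInf_discriminant

omit [NeZero d] in
theorem expandFun_const_mul_discriminant (β : CosetRep d) :
    expandFun N ((fun _ => (β.d : ℂ) ^ 12) * (Δ : ℍ → ℂ)) =
      HahnSeries.C ((β.d : ℂ) ^ 12) * qExpand ℂ N (deltaSer ℂ) := by
  have hN' : (0 : ℝ) < N := by exact_mod_cast Nat.pos_of_ne_zero (NeZero.ne N)
  rw [expandFun_mul hN' (IsMerInf.const _ _) isMerInf_discriminant, expandFun_const hN',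
    expandFun_discriminant]

theorem isMerInf_unitW (h : d ∣ N) (β : CosetRep d) : IsMerInf N (unitW β : ℍ → ℂ) :=
  IsMerInf.of_mul_eq (Nat.pos_of_ne_zero (NeZero.ne N)) (unitW β).2 (isMerInf_compGL_deltaH h β)
    (isMerInf_const_mul_discriminant β) (const_mul_discriminant_ne_zero β) (coe_unitW_mul β)

theorem isMerInf_unitWInv (h : d ∣ N) (β : CosetRep d) : IsMerInf N (unitWInv β : ℍ → ℂ) :=
  IsMerInf.of_mul_eq (Nat.pos_of_ne_zero (NeZero.ne N)) (unitWInv β).2
    (isMerInf_const_mul_discriminant β) (isMerInf_compGL_deltaH h β)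
    (coe_compGL_deltaH_ne_zero β) (coe_unitWInv_mul β)

/-- **The expansion of `W_β` at `i∞`** in `t = exp (2 π i τ / N)`. -/
theorem expandFun_unitW (h : d ∣ N) (β : CosetRep d) :
    haveI : NeZero (β.expo N) := ⟨(β.expo_pos h).ne'⟩
    expandFun N (unitW β : ℍ → ℂ) =
      unitSer ℂ (((β.d : ℂ) ^ 12)⁻¹) (zetaOf β.b β.d) (β.expo N) N := by
  haveI : NeZero (β.expo N) := ⟨(β.expo_pos h).ne'⟩
  have hN' : (0 : ℝ) < N := by exact_mod_cast Nat.pos_of_ne_zero (NeZero.ne N)
  have key := expandFun_mul hN' (isMerInf_unitW h β) (isMerInf_const_mul_discriminant (N := N) β)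
  rw [coe_unitW_mul, expandFun_compGL_deltaH h β, expandFun_const_mul_discriminant] at key
  rw [unitSer, key]
  have hD : ((β.d : ℂ) ^ 12) ≠ 0 := pow_ne_zero 12 (natCast_d_ne_zero β)
  calc expandFun N (unitW β : ℍ → ℂ)
      = expandFun N (unitW β : ℍ → ℂ) *
          (HahnSeries.C (((β.d : ℂ) ^ 12)⁻¹) * HahnSeries.C ((β.d : ℂ) ^ 12)) *
          (qExpand ℂ N (deltaSer ℂ) * qExpand ℂ N (deltaInvSer ℂ)) := by
        rw [← map_mul, ← map_mul, inv_mul_cancel₀ hD, deltaSer_mul_deltaInvSer, map_one, map_one,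
          mul_one, mul_one]
    _ = _ := by ring

/-- **The expansion of `1 / W_β` at `i∞`** in `t = exp (2 π i τ / N)`. -/
theorem expandFun_unitWInv (h : d ∣ N) (β : CosetRep d) :
    haveI : NeZero (β.expo N) := ⟨(β.expo_pos h).ne'⟩
    expandFun N (unitWInv β : ℍ → ℂ) =
      unitInvSer ℂ ((β.d : ℂ) ^ 12) (zetaOf β.b β.d) (zetaOf β.b β.d)⁻¹ (β.expo N) N := by
  haveI : NeZero (β.expo N) := ⟨(β.expo_pos h).ne'⟩
  have hN' : (0 : ℝ) < N := by exact_mod_cast Nat.pos_of_ne_zero (NeZero.ne N)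
  have key := expandFun_mul hN' (isMerInf_unitWInv h β) (isMerInf_compGL_deltaH h β)
  rw [coe_unitWInv_mul, expandFun_compGL_deltaH h β, expandFun_const_mul_discriminant] at key
  rw [unitInvSer, mul_right_comm, key]
  have hζ : zetaOf β.b β.d * (zetaOf β.b β.d)⁻¹ = 1 := mul_inv_cancel₀ (zetaOf_ne_zero _ _)
  calc expandFun N (unitWInv β : ℍ → ℂ)
      = expandFun N (unitWInv β : ℍ → ℂ) *
          (qExpand ℂ (β.expo N) (deltaTwSer ℂ (zetaOf β.b β.d)) *
            qExpand ℂ (β.expo N) (deltaInvTwSer ℂ (zetaOf β.b β.d) (zetaOf β.b β.d)⁻¹)) := by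
        rw [← map_mul, deltaTwSer_mul_deltaInvTwSer ℂ hζ, map_one, mul_one]
    _ = _ := by ring

end expansions

/-! ### The families indexed by `CosetRep N` -/

section families

variable {d : ℕ} [NeZero d] {N : ℕ} [NeZero N]

/-- `u_{d,α} = W_{α_d}`, `α_d = (base d).act α.toSL`. -/
def uFam (N : ℕ) [NeZero N] (d : ℕ) [NeZero d] (α : CosetRep N) : HolH :=
  unitW ((CosetRep.base d).act α.toSL)

/-- `1 / u_{d,α}`. -/
def uFamInv (N : ℕ) [NeZero N] (d : ℕ) [NeZero d] (α : CosetRep N) : HolH :=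
  unitWInv ((CosetRep.base d).act α.toSL)

theorem base_act_toSL_actPerm (h : d ∣ N) (γ : SL(2, ℤ)) (α : CosetRep N) :
    ((CosetRep.base d).act α.toSL).act γ = (CosetRep.base d).act (CosetRep.actPerm γ α).toSL := by
  rw [← CosetRep.act_mul]
  apply base_act_eq_of_dvd h
  rw [CosetRep.act_mul, CosetRep.base_act_toSL, CosetRep.base_act_toSL, CosetRep.actPerm_apply]

theorem compSL_uFam (h : d ∣ N) (γ : SL(2, ℤ)) (α : CosetRep N) :
    compSL γ (uFam N d α) = uFam N d (CosetRep.actPerm γ α) := by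
  rw [uFam, uFam, compSL_unitW, base_act_toSL_actPerm h]

theorem compSL_uFamInv (h : d ∣ N) (γ : SL(2, ℤ)) (α : CosetRep N) :
    compSL γ (uFamInv N d α) = uFamInv N d (CosetRep.actPerm γ α) := by
  rw [uFamInv, uFamInv, compSL_unitWInv, base_act_toSL_actPerm h]

theorem uFam_mul_uFamInv (α : CosetRep N) : uFam N d α * uFamInv N d α = 1 :=
  unitW_mul_unitWInv _

theorem uFam_base (h : d ∣ N) : uFam N d (CosetRep.base N) = unitW (CosetRep.base d) := by
  rw [uFam]
  congr 1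
  have h1 : (CosetRep.base N).act (CosetRep.base N).toSL = (CosetRep.base N).act 1 := by
    rw [CosetRep.base_act_toSL, CosetRep.act_one]
  rw [base_act_eq_of_dvd h h1, CosetRep.act_one]

theorem isMerInf_uFam (h : d ∣ N) (α : CosetRep N) : IsMerInf N (uFam N d α : ℍ → ℂ) :=
  isMerInf_unitW h _

theorem isMerInf_uFamInv (h : d ∣ N) (α : CosetRep N) : IsMerInf N (uFamInv N d α : ℍ → ℂ) :=
  isMerInf_unitWInv h _

end families

end Fermat.Agent.Igusa
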