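import Mathlib
import Fermat.Prelude.Def_GaloisRep_Flat
import Fermat.Agent.X0.Ana.QExpSubst
import Fermat.Agent.X0.Ana.QExpJSubst
import Fermat.Agent.X0.Mod.ModularPoly

/-!
# Project S28 (Igusa): the coefficient ring `OInt ℓ` and its residue field

`OInt ℓ` is the ring of complex numbers integral over `ℤ_(ℓ) = GaloisRep.ratLocalizedAt ℓ`;
`mId ℓ` a maximal ideal of it containing `ℓ`, `kRes ℓ` the residue field, `piRes ℓ` the projection.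
-/

set_option autoImplicit false

noncomputable section

namespace Fermat.Agent.Igusa

open Polynomial

/-! ### `ℤ_(ℓ)` is a valuation ring of `ℚ` -/

theorem mem_ratLocalizedAt_iff {ℓ : ℕ} {q : ℚ} :
    q ∈ GaloisRep.ratLocalizedAt ℓ ↔ q.den.Coprime ℓ := Iff.rfl

theorem mem_or_inv_mem_ratLocalizedAt {ℓ : ℕ} (hℓ : ℓ.Prime) (q : ℚ) :
    q ∈ GaloisRep.ratLocalizedAt ℓ ∨ q⁻¹ ∈ GaloisRep.ratLocalizedAt ℓ := by
  by_cases h : q.den.Coprime ℓ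
  · exact Or.inl h
  · right
    rw [mem_ratLocalizedAt_iff]
    have hdvd : ℓ ∣ q.den := by
      by_contra hnd
      exact h ((Nat.Prime.coprime_iff_not_dvd hℓ).mpr hnd).symm
    have hq : q ≠ 0 := by
      rintro rfl
      simp at h
    rw [Rat.den_inv_of_ne_zero hq]
    refine (Nat.Prime.coprime_iff_not_dvd hℓ).mpr (fun hnum => ?_) |>.symm
    have hcop : q.num.natAbs.Coprime q.den := q.reduced
    exact hℓ.one_lt.ne' (Nat.eq_one_of_dvd_coprimes hcop hnum hdvd)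

/-- `ℤ_(ℓ)` as a valuation subring of `ℚ`. -/
def ZlVal (ℓ : ℕ) [Fact ℓ.Prime] : ValuationSubring ℚ :=
  { GaloisRep.ratLocalizedAt ℓ with
    mem_or_inv_mem' := mem_or_inv_mem_ratLocalizedAt (Fact.out : ℓ.Prime) }

theorem ZlVal_toSubring (ℓ : ℕ) [Fact ℓ.Prime] :
    (ZlVal ℓ).toSubring = GaloisRep.ratLocalizedAt ℓ := rfl

instance isIntegrallyClosed_ratLocalizedAt (ℓ : ℕ) [Fact ℓ.Prime] :
    IsIntegrallyClosed ↥(GaloisRep.ratLocalizedAt ℓ) :=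
  inferInstanceAs (IsIntegrallyClosed (ZlVal ℓ).toSubring)

instance isFractionRing_ratLocalizedAt (ℓ : ℕ) [Fact ℓ.Prime] :
    IsFractionRing ↥(GaloisRep.ratLocalizedAt ℓ) ℚ :=
  inferInstanceAs (IsFractionRing (ZlVal ℓ) ℚ)

theorem natCast_mem_ratLocalizedAt (ℓ : ℕ) (m : ℕ) : (m : ℚ) ∈ GaloisRep.ratLocalizedAt ℓ :=
  natCast_mem _ m

theorem inv_natCast_mem_ratLocalizedAt {ℓ : ℕ} (hℓ : ℓ.Prime) {m : ℕ} (hm : ¬ ℓ ∣ m) :
    ((m : ℚ))⁻¹ ∈ GaloisRep.ratLocalizedAt ℓ := by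
  rw [mem_ratLocalizedAt_iff, Rat.inv_natCast_den]
  split_ifs
  · simp
  · exact ((Nat.Prime.coprime_iff_not_dvd hℓ).mpr hm).symm

theorem inv_prime_notMem_ratLocalizedAt {ℓ : ℕ} (hℓ : ℓ.Prime) :
    ((ℓ : ℚ))⁻¹ ∉ GaloisRep.ratLocalizedAt ℓ := by
  rw [mem_ratLocalizedAt_iff, Rat.inv_natCast_den, if_neg hℓ.ne_zero, Nat.coprime_self]
  exact hℓ.one_lt.ne'

variable (ℓ : ℕ)

/-- The subring `ℤ_(ℓ)` of `ℂ`. -/
def ZlC : Subring ℂ := (GaloisRep.ratLocalizedAt ℓ).map (algebraMap ℚ ℂ)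

/-- The ring of complex numbers integral over `ℤ_(ℓ)`. -/
def OInt : Subring ℂ := (integralClosure (ZlC ℓ) ℂ).toSubring

theorem mem_OInt_iff {z : ℂ} : z ∈ OInt ℓ ↔ IsIntegral (ZlC ℓ) z := Iff.rfl

theorem ZlC_le_OInt : ZlC ℓ ≤ OInt ℓ := fun z hz =>
  (mem_OInt_iff ℓ).mpr (isIntegral_algebraMap (R := ZlC ℓ) (x := ⟨z, hz⟩))

theorem ratCast_mem_ZlC_iff {q : ℚ} : (q : ℂ) ∈ ZlC ℓ ↔ q ∈ GaloisRep.ratLocalizedAt ℓ := by
  constructor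
  · rintro ⟨r, hr, hrq⟩
    have : r = q := by
      have h : ((r : ℚ) : ℂ) = (q : ℂ) := by simpa using hrq
      exact_mod_cast h
    exact this ▸ hr
  · intro hq
    exact ⟨q, hq, by simp⟩

theorem ratCast_mem_OInt {q : ℚ} (hq : q ∈ GaloisRep.ratLocalizedAt ℓ) : (q : ℂ) ∈ OInt ℓ :=
  ZlC_le_OInt ℓ ((ratCast_mem_ZlC_iff ℓ).mpr hq)

theorem intCast_mem_OInt (m : ℤ) : (m : ℂ) ∈ OInt ℓ := intCast_mem _ m

theorem natCast_mem_OInt (m : ℕ) : (m : ℂ) ∈ OInt ℓ := natCast_mem _ m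

theorem inv_natCast_mem_OInt {ℓ : ℕ} (hℓ : ℓ.Prime) {m : ℕ} (hm : ¬ ℓ ∣ m) :
    ((m : ℂ))⁻¹ ∈ OInt ℓ := by
  have := ratCast_mem_OInt ℓ (inv_natCast_mem_ratLocalizedAt hℓ hm)
  simpa using this

/-- Roots of unity lie in `OInt ℓ`. -/
theorem zetaOf_mem_OInt (b : ℤ) {d : ℕ} (hd : 0 < d) : X0.zetaOf b d ∈ OInt ℓ := by
  rw [mem_OInt_iff]
  refine ⟨X ^ d - 1, monic_X_pow_sub_C 1 hd.ne', ?_⟩
  simp [X0.zetaOf_pow b hd]

/-- A rational number in `OInt ℓ` lies in `ℤ_(ℓ)`. -/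
theorem ratCast_mem_OInt_iff [Fact ℓ.Prime] {q : ℚ} :
    (q : ℂ) ∈ OInt ℓ ↔ q ∈ GaloisRep.ratLocalizedAt ℓ := by
  refine ⟨fun h => ?_, ratCast_mem_OInt ℓ⟩
  rw [mem_OInt_iff] at h
  -- transport integrality over `ZlC ℓ ⊆ ℂ` to integrality over `ℤ_(ℓ) ⊆ ℚ`
  obtain ⟨p, hp, hpz⟩ := h
  let e : ↥(GaloisRep.ratLocalizedAt ℓ) ≃+* ↥(ZlC ℓ) :=
    (GaloisRep.ratLocalizedAt ℓ).equivMapOfInjective (algebraMap ℚ ℂ) (algebraMap ℚ ℂ).injective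
  have hcomp : (algebraMap ℚ ℂ).comp (algebraMap ↥(GaloisRep.ratLocalizedAt ℓ) ℚ) =
      (algebraMap ↥(ZlC ℓ) ℂ).comp (e : ↥(GaloisRep.ratLocalizedAt ℓ) →+* ↥(ZlC ℓ)) := by
    ext x
    rfl
  have hint : IsIntegral ↥(GaloisRep.ratLocalizedAt ℓ) q := by
    refine ⟨p.map (e.symm : ↥(ZlC ℓ) →+* ↥(GaloisRep.ratLocalizedAt ℓ)), hp.map _, ?_⟩
    apply (algebraMap ℚ ℂ).injective
    rw [map_zero, Polynomial.hom_eval₂, hcomp, Polynomial.eval₂_map]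
    have : ((algebraMap ↥(ZlC ℓ) ℂ).comp (e : ↥(GaloisRep.ratLocalizedAt ℓ) →+* ↥(ZlC ℓ))).comp
        (e.symm : ↥(ZlC ℓ) →+* ↥(GaloisRep.ratLocalizedAt ℓ)) = algebraMap ↥(ZlC ℓ) ℂ := by
      ext x
      simp
    rw [this]
    simpa using hpz
  obtain ⟨y, hy⟩ := (IsIntegrallyClosed.isIntegral_iff (R := ↥(GaloisRep.ratLocalizedAt ℓ))
    (K := ℚ)).mp hint
  rw [← hy]
  exact y.2

/-! ### The residue field -/

theorem prime_not_isUnit_OInt [Fact ℓ.Prime] : ¬ IsUnit ((ℓ : ℕ) : OInt ℓ) := by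
  rintro ⟨u, hu⟩
  have h1 : ((ℓ : ℕ) : OInt ℓ) * (↑u⁻¹ : OInt ℓ) = 1 := by
    rw [← hu]; exact Units.mul_inv u
  have h2 : ((ℓ : ℂ)) * ((↑u⁻¹ : OInt ℓ) : ℂ) = 1 := by
    have := congrArg (Subtype.val : OInt ℓ → ℂ) h1
    simpa using this
  have hℓ : (ℓ : ℂ) ≠ 0 := by exact_mod_cast (Fact.out : ℓ.Prime).ne_zero
  have h3 : ((↑u⁻¹ : OInt ℓ) : ℂ) = (((ℓ : ℚ))⁻¹ : ℚ) := by
    push_cast
    field_simp
    linear_combination h2
  have h4 : ((((ℓ : ℚ))⁻¹ : ℚ) : ℂ) ∈ OInt ℓ := h3 ▸ (↑u⁻¹ : OInt ℓ).2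
  exact inv_prime_notMem_ratLocalizedAt (Fact.out : ℓ.Prime) ((ratCast_mem_OInt_iff ℓ).mp h4)

theorem exists_maximal_OInt [Fact ℓ.Prime] :
    ∃ m : Ideal (OInt ℓ), m.IsMaximal ∧ ((ℓ : ℕ) : OInt ℓ) ∈ m := by
  obtain ⟨m, hm, hle⟩ := Ideal.exists_le_maximal (Ideal.span {((ℓ : ℕ) : OInt ℓ)})
    (by rw [Ne, Ideal.span_singleton_eq_top]; exact prime_not_isUnit_OInt ℓ)
  exact ⟨m, hm, hle (Ideal.subset_span rfl)⟩

/-- A maximal ideal of `OInt ℓ` containing `ℓ`. -/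
def mId [Fact ℓ.Prime] : Ideal (OInt ℓ) := (exists_maximal_OInt ℓ).choose

instance mId_isMaximal [Fact ℓ.Prime] : (mId ℓ).IsMaximal := (exists_maximal_OInt ℓ).choose_spec.1

theorem prime_mem_mId [Fact ℓ.Prime] : ((ℓ : ℕ) : OInt ℓ) ∈ mId ℓ :=
  (exists_maximal_OInt ℓ).choose_spec.2

/-- The residue field `OInt ℓ / mId ℓ`. -/
abbrev kRes [Fact ℓ.Prime] : Type := OInt ℓ ⧸ mId ℓ

instance kRes_field [Fact ℓ.Prime] : Field (kRes ℓ) := Ideal.Quotient.field (mId ℓ)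

/-- The reduction map. -/
def piRes [Fact ℓ.Prime] : OInt ℓ →+* kRes ℓ := Ideal.Quotient.mk (mId ℓ)

theorem piRes_surjective [Fact ℓ.Prime] : Function.Surjective (piRes ℓ) :=
  Ideal.Quotient.mk_surjective

theorem piRes_prime [Fact ℓ.Prime] : ((ℓ : ℕ) : kRes ℓ) = 0 := by
  have : piRes ℓ ((ℓ : ℕ) : OInt ℓ) = 0 := Ideal.Quotient.eq_zero_iff_mem.mpr (prime_mem_mId ℓ)
  simpa using this

instance kRes_charP [Fact ℓ.Prime] : CharP (kRes ℓ) ℓ := by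
  obtain ⟨p, hp⟩ := CharP.exists (kRes ℓ)
  have hdvd : p ∣ ℓ := (CharP.cast_eq_zero_iff (kRes ℓ) p ℓ).mp (piRes_prime ℓ)
  have hp1 : p ≠ 1 := by
    have h := CharP.ringChar_ne_one (R := kRes ℓ)
    rwa [ringChar.eq (kRes ℓ) p] at h
  rcases (Nat.dvd_prime (Fact.out : ℓ.Prime)).mp hdvd with h | h
  · exact absurd h hp1
  · exact h ▸ hp

/-! ### Roots of unity stay distinct in the residue field -/

/-- `zetaOf b d` as an element of `OInt ℓ` (for `d = 0` it is `1` as well, `zetaOf b 0 = 1`). -/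
def zetaO (b : ℤ) (d : ℕ) : OInt ℓ :=
  if hd : 0 < d then ⟨X0.zetaOf b d, zetaOf_mem_OInt ℓ b hd⟩ else 1

theorem coe_zetaO (b : ℤ) {d : ℕ} (hd : 0 < d) : ((zetaO ℓ b d : OInt ℓ) : ℂ) = X0.zetaOf b d := by
  rw [zetaO, dif_pos hd]

theorem zetaOf_add (b c : ℤ) (d : ℕ) : X0.zetaOf (b + c) d = X0.zetaOf b d * X0.zetaOf c d := by
  rw [X0.zetaOf, X0.zetaOf, X0.zetaOf, ← Complex.exp_add]
  congr 1
  push_cast
  ring

theorem zetaO_add (b c : ℤ) (d : ℕ) : zetaO ℓ (b + c) d = zetaO ℓ b d * zetaO ℓ c d := by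
  by_cases hd : 0 < d
  · apply Subtype.ext
    rw [Subring.coe_mul, coe_zetaO ℓ _ hd, coe_zetaO ℓ _ hd, coe_zetaO ℓ _ hd, zetaOf_add]
  · simp [zetaO, hd]

theorem zetaO_pow_self (b : ℤ) {d : ℕ} (hd : 0 < d) : zetaO ℓ b d ^ d = 1 := by
  apply Subtype.ext
  rw [Subring.coe_pow, coe_zetaO ℓ _ hd, X0.zetaOf_pow b hd]
  rfl

theorem piRes_zetaO_ne_one [Fact ℓ.Prime] {d : ℕ} (hd : 0 < d) (hℓd : ¬ ℓ ∣ d) {c : ℕ}
    (hc0 : 0 < c) (hc : c < d) : piRes ℓ (zetaO ℓ c d) ≠ 1 := by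
  intro h
  set x : OInt ℓ := zetaO ℓ c d with hx
  have hxd : x ^ d = 1 := zetaO_pow_self ℓ c hd
  have hx1 : x ≠ 1 := by
    intro h1
    have h2 : X0.zetaOf (c : ℤ) d = X0.zetaOf ((0 : ℕ) : ℤ) d := by
      have := congrArg (Subtype.val : OInt ℓ → ℂ) h1
      rw [hx, coe_zetaO ℓ _ hd] at this
      rw [this]
      simp [X0.zetaOf]
    have := X0.zetaOf_eq_iff_of_lt hc hd h2
    omega
  have hsum : ∑ i ∈ Finset.range d, x ^ i = 0 := by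
    have hmul : (∑ i ∈ Finset.range d, x ^ i) * (x - 1) = 0 := by
      rw [geom_sum_mul, hxd, sub_self]
    rcases mul_eq_zero.mp hmul with h0 | h0
    · exact h0
    · exact absurd (sub_eq_zero.mp h0) hx1
  have hk : ((d : ℕ) : kRes ℓ) = 0 := by
    have := congrArg (piRes ℓ) hsum
    rw [map_sum, map_zero] at this
    simp only [map_pow, h, one_pow, Finset.sum_const, Finset.card_range, nsmul_eq_mul, mul_one] at this
    exact this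
  exact hℓd ((CharP.cast_eq_zero_iff (kRes ℓ) ℓ d).mp hk)

/-- The images of the `d`-th roots of unity in the residue field are pairwise distinct. -/
theorem piRes_zetaO_inj [Fact ℓ.Prime] {d : ℕ} (hd : 0 < d) (hℓd : ¬ ℓ ∣ d) {b b' : ℕ}
    (hb : b < d) (hb' : b' < d)
    (h : piRes ℓ (zetaO ℓ b d) = piRes ℓ (zetaO ℓ b' d)) : b = b' := by
  wlog hle : b' ≤ b generalizing b b'
  · exact (this hb' hb h.symm (by omega)).symm
  by_contra hne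
  have hc0 : 0 < b - b' := by omega
  have hc : b - b' < d := by omega
  have hsplit : zetaO ℓ (b : ℤ) d = zetaO ℓ (b' : ℤ) d * zetaO ℓ ((b - b' : ℕ) : ℤ) d := by
    rw [← zetaO_add]
    congr 1
    omega
  rw [hsplit, map_mul] at h
  have hunit : IsUnit (piRes ℓ (zetaO ℓ (b' : ℤ) d)) := by
    refine IsUnit.of_pow_eq_one (n := d) ?_ hd.ne'
    rw [← map_pow, zetaO_pow_self ℓ _ hd, map_one]
  have h1 : piRes ℓ (zetaO ℓ ((b - b' : ℕ) : ℤ) d) = 1 := by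
    have := hunit.mul_left_cancel (h.trans (mul_one _).symm)
    exact this
  exact piRes_zetaO_ne_one ℓ hd hℓd hc0 hc h1

end Fermat.Agent.Igusa
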