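/-
Igusa/AnaUnitInt: integrality of the Laurent coefficients at `i∞` of `j ∘ α`, `W_β`, `1 / W_β`
(coefficients in any subring of `ℂ` containing the relevant roots of unity and `1 / D`;
in particular in `OInt ℓ` when `ℓ ∤ N`).
-/
import Mathlib
import Fermat.Agent.Igusa.AnaUnit
import Fermat.Agent.Igusa.Defs

set_option autoImplicit false
set_option linter.style.haveILetI false

noncomputable section

namespace Fermat.Agent.Igusa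

open Fermat.Agent.X0 ModularCurve
open UpperHalfPlane hiding I
open scoped MatrixGroups

section general

variable (O : Subring ℂ)

theorem zetaOf_inv_mem_of_mem {b : ℤ} {d : ℕ} (hd : 0 < d) (h : zetaOf b d ∈ O) :
    (zetaOf b d)⁻¹ ∈ O := by
  have h1 : zetaOf b d * zetaOf b d ^ (d - 1) = 1 := by
    rw [← pow_succ', Nat.sub_add_cancel hd, zetaOf_pow b hd]
  have h2 : (zetaOf b d)⁻¹ = zetaOf b d ^ (d - 1) :=
    inv_eq_of_mul_eq_one_right h1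
  rw [h2]
  exact pow_mem h _

theorem zetaOf_zpow_mem_of_mem {b : ℤ} {d : ℕ} (hd : 0 < d) (h : zetaOf b d ∈ O) (k : ℤ) :
    zetaOf b d ^ k ∈ O := by
  rcases le_or_gt 0 k with hk | hk
  · lift k to ℕ using hk
    rw [zpow_natCast]
    exact pow_mem h _
  · obtain ⟨n, rfl⟩ : ∃ n : ℕ, k = -(n : ℤ) := ⟨(-k).toNat, by omega⟩
    rw [zpow_neg, zpow_natCast, ← inv_pow]
    exact pow_mem (zetaOf_inv_mem_of_mem O hd h) _

theorem coeff_unitSer_mem {c ζ : ℂ} (hc : c ∈ O) (hζ : ζ ∈ O) (e N : ℕ) [NeZero e] [NeZero N]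
    (k : ℤ) : (unitSer ℂ c ζ e N).coeff k ∈ O := by
  have h := coeffMap_unitSer O.subtype (⟨c, hc⟩ : O) ⟨ζ, hζ⟩ e N
  have h2 : unitSer ℂ c ζ e N = coeffMap O.subtype (unitSer O ⟨c, hc⟩ ⟨ζ, hζ⟩ e N) := h.symm
  rw [h2, coeffMap_coeff]
  exact Subtype.coe_prop _

theorem coeff_unitInvSer_mem {c ζ ζi : ℂ} (hc : c ∈ O) (hζ : ζ ∈ O) (hζi : ζi ∈ O) (e N : ℕ)
    [NeZero e] [NeZero N] (k : ℤ) : (unitInvSer ℂ c ζ ζi e N).coeff k ∈ O := by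
  have h := coeffMap_unitInvSer O.subtype (⟨c, hc⟩ : O) ⟨ζ, hζ⟩ ⟨ζi, hζi⟩ e N
  have h2 : unitInvSer ℂ c ζ ζi e N =
      coeffMap O.subtype (unitInvSer O ⟨c, hc⟩ ⟨ζ, hζ⟩ ⟨ζi, hζi⟩ e N) := h.symm
  rw [h2, coeffMap_coeff]
  exact Subtype.coe_prop _

theorem coeff_jqModC_mem (k : ℤ) : (jqModC ℂ).coeff k ∈ O := by
  rw [jqModC_eq_map_intCast ℂ, HahnSeries.map_coeff]
  exact intCast_mem O _

variable {d : ℕ} [NeZero d] {N : ℕ} [NeZero N]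

theorem coeff_expandFun_unitW_mem (h : d ∣ N) (β : CosetRep d) (hc : ((β.d : ℂ) ^ 12)⁻¹ ∈ O)
    (hζ : zetaOf β.b β.d ∈ O) (k : ℤ) : (expandFun N (unitW β : ℍ → ℂ)).coeff k ∈ O := by
  haveI : NeZero (β.expo N) := ⟨(β.expo_pos h).ne'⟩
  rw [expandFun_unitW h β]
  exact coeff_unitSer_mem O hc hζ _ _ k

theorem coeff_expandFun_unitWInv_mem (h : d ∣ N) (β : CosetRep d)
    (hζ : zetaOf β.b β.d ∈ O) (k : ℤ) : (expandFun N (unitWInv β : ℍ → ℂ)).coeff k ∈ O := by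
  haveI : NeZero (β.expo N) := ⟨(β.expo_pos h).ne'⟩
  rw [expandFun_unitWInv h β]
  exact coeff_unitInvSer_mem O (pow_mem (natCast_mem O _) 12) hζ
    (zetaOf_inv_mem_of_mem O β.d_pos hζ) _ _ k

theorem coeff_expandFun_jAt_mem (h : d ∣ N) (α : CosetRep d) (hζ : zetaOf α.b α.d ∈ O) (k : ℤ) :
    (expandFun N (jAt α : ℍ → ℂ)).coeff k ∈ O := by
  haveI : NeZero (α.expo N) := ⟨(α.expo_pos h).ne'⟩
  rw [expandFun_jAt h α]
  by_cases hk : ((α.expo N : ℕ) : ℤ) ∣ k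
  · obtain ⟨m, rfl⟩ := hk
    rw [qExpand_coeff_mul, twistSeries_coeff]
    exact mul_mem (zetaOf_zpow_mem_of_mem O α.d_pos hζ m) (coeff_jqModC_mem O m)
  · rw [qExpand_coeff_of_not_dvd _ _ hk]
    exact zero_mem _

theorem coeff_expandFun_jH_mem (k : ℤ) : (expandFun N (jH : ℍ → ℂ)).coeff k ∈ O := by
  rw [expandFun_coe_jH]
  by_cases hk : ((N : ℕ) : ℤ) ∣ k
  · obtain ⟨m, rfl⟩ := hk
    rw [qExpand_coeff_mul]
    exact coeff_jqModC_mem O m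
  · rw [qExpand_coeff_of_not_dvd _ _ hk]
    exact zero_mem _

end general

section OIntCase

variable {ℓ : ℕ} {d : ℕ} [NeZero d] {N : ℕ} [NeZero N]

theorem inv_natCast_pow_mem_OInt (hℓ : ℓ.Prime) {m : ℕ} (hm : ¬ ℓ ∣ m) (n : ℕ) :
    (((m : ℂ)) ^ n)⁻¹ ∈ OInt ℓ := by
  rw [← inv_pow]
  exact pow_mem (inv_natCast_mem_OInt hℓ hm) n

omit [NeZero d] [NeZero N] in
theorem not_dvd_d_of_not_dvd (hℓN : ¬ ℓ ∣ N) (h : d ∣ N) (β : CosetRep d) : ¬ ℓ ∣ β.d :=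
  fun h1 => hℓN (h1.trans (β.d_dvd.trans h))

theorem coeff_expandFun_unitW_mem_OInt (hℓ : ℓ.Prime) (hℓN : ¬ ℓ ∣ N) (h : d ∣ N)
    (β : CosetRep d) (k : ℤ) : (expandFun N (unitW β : ℍ → ℂ)).coeff k ∈ OInt ℓ :=
  coeff_expandFun_unitW_mem (OInt ℓ) h β
    (inv_natCast_pow_mem_OInt hℓ (not_dvd_d_of_not_dvd hℓN h β) 12)
    (zetaOf_mem_OInt ℓ _ β.d_pos) k

theorem coeff_expandFun_unitWInv_mem_OInt (h : d ∣ N) (β : CosetRep d) (k : ℤ) :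
    (expandFun N (unitWInv β : ℍ → ℂ)).coeff k ∈ OInt ℓ :=
  coeff_expandFun_unitWInv_mem (OInt ℓ) h β (zetaOf_mem_OInt ℓ _ β.d_pos) k

theorem coeff_expandFun_jAt_mem_OInt (h : d ∣ N) (α : CosetRep d) (k : ℤ) :
    (expandFun N (jAt α : ℍ → ℂ)).coeff k ∈ OInt ℓ :=
  coeff_expandFun_jAt_mem (OInt ℓ) h α (zetaOf_mem_OInt ℓ _ α.d_pos) k

theorem coeff_expandFun_uFam_mem_OInt (hℓ : ℓ.Prime) (hℓN : ¬ ℓ ∣ N) (h : d ∣ N)
    (α : CosetRep N) (k : ℤ) : (expandFun N (uFam N d α : ℍ → ℂ)).coeff k ∈ OInt ℓ :=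
  coeff_expandFun_unitW_mem_OInt hℓ hℓN h _ k

theorem coeff_expandFun_uFamInv_mem_OInt (h : d ∣ N) (α : CosetRep N) (k : ℤ) :
    (expandFun N (uFamInv N d α : ℍ → ℂ)).coeff k ∈ OInt ℓ :=
  coeff_expandFun_unitWInv_mem_OInt h _ k

end OIntCase

end Fermat.Agent.Igusa
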