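/-
Igusa/IntInv: functions on the upper half plane which are meromorphic at `i∞` (period `N`) with all
expansion coefficients in a subring `O ⊆ ℂ` (`IsIntInf O N f`); the invariant lemma with
`O`-coefficients: an `SL(2, ℤ)`-invariant holomorphic function with `IsIntInf O N` is a polynomial in
`j` with coefficients in `O`; the same for polynomials over `HolH`.
-/
import Mathlib
import Fermat.Agent.X0.Mod.ModularPoly

set_option autoImplicit false
set_option linter.unusedSectionVars false
set_option linter.style.haveILetI false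

noncomputable section

namespace Fermat.Agent.Igusa

open Fermat.Agent.X0
open UpperHalfPlane Function Polynomial ModularCurve
open scoped MatrixGroups Manifold

/-! ### Descent along a ring homomorphism into a field -/

section Descent

variable {K C : Type*} [CommRing K] [Field C]

theorem coeffMap_hahnC (ι : K →+* C) (a : K) :
    coeffMap ι (HahnSeries.C a) = algebraMap C (LaurentSeries C) (ι a) := by
  rw [algebraMap_laurentSeries_eq_single]
  exact coeffMap_single ι 0 a

/-- **Descent, ring version.** `J₀` a Laurent series over the ring `K` with leading term `q^{-m}`;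
if `P(J)` has coefficients in (the image of) `K`, so does `P`. -/
theorem exists_map_eq_of_aeval_mem_range_ring (ι : K →+* C) (J₀ : LaurentSeries K) (m : ℕ)
    (hm : 0 < m) (htop : J₀.coeff (-(m : ℤ)) = 1)
    (hlow : ∀ i : ℤ, i < -(m : ℤ) → J₀.coeff i = 0) (P : Polynomial C)
    (hP : Polynomial.aeval (coeffMap ι J₀) P ∈ (coeffMap ι).range) :
    ∃ P₀ : Polynomial K, P = P₀.map ι := by
  have hJtop : (coeffMap ι J₀).coeff (-(m : ℤ)) = 1 := by
    rw [coeffMap_coeff, htop, map_one]
  have hJlow : ∀ i : ℤ, i < -(m : ℤ) → (coeffMap ι J₀).coeff i = 0 := by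
    intro i hi
    rw [coeffMap_coeff, hlow i hi, map_zero]
  induction hn : P.natDegree using Nat.strong_induction_on generalizing P with
  | _ n ih =>
    obtain ⟨y₀, hy₀⟩ := hP
    set a₀ : K := y₀.coeff (-((m : ℤ) * n)) with ha₀
    have ha : P.leadingCoeff = ι a₀ := by
      rw [ha₀, ← coeffMap_coeff, hy₀, ← hn, coeff_aeval_of_leading hm hJtop hJlow]
    by_cases hn0 : n = 0
    · refine ⟨Polynomial.C a₀, ?_⟩
      rw [Polynomial.map_C, ← ha]
      have h1 := Polynomial.eq_C_of_natDegree_eq_zero (hn0 ▸ hn)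
      rw [Polynomial.leadingCoeff, hn, hn0]
      exact h1
    · have hdeg : P.eraseLead.natDegree < n := by
        rcases Polynomial.eraseLead_natDegree_lt_or_eraseLead_eq_zero P with h | h
        · rwa [hn] at h
        · rw [h, Polynomial.natDegree_zero]
          exact Nat.pos_of_ne_zero hn0
      have hPdec : P = P.eraseLead + Polynomial.monomial n (ι a₀) := by
        rw [← ha, ← hn]
        exact (Polynomial.eraseLead_add_monomial_natDegree_leadingCoeff P).symm
      have hmem : Polynomial.aeval (coeffMap ι J₀) P.eraseLead ∈ (coeffMap ι).range := by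
        refine ⟨y₀ - HahnSeries.C a₀ * J₀ ^ n, ?_⟩
        rw [map_sub, map_mul, map_pow, coeffMap_hahnC, hy₀]
        conv_lhs => rw [hPdec]
        rw [map_add, Polynomial.aeval_monomial]
        ring
      obtain ⟨Q₀, hQ₀⟩ := ih _ hdeg P.eraseLead hmem rfl
      refine ⟨Q₀ + Polynomial.monomial n a₀, ?_⟩
      rw [Polynomial.map_add, Polynomial.map_monomial, ← hQ₀]
      exact hPdec

theorem coeffMap_qExpand_jqModC_ring (ι : K →+* C) (e : ℕ) [NeZero e] :
    coeffMap ι (qExpand K e (jqModC K)) = qExpand C e (jqModC C) := by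
  rw [coeffMap_qExpand]
  congr 1
  exact map_jqModC ι

/-- **Descent for `j(q^e)`, ring version.** -/
theorem exists_map_eq_of_aeval_qExpand_jqModC_mem_range_ring (ι : K →+* C) (e : ℕ) [NeZero e]
    (P : Polynomial C)
    (hP : Polynomial.aeval (qExpand C e (jqModC C)) P ∈ (coeffMap ι).range) :
    ∃ P₀ : Polynomial K, P = P₀.map ι := by
  rw [← coeffMap_qExpand_jqModC_ring ι e] at hP
  exact exists_map_eq_of_aeval_mem_range_ring ι (qExpand K e (jqModC K)) e
    (Nat.pos_of_ne_zero (NeZero.ne e)) (coeff_qExpand_jqModC_top K e)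
    (fun i hi => coeff_qExpand_jqModC_low K e hi) P hP

end Descent

/-! ### The predicate `IsIntInf` -/

/-- `f` is meromorphic at `i∞` of period `N` with all expansion coefficients in the subring `O`. -/
def IsIntInf (O : Subring ℂ) (N : ℕ) (f : ℍ → ℂ) : Prop :=
  IsMerInf N f ∧ ∀ k : ℤ, (expandFun N f).coeff k ∈ O

/-- A Laurent series over `ℂ` all of whose coefficients lie in `O` comes from a series over `O`. -/
theorem mem_range_coeffMap_subtype {O : Subring ℂ} {F : LaurentSeries ℂ}
    (h : ∀ k : ℤ, F.coeff k ∈ O) : F ∈ (coeffMap O.subtype).range := by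
  classical
  have hsupp : Function.support (fun k : ℤ => (⟨F.coeff k, h k⟩ : O)) ⊆ F.support := by
    intro k hk
    rw [Function.mem_support] at hk
    rw [HahnSeries.mem_support]
    exact fun h0 => hk (Subtype.ext h0)
  refine ⟨⟨fun k => ⟨F.coeff k, h k⟩, F.isPWO_support.mono hsupp⟩, ?_⟩
  ext k
  rw [coeffMap_coeff]
  rfl

theorem intInv_coeffMap_subtype_injective (O : Subring ℂ) : Function.Injective (coeffMap O.subtype) := by
  intro x y hxy
  ext k
  have := congrArg (fun F : LaurentSeries ℂ => F.coeff k) hxy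
  simp only [coeffMap_coeff] at this
  exact this

theorem isIntInf_iff {O : Subring ℂ} {N : ℕ} {f : ℍ → ℂ} :
    IsIntInf O N f ↔ IsMerInf N f ∧ expandFun N f ∈ (coeffMap O.subtype).range := by
  constructor
  · exact fun h => ⟨h.1, mem_range_coeffMap_subtype h.2⟩
  · rintro ⟨h1, F, hF⟩
    refine ⟨h1, fun k => ?_⟩
    rw [← hF, coeffMap_coeff]
    exact (F.coeff k).2

/-- The convenient constructor: an explicit series over `O` with the right image. -/
theorem IsIntInf.of_eq {O : Subring ℂ} {N : ℕ} {f : ℍ → ℂ} (hf : IsMerInf N f)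
    (F : LaurentSeries O) (hF : coeffMap O.subtype F = expandFun N f) : IsIntInf O N f :=
  isIntInf_iff.mpr ⟨hf, F, hF⟩

namespace IsIntInf

variable {O : Subring ℂ} {N : ℕ} {f g : ℍ → ℂ}

theorem isMerInf (hf : IsIntInf O N f) : IsMerInf N f := hf.1

theorem const (hN : 0 < N) {c : ℂ} (hc : c ∈ O) : IsIntInf O N (fun _ => c) := by
  have hN' : (0 : ℝ) < N := by exact_mod_cast hN
  refine ⟨IsMerInf.const _ _, fun k => ?_⟩
  rw [expandFun_const hN', HahnSeries.C_apply, HahnSeries.coeff_single]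
  split_ifs
  · exact hc
  · exact zero_mem _

theorem one (hN : 0 < N) : IsIntInf O N (1 : ℍ → ℂ) := const hN (one_mem O)

theorem zero (hN : 0 < N) : IsIntInf O N (0 : ℍ → ℂ) := const hN (zero_mem O)

theorem add (hN : 0 < N) (hf : IsIntInf O N f) (hg : IsIntInf O N g) : IsIntInf O N (f + g) := by
  have hN' : (0 : ℝ) < N := by exact_mod_cast hN
  refine ⟨hf.1.add hN' hg.1, fun k => ?_⟩
  rw [expandFun_add hN' hf.1 hg.1, HahnSeries.coeff_add]
  exact add_mem (hf.2 k) (hg.2 k)

theorem mul (hN : 0 < N) (hf : IsIntInf O N f) (hg : IsIntInf O N g) : IsIntInf O N (f * g) := by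
  have hN' : (0 : ℝ) < N := by exact_mod_cast hN
  refine ⟨hf.1.mul hg.1, fun k => ?_⟩
  rw [expandFun_mul hN' hf.1 hg.1, HahnSeries.coeff_mul]
  exact sum_mem fun ij _ => mul_mem (hf.2 _) (hg.2 _)

theorem neg (hN : 0 < N) (hf : IsIntInf O N f) : IsIntInf O N (-f) := by
  have hN' : (0 : ℝ) < N := by exact_mod_cast hN
  refine ⟨hf.1.neg, fun k => ?_⟩
  rw [expandFun_neg hN' hf.1, HahnSeries.coeff_neg]
  exact neg_mem (hf.2 k)

theorem pow (hN : 0 < N) (hf : IsIntInf O N f) (n : ℕ) : IsIntInf O N (f ^ n) := by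
  induction n with
  | zero => simpa using one hN
  | succ n ih => rw [pow_succ]; exact ih.mul hN hf

theorem mono {O' : Subring ℂ} (h : O ≤ O') (hf : IsIntInf O N f) : IsIntInf O' N f :=
  ⟨hf.1, fun k => h (hf.2 k)⟩

end IsIntInf

/-! ### The subring of `HolH` of functions with `IsIntInf O N` -/

/-- The subring of `HolH` of functions meromorphic at `i∞` (period `N`) with expansion
coefficients in `O`. -/
def intInfH (O : Subring ℂ) (N : ℕ) [NeZero N] : Subring HolH where
  carrier := {f | IsIntInf O N (f : ℍ → ℂ)}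
  mul_mem' hf hg := hf.mul (Nat.pos_of_ne_zero (NeZero.ne N)) hg
  one_mem' := IsIntInf.one (Nat.pos_of_ne_zero (NeZero.ne N))
  add_mem' hf hg := hf.add (Nat.pos_of_ne_zero (NeZero.ne N)) hg
  zero_mem' := IsIntInf.zero (Nat.pos_of_ne_zero (NeZero.ne N))
  neg_mem' hf := hf.neg (Nat.pos_of_ne_zero (NeZero.ne N))

theorem mem_intInfH {O : Subring ℂ} {N : ℕ} [NeZero N] {f : HolH} :
    f ∈ intInfH O N ↔ IsIntInf O N (f : ℍ → ℂ) := Iff.rfl

/-! ### `j` and the `j ∘ α` -/

theorem coeff_jqModC_complex_mem (O : Subring ℂ) (k : ℤ) : (jqModC ℂ).coeff k ∈ O := by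
  rw [jqModC_eq_map_intCast ℂ, HahnSeries.map_coeff]
  exact intCast_mem O _

theorem isIntInf_jH (O : Subring ℂ) (N : ℕ) [NeZero N] : IsIntInf O N (jH : ℍ → ℂ) := by
  have hmer : IsMerInf N (jH : ℍ → ℂ) := (isRatInf_of_mem_RK (jH_mem_RK N)).1
  refine ⟨hmer, fun k => ?_⟩
  rw [expandFun_coe_jH]
  by_cases hk : ((N : ℕ) : ℤ) ∣ k
  · obtain ⟨m, rfl⟩ := hk
    rw [qExpand_coeff_mul]
    exact coeff_jqModC_complex_mem O m
  · rw [qExpand_coeff_of_not_dvd _ _ hk]
    exact zero_mem _

/-- `j ∘ α` has `O`-integral expansion as soon as `O` contains the roots of unity `zetaOf b d`. -/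
theorem isIntInf_jAt {O : Subring ℂ} {N N' : ℕ} [NeZero N] [NeZero N'] (h : N' ∣ N)
    (hζ : ∀ (b : ℤ) (d : ℕ), 0 < d → d ∣ N → zetaOf b d ∈ O) (α : CosetRep N') :
    IsIntInf O N (jAt α : ℍ → ℂ) := by
  haveI : NeZero (α.expo N) := ⟨(α.expo_pos h).ne'⟩
  refine ⟨isMerInf_jAt h α, fun k => ?_⟩
  rw [expandFun_jAt h α]
  by_cases hk : ((α.expo N : ℕ) : ℤ) ∣ k
  · obtain ⟨m, rfl⟩ := hk
    rw [qExpand_coeff_mul, twistSeries_coeff]
    refine mul_mem ?_ (coeff_jqModC_complex_mem O m)
    have hd : α.d ∣ N := α.d_dvd.trans h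
    rcases Int.eq_nat_or_neg m with ⟨n, rfl | rfl⟩
    · rw [zpow_natCast]
      exact pow_mem (hζ _ _ α.d_pos hd) n
    · have hinv : (zetaOf (α.b : ℤ) α.d)⁻¹ = zetaOf (-(α.b : ℤ)) α.d := by
        rw [zetaOf, zetaOf, ← Complex.exp_neg]
        congr 1
        push_cast
        ring
      rw [zpow_neg, zpow_natCast, ← inv_pow, hinv]
      exact pow_mem (hζ _ _ α.d_pos hd) n
  · rw [qExpand_coeff_of_not_dvd _ _ hk]
    exact zero_mem _

/-! ### The invariant lemma with `O`-coefficients -/

/-- The ring homomorphism `O[X] → HolH`, `X ↦ j`. -/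
def jHomInt (O : Subring ℂ) : (O)[X] →+* HolH :=
  ((Polynomial.aeval jH : ℂ[X] →ₐ[ℂ] HolH) : ℂ[X] →+* HolH).comp (Polynomial.mapRingHom O.subtype)

theorem jHomInt_apply (O : Subring ℂ) (P : (O)[X]) :
    jHomInt O P = Polynomial.aeval jH (P.map O.subtype) := rfl

theorem jHomInt_injective (O : Subring ℂ) : Function.Injective (jHomInt O) := by
  intro P Q h
  rw [jHomInt_apply, jHomInt_apply] at h
  exact Polynomial.map_injective _ Subtype.val_injective (aeval_jH_injective h)

/-- **The invariant lemma with `O`-coefficients.** An `SL(2, ℤ)`-invariant holomorphic function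
which is meromorphic at `i∞` with expansion coefficients in `O` is a polynomial in `j` with
coefficients in `O`. -/
theorem exists_poly_of_invariant_of_isIntInf {O : Subring ℂ} {N : ℕ} [NeZero N] {f : HolH}
    (hf : IsIntInf O N (f : ℍ → ℂ)) (hinv : ∀ γ : SL(2, ℤ), compSL γ f = f) :
    ∃ P₀ : (O)[X], f = Polynomial.aeval jH (P₀.map O.subtype) := by
  have hN : 0 < N := Nat.pos_of_ne_zero (NeZero.ne N)
  obtain ⟨m, hm⟩ := hf.1.isBounded_mul_qParam_pow hN
  obtain ⟨P, -, hP⟩ := exists_polynomial_of_invariant_of_qParam (f : ℍ → ℂ) f.2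
    (fun γ τ => congrFun (congrArg Subtype.val (hinv γ)) τ) m hm
  have hfun : (f : ℍ → ℂ) = fun τ => P.eval (jFun τ) := funext hP
  have hj : IsMerInf N jFun := by
    have := (isIntInf_jH O N).1
    rwa [coe_jH] at this
  have hexp := (isMerInf_eval_and_expandFun hN hj P).2
  rw [← hfun, ← coe_jH, expandFun_coe_jH] at hexp
  have hmem : Polynomial.aeval (qExpand ℂ N (jqModC ℂ)) P ∈ (coeffMap O.subtype).range := by
    rw [← hexp]
    exact mem_range_coeffMap_subtype hf.2
  obtain ⟨P₀, rfl⟩ := exists_map_eq_of_aeval_qExpand_jqModC_mem_range_ring O.subtype N P hmem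
  refine ⟨P₀, ?_⟩
  ext τ
  rw [hP τ, evalH_aeval_jH]
  rfl

/-- A polynomial over `HolH` fixed by all `compSL γ` whose coefficients have `O`-integral
expansions has coefficients in `O[j]`. -/
theorem exists_map_jHomInt_eq {O : Subring ℂ} {N : ℕ} [NeZero N] (P : HolH[X])
    (hinv : ∀ γ : SL(2, ℤ), P.map ((compSL γ : HolH ≃ₐ[ℂ] HolH) : HolH →+* HolH) = P)
    (hmem : ∀ n, P.coeff n ∈ intInfH O N) :
    ∃ P₀ : (O)[X][X], P₀.map (jHomInt O) = P := by
  rw [← Polynomial.mem_lifts, Polynomial.lifts_iff_coeff_lifts]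
  intro n
  have h1 : ∀ γ : SL(2, ℤ), compSL γ (P.coeff n) = P.coeff n := by
    intro γ
    have := congrArg (fun Q : HolH[X] => Q.coeff n) (hinv γ)
    simpa [Polynomial.coeff_map] using this
  obtain ⟨Q, hQ⟩ := exists_poly_of_invariant_of_isIntInf (hmem n) h1
  exact ⟨Q, hQ.symm⟩

end Fermat.Agent.Igusa
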