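/-
Igusa/CharZero: the characteristic zero identities.  For families `g r : A → HolH` permuted
compatibly by `SL(2, ℤ)`, all of whose members have `O`-integral expansions at `i∞`, the polynomials
`∏ (X - r α)` and `∑ g α ∏_{β ≠ α} (X - r β)` have coefficients in `O[j]`; the resulting identities
between formal Laurent series over `O` (and their images under any ring homomorphism `O → k`).
-/
import Mathlib
import Fermat.Agent.Igusa.IntInv

set_option autoImplicit false
set_option linter.unusedSectionVars false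
set_option linter.style.haveILetI false

noncomputable section

namespace Fermat.Agent.Igusa

open Fermat.Agent.X0
open UpperHalfPlane Function Polynomial ModularCurve
open scoped MatrixGroups Manifold

/-! ### The formal series `J = j(q^N)` over an arbitrary commutative ring -/

section jSer

variable (R : Type*) [CommRing R] (N : ℕ) [NeZero N]

/-- The formal series `j(t^N)` over `R` (`t = q^{1/N}`). -/
def jSer : LaurentSeries R := qExpand R N (jqModC R)

/-- `R[X] → R((t))`, `X ↦ j(t^N)`. -/
def jSerHom : R[X] →+* LaurentSeries R :=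
  ((Polynomial.aeval (jSer R N) : R[X] →ₐ[R] LaurentSeries R) : R[X] →+* LaurentSeries R)

theorem jSerHom_apply (P : R[X]) : jSerHom R N P = Polynomial.aeval (jSer R N) P := rfl

@[simp] theorem jSerHom_X : jSerHom R N X = jSer R N := by
  rw [jSerHom_apply, aeval_X]

@[simp] theorem jSerHom_C (a : R) : jSerHom R N (C a) = HahnSeries.C a := by
  rw [jSerHom_apply, aeval_C, HahnSeries.algebraMap_apply', ← HahnSeries.ofPowerSeries_C]
  rfl

theorem jSerHom_eq_eval₂ (P : R[X]) :
    jSerHom R N P = P.eval₂ (HahnSeries.C : R →+* LaurentSeries R) (jSer R N) := by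
  induction P using Polynomial.induction_on' with
  | add p q hp hq => rw [map_add, hp, hq, Polynomial.eval₂_add]
  | monomial n a =>
    rw [← Polynomial.C_mul_X_pow_eq_monomial, map_mul, map_pow, jSerHom_C, jSerHom_X,
      Polynomial.eval₂_mul, Polynomial.eval₂_pow, Polynomial.eval₂_C, Polynomial.eval₂_X]

variable {R}

theorem coeffMap_jSer {S : Type*} [CommRing S] (π : R →+* S) :
    coeffMap π (jSer R N) = jSer S N := by
  rw [jSer, jSer, coeffMap_qExpand]
  congr 1
  exact map_jqModC π

theorem coeffMap_hahnSeriesC {S : Type*} [CommRing S] (π : R →+* S) (a : R) :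
    coeffMap π (HahnSeries.C a) = HahnSeries.C (π a) :=
  coeffMap_single π 0 a

/-- Compatibility of `jSerHom` with a change of coefficients. -/
theorem coeffMap_comp_jSerHom {S : Type*} [CommRing S] (π : R →+* S) :
    (coeffMap π).comp (jSerHom R N) = (jSerHom S N).comp (Polynomial.mapRingHom π) := by
  refine Polynomial.ringHom_ext (fun a => ?_) ?_
  · simp only [RingHom.comp_apply, jSerHom_C, coe_mapRingHom, Polynomial.map_C,
      coeffMap_hahnSeriesC]
  · simp only [RingHom.comp_apply, jSerHom_X, coe_mapRingHom, Polynomial.map_X, coeffMap_jSer]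

theorem coeffMap_jSerHom {S : Type*} [CommRing S] (π : R →+* S) (P : R[X]) :
    coeffMap π (jSerHom R N P) = jSerHom S N (P.map π) :=
  congrFun (congrArg DFunLike.coe (coeffMap_comp_jSerHom N π)) P

/-- The same for polynomials over `R[X]`. -/
theorem map_coeffMap_map_jSerHom {S : Type*} [CommRing S] (π : R →+* S) (P : R[X][X]) :
    (P.map (jSerHom R N)).map (coeffMap π) =
      (P.map (Polynomial.mapRingHom π)).map (jSerHom S N) := by
  rw [Polynomial.map_map, Polynomial.map_map, coeffMap_comp_jSerHom]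

theorem jSer_coeff_top : (jSer R N).coeff (-(N : ℤ)) = 1 := coeff_qExpand_jqModC_top R N

theorem jSer_coeff_low {i : ℤ} (hi : i < -(N : ℤ)) : (jSer R N).coeff i = 0 :=
  coeff_qExpand_jqModC_low R N hi

end jSer

/-! ### Expansion of `jHomInt O P` -/

section expand

variable {O : Subring ℂ} {N : ℕ} [NeZero N]

theorem expandFun_coe_jH_eq_jSer : expandFun N (jH : ℍ → ℂ) = jSer ℂ N := expandFun_coe_jH

theorem isMerInf_jHomInt (P : (O)[X]) : IsMerInf N ((jHomInt O P : HolH) : ℍ → ℂ) := by
  have hN : 0 < N := Nat.pos_of_ne_zero (NeZero.ne N)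
  have hj : IsMerInf N jFun := by
    have := (isIntInf_jH O N).1
    rwa [coe_jH] at this
  have h := (isMerInf_eval_and_expandFun hN hj (P.map O.subtype)).1
  have hfun : ((jHomInt O P : HolH) : ℍ → ℂ) = fun τ => (P.map O.subtype).eval (jFun τ) := by
    funext τ
    rw [jHomInt_apply, evalH_aeval_jH]
  rw [hfun]
  exact h

theorem expandFun_jHomInt (P : (O)[X]) :
    expandFun N ((jHomInt O P : HolH) : ℍ → ℂ) = coeffMap O.subtype (jSerHom O N P) := by
  have hN : 0 < N := Nat.pos_of_ne_zero (NeZero.ne N)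
  have hj : IsMerInf N jFun := by
    have := (isIntInf_jH O N).1
    rwa [coe_jH] at this
  have h := (isMerInf_eval_and_expandFun hN hj (P.map O.subtype)).2
  have hfun : ((jHomInt O P : HolH) : ℍ → ℂ) = fun τ => (P.map O.subtype).eval (jFun τ) := by
    funext τ
    rw [jHomInt_apply, evalH_aeval_jH]
  rw [hfun, h, ← coe_jH, expandFun_coe_jH_eq_jSer, coeffMap_jSerHom, jSerHom_apply]

end expand

/-! ### Transfer of polynomial identities: abstract version

To avoid instance-path problems with polynomial rings over the subalgebra `merInfH N`, the transfer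
is first proved for an abstract commutative ring `M` with ring homomorphisms `v : M → HolH`
(injective) and `e : M → ℂ((t))` (the expansion). -/

section abstract

variable {O : Subring ℂ} {N : ℕ} [NeZero N] {M : Type*} [CommRing M]
variable (v : M →+* HolH) (e : M →+* LaurentSeries ℂ) (j' : (O)[X] →+* M)

theorem map_eq_of_map_jHomInt_abs (hv : Function.Injective v) (hj : v.comp j' = jHomInt O)
    (hje : e.comp j' = (coeffMap O.subtype).comp (jSerHom O N))
    (P₀ : (O)[X][X]) (Q : M[X]) (h : P₀.map (jHomInt O) = Q.map v) :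
    (P₀.map (jSerHom O N)).map (coeffMap O.subtype) = Q.map e := by
  have h1 : P₀.map j' = Q := by
    apply Polynomial.map_injective v hv
    rw [Polynomial.map_map, hj, h]
  rw [Polynomial.map_map, ← hje, ← Polynomial.map_map, h1]

variable {A : Type*} [Fintype A] [DecidableEq A]
variable (act : SL(2, ℤ) → Equiv.Perm A)

theorem exists_rootsPoly_formal_abs (hv : Function.Injective v) (hj : v.comp j' = jHomInt O)
    (hje : e.comp j' = (coeffMap O.subtype).comp (jSerHom O N))
    (he : ∀ m : M, e m = expandFun N ((v m : HolH) : ℍ → ℂ))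
    (hmer : ∀ m : M, IsMerInf N ((v m : HolH) : ℍ → ℂ))
    (r' : A → M) (hr : ∀ γ α, compSL γ (v (r' α)) = v (r' (act γ α)))
    (rS : A → LaurentSeries O) (hrS : ∀ α, coeffMap O.subtype (rS α) = e (r' α)) :
    ∃ Φ₀ : (O)[X][X], Φ₀.Monic ∧ Φ₀.natDegree = Fintype.card A ∧
      Φ₀.map (jSerHom O N) = ∏ α, (X - C (rS α)) := by
  have hint : ∀ α, IsIntInf O N ((v (r' α) : HolH) : ℍ → ℂ) := fun α =>
    IsIntInf.of_eq (hmer _) (rS α) ((hrS α).trans (he _))
  have hΦ := exists_map_jHomInt_eq (O := O) (N := N) (rootsPoly (v ∘ r'))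
    (rootsPoly_map_compSL act (v ∘ r') hr) (rootsPoly_coeff_mem (intInfH O N) (v ∘ r') hint)
  obtain ⟨Φ₀, hΦ₀⟩ := hΦ
  have hmonic : (rootsPoly (v ∘ r')).Monic :=
    monic_prod_of_monic _ _ fun α _ => monic_X_sub_C _
  have hdeg : (rootsPoly (v ∘ r')).natDegree = Fintype.card A := by
    rw [rootsPoly, natDegree_prod_of_monic _ _ fun α _ => monic_X_sub_C _]
    simp
  refine ⟨Φ₀, ?_, ?_, ?_⟩
  · exact Polynomial.monic_of_injective (jHomInt_injective O) (hΦ₀ ▸ hmonic)
  · rw [← hdeg, ← hΦ₀, Polynomial.natDegree_map_eq_of_injective (jHomInt_injective O)]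
  · have h1 : Φ₀.map (jHomInt O) = (rootsPoly r').map v := by
      rw [hΦ₀, rootsPoly_map]
    have h2 := map_eq_of_map_jHomInt_abs v e j' hv hj hje Φ₀ (rootsPoly r') h1
    apply Polynomial.map_injective (coeffMap O.subtype) (intInv_coeffMap_subtype_injective O)
    rw [h2, rootsPoly_map, rootsPoly, Polynomial.map_prod]
    refine Finset.prod_congr rfl fun α _ => ?_
    rw [Polynomial.map_sub, Polynomial.map_X, Polynomial.map_C, hrS α]
    rfl

theorem exists_lagrangePoly_formal_abs (hv : Function.Injective v) (hj : v.comp j' = jHomInt O)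
    (hje : e.comp j' = (coeffMap O.subtype).comp (jSerHom O N))
    (he : ∀ m : M, e m = expandFun N ((v m : HolH) : ℍ → ℂ))
    (hmer : ∀ m : M, IsMerInf N ((v m : HolH) : ℍ → ℂ))
    (g' r' : A → M) (hg : ∀ γ α, compSL γ (v (g' α)) = v (g' (act γ α)))
    (hr : ∀ γ α, compSL γ (v (r' α)) = v (r' (act γ α)))
    (gS rS : A → LaurentSeries O) (hgS : ∀ α, coeffMap O.subtype (gS α) = e (g' α))
    (hrS : ∀ α, coeffMap O.subtype (rS α) = e (r' α)) :
    ∃ L₀ : (O)[X][X],
      L₀.map (jSerHom O N) = ∑ α, C (gS α) * ∏ β ∈ Finset.univ.erase α, (X - C (rS β)) := by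
  have hgint : ∀ α, IsIntInf O N ((v (g' α) : HolH) : ℍ → ℂ) := fun α =>
    IsIntInf.of_eq (hmer _) (gS α) ((hgS α).trans (he _))
  have hrint : ∀ α, IsIntInf O N ((v (r' α) : HolH) : ℍ → ℂ) := fun α =>
    IsIntInf.of_eq (hmer _) (rS α) ((hrS α).trans (he _))
  obtain ⟨L₀, hL₀⟩ := exists_map_jHomInt_eq (O := O) (N := N) (lagrangePoly (v ∘ g') (v ∘ r'))
    (lagrangePoly_map_compSL act (v ∘ g') (v ∘ r') hg hr)
    (lagrangePoly_coeff_mem (intInfH O N) (v ∘ g') (v ∘ r') hgint hrint)
  refine ⟨L₀, ?_⟩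
  have h1 : L₀.map (jHomInt O) = (lagrangePoly g' r').map v := by
    rw [hL₀, lagrangePoly_map]
  have h2 := map_eq_of_map_jHomInt_abs v e j' hv hj hje L₀ (lagrangePoly g' r') h1
  apply Polynomial.map_injective (coeffMap O.subtype) (intInv_coeffMap_subtype_injective O)
  rw [h2, lagrangePoly_map, lagrangePoly, Polynomial.map_sum]
  refine Finset.sum_congr rfl fun α _ => ?_
  rw [Polynomial.map_mul, Polynomial.map_C, Polynomial.map_prod, hgS α]
  congr 1
  refine Finset.prod_congr rfl fun β _ => ?_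
  rw [Polynomial.map_sub, Polynomial.map_X, Polynomial.map_C, hrS β]
  rfl

end abstract

/-! ### The concrete instance `M = merInfH N` -/

section concrete

variable {O : Subring ℂ} {N : ℕ} [NeZero N]

/-- `jHomInt O` with values in `merInfH N`. -/
def jHomMer (O : Subring ℂ) (N : ℕ) [NeZero N] : (O)[X] →+* merInfH N :=
  (jHomInt O).codRestrict (merInfH N) (fun P => mem_merInfH.mpr (isMerInf_jHomInt P))

/-- `merInfH N → HolH` as a ring homomorphism for the `CommRing` structure of `merInfH N`. -/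
def valMer (N : ℕ) [NeZero N] :
    @RingHom (merInfH N) HolH (Subalgebra.toCommRing (merInfH N)).toNonAssocSemiring _ :=
  ((merInfH N).val : merInfH N →+* HolH)

/-- The expansion `merInfH N → ℂ((t))` as a ring homomorphism for the `CommRing` structure. -/
def expMer (N : ℕ) [NeZero N] :
    @RingHom (merInfH N) (LaurentSeries ℂ) (Subalgebra.toCommRing (merInfH N)).toNonAssocSemiring _ :=
  ((expandH N : merInfH N →ₐ[ℂ] LaurentSeries ℂ) : merInfH N →+* LaurentSeries ℂ)

/-- `jHomMer` as a ring homomorphism for the `CommRing` structure. -/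
def jHomMer' (O : Subring ℂ) (N : ℕ) [NeZero N] :
    @RingHom (O)[X] (merInfH N) _ (Subalgebra.toCommRing (merInfH N)).toNonAssocSemiring :=
  jHomMer O N

theorem valMer_apply (f : merInfH N) : valMer N f = (f : HolH) := rfl

theorem expMer_apply (f : merInfH N) : expMer N f = expandFun N ((f : HolH) : ℍ → ℂ) := rfl

theorem valMer_injective : Function.Injective (valMer N) := Subtype.val_injective

theorem valMer_comp_jHomMer : (valMer N).comp (jHomMer' O N) = jHomInt O := rfl

theorem expMer_comp_jHomMer :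
    (expMer N).comp (jHomMer' O N) = (coeffMap O.subtype).comp (jSerHom O N) :=
  RingHom.ext fun P => expandFun_jHomInt P

end concrete

/-! ### The two families of polynomials -/

section family

variable {O : Subring ℂ} {N : ℕ} [NeZero N]
variable {A : Type*} [Fintype A] [DecidableEq A]
variable (act : SL(2, ℤ) → Equiv.Perm A) (g r : A → HolH)

/-- `∏ (X - r α)` has coefficients in `O[j]`. -/
theorem exists_rootsPoly_jHomInt (hr : ∀ γ α, compSL γ (r α) = r (act γ α))
    (hrm : ∀ α, IsIntInf O N (r α : ℍ → ℂ)) :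
    ∃ Φ₀ : (O)[X][X], Φ₀.map (jHomInt O) = rootsPoly r :=
  exists_map_jHomInt_eq (N := N) (rootsPoly r) (rootsPoly_map_compSL act r hr)
    (rootsPoly_coeff_mem (intInfH O N) r hrm)

/-- `∑ g α ∏_{β ≠ α} (X - r β)` has coefficients in `O[j]`. -/
theorem exists_lagrangePoly_jHomInt (hg : ∀ γ α, compSL γ (g α) = g (act γ α))
    (hr : ∀ γ α, compSL γ (r α) = r (act γ α))
    (hgm : ∀ α, IsIntInf O N (g α : ℍ → ℂ)) (hrm : ∀ α, IsIntInf O N (r α : ℍ → ℂ)) :
    ∃ L₀ : (O)[X][X], L₀.map (jHomInt O) = lagrangePoly g r :=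
  exists_map_jHomInt_eq (N := N) (lagrangePoly g r) (lagrangePoly_map_compSL act g r hg hr)
    (lagrangePoly_coeff_mem (intInfH O N) g r hgm hrm)

/-- **Formal version of `Φ`.**  If `rS α` are series over `O` lifting the expansions of the `r α`,
then `∏ (X - rS α)` is the image under `X ↦ j(t^N)` of a monic polynomial over `O[X]`. -/
theorem exists_rootsPoly_formal (hr : ∀ γ α, compSL γ (r α) = r (act γ α))
    (hrm : ∀ α, IsMerInf N (r α : ℍ → ℂ)) (rS : A → LaurentSeries O)
    (hrS : ∀ α, coeffMap O.subtype (rS α) = expandFun N (r α : ℍ → ℂ)) :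
    ∃ Φ₀ : (O)[X][X], Φ₀.Monic ∧ Φ₀.natDegree = Fintype.card A ∧
      Φ₀.map (jSerHom O N) = ∏ α, (X - C (rS α)) :=
  @exists_rootsPoly_formal_abs O N _ (merInfH N) (Subalgebra.toCommRing (merInfH N))
    (valMer N) (expMer N) (jHomMer' O N) A _ _ act valMer_injective valMer_comp_jHomMer
    expMer_comp_jHomMer (fun _ => rfl) (fun m => m.2)
    (fun α => ⟨r α, mem_merInfH.mpr (hrm α)⟩) hr rS hrS

/-- **Formal version of the Lagrange polynomial `L`.** -/
theorem exists_lagrangePoly_formal (hg : ∀ γ α, compSL γ (g α) = g (act γ α))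
    (hr : ∀ γ α, compSL γ (r α) = r (act γ α))
    (hgm : ∀ α, IsMerInf N (g α : ℍ → ℂ)) (hrm : ∀ α, IsMerInf N (r α : ℍ → ℂ))
    (gS rS : A → LaurentSeries O)
    (hgS : ∀ α, coeffMap O.subtype (gS α) = expandFun N (g α : ℍ → ℂ))
    (hrS : ∀ α, coeffMap O.subtype (rS α) = expandFun N (r α : ℍ → ℂ)) :
    ∃ L₀ : (O)[X][X],
      L₀.map (jSerHom O N) = ∑ α, C (gS α) * ∏ β ∈ Finset.univ.erase α, (X - C (rS β)) :=
  @exists_lagrangePoly_formal_abs O N _ (merInfH N) (Subalgebra.toCommRing (merInfH N))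
    (valMer N) (expMer N) (jHomMer' O N) A _ _ act valMer_injective valMer_comp_jHomMer
    expMer_comp_jHomMer (fun _ => rfl) (fun m => m.2)
    (fun α => ⟨g α, mem_merInfH.mpr (hgm α)⟩) (fun α => ⟨r α, mem_merInfH.mpr (hrm α)⟩)
    hg hr gS rS hgS hrS

end family

/-! ### Reduction: the same identities over any `O`-algebra `k` -/

section reduce

variable {O : Subring ℂ} {N : ℕ} [NeZero N] {k : Type*} [CommRing k] (π : O →+* k)
variable {A : Type*} [Fintype A] [DecidableEq A]

theorem map_rootsPoly_formal (Φ₀ : (O)[X][X]) (rS : A → LaurentSeries O)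
    (h : Φ₀.map (jSerHom O N) = ∏ α, (X - C (rS α))) :
    (Φ₀.map (Polynomial.mapRingHom π)).map (jSerHom k N) = ∏ α, (X - C (coeffMap π (rS α))) := by
  rw [← map_coeffMap_map_jSerHom, h, Polynomial.map_prod]
  refine Finset.prod_congr rfl fun α _ => ?_
  rw [Polynomial.map_sub, Polynomial.map_X, Polynomial.map_C]

theorem map_lagrangePoly_formal (L₀ : (O)[X][X]) (gS rS : A → LaurentSeries O)
    (h : L₀.map (jSerHom O N) = ∑ α, C (gS α) * ∏ β ∈ Finset.univ.erase α, (X - C (rS β))) :
    (L₀.map (Polynomial.mapRingHom π)).map (jSerHom k N) =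
      ∑ α, C (coeffMap π (gS α)) * ∏ β ∈ Finset.univ.erase α, (X - C (coeffMap π (rS β))) := by
  rw [← map_coeffMap_map_jSerHom, h, Polynomial.map_sum]
  refine Finset.sum_congr rfl fun α _ => ?_
  rw [Polynomial.map_mul, Polynomial.map_C, Polynomial.map_prod]
  congr 1
  refine Finset.prod_congr rfl fun β _ => ?_
  rw [Polynomial.map_sub, Polynomial.map_X, Polynomial.map_C]

end reduce

end Fermat.Agent.Igusa
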