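import Mathlib
import Fermat.Prelude.Def_ModularCurve_LaurentCoeff

/-!
# Igusa / V2: lifting a `q`-expansion map with coefficients in a subring
-/

set_option autoImplicit false

open ModularCurve

namespace Fermat.Agent.Igusa

section LiftCoeff

variable {Q : Type*} [CommRing Q] (S : Subring Q)

lemma coeffMap_subtype_injective : Function.Injective (coeffMap S.subtype) := by
  intro x y h
  ext n
  have := congrArg (fun z : LaurentSeries Q => z.coeff n) h
  simp only [coeffMap_coeff] at this
  exact this

/-- the Laurent series over the subring `S` with the same coefficients as `x`. -/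
noncomputable def liftSeries (x : LaurentSeries Q) (h : ∀ n, x.coeff n ∈ S) : LaurentSeries S where
  coeff n := ⟨x.coeff n, h n⟩
  isPWO_support' := by
    have : Function.support (fun n => (⟨x.coeff n, h n⟩ : S)) = x.support := by
      ext n
      simp only [Function.mem_support, HahnSeries.mem_support, ne_eq]
      rw [← Subtype.coe_inj]
      rfl
    rw [this]
    exact x.isPWO_support

@[simp] lemma coeffMap_liftSeries (x : LaurentSeries Q) (h : ∀ n, x.coeff n ∈ S) :
    coeffMap S.subtype (liftSeries S x h) = x := by
  ext n
  rfl

lemma liftSeries_coeff (x : LaurentSeries Q) (h : ∀ n, x.coeff n ∈ S) (n : ℤ) :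
    ((liftSeries S x h).coeff n : Q) = x.coeff n := rfl

variable {A : Type*} [CommRing A]

/-- a ring hom `A → Q((q))` all of whose values have coefficients in `S` lifts to `A → S((q))`. -/
noncomputable def liftCoeff (ι : A →+* LaurentSeries Q) (h : ∀ a n, (ι a).coeff n ∈ S) :
    A →+* LaurentSeries S where
  toFun a := liftSeries S (ι a) (h a)
  map_one' := by
    apply coeffMap_subtype_injective S
    rw [coeffMap_liftSeries, map_one, map_one]
  map_mul' a b := by
    apply coeffMap_subtype_injective S
    rw [coeffMap_liftSeries, map_mul, map_mul, coeffMap_liftSeries, coeffMap_liftSeries]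
  map_zero' := by
    apply coeffMap_subtype_injective S
    rw [coeffMap_liftSeries, map_zero, map_zero]
  map_add' a b := by
    apply coeffMap_subtype_injective S
    rw [coeffMap_liftSeries, map_add, map_add, coeffMap_liftSeries, coeffMap_liftSeries]

@[simp] lemma coeffMap_liftCoeff (ι : A →+* LaurentSeries Q) (h : ∀ a n, (ι a).coeff n ∈ S)
    (a : A) : coeffMap S.subtype (liftCoeff S ι h a) = ι a :=
  coeffMap_liftSeries S _ _

lemma liftCoeff_coeff (ι : A →+* LaurentSeries Q) (h : ∀ a n, (ι a).coeff n ∈ S) (a : A)
    (n : ℤ) : ((liftCoeff S ι h a).coeff n : Q) = (ι a).coeff n := rfl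

end LiftCoeff

end Fermat.Agent.Igusa
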