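import Mathlib
import Fermat.Prelude.Def_GaloisRep_Flat

/-!
# Igusa / V2: the residue map `ℤ_(ℓ) → 𝔽_ℓ` of `GaloisRep.ratLocalizedAt ℓ`
-/

set_option autoImplicit false

namespace Fermat.Agent.Igusa

open GaloisRep

variable (ℓ : ℕ) [hℓ : Fact ℓ.Prime]

omit hℓ in
lemma mem_ratLocalizedAt_iff_den {q : ℚ} : q ∈ ratLocalizedAt ℓ ↔ q.den.Coprime ℓ := Iff.rfl

lemma not_dvd_den_of_mem {q : ℚ} (hq : q ∈ ratLocalizedAt ℓ) : ¬ ℓ ∣ q.den := by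
  intro h
  have h1 : Nat.gcd q.den ℓ = 1 := hq
  rw [Nat.gcd_eq_right h] at h1
  exact hℓ.out.one_lt.ne' h1

/-- `ℤ_(ℓ) → ℤ_ℓ`. -/
noncomputable def zlToPadicInt : ↥(ratLocalizedAt ℓ) →+* ℤ_[ℓ] :=
  ((Rat.castHom ℚ_[ℓ]).comp (ratLocalizedAt ℓ).subtype).codRestrict (PadicInt.subring ℓ)
    (fun q => by
      rw [PadicInt.mem_subring_iff]
      exact Padic.norm_rat_le_one (not_dvd_den_of_mem ℓ q.2))

/-- the residue map `ℤ_(ℓ) → 𝔽_ℓ`. -/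
noncomputable def zlResidue : ↥(ratLocalizedAt ℓ) →+* ZMod ℓ :=
  (PadicInt.toZMod).comp (zlToPadicInt ℓ)

lemma zlResidue_natCast (n : ℕ) : zlResidue ℓ (n : ↥(ratLocalizedAt ℓ)) = (n : ZMod ℓ) :=
  map_natCast _ n

lemma zlResidue_intCast (n : ℤ) : zlResidue ℓ (n : ↥(ratLocalizedAt ℓ)) = (n : ZMod ℓ) :=
  map_intCast _ n

lemma zlResidue_prime : zlResidue ℓ (ℓ : ↥(ratLocalizedAt ℓ)) = 0 := by
  rw [zlResidue_natCast, ZMod.natCast_self]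

lemma zlResidue_surjective : Function.Surjective (zlResidue ℓ) := by
  intro x
  refine ⟨(x.val : ↥(ratLocalizedAt ℓ)), ?_⟩
  rw [zlResidue_natCast, ZMod.natCast_zmod_val]

omit hℓ in
/-- every element of `ℤ_(ℓ)` times its denominator is its numerator. -/
lemma mul_den_eq_num (q : ↥(ratLocalizedAt ℓ)) :
    q * ((q : ℚ).den : ↥(ratLocalizedAt ℓ)) = (((q : ℚ).num : ℤ) : ↥(ratLocalizedAt ℓ)) := by
  apply Subtype.ext
  push_cast
  exact Rat.mul_den_eq_num (q : ℚ)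

/-- the kernel of the residue map is generated by `ℓ`. -/
lemma exists_eq_mul_of_zlResidue_eq_zero {q : ↥(ratLocalizedAt ℓ)} (hq : zlResidue ℓ q = 0) :
    ∃ s : ↥(ratLocalizedAt ℓ), q = (ℓ : ↥(ratLocalizedAt ℓ)) * s := by
  have h1 := congrArg (zlResidue ℓ) (mul_den_eq_num ℓ q)
  rw [map_mul, hq, zero_mul, zlResidue_intCast] at h1
  have h2 : (ℓ : ℤ) ∣ (q : ℚ).num := (ZMod.intCast_zmod_eq_zero_iff_dvd _ _).mp h1.symm
  obtain ⟨m, hm⟩ := h2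
  have hden : ((q : ℚ).den : ℚ) ≠ 0 := by exact_mod_cast (q : ℚ).den_ne_zero
  have hdiv : (Rat.divInt m ((q : ℚ).den : ℤ) : ℚ) = (m : ℚ) / ((q : ℚ).den : ℚ) := by
    rw [Rat.divInt_eq_div]
    push_cast
    rfl
  have hs : ((m : ℚ) / ((q : ℚ).den : ℚ)) ∈ ratLocalizedAt ℓ := by
    rw [mem_ratLocalizedAt_iff_den, ← hdiv]
    have hd : ((Rat.divInt m ((q : ℚ).den : ℤ)).den : ℤ) ∣ ((q : ℚ).den : ℤ) := Rat.den_dvd m _
    have hd' : (Rat.divInt m ((q : ℚ).den : ℤ)).den ∣ (q : ℚ).den := Int.natCast_dvd_natCast.mp hd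
    exact Nat.Coprime.coprime_dvd_left hd' q.2
  refine ⟨⟨_, hs⟩, Subtype.ext ?_⟩
  show (q : ℚ) = ((ℓ : ↥(ratLocalizedAt ℓ)) : ℚ) * ((m : ℚ) / ((q : ℚ).den : ℚ))
  have h3 : (q : ℚ) * ((q : ℚ).den : ℚ) = ((q : ℚ).num : ℚ) := Rat.mul_den_eq_num _
  rw [hm] at h3
  push_cast at h3 ⊢
  rw [← mul_div_assoc, eq_div_iff hden]
  exact h3

/-- two ring homs from `ℤ_(ℓ)` to a field of characteristic `ℓ` agree. -/
lemma zl_ringHom_ext {K : Type*} [Field K] [CharP K ℓ] (f g : ↥(ratLocalizedAt ℓ) →+* K) :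
    f = g := by
  ext q
  have hd : (((q : ℚ).den : ℕ) : K) ≠ 0 := by
    rw [Ne, CharP.cast_eq_zero_iff K ℓ]
    exact not_dvd_den_of_mem ℓ q.2
  have hf := congrArg f (mul_den_eq_num ℓ q)
  have hg := congrArg g (mul_den_eq_num ℓ q)
  rw [map_mul, map_natCast, map_intCast] at hf hg
  exact mul_right_cancel₀ hd (hf.trans hg.symm)

/-- compatibility of any `ℤ_(ℓ)`-algebra structure on a field of characteristic `ℓ` with the residue map. -/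
lemma algebraMap_eq_zlResidue {K : Type*} [Field K] [CharP K ℓ] [Algebra ↥(ratLocalizedAt ℓ) K]
    (r : ↥(ratLocalizedAt ℓ)) :
    algebraMap ↥(ratLocalizedAt ℓ) K r = (ZMod.castHom (dvd_refl ℓ) K) (zlResidue ℓ r) := by
  have := zl_ringHom_ext ℓ (algebraMap ↥(ratLocalizedAt ℓ) K)
    ((ZMod.castHom (dvd_refl ℓ) K).comp (zlResidue ℓ))
  exact DFunLike.congr_fun this r

end Fermat.Agent.Igusa
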