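import Mathlib
import Fermat.Prelude.Def_ModularCurve_LaurentCoeff
import Fermat.Prelude.Def_GaloisRep_Flat
import Fermat.Agent.Igusa.ZlResidue
import Fermat.Agent.Igusa.LiftCoeff

/-!
# Igusa / V2: the subring of `ℓ`-integral expansions, its reduction map, and evaluation lemmas
-/

set_option autoImplicit false
set_option linter.unusedSectionVars false

open Polynomial ModularCurve GaloisRep

namespace Fermat.Agent.Igusa

theorem algebraMap_laurent_eq_C {R : Type*} [CommRing R] (r : R) :
    algebraMap R (LaurentSeries R) r = HahnSeries.C r := by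
  have h1 : algebraMap R (PowerSeries R) r = PowerSeries.C r := by simp
  rw [HahnSeries.algebraMap_apply', h1, HahnSeries.ofPowerSeries_C]

theorem coeffMap_C_laurent {R S : Type*} [CommRing R] [CommRing S] (f : R →+* S) (r : R) :
    coeffMap f (HahnSeries.C r) = HahnSeries.C (f r) :=
  coeffMap_single f 0 r

/-- `coeffMap` commutes with polynomial evaluation (one variable). -/
theorem coeffMap_aeval {R S : Type*} [CommRing R] [CommRing S] (f : R →+* S)
    (x : LaurentSeries R) (p : R[X]) :
    coeffMap f (aeval x p) = aeval (coeffMap f x) (p.map f) := by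
  rw [aeval_def, aeval_def, hom_eval₂, eval₂_map]
  congr 1
  refine RingHom.ext fun r => ?_
  simp only [RingHom.comp_apply, algebraMap_laurent_eq_C, coeffMap_C_laurent]

/-- `coeffMap` commutes with polynomial evaluation (two variables). -/
theorem coeffMap_eval_map_aeval {R S : Type*} [CommRing R] [CommRing S] (f : R →+* S)
    (x y : LaurentSeries R) (P : R[X][X]) :
    coeffMap f ((P.map ((aeval x : R[X] →ₐ[R] LaurentSeries R) : R[X] →+* LaurentSeries R)).eval y)
      = ((P.map (mapRingHom f)).map
          ((aeval (coeffMap f x) : S[X] →ₐ[S] LaurentSeries S) : S[X] →+* LaurentSeries S)).eval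
          (coeffMap f y) := by
  rw [eval_map, eval_map, hom_eval₂, eval₂_map]
  congr 1
  refine RingHom.ext fun p => ?_
  simp only [RingHom.comp_apply, RingHom.coe_coe, coe_mapRingHom]
  exact coeffMap_aeval f x p

section IntSub

variable (ℓ : ℕ) [hℓ : Fact ℓ.Prime]

set_option quotPrecheck false in
local notation "Zl" => ↥(GaloisRep.ratLocalizedAt ℓ)

variable {F : Type*} [Field F] (ι : F →+* LaurentSeries ℚ)

/-- the subring of the elements of `F` with `ℓ`-integral expansion. -/
noncomputable def intSub : Subring F := ((coeffMap (ratLocalizedAt ℓ).subtype).range).comap ι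

variable {ℓ ι}

theorem mem_intSub_iff {x : F} :
    x ∈ intSub ℓ ι ↔ ∃ z : LaurentSeries Zl, coeffMap (ratLocalizedAt ℓ).subtype z = ι x :=
  Iff.rfl

theorem coeff_mem_of_mem_intSub {x : F} (hx : x ∈ intSub ℓ ι) (n : ℤ) :
    (ι x).coeff n ∈ ratLocalizedAt ℓ := by
  obtain ⟨z, hz⟩ := hx
  rw [← hz]
  exact (z.coeff n).2

theorem mem_intSub_of_coeff {x : F} (h : ∀ n, (ι x).coeff n ∈ ratLocalizedAt ℓ) :
    x ∈ intSub ℓ ι :=
  ⟨liftSeries _ _ h, coeffMap_liftSeries _ _ _⟩

variable (ℓ ι)

/-- the integral expansion of an element of `intSub`. -/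
noncomputable def intLift : intSub ℓ ι →+* LaurentSeries Zl :=
  liftCoeff (ratLocalizedAt ℓ) (ι.comp (intSub ℓ ι).subtype)
    (fun a n => coeff_mem_of_mem_intSub a.2 n)

/-- the reduction mod `ℓ` of the expansion of an element of `intSub`. -/
noncomputable def intRed : intSub ℓ ι →+* LaurentSeries (ZMod ℓ) :=
  (coeffMap (zlResidue ℓ)).comp (intLift ℓ ι)

variable {ℓ ι}

theorem intLift_eq {x : F} (hx : x ∈ intSub ℓ ι) {z : LaurentSeries Zl}
    (hz : coeffMap (ratLocalizedAt ℓ).subtype z = ι x) : intLift ℓ ι ⟨x, hx⟩ = z := by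
  apply coeffMap_subtype_injective (ratLocalizedAt ℓ)
  rw [intLift, coeffMap_liftCoeff, hz]
  rfl

theorem intRed_eq {x : F} (hx : x ∈ intSub ℓ ι) {z : LaurentSeries Zl}
    (hz : coeffMap (ratLocalizedAt ℓ).subtype z = ι x) :
    intRed ℓ ι ⟨x, hx⟩ = coeffMap (zlResidue ℓ) z := by
  rw [intRed, RingHom.comp_apply, intLift_eq hx hz]

end IntSub

end Fermat.Agent.Igusa
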