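import Mathlib

/-!
# Igusa / FieldPart: two abstract lemmas for the chart bridge

* `field_part`: if `1, y, …, y^(n-1)` span `L` over `K = Frac A` (coefficients given as fractions)
  and no nonzero polynomial over `A` of degree `< n` kills `y`, where `y` is a root of the monic
  `Φ : A[X]` of degree `n`, then `K[y] = L`, `L/K` is finite and `[L : K] = n`.
* `isIntegralElem_aeval_iff`: integrality over `R[u]` is integrality along `aeval u : R[X] → L`.
-/

set_option autoImplicit false
set_option linter.unusedSectionVars false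

open Polynomial

namespace Fermat.Agent.Igusa

section F1

variable {A K L : Type*} [CommRing A] [IsDomain A] [Field K] [Field L] [Algebra A K]
  [IsFractionRing A K] [Algebra K L] [Algebra A L] [IsScalarTower A K L]

/-- a fraction of two elements of `A` lies in the image of `K = Frac A`. -/
theorem fieldPart_mem_range {c : L}
    (h : ∃ a b : A, b ≠ 0 ∧ algebraMap A L b * c = algebraMap A L a) :
    c ∈ (algebraMap K L).range := by
  obtain ⟨a, b, hb, h⟩ := h
  refine ⟨algebraMap A K a / algebraMap A K b, ?_⟩
  have hbK : algebraMap A K b ≠ 0 := fun h0 =>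
    hb ((IsFractionRing.injective A K) (h0.trans (map_zero _).symm))
  have hbL : algebraMap K L (algebraMap A K b) ≠ 0 := (_root_.map_ne_zero _).mpr hbK
  rw [map_div₀, div_eq_iff hbL, ← IsScalarTower.algebraMap_apply,
    ← IsScalarTower.algebraMap_apply, mul_comm, h]

/-- **(F1)** -/
theorem field_part {y : L} {Φ : A[X]} (hΦm : Φ.Monic) (hΦy : aeval y Φ = 0)
    (hspan : ∀ x : L, ∃ c : ℕ → L,
      (∀ i, ∃ a b : A, b ≠ 0 ∧ algebraMap A L b * c i = algebraMap A L a) ∧
        x = ∑ i ∈ Finset.range Φ.natDegree, c i * y ^ i)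
    (hli : ∀ P : A[X], P.natDegree < Φ.natDegree → aeval y P = 0 → P = 0) :
    Algebra.adjoin K {y} = ⊤ ∧ FiniteDimensional K L ∧ Φ.natDegree = Module.finrank K L := by
  set n := Φ.natDegree with hn
  -- spanning
  have hsp : ∀ x : L, x ∈ Submodule.span K (Set.range (fun i : Fin n => y ^ (i : ℕ))) := by
    intro x
    obtain ⟨c, hc, rfl⟩ := hspan x
    refine Submodule.sum_mem _ fun i hi => ?_
    obtain ⟨k, hk⟩ := fieldPart_mem_range (K := K) (hc i)
    rw [← hk, ← Algebra.smul_def]
    exact Submodule.smul_mem _ _ (Submodule.subset_span ⟨⟨i, Finset.mem_range.mp hi⟩, rfl⟩)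
  have htop : Submodule.span K (Set.range (fun i : Fin n => y ^ (i : ℕ))) = ⊤ :=
    eq_top_iff.mpr fun x _ => hsp x
  have hfin : FiniteDimensional K L :=
    Module.finite_def.mpr (htop ▸ Submodule.fg_span (Set.finite_range _))
  have hle : Module.finrank K L ≤ n := by
    have h := finrank_range_le_card (R := K) (fun i : Fin n => y ^ (i : ℕ))
    rw [Set.finrank, htop, finrank_top, Fintype.card_fin] at h
    exact h
  -- adjoin
  have hadj : Algebra.adjoin K {y} = ⊤ := by
    rw [eq_top_iff]
    intro x _
    have hx := hsp x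
    have hle' : Submodule.span K (Set.range (fun i : Fin n => y ^ (i : ℕ))) ≤
        Subalgebra.toSubmodule (Algebra.adjoin K {y}) := by
      rw [Submodule.span_le]
      rintro _ ⟨i, rfl⟩
      exact pow_mem (Algebra.subset_adjoin (Set.mem_singleton y)) _
    exact hle' hx
  -- lower bound via the minimal polynomial
  have hint : IsIntegral K y :=
    ⟨Φ.map (algebraMap A K), hΦm.map _, by
      rw [eval₂_map, ← IsScalarTower.algebraMap_eq A K L, ← aeval_def]; exact hΦy⟩
  have hge : n ≤ (minpoly K y).natDegree := by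
    by_contra hlt
    push Not at hlt
    set P := IsLocalization.integerNormalization (nonZeroDivisors A) (minpoly K y) with hP
    have hP0 : P ≠ 0 := by
      rw [Ne, hP, IsFractionRing.integerNormalization_eq_zero_iff]
      exact minpoly.ne_zero hint
    have hPy : aeval y P = 0 :=
      IsLocalization.integerNormalization_aeval_eq_zero _ (minpoly K y) (minpoly.aeval K y)
    have hPdeg : P.natDegree ≤ (minpoly K y).natDegree := by
      rw [natDegree_le_iff_coeff_eq_zero]
      intro i hi
      by_contra hne
      have hmem : i ∈ P.support := mem_support_iff.mpr hne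
      have hmem' := IsLocalization.integerNormalization_support (nonZeroDivisors A)
        (minpoly K y) hmem
      exact (mem_support_iff.mp hmem') (coeff_eq_zero_of_natDegree_lt hi)
    exact hP0 (hli P (lt_of_le_of_lt hPdeg hlt) hPy)
  have hmin : (minpoly K y).natDegree ≤ Module.finrank K L := minpoly.natDegree_le y
  exact ⟨hadj, hfin, le_antisymm (hge.trans hmin) hle⟩

end F1

section F2

variable {R L : Type*} [CommRing R] [CommRing L] [Algebra R L]

/-- the corestriction of `aeval u` to `R[u]`. -/
noncomputable def fieldPart_aevalAdjoin (u : L) : R[X] →+* Algebra.adjoin R {u} :=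
  ((aeval u : R[X] →ₐ[R] L).codRestrict (Algebra.adjoin R {u}) (fun p => by
    rw [Algebra.adjoin_singleton_eq_range_aeval]; exact ⟨p, rfl⟩)).toRingHom

theorem fieldPart_aevalAdjoin_coe (u : L) (p : R[X]) :
    ((fieldPart_aevalAdjoin u p : Algebra.adjoin R {u}) : L) = aeval u p := rfl

theorem fieldPart_aevalAdjoin_surjective (u : L) :
    Function.Surjective (fieldPart_aevalAdjoin (R := R) u) := by
  rintro ⟨z, hz⟩
  rw [Algebra.adjoin_singleton_eq_range_aeval] at hz
  obtain ⟨p, rfl⟩ := hz
  exact ⟨p, rfl⟩

theorem fieldPart_comp (u : L) :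
    (algebraMap (Algebra.adjoin R {u}) L).comp (fieldPart_aevalAdjoin u) =
      ((aeval u : R[X] →ₐ[R] L) : R[X] →+* L) := RingHom.ext fun _ => rfl

/-- **(F2)** -/
theorem isIntegralElem_aeval_iff (u x : L) :
    IsIntegral (Algebra.adjoin R {u}) x ↔
      ((aeval u : R[X] →ₐ[R] L) : R[X] →+* L).IsIntegralElem x := by
  constructor
  · rintro ⟨p, hpm, hpx⟩
    obtain ⟨q, hq, -, hqm⟩ := lifts_and_natDegree_eq_and_monic
      ((mem_lifts p).mpr (map_surjective _ (fieldPart_aevalAdjoin_surjective u) p)) hpm
    refine ⟨q, hqm, ?_⟩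
    rw [← fieldPart_comp, ← eval₂_map, hq]
    exact hpx
  · rintro ⟨q, hqm, hqx⟩
    refine ⟨q.map (fieldPart_aevalAdjoin u), hqm.map _, ?_⟩
    rw [eval₂_map, fieldPart_comp]
    exact hqx

end F2

end Fermat.Agent.Igusa
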