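/-
S28 project, package V1 (helper4): the abstract "integral closure = expansion-integral" engine.

Setting (AKLB-like): `A` an integrally closed domain with fraction field `K`, `L / K` finite
separable, `y : L` a primitive element which is a root of a monic `Φ : A[X]` of degree `[L : K]`.
`I ⊆ L` is a subring ("elements with `ℓ`-integral expansion") with a ring hom `red : I → κ`
("reduction of the expansion mod `ℓ`").  Under
* `Φ'(y)` is invertible in `I`,
* (LI): a polynomial `P ∈ A[X]` of degree `< deg Φ` with `red (P(y)) = 0` has all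
  coefficients divisible by the prime element `ℓ` of `A`,
we prove
* `mem_of_isIntegral`: the integral closure of `A` in `L` is contained in `I`;
* `exists_eq_mul_of_red_eq_zero`: an element of the integral closure with vanishing reduction
  is `ℓ` times an element of the integral closure.
-/
import Mathlib

namespace Fermat.Agent.Igusa.V1

open Polynomial

section NumberLemma

variable {A K : Type*} [CommRing A] [IsDomain A] [Field K] [Algebra A K] [IsFractionRing A K]

/-- If `ℓ` is prime in the domain `A`, `ℓ ∤ D`, and `a ∈ K = Frac A` satisfies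
`a ℓ^e ∈ A` and `a D^e ∈ A`, then `a ∈ A`. -/
theorem mem_range_of_mul_pow_mem {ℓ D : A} (hℓ : Prime ℓ) (hD : ¬ ℓ ∣ D) (e : ℕ) {a : K}
    (h1 : a * algebraMap A K ℓ ^ e ∈ (algebraMap A K).range)
    (h2 : a * algebraMap A K D ^ e ∈ (algebraMap A K).range) :
    a ∈ (algebraMap A K).range := by
  obtain ⟨u, hu⟩ := h1
  obtain ⟨w, hw⟩ := h2
  have hinj := IsFractionRing.injective A K
  have h3 : D ^ e * u = ℓ ^ e * w := by
    apply hinj
    simp only [map_mul, map_pow, hu, hw]
    ring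
  have h4 : ℓ ^ e ∣ u := by
    apply hℓ.pow_dvd_of_dvd_mul_left e (a := D ^ e)
    · exact fun h => hD (hℓ.dvd_of_dvd_pow h)
    · exact ⟨w, h3⟩
  obtain ⟨u', rfl⟩ := h4
  refine ⟨u', ?_⟩
  have hℓK : algebraMap A K ℓ ^ e ≠ 0 :=
    pow_ne_zero _ ((map_ne_zero_iff _ hinj).mpr hℓ.ne_zero)
  apply mul_right_cancel₀ hℓK
  rw [← hu, map_mul, map_pow]
  ring

end NumberLemma

section ScaleLemma

variable {A L : Type*} [CommRing A] [IsDomain A] [IsIntegrallyClosed A] [Field L] [Algebra A L]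

omit [IsDomain A] [IsIntegrallyClosed A] in
theorem algebraMap_injective_of_tower (K : Type*) [Field K] [Algebra A K] [IsFractionRing A K]
    [Algebra K L] [IsScalarTower A K L] : Function.Injective (algebraMap A L) := by
  rw [IsScalarTower.algebraMap_eq A K L]
  exact (algebraMap K L).injective.comp (IsFractionRing.injective A K)

/-- If `ℓ z` and `D z` are integral over the integrally closed domain `A`, with `ℓ` prime and
`ℓ ∤ D`, then `z` is integral over `A`. -/
theorem isIntegral_of_mul_isIntegral (K : Type*) [Field K] [Algebra A K] [IsFractionRing A K]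
    [Algebra K L] [IsScalarTower A K L] {ℓ D : A} (hℓ : Prime ℓ) (hD : ¬ ℓ ∣ D) {z : L}
    (h1 : IsIntegral A (algebraMap A L ℓ * z)) (h2 : IsIntegral A (algebraMap A L D * z)) :
    IsIntegral A z := by
  have hinj := IsFractionRing.injective A K
  have hD0 : D ≠ 0 := by rintro rfl; exact hD (dvd_zero _)
  have hℓK : algebraMap A K ℓ ≠ 0 := (map_ne_zero_iff _ hinj).mpr hℓ.ne_zero
  have hzK : IsIntegral K z := by
    have h : IsIntegral K (algebraMap A L ℓ * z) := h1.tower_top
    have h' : z = algebraMap K L (algebraMap A K ℓ)⁻¹ * (algebraMap A L ℓ * z) := by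
      rw [IsScalarTower.algebraMap_apply A K L, ← mul_assoc, ← map_mul, inv_mul_cancel₀ hℓK,
        map_one, one_mul]
    rw [h']
    exact isIntegral_algebraMap.mul h
  set m := minpoly K z with hm_def
  have hm : m.Monic := minpoly.monic hzK
  have key : ∀ c : A, c ≠ 0 → IsIntegral A (algebraMap A L c * z) → ∀ i,
      m.coeff i * (algebraMap A K c) ^ (m.natDegree - i) ∈ (algebraMap A K).range := by
    intro c hc hcz i
    have hcK : algebraMap A K c ≠ 0 := (map_ne_zero_iff _ hinj).mpr hc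
    have e1 : minpoly K (algebraMap A K c • z) = m.scaleRoots (algebraMap A K c) :=
      IsIntegrallyClosed.minpoly_smul hcK hzK
    have e2 : algebraMap A K c • z = algebraMap A L c * z := by
      rw [Algebra.smul_def, ← IsScalarTower.algebraMap_apply]
    rw [e2, minpoly.isIntegrallyClosed_eq_field_fractions' K hcz] at e1
    have := congrArg (fun p => p.coeff i) e1
    simp only [coeff_map, coeff_scaleRoots] at this
    exact ⟨_, this⟩
  have hlift : m ∈ Polynomial.lifts (algebraMap A K) := by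
    rw [Polynomial.lifts_iff_coeff_lifts]
    intro i
    exact mem_range_of_mul_pow_mem hℓ hD (m.natDegree - i) (key ℓ hℓ.ne_zero h1 i)
      (key D hD0 h2 i)
  obtain ⟨q, hq, -, hqm⟩ := Polynomial.lifts_and_natDegree_eq_and_monic hlift hm
  refine ⟨q, hqm, ?_⟩
  rw [← aeval_def, ← aeval_map_algebraMap K, hq]
  exact minpoly.aeval K z

end ScaleLemma

section Main

variable {A K L κ : Type*} [CommRing A] [IsDomain A] [IsIntegrallyClosed A]
  [Field K] [Field L] [Algebra A K] [IsFractionRing A K] [Algebra K L] [Algebra A L]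
  [IsScalarTower A K L] [FiniteDimensional K L] [Algebra.IsSeparable K L] [CommRing κ]

omit [IsDomain A] [IsFractionRing A K] [IsIntegrallyClosed A] [Algebra.IsSeparable K L] in
/-- A monic polynomial over `A` of degree `[L : K]` killing a primitive element is its minimal
polynomial over `K`. -/
theorem map_eq_minpoly_of_natDegree_eq {y : L} (hgen : Algebra.adjoin K {y} = ⊤) {Φ : A[X]}
    (hΦm : Φ.Monic) (hΦy : aeval y Φ = 0) (hΦdeg : Φ.natDegree = Module.finrank K L) :
    Φ.map (algebraMap A K) = minpoly K y := by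
  have hyK : IsIntegral K y := Algebra.IsIntegral.isIntegral y
  have hdvd : minpoly K y ∣ Φ.map (algebraMap A K) :=
    minpoly.dvd K y (by rw [aeval_map_algebraMap, hΦy])
  have hdeg : (minpoly K y).natDegree = Module.finrank K L := by
    rw [← Field.primitive_element_iff_minpoly_natDegree_eq]
    apply IntermediateField.toSubalgebra_injective
    rw [IntermediateField.adjoin_simple_toSubalgebra_of_isAlgebraic hyK.isAlgebraic, hgen,
      IntermediateField.top_toSubalgebra]
  exact Polynomial.eq_of_monic_of_dvd_of_natDegree_le (minpoly.monic hyK) (hΦm.map _) hdvd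
    (by rw [hΦm.natDegree_map, hΦdeg, hdeg])

/-- Euler/Dedekind: `Φ'(y) · (integral closure of A in L) ⊆ A[y]`. -/
theorem aeval_derivative_mul_mem_adjoin {y : L} (hgen : Algebra.adjoin K {y} = ⊤) {Φ : A[X]}
    (hΦm : Φ.Monic) (hΦy : aeval y Φ = 0) (hΦdeg : Φ.natDegree = Module.finrank K L)
    {x : L} (hx : IsIntegral A x) :
    aeval y (derivative Φ) * x ∈ Algebra.adjoin A {y} := by
  have hyA : IsIntegral A y := ⟨Φ, hΦm, by rw [← aeval_def]; exact hΦy⟩
  have hmin := map_eq_minpoly_of_natDegree_eq hgen hΦm hΦy hΦdeg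
  have hβ : aeval y (derivative (minpoly K y)) = aeval y (derivative Φ) := by
    rw [← hmin, derivative_map, aeval_map_algebraMap]
  have hβ0 : aeval y (derivative Φ) ≠ 0 := by
    rw [← hβ]
    exact (Algebra.IsSeparable.isSeparable K y).aeval_derivative_ne_zero (minpoly.aeval _ _)
  have hdual := traceForm_dualSubmodule_adjoin A K hgen hyA
  rw [hβ] at hdual
  have hxmem : x ∈ (Algebra.traceForm K L).dualSubmodule
      (Subalgebra.toSubmodule (Algebra.adjoin A {y})) := by
    rw [LinearMap.BilinForm.mem_dualSubmodule]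
    intro b hb
    rw [Subalgebra.mem_toSubmodule] at hb
    have hbA : IsIntegral A b := adjoin_le_integralClosure hyA hb
    have hxb : IsIntegral A (x * b) := hx.mul hbA
    have htr : IsIntegral A (Algebra.trace K L (x * b)) := Algebra.isIntegral_trace hxb
    rw [IsIntegrallyClosed.isIntegral_iff] at htr
    rw [Algebra.traceForm_apply, Submodule.mem_one]
    exact htr
  rw [hdual, Submodule.mem_smul_iff_inv_mul_mem (inv_ne_zero hβ0), inv_inv,
    Subalgebra.mem_toSubmodule] at hxmem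
  exact hxmem

omit [IsDomain A] [IsIntegrallyClosed A] [IsFractionRing A K] [IsScalarTower A K L]
  [FiniteDimensional K L] [Algebra.IsSeparable K L] [Field K] [Algebra A K] [Algebra K L] in
/-- `A[y] ⊆ I` as soon as `A ⊆ I` and `y ∈ I`. -/
theorem mem_of_mem_adjoin (I : Subring L) (hA : ∀ a : A, algebraMap A L a ∈ I) {y : L}
    (hyI : y ∈ I) {b : L} (hb : b ∈ Algebra.adjoin A {y}) : b ∈ I := by
  let IA : Subalgebra A L := { I.toSubsemiring with algebraMap_mem' := hA }
  have h : Algebra.adjoin A {y} ≤ IA := Algebra.adjoin_le (by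
    intro t ht
    rw [Set.mem_singleton_iff] at ht
    subst ht
    exact hyI)
  exact h hb

omit [IsDomain A] [IsIntegrallyClosed A] [IsFractionRing A K] [IsScalarTower A K L]
  [FiniteDimensional K L] [Algebra.IsSeparable K L] [Field K] [Algebra A K] [Algebra K L] in
/-- Elements of `A[y]` are values of polynomials of degree `< deg Φ`. -/
theorem exists_natDegree_lt_aeval_eq {y : L} {Φ : A[X]} (hΦm : Φ.Monic) (hΦy : aeval y Φ = 0)
    {b : L} (hb : b ∈ Algebra.adjoin A {y}) :
    ∃ P : A[X], P.natDegree < Φ.natDegree ∧ aeval y P = b := by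
  rw [Algebra.adjoin_singleton_eq_range_aeval] at hb
  obtain ⟨Q, rfl⟩ := hb
  have h1 : Φ ≠ 1 := by
    rintro rfl
    simp at hΦy
  exact ⟨Q %ₘ Φ, natDegree_modByMonic_lt Q hΦm h1, aeval_modByMonic_eq_self_of_root hΦy⟩

omit [IsDomain A] [IsIntegrallyClosed A] [IsFractionRing A K] [IsScalarTower A K L]
  [FiniteDimensional K L] [Algebra.IsSeparable K L] [Field K] [Algebra A K] [Algebra K L] in
/-- (LI) for elements of `A[y]`: vanishing reduction implies divisibility by `ℓ` in `A[y]`. -/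
theorem exists_eq_mul_of_mem_adjoin (ℓ : A) (I : Subring L) (red : I →+* κ) {y : L}
    {Φ : A[X]} (hΦm : Φ.Monic) (hΦy : aeval y Φ = 0)
    (hLI : ∀ P : A[X], P.natDegree < Φ.natDegree → ∀ hP : aeval y P ∈ I,
      red ⟨_, hP⟩ = 0 → ∀ i, ℓ ∣ P.coeff i)
    {b : L} (hb : b ∈ Algebra.adjoin A {y}) (hbI : b ∈ I) (h0 : red ⟨b, hbI⟩ = 0) :
    ∃ b' ∈ Algebra.adjoin A {y}, b = algebraMap A L ℓ * b' := by
  obtain ⟨P, hPdeg, rfl⟩ := exists_natDegree_lt_aeval_eq hΦm hΦy hb
  have h := hLI P hPdeg hbI h0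
  obtain ⟨P', rfl⟩ := (C_dvd_iff_dvd_coeff _ _).mpr h
  exact ⟨aeval y P', aeval_mem_adjoin_singleton A y, by rw [map_mul, aeval_C]⟩

omit [IsDomain A] [IsIntegrallyClosed A] [FiniteDimensional K L] [Algebra.IsSeparable K L] in
/-- Descent: strip powers of `ℓ` from a multiple (in `A[y]`) of a unit `β` of `I`. -/
theorem exists_mul_eq_of_mul_eq_pow_mul (ℓ : A) (hℓ : Prime ℓ) (I : Subring L) (red : I →+* κ)
    (hredℓ : ∀ h : algebraMap A L ℓ ∈ I, red ⟨_, h⟩ = 0)
    (hA : ∀ a : A, algebraMap A L a ∈ I) {y : L} (hyI : y ∈ I)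
    {Φ : A[X]} (hΦm : Φ.Monic) (hΦy : aeval y Φ = 0)
    (hLI : ∀ P : A[X], P.natDegree < Φ.natDegree → ∀ hP : aeval y P ∈ I,
      red ⟨_, hP⟩ = 0 → ∀ i, ℓ ∣ P.coeff i)
    (hinj : Function.Injective (algebraMap A L))
    {β v : L} (hβ : β ∈ Algebra.adjoin A {y}) (hv : v ∈ I) (hβv : β * v = 1) :
    ∀ (e : ℕ) (D : A) (w : L), w ∈ Algebra.adjoin A {y} →
      β * w = algebraMap A L (ℓ ^ e * D) →
        ∃ w' ∈ Algebra.adjoin A {y}, β * w' = algebraMap A L D := by
  intro e
  induction e with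
  | zero =>
    intro D w hw h
    exact ⟨w, hw, by simpa using h⟩
  | succ e ih =>
    intro D w hw h
    have hβI : β ∈ I := mem_of_mem_adjoin I hA hyI hβ
    have hwI : w ∈ I := mem_of_mem_adjoin I hA hyI hw
    have hℓI := hA ℓ
    have hrest := hA (ℓ ^ e * D)
    have h1 : red ⟨β, hβI⟩ * red ⟨w, hwI⟩ = 0 := by
      rw [← map_mul]
      have : (⟨β, hβI⟩ : I) * ⟨w, hwI⟩ =
          ⟨algebraMap A L ℓ, hℓI⟩ * ⟨algebraMap A L (ℓ ^ e * D), hrest⟩ := by
        apply Subtype.ext
        change β * w = algebraMap A L ℓ * algebraMap A L (ℓ ^ e * D)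
        rw [h, ← map_mul]
        ring_nf
      rw [this, map_mul, hredℓ, zero_mul]
    have h2 : red ⟨β, hβI⟩ * red ⟨v, hv⟩ = 1 := by
      rw [← map_mul]
      have : (⟨β, hβI⟩ : I) * ⟨v, hv⟩ = 1 := Subtype.ext hβv
      rw [this, map_one]
    have h3 : red ⟨w, hwI⟩ = 0 := by
      calc red ⟨w, hwI⟩ = (red ⟨β, hβI⟩ * red ⟨v, hv⟩) * red ⟨w, hwI⟩ := by rw [h2, one_mul]
        _ = red ⟨v, hv⟩ * (red ⟨β, hβI⟩ * red ⟨w, hwI⟩) := by ring
        _ = 0 := by rw [h1, mul_zero]
    obtain ⟨w1, hw1, rfl⟩ := exists_eq_mul_of_mem_adjoin ℓ I red hΦm hΦy hLI hw hwI h3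
    apply ih D w1 hw1
    have hℓL : algebraMap A L ℓ ≠ 0 := (map_ne_zero_iff _ hinj).mpr hℓ.ne_zero
    apply mul_left_cancel₀ hℓL
    have h' : ℓ * (ℓ ^ e * D) = ℓ ^ (e + 1) * D := by ring
    rw [← map_mul, h', ← h]
    ring

/-- (V-i) The integral closure of `A` in `L` is contained in `I`. -/
theorem mem_of_isIntegral (I : Subring L) (hA : ∀ a : A, algebraMap A L a ∈ I) {y : L}
    (hyI : y ∈ I) (hgen : Algebra.adjoin K {y} = ⊤) {Φ : A[X]} (hΦm : Φ.Monic)
    (hΦy : aeval y Φ = 0) (hΦdeg : Φ.natDegree = Module.finrank K L)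
    (hunit : ∃ v : L, v ∈ I ∧ aeval y (derivative Φ) * v = 1) {x : L} (hx : IsIntegral A x) :
    x ∈ I := by
  obtain ⟨v, hv, hβv⟩ := hunit
  have h1 := aeval_derivative_mul_mem_adjoin hgen hΦm hΦy hΦdeg hx
  have h2 : aeval y (derivative Φ) * x ∈ I := mem_of_mem_adjoin I hA hyI h1
  have h3 : x = v * (aeval y (derivative Φ) * x) := by
    rw [← mul_assoc, mul_comm v, hβv, one_mul]
  rw [h3]
  exact I.mul_mem hv h2

/-- (V-ii), version with an explicit `ℓ`-adic factorisation hypothesis instead of `WfDvdMonoid A`.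
An element of the integral closure of `A` in `L` whose reduction vanishes is `ℓ` times an element
of the integral closure. -/
theorem exists_eq_mul_of_red_eq_zero' (ℓ : A) (hℓ : Prime ℓ)
    (hfac : ∀ a : A, a ≠ 0 → ∃ (e : ℕ) (D : A), ¬ ℓ ∣ D ∧ a = ℓ ^ e * D) (I : Subring L)
    (red : I →+* κ) (hredℓ : ∀ h : algebraMap A L ℓ ∈ I, red ⟨_, h⟩ = 0)
    (hA : ∀ a : A, algebraMap A L a ∈ I) {y : L} (hyI : y ∈ I)
    (hgen : Algebra.adjoin K {y} = ⊤) {Φ : A[X]} (hΦm : Φ.Monic) (hΦy : aeval y Φ = 0)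
    (hΦdeg : Φ.natDegree = Module.finrank K L)
    (hunit : ∃ v : L, v ∈ I ∧ aeval y (derivative Φ) * v = 1)
    (hLI : ∀ P : A[X], P.natDegree < Φ.natDegree → ∀ hP : aeval y P ∈ I,
      red ⟨_, hP⟩ = 0 → ∀ i, ℓ ∣ P.coeff i)
    {x : L} (hx : IsIntegral A x) (hxI : x ∈ I) (h0 : red ⟨x, hxI⟩ = 0) :
    ∃ z : L, IsIntegral A z ∧ x = algebraMap A L ℓ * z := by
  obtain ⟨v, hv, hβv⟩ := hunit
  have hyA : IsIntegral A y := ⟨Φ, hΦm, by rw [← aeval_def]; exact hΦy⟩
  have hβmem : aeval y (derivative Φ) ∈ Algebra.adjoin A {y} := aeval_mem_adjoin_singleton A y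
  have hb := aeval_derivative_mul_mem_adjoin hgen hΦm hΦy hΦdeg hx
  generalize aeval y (derivative Φ) = β at hβv hβmem hb
  have hβI : β ∈ I := mem_of_mem_adjoin I hA hyI hβmem
  have hβ0 : β ≠ 0 := by
    intro h
    rw [h, zero_mul] at hβv
    exact zero_ne_one hβv
  have hinjL : Function.Injective (algebraMap A L) := algebraMap_injective_of_tower K
  have hℓL : algebraMap A L ℓ ≠ 0 := (map_ne_zero_iff _ hinjL).mpr hℓ.ne_zero
  -- `b = β x` is divisible by `ℓ` in `A[y]`
  have hbI : β * x ∈ I := I.mul_mem hβI hxI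
  have hb0 : red ⟨β * x, hbI⟩ = 0 := by
    have : (⟨β * x, hbI⟩ : I) = ⟨β, hβI⟩ * ⟨x, hxI⟩ := rfl
    rw [this, map_mul, h0, mul_zero]
  obtain ⟨b', hb', hbb'⟩ := exists_eq_mul_of_mem_adjoin ℓ I red hΦm hΦy hLI hb hbI hb0
  -- the constant term of the minimal polynomial of `β` is a nonzero multiple of `β` in `A[y]`
  have hβA : IsIntegral A β := adjoin_le_integralClosure hyA hβmem
  have hβK : IsIntegral K β := hβA.tower_top
  have hm0 : (minpoly A β).coeff 0 ≠ 0 := by
    have h := minpoly.coeff_zero_ne_zero hβK hβ0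
    rw [minpoly.isIntegrallyClosed_eq_field_fractions' K hβA, coeff_map] at h
    intro h'
    rw [h', map_zero] at h
    exact h rfl
  obtain ⟨w0, hw0, hβw0⟩ : ∃ w0 ∈ Algebra.adjoin A {y},
      β * w0 = algebraMap A L ((minpoly A β).coeff 0) := by
    refine ⟨- aeval β (minpoly A β).divX, ?_, ?_⟩
    · apply neg_mem
      have h := Subalgebra.aeval_coe (Algebra.adjoin A {y}) ⟨β, hβmem⟩ (minpoly A β).divX
      rw [h]
      exact Subtype.property _
    · have h := minpoly.aeval A β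
      rw [← divX_mul_X_add (minpoly A β), map_add, map_mul, aeval_X, aeval_C] at h
      linear_combination (-1 : L) * h
  obtain ⟨e, D, hD, hm0D⟩ := hfac _ hm0
  rw [hm0D] at hβw0
  obtain ⟨w', hw', hβw'⟩ := exists_mul_eq_of_mul_eq_pow_mul ℓ hℓ I red hredℓ hA hyI hΦm hΦy hLI
    hinjL hβmem hv hβv e D w0 hw0 hβw0
  -- `z = x / ℓ`
  refine ⟨(algebraMap A L ℓ)⁻¹ * x, ?_, by rw [← mul_assoc, mul_inv_cancel₀ hℓL, one_mul]⟩
  have hβz : β * ((algebraMap A L ℓ)⁻¹ * x) = b' := by
    rw [mul_left_comm, hbb', ← mul_assoc, inv_mul_cancel₀ hℓL, one_mul]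
  apply isIntegral_of_mul_isIntegral K hℓ hD
  · rw [← mul_assoc, mul_inv_cancel₀ hℓL, one_mul]
    exact hx
  · have h : algebraMap A L D * ((algebraMap A L ℓ)⁻¹ * x) = w' * b' := by
      rw [← hβw', ← hβz]
      ring
    rw [h]
    exact (adjoin_le_integralClosure hyA hw').mul (adjoin_le_integralClosure hyA hb')

/-- (V-ii) An element of the integral closure of `A` in `L` whose reduction vanishes is `ℓ` times
an element of the integral closure. -/
theorem exists_eq_mul_of_red_eq_zero [WfDvdMonoid A] (ℓ : A) (hℓ : Prime ℓ) (I : Subring L)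
    (red : I →+* κ) (hredℓ : ∀ h : algebraMap A L ℓ ∈ I, red ⟨_, h⟩ = 0)
    (hA : ∀ a : A, algebraMap A L a ∈ I) {y : L} (hyI : y ∈ I)
    (hgen : Algebra.adjoin K {y} = ⊤) {Φ : A[X]} (hΦm : Φ.Monic) (hΦy : aeval y Φ = 0)
    (hΦdeg : Φ.natDegree = Module.finrank K L)
    (hunit : ∃ v : L, v ∈ I ∧ aeval y (derivative Φ) * v = 1)
    (hLI : ∀ P : A[X], P.natDegree < Φ.natDegree → ∀ hP : aeval y P ∈ I,
      red ⟨_, hP⟩ = 0 → ∀ i, ℓ ∣ P.coeff i)
    {x : L} (hx : IsIntegral A x) (hxI : x ∈ I) (h0 : red ⟨x, hxI⟩ = 0) :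
    ∃ z : L, IsIntegral A z ∧ x = algebraMap A L ℓ * z :=
  exists_eq_mul_of_red_eq_zero' ℓ hℓ
    (fun _ ha => WfDvdMonoid.max_power_factor ha hℓ.irreducible)
    I red hredℓ hA hyI hgen hΦm hΦy hΦdeg hunit hLI hx hxI h0

end Main

end Fermat.Agent.Igusa.V1
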