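/-
S28 project (helper4): ring-theoretic facts on `ℤ_(ℓ) = GaloisRep.ratLocalizedAt ℓ` and `ℤ_(ℓ)[X]`
needed to instantiate the abstract engine `Igusa/IntegralAbstract.lean` with `A := ℤ_(ℓ)[X]`:
`ℤ_(ℓ)` is the localization of `ℤ` at `(ℓ)`, hence a discrete valuation ring; `ℓ` is a prime
element of `ℤ_(ℓ)` and of `ℤ_(ℓ)[X]`; `ℤ_(ℓ)[X]` is a UFD (so integrally closed, `WfDvdMonoid`).
-/
import Mathlib
import Fermat.Agent.Igusa.Defs
import Fermat.Agent.Igusa.ZlResidue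

namespace Fermat.Agent.Igusa.ZlPoly

open Polynomial

variable (ℓ : ℕ) [hℓ : Fact ℓ.Prime]

/-- `b⁻¹ ∈ ℤ_(ℓ)` for an integer `b` prime to `ℓ`. -/
theorem inv_intCast_mem {b : ℤ} (hb : ¬ (ℓ : ℤ) ∣ b) :
    ((b : ℚ))⁻¹ ∈ GaloisRep.ratLocalizedAt ℓ := by
  obtain ⟨n, rfl | rfl⟩ := Int.eq_nat_or_neg b
  · have hn : ¬ ℓ ∣ n := fun h => hb (Int.natCast_dvd_natCast.mpr h)
    have h1 := inv_natCast_mem_ratLocalizedAt hℓ.out hn
    exact_mod_cast h1
  · have hn : ¬ ℓ ∣ n := fun h => hb ((Int.natCast_dvd_natCast.mpr h).neg_right)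
    have h1 := inv_natCast_mem_ratLocalizedAt hℓ.out hn
    push_cast
    rw [inv_neg]
    exact neg_mem h1

omit hℓ in
/-- the numerator/denominator presentation in `ℤ_(ℓ)`. -/
theorem mul_den_eq_num (q : ↥(GaloisRep.ratLocalizedAt ℓ)) :
    q * (((q : ℚ).den : ℤ) : ↥(GaloisRep.ratLocalizedAt ℓ)) =
      (((q : ℚ).num : ℤ) : ↥(GaloisRep.ratLocalizedAt ℓ)) := by
  apply Subtype.ext
  push_cast
  exact Rat.mul_den_eq_num (q : ℚ)

theorem not_dvd_den (q : ↥(GaloisRep.ratLocalizedAt ℓ)) : ¬ (ℓ : ℤ) ∣ ((q : ℚ).den : ℤ) := by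
  intro h
  have h1 : ℓ ∣ (q : ℚ).den := Int.natCast_dvd_natCast.mp h
  have h2 : Nat.gcd (q : ℚ).den ℓ = 1 := q.2
  rw [Nat.gcd_eq_right h1] at h2
  exact hℓ.out.one_lt.ne' h2

instance primeIdeal_isPrime : (Ideal.span {(ℓ : ℤ)}).IsPrime :=
  (Ideal.span_singleton_prime (by exact_mod_cast hℓ.out.ne_zero)).mpr
    (Nat.prime_iff_prime_int.mp hℓ.out)

/-- `ℤ_(ℓ)` is the localization of `ℤ` at the prime ideal `(ℓ)`. -/
instance isLocalization_atPrime :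
    IsLocalization.AtPrime ↥(GaloisRep.ratLocalizedAt ℓ) (Ideal.span {(ℓ : ℤ)}) := by
  rw [IsLocalization.AtPrime, isLocalization_iff]
  refine ⟨?_, ?_, ?_⟩
  · rintro ⟨y, hy⟩
    have hy' : ¬ (ℓ : ℤ) ∣ y := fun h => hy (Ideal.mem_span_singleton.mpr h)
    have hy0 : (y : ℚ) ≠ 0 := by
      intro h0
      apply hy'
      have : y = 0 := by exact_mod_cast h0
      rw [this]
      exact dvd_zero _
    refine IsUnit.of_mul_eq_one ⟨((y : ℚ))⁻¹, inv_intCast_mem ℓ hy'⟩ ?_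
    apply Subtype.ext
    change ((algebraMap ℤ ↥(GaloisRep.ratLocalizedAt ℓ) y : ↥(GaloisRep.ratLocalizedAt ℓ)) : ℚ) *
      ((y : ℚ))⁻¹ = 1
    rw [eq_intCast, Subring.coe_intCast, mul_inv_cancel₀ hy0]
  · intro z
    refine ⟨⟨(z : ℚ).num, ⟨((z : ℚ).den : ℤ), ?_⟩⟩, ?_⟩
    · intro h
      exact not_dvd_den ℓ z (Ideal.mem_span_singleton.mp h)
    · simp only [eq_intCast]
      exact mul_den_eq_num ℓ z
  · intro x y hxy
    refine ⟨1, ?_⟩
    have h : ((x : ↥(GaloisRep.ratLocalizedAt ℓ)) : ℚ) = ((y : ↥(GaloisRep.ratLocalizedAt ℓ)) : ℚ) := by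
      rw [eq_intCast, eq_intCast] at hxy
      rw [hxy]
    rw [Subring.coe_intCast, Subring.coe_intCast] at h
    have : x = y := by exact_mod_cast h
    rw [this]

instance isDiscreteValuationRing : IsDiscreteValuationRing ↥(GaloisRep.ratLocalizedAt ℓ) :=
  IsLocalization.AtPrime.isDiscreteValuationRing_of_dedekind_domain ℤ
    (P := Ideal.span {(ℓ : ℤ)})
    (by
      rw [Ne, Ideal.span_singleton_eq_bot]
      exact_mod_cast hℓ.out.ne_zero)
    ↥(GaloisRep.ratLocalizedAt ℓ)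

/-- `ℓ` is a prime element of `ℤ_(ℓ)`. -/
theorem prime_natCast : Prime ((ℓ : ℕ) : ↥(GaloisRep.ratLocalizedAt ℓ)) := by
  have h0 : ((ℓ : ℕ) : ↥(GaloisRep.ratLocalizedAt ℓ)) ≠ 0 := by
    intro h
    have h' := congrArg (Subtype.val) h
    rw [Subring.coe_natCast, Subring.coe_zero] at h'
    exact hℓ.out.ne_zero (by exact_mod_cast h')
  rw [← Ideal.span_singleton_prime h0]
  have h1 := IsLocalization.AtPrime.map_eq_maximalIdeal (Ideal.span {(ℓ : ℤ)})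
    ↥(GaloisRep.ratLocalizedAt ℓ)
  rw [Ideal.map_span, Set.image_singleton, eq_intCast, Int.cast_natCast] at h1
  rw [h1]
  infer_instance

/-- `ℓ` is a prime element of `ℤ_(ℓ)[X]`. -/
theorem prime_C_natCast : Prime (C ((ℓ : ℕ) : ↥(GaloisRep.ratLocalizedAt ℓ))) :=
  Polynomial.prime_C_iff.mpr (prime_natCast ℓ)

example : UniqueFactorizationMonoid ↥(GaloisRep.ratLocalizedAt ℓ) := inferInstance
example : UniqueFactorizationMonoid (↥(GaloisRep.ratLocalizedAt ℓ))[X] := inferInstance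
example : IsIntegrallyClosed (↥(GaloisRep.ratLocalizedAt ℓ))[X] := inferInstance
example : WfDvdMonoid (↥(GaloisRep.ratLocalizedAt ℓ))[X] := inferInstance
example : IsDomain (↥(GaloisRep.ratLocalizedAt ℓ))[X] := inferInstance

/-! ### Reduction of polynomials modulo a principal kernel (generic) -/

section Generic

variable {R S : Type*} [CommRing R] [CommRing S] (ρ : R →+* S) (π : R)

/-- If `ρ π = 0` and `ker ρ ⊆ (π)`, a polynomial reduces to `0` iff it is divisible by `π`. -/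
theorem map_eq_zero_iff_C_dvd (h1 : ρ π = 0) (h2 : ∀ r, ρ r = 0 → π ∣ r) (P : R[X]) :
    P.map ρ = 0 ↔ C π ∣ P := by
  rw [C_dvd_iff_dvd_coeff, Polynomial.ext_iff]
  constructor
  · intro h i
    have := h i
    rw [coeff_map, coeff_zero] at this
    exact h2 _ this
  · intro h i
    obtain ⟨c, hc⟩ := h i
    rw [coeff_map, coeff_zero, hc, map_mul, h1, zero_mul]

/-- Two-variable version: `P ∈ R[X][X]` reduces to `0` iff all its coefficients (in `R[X]`) are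
divisible by `π`. -/
theorem map_mapRingHom_eq_zero_iff (h1 : ρ π = 0) (h2 : ∀ r, ρ r = 0 → π ∣ r) (P : R[X][X]) :
    P.map (Polynomial.mapRingHom ρ) = 0 ↔ ∀ i, C π ∣ P.coeff i := by
  rw [Polynomial.ext_iff]
  constructor
  · intro h i
    have := h i
    rw [coeff_map, coeff_zero, Polynomial.coe_mapRingHom] at this
    exact (map_eq_zero_iff_C_dvd ρ π h1 h2 _).mp this
  · intro h i
    rw [coeff_map, coeff_zero, Polynomial.coe_mapRingHom]
    exact (map_eq_zero_iff_C_dvd ρ π h1 h2 _).mpr (h i)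

/-- Two-variable version, divisibility by the constant `C (C π)`. -/
theorem map_mapRingHom_eq_zero_iff_C_C_dvd (h1 : ρ π = 0) (h2 : ∀ r, ρ r = 0 → π ∣ r)
    (P : R[X][X]) : P.map (Polynomial.mapRingHom ρ) = 0 ↔ C (C π) ∣ P := by
  rw [map_mapRingHom_eq_zero_iff ρ π h1 h2, C_dvd_iff_dvd_coeff]

end Generic

/-! ### The concrete reduction `zlResidue ℓ : ℤ_(ℓ) → 𝔽_ℓ` -/

theorem zlResidue_natCast_self : zlResidue ℓ ((ℓ : ℕ) : ↥(GaloisRep.ratLocalizedAt ℓ)) = 0 :=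
  zlResidue_prime ℓ

theorem dvd_of_zlResidue_eq_zero (r : ↥(GaloisRep.ratLocalizedAt ℓ)) (h : zlResidue ℓ r = 0) :
    ((ℓ : ℕ) : ↥(GaloisRep.ratLocalizedAt ℓ)) ∣ r := by
  obtain ⟨s, hs⟩ := exists_eq_mul_of_zlResidue_eq_zero ℓ h
  exact ⟨s, hs⟩

/-- `P ∈ ℤ_(ℓ)[X]` reduces to `0` mod `ℓ` iff it is divisible by `ℓ`. -/
theorem map_zlResidue_eq_zero_iff (P : (↥(GaloisRep.ratLocalizedAt ℓ))[X]) :
    P.map (zlResidue ℓ) = 0 ↔ C ((ℓ : ℕ) : ↥(GaloisRep.ratLocalizedAt ℓ)) ∣ P :=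
  map_eq_zero_iff_C_dvd _ _ (zlResidue_natCast_self ℓ) (dvd_of_zlResidue_eq_zero ℓ) P

/-- `P ∈ ℤ_(ℓ)[X][X]` reduces to `0` mod `ℓ` iff all its coefficients are divisible by `ℓ`. -/
theorem map_mapRingHom_zlResidue_eq_zero_iff (P : (↥(GaloisRep.ratLocalizedAt ℓ))[X][X]) :
    P.map (Polynomial.mapRingHom (zlResidue ℓ)) = 0 ↔
      ∀ i, C ((ℓ : ℕ) : ↥(GaloisRep.ratLocalizedAt ℓ)) ∣ P.coeff i :=
  map_mapRingHom_eq_zero_iff _ _ (zlResidue_natCast_self ℓ) (dvd_of_zlResidue_eq_zero ℓ) P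

end Fermat.Agent.Igusa.ZlPoly
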