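import Mathlib
import Fermat.Agent.Igusa.Defs
import Fermat.Agent.Igusa.ChartBridge
import Fermat.Agent.Igusa.IntegralAbstract
import Fermat.Agent.Igusa.ZlPoly
import Fermat.Agent.Igusa.FieldPart

/-!
# Igusa / V2: from the data `H(u, yu, Φ)` to `ℓ`-integrality and saturation of the chart algebra
-/

set_option autoImplicit false
set_option linter.unusedSectionVars false
set_option linter.style.haveILetI false

open Polynomial ModularCurve GaloisRep

namespace Fermat.Agent.Igusa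

section Main

variable (ℓ : ℕ) [hℓ : Fact ℓ.Prime]

set_option quotPrecheck false in
local notation "Zl" => ↥(GaloisRep.ratLocalizedAt ℓ)

variable {F : Type*} [Field F] [CharZero F] [Algebra ↥(GaloisRep.ratLocalizedAt ℓ) F]
  [IsScalarTower ↥(GaloisRep.ratLocalizedAt ℓ) ℚ F]
  (ι : F →+* LaurentSeries ℚ)
  (hι : ∀ r : ↥(GaloisRep.ratLocalizedAt ℓ),
    ι (algebraMap ↥(GaloisRep.ratLocalizedAt ℓ) F r) = HahnSeries.C (r : ℚ))

include hι

theorem iota_aeval_zl (u : F) (uZ : LaurentSeries Zl)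
    (hu : coeffMap (ratLocalizedAt ℓ).subtype uZ = ι u) (p : Zl[X]) :
    ι (aeval u p) = coeffMap (ratLocalizedAt ℓ).subtype (aeval uZ p) := by
  rw [coeffMap_aeval, hu, aeval_def, aeval_def, hom_eval₂, eval₂_map]
  congr 1
  refine RingHom.ext fun r => ?_
  simp only [RingHom.comp_apply, hι, algebraMap_laurent_eq_C]
  rfl

theorem iota_eval₂_zl (u yu : F) (uZ yZ : LaurentSeries Zl)
    (hu : coeffMap (ratLocalizedAt ℓ).subtype uZ = ι u)
    (hy : coeffMap (ratLocalizedAt ℓ).subtype yZ = ι yu) (P : Zl[X][X]) :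
    ι (eval₂ ((aeval u : Zl[X] →ₐ[Zl] F) : Zl[X] →+* F) yu P) =
      coeffMap (ratLocalizedAt ℓ).subtype
        ((P.map ((aeval uZ : Zl[X] →ₐ[Zl] LaurentSeries Zl) : Zl[X] →+* LaurentSeries Zl)).eval
          yZ) := by
  rw [eval_map, hom_eval₂, hom_eval₂, hy]
  congr 1
  refine RingHom.ext fun p => ?_
  exact iota_aeval_zl ℓ ι hι u uZ hu p

omit hι in
theorem iota_aeval_rat (u : F) (p : ℚ[X]) : ι (aeval u p) = aeval (ι u) p := by
  rw [aeval_def, aeval_def, hom_eval₂]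
  congr 1
  exact Subsingleton.elim _ _

omit hι in
theorem aeval_map_zl_rat (u : F) (p : Zl[X]) :
    aeval u (p.map (algebraMap Zl ℚ)) = aeval u p :=
  aeval_map_algebraMap ℚ u p

omit hι in
/-- a rational polynomial evaluated at `u` is a fraction of integral polynomials evaluated
at `u`. -/
theorem exists_integer_multiple_aeval (u : F) (p : ℚ[X]) :
    ∃ (b : Zl) (p' : Zl[X]), b ≠ 0 ∧ aeval u p' = algebraMap Zl F b * aeval u p := by
  obtain ⟨b, hb, hp'⟩ := IsLocalization.integerNormalization_spec (nonZeroDivisors Zl) p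
  refine ⟨b, IsLocalization.integerNormalization (nonZeroDivisors Zl) p,
    nonZeroDivisors.ne_zero hb, ?_⟩
  rw [← aeval_map_zl_rat ℓ u, hp', Algebra.smul_def, map_mul]
  congr 1
  rw [IsScalarTower.algebraMap_apply Zl ℚ ℚ[X], ← Polynomial.C_eq_algebraMap, aeval_C,
    ← IsScalarTower.algebraMap_apply]

/-- **The bridge**: from the data `H(u, yu, Φ)` to `ℓ`-integrality (c1) and saturation (c2) of the
integral closure of `ℤ_(ℓ)[u]` in `F`. -/
theorem chart_saturated_generic (u yu : F) (uZ yZ : LaurentSeries Zl)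
    (hu : coeffMap (ratLocalizedAt ℓ).subtype uZ = ι u)
    (hy : coeffMap (ratLocalizedAt ℓ).subtype yZ = ι yu)
    (htr : Transcendental ℚ (ι u)) (Φ : Zl[X][X]) (hΦm : Φ.Monic)
    (hroot : (Φ.map ((aeval uZ : Zl[X] →ₐ[Zl] LaurentSeries Zl) : Zl[X] →+* LaurentSeries Zl)).eval
      yZ = 0)
    (hgen : ∀ x : F, ∃ (Q : ℚ[X]) (c : ℕ → ℚ[X]), Q ≠ 0 ∧
      aeval (ι u) Q * ι x = ∑ i ∈ Finset.range Φ.natDegree, aeval (ι u) (c i) * ι yu ^ i)
    (hli : ∀ P : (ZMod ℓ)[X][X], P.natDegree < Φ.natDegree →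
      (P.map ((aeval (coeffMap (zlResidue ℓ) uZ) : (ZMod ℓ)[X] →ₐ[ZMod ℓ] LaurentSeries (ZMod ℓ)) :
        (ZMod ℓ)[X] →+* LaurentSeries (ZMod ℓ))).eval (coeffMap (zlResidue ℓ) yZ) = 0 → P = 0)
    (hunit : ∃ vZ : LaurentSeries Zl,
      (Φ.derivative.map ((aeval uZ : Zl[X] →ₐ[Zl] LaurentSeries Zl) :
        Zl[X] →+* LaurentSeries Zl)).eval yZ * vZ = 1) :
    (∀ x : F, IsIntegral (Algebra.adjoin Zl {u}) x → ∀ n, (ι x).coeff n ∈ ratLocalizedAt ℓ) ∧
    (∀ x : F, IsIntegral (Algebra.adjoin Zl {u}) x →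
      (∀ n, ∃ c ∈ ratLocalizedAt ℓ, (ι x).coeff n = (ℓ : ℚ) * c) →
      ∃ y : F, IsIntegral (Algebra.adjoin Zl {u}) y ∧ x = (ℓ : F) * y) := by
  classical
  set φ : Zl[X] →+* F := ((aeval u : Zl[X] →ₐ[Zl] F) : Zl[X] →+* F) with hφ
  have hφι : ∀ p : Zl[X], ι (φ p) = coeffMap (ratLocalizedAt ℓ).subtype (aeval uZ p) :=
    fun p => iota_aeval_zl ℓ ι hι u uZ hu p
  have hφinj : Function.Injective φ := by
    rw [injective_iff_map_eq_zero]
    intro p hp
    have h1 : aeval (ι u) (p.map (algebraMap Zl ℚ)) = 0 := by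
      rw [← iota_aeval_rat (ι := ι), aeval_map_zl_rat]
      show ι (φ p) = 0
      rw [hp, map_zero]
    have h2 := (transcendental_iff.mp htr) _ h1
    exact (Polynomial.map_eq_zero_iff (FaithfulSMul.algebraMap_injective Zl ℚ)).mp h2
  letI algAF : Algebra Zl[X] F := φ.toAlgebra
  haveI : FaithfulSMul Zl[X] F := (faithfulSMul_iff_algebraMap_injective _ _).mpr hφinj
  letI algKF : Algebra (FractionRing Zl[X]) F := FractionRing.liftAlgebra Zl[X] F
  haveI : IsScalarTower Zl[X] (FractionRing Zl[X]) F :=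
    FractionRing.isScalarTower_liftAlgebra Zl[X] F
  have hA : ∀ a : Zl[X], algebraMap Zl[X] F a ∈ intSub ℓ ι :=
    fun a => ⟨aeval uZ a, (hφι a).symm⟩
  have hyI : yu ∈ intSub ℓ ι := ⟨yZ, hy⟩
  have hev : ∀ P : Zl[X][X], ι (aeval yu P) = coeffMap (ratLocalizedAt ℓ).subtype
      ((P.map ((aeval uZ : Zl[X] →ₐ[Zl] LaurentSeries Zl) : Zl[X] →+* LaurentSeries Zl)).eval
        yZ) := fun P => iota_eval₂_zl ℓ ι hι u yu uZ yZ hu hy P
  have hΦy : aeval yu Φ = 0 := by
    apply ι.injective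
    rw [hev, hroot, map_zero, map_zero]
  have hCℓ : algebraMap Zl[X] F (C (ℓ : Zl)) = (ℓ : F) := by
    show (aeval u : Zl[X] →ₐ[Zl] F) (C (ℓ : Zl)) = (ℓ : F)
    rw [aeval_C, map_natCast]
  have hℓF : (ℓ : F) ≠ 0 := Nat.cast_ne_zero.mpr hℓ.out.ne_zero
  -- the unit hypothesis
  have hunitF : ∃ v : F, v ∈ intSub ℓ ι ∧ aeval yu (derivative Φ) * v = 1 := by
    obtain ⟨vZ, hvZ⟩ := hunit
    have h1 : ι (aeval yu (derivative Φ)) * coeffMap (ratLocalizedAt ℓ).subtype vZ = 1 := by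
      rw [hev, ← map_mul, hvZ, map_one]
    have hw0 : aeval yu (derivative Φ) ≠ 0 := by
      intro h
      rw [h, map_zero, zero_mul] at h1
      exact zero_ne_one h1
    refine ⟨(aeval yu (derivative Φ))⁻¹, ⟨vZ, ?_⟩, mul_inv_cancel₀ hw0⟩
    rw [map_inv₀]
    exact eq_inv_of_mul_eq_one_right h1
  -- reduction of `ℓ`
  have hredℓ : ∀ h : algebraMap Zl[X] F (C (ℓ : Zl)) ∈ intSub ℓ ι,
      intRed ℓ ι ⟨_, h⟩ = 0 := by
    intro h
    rw [intRed_eq h (z := aeval uZ (C (ℓ : Zl))) (hφι _).symm, aeval_C, algebraMap_laurent_eq_C,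
      coeffMap_C_laurent, zlResidue_prime, map_zero]
  -- linear independence mod `ℓ`
  have hLI : ∀ P : Zl[X][X], P.natDegree < Φ.natDegree → ∀ hP : aeval yu P ∈ intSub ℓ ι,
      intRed ℓ ι ⟨_, hP⟩ = 0 → ∀ i, C (ℓ : Zl) ∣ P.coeff i := by
    intro P hdeg hP hred i
    rw [intRed_eq hP (hev P).symm, coeffMap_eval_map_aeval] at hred
    have h0 := hli (P.map (mapRingHom (zlResidue ℓ)))
      (lt_of_le_of_lt natDegree_map_le hdeg) hred
    rw [← ZlPoly.map_zlResidue_eq_zero_iff]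
    have := congrArg (fun Q => Q.coeff i) h0
    simpa [coeff_map] using this
  -- linear independence in characteristic zero
  have hCℓ0 : (C (ℓ : Zl) : Zl[X]) ≠ 0 := (ZlPoly.prime_C_natCast ℓ).ne_zero
  have hpow : ∀ k : ℕ, ∀ P : Zl[X][X], P.natDegree < Φ.natDegree → aeval yu P = 0 →
      ∀ i, (C (ℓ : Zl) : Zl[X]) ^ k ∣ P.coeff i := by
    intro k
    induction k with
    | zero => intro P _ _ i; simp
    | succ k ih =>
      intro P hdeg hP i
      have hPI : aeval yu P ∈ intSub ℓ ι := by rw [hP]; exact Subring.zero_mem _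
      have hred0 : intRed ℓ ι ⟨_, hPI⟩ = 0 := by
        have : (⟨aeval yu P, hPI⟩ : intSub ℓ ι) = 0 := Subtype.ext hP
        rw [this, map_zero]
      obtain ⟨P₁, hP₁⟩ := (Polynomial.C_dvd_iff_dvd_coeff _ _).mpr (hLI P hdeg hPI hred0)
      have hP₁0 : aeval yu P₁ = 0 := by
        have h := hP
        rw [hP₁, map_mul, aeval_C, hCℓ] at h
        exact (mul_eq_zero.mp h).resolve_left hℓF
      have hdeg₁ : P₁.natDegree < Φ.natDegree := by
        rw [hP₁, natDegree_C_mul hCℓ0] at hdeg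
        exact hdeg
      rw [hP₁, coeff_C_mul, pow_succ']
      exact mul_dvd_mul_left _ (ih P₁ hdeg₁ hP₁0 i)
  have hli0 : ∀ P : Zl[X][X], P.natDegree < Φ.natDegree → aeval yu P = 0 → P = 0 := by
    intro P hdeg hP
    refine Polynomial.ext fun i => ?_
    rw [coeff_zero]
    by_contra hne
    have hirr : Irreducible (C (ℓ : Zl) : Zl[X]) := (ZlPoly.prime_C_natCast ℓ).irreducible
    obtain ⟨m, a, ha, hma⟩ := WfDvdMonoid.max_power_factor (α := Zl[X]) hne hirr
    have h1 := hpow (m + 1) P hdeg hP i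
    rw [hma, pow_succ] at h1
    exact ha ((mul_dvd_mul_iff_left (pow_ne_zero m hCℓ0)).mp h1)
  -- generation
  have hspan : ∀ x : F, ∃ c : ℕ → F,
      (∀ i, ∃ a b : Zl[X], b ≠ 0 ∧ algebraMap Zl[X] F b * c i = algebraMap Zl[X] F a) ∧
      x = ∑ i ∈ Finset.range Φ.natDegree, c i * yu ^ i := by
    intro x
    obtain ⟨Q, c, hQ, hx⟩ := hgen x
    have hqF : aeval u Q ≠ 0 := by
      intro h
      have h1 : aeval (ι u) Q = 0 := by rw [← iota_aeval_rat (ι := ι), h, map_zero]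
      exact hQ ((transcendental_iff.mp htr) _ h1)
    have hxF : aeval u Q * x = ∑ i ∈ Finset.range Φ.natDegree, aeval u (c i) * yu ^ i := by
      apply ι.injective
      rw [map_mul, map_sum, iota_aeval_rat (ι := ι), hx]
      refine Finset.sum_congr rfl fun i _ => ?_
      rw [map_mul, map_pow, iota_aeval_rat (ι := ι)]
    obtain ⟨b2, p2, hb2, hp2⟩ := exists_integer_multiple_aeval ℓ u Q
    refine ⟨fun i => aeval u (c i) / aeval u Q, fun i => ?_, ?_⟩
    · obtain ⟨b1, p1, hb1, hp1⟩ := exists_integer_multiple_aeval ℓ u (c i)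
      have hp20 : p2 ≠ 0 := by
        intro h
        rw [h, map_zero] at hp2
        have hb2F : algebraMap Zl F b2 ≠ 0 := by
          rw [Ne, ← map_zero (algebraMap Zl F)]
          intro h'
          apply hb2
          have hinj : Function.Injective (algebraMap Zl F) := by
            rw [IsScalarTower.algebraMap_eq Zl ℚ F]
            exact (algebraMap ℚ F).injective.comp (FaithfulSMul.algebraMap_injective Zl ℚ)
          exact hinj h'
        exact mul_ne_zero hb2F hqF hp2.symm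
      refine ⟨C b2 * p1, C b1 * p2, mul_ne_zero (by rwa [Ne, C_eq_zero]) hp20, ?_⟩
      show (aeval u : Zl[X] →ₐ[Zl] F) (C b1 * p2) * (aeval u (c i) / aeval u Q) =
        (aeval u : Zl[X] →ₐ[Zl] F) (C b2 * p1)
      rw [map_mul, map_mul, aeval_C, aeval_C, hp1, hp2]
      field_simp
    · have : x = (aeval u Q)⁻¹ * (aeval u Q * x) := by
        rw [← mul_assoc, inv_mul_cancel₀ hqF, one_mul]
      rw [this, hxF, Finset.mul_sum]
      refine Finset.sum_congr rfl fun i _ => ?_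
      show (aeval u Q)⁻¹ * (aeval u (c i) * yu ^ i) = aeval u (c i) / aeval u Q * yu ^ i
      rw [div_eq_mul_inv]
      ring
  obtain ⟨hgenK, hfin, hΦdeg⟩ := field_part (K := FractionRing Zl[X]) hΦm hΦy hspan hli0
  haveI := hfin
  have hprime : Prime (C (ℓ : Zl) : Zl[X]) := ZlPoly.prime_C_natCast ℓ
  have hc1 : ∀ x : F, IsIntegral (Algebra.adjoin Zl {u}) x → x ∈ intSub ℓ ι := by
    intro x hx
    have hxA : IsIntegral Zl[X] x := (isIntegralElem_aeval_iff u x).mp hx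
    exact V1.mem_of_isIntegral (K := FractionRing Zl[X]) (intSub ℓ ι) hA hyI hgenK hΦm hΦy hΦdeg
      hunitF hxA
  refine ⟨fun x hx n => coeff_mem_of_mem_intSub (hc1 x hx) n, fun x hx hdiv => ?_⟩
  have hxA : IsIntegral Zl[X] x := (isIntegralElem_aeval_iff u x).mp hx
  have hxI := hc1 x hx
  have h0 : intRed ℓ ι ⟨x, hxI⟩ = 0 := by
    obtain ⟨z, hz⟩ := id hxI
    rw [intRed_eq hxI hz]
    ext n
    rw [coeffMap_coeff, HahnSeries.coeff_zero]
    obtain ⟨c, hc, hcn⟩ := hdiv n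
    have : z.coeff n = (ℓ : Zl) * ⟨c, hc⟩ := by
      apply Subtype.ext
      have h1 : ((z.coeff n : Zl) : ℚ) = (ι x).coeff n := by rw [← hz]; rfl
      rw [h1, hcn]
      push_cast
      rfl
    rw [this, map_mul, zlResidue_prime, zero_mul]
  obtain ⟨z, hz, hxz⟩ := V1.exists_eq_mul_of_red_eq_zero (K := FractionRing Zl[X]) (C (ℓ : Zl))
    hprime (intSub ℓ ι) (intRed ℓ ι) hredℓ hA hyI hgenK hΦm hΦy hΦdeg hunitF hLI hxA hxI h0
  refine ⟨z, (isIntegralElem_aeval_iff u z).mpr hz, ?_⟩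
  rw [hxz, hCℓ]

end Main

end Fermat.Agent.Igusa
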