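import Fermat.Agent.Igusa.GenH3

/-!
# Igusa / GenH3Shape: `(h3)` in the literal `hgen` shape of the chart bridge (`Q ≠ 0`)
-/

set_option autoImplicit false

open Polynomial IntermediateField ModularCurve

namespace Fermat.Agent.Igusa

variable (N : ℕ) [NeZero N]

/-- `genH3_fin` in the literal `hgen` shape of the chart bridge (`Q ≠ 0`). -/
theorem genH3_fin' (h : FunctionFieldGeneration N) (Φ : ℚ[X][X]) (hΦm : Φ.Monic)
    (hΦ : (Φ.map ((aeval jq : ℚ[X] →ₐ[ℚ] LaurentSeries ℚ) : ℚ[X] →+* LaurentSeries ℚ)).eval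
      (qExpand ℚ N jq) = 0) (x : modularFunctionFieldFull N) :
    ∃ (Q : ℚ[X]) (c : ℕ → ℚ[X]), Q ≠ 0 ∧
      aeval jq Q * (x : LaurentSeries ℚ) =
        ∑ i ∈ Finset.range Φ.natDegree, aeval jq (c i) * (qExpand ℚ N jq) ^ i := by
  obtain ⟨Q, c, hQ, hc⟩ := genH3_fin N h Φ hΦm hΦ x
  exact ⟨Q, c, fun h0 => hQ (by rw [h0, map_zero]), hc⟩

/-- `genH3_inf` in the literal `hgen` shape of the chart bridge (`Q ≠ 0`). -/
theorem genH3_inf' (h : FunctionFieldGeneration N) (Φ : ℚ[X][X]) (hΦm : Φ.Monic)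
    (hΦ : (Φ.map ((aeval jq⁻¹ : ℚ[X] →ₐ[ℚ] LaurentSeries ℚ) : ℚ[X] →+* LaurentSeries ℚ)).eval
      (qExpand ℚ N jq * jq⁻¹ ^ N) = 0) (x : modularFunctionFieldFull N) :
    ∃ (Q : ℚ[X]) (c : ℕ → ℚ[X]), Q ≠ 0 ∧
      aeval jq⁻¹ Q * (x : LaurentSeries ℚ) =
        ∑ i ∈ Finset.range Φ.natDegree, aeval jq⁻¹ (c i) * (qExpand ℚ N jq * jq⁻¹ ^ N) ^ i := by
  obtain ⟨Q, c, hQ, hc⟩ := genH3_inf N h Φ hΦm hΦ x
  exact ⟨Q, c, fun h0 => hQ (by rw [h0, map_zero]), hc⟩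

end Fermat.Agent.Igusa
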