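import Mathlib

/-!
# Project S28 (Igusa), package G2: the combinatorial lemma

`A` a finite type, `a : A → ℕ`, `R ⊆ A`.  If `∑_{α ∈ R} gcd(d, a α)² = d · |R|` for all `d ∣ N`, the
same holds for `R = A`, and exactly one `α₀ ∈ A` has `N ∣ a α₀`, `α₀ ∈ R`, then `R = A`.

Proof: `m² = ∑_{e ∣ m} J₂(e)` (Jordan totient `J₂ = μ * n²`), `d = ∑_{e ∣ d} φ(e)`; with
`S_R(e) = #{α ∈ R | e ∣ a α}` the hypothesis reads `∑_{e ∣ d} (J₂(e) S_R(e) - φ(e) |R|) = 0` for all
`d ∣ N`, so `J₂(e) S_R(e) = φ(e) |R|` for all `e ∣ N` (induction).  At `e = N`: `S_R(N) = S_A(N) = 1`.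
-/

set_option autoImplicit false

open Finset

namespace Fermat.Agent.Igusa

open ArithmeticFunction in
/-- Jordan's totient `J₂ = μ * (n ↦ n²)` as an integer valued arithmetic function. -/
noncomputable def jordanTwo : ArithmeticFunction ℤ :=
  (moebius : ArithmeticFunction ℤ) * ((pow 2 : ArithmeticFunction ℕ) : ArithmeticFunction ℤ)

open ArithmeticFunction in
theorem sum_divisors_jordanTwo {m : ℕ} (_hm : 0 < m) :
    ∑ e ∈ m.divisors, jordanTwo e = (m : ℤ) ^ 2 := by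
  have h1 : ((zeta : ArithmeticFunction ℕ) : ArithmeticFunction ℤ) * jordanTwo =
      ((pow 2 : ArithmeticFunction ℕ) : ArithmeticFunction ℤ) := by
    rw [jordanTwo, ← mul_assoc, coe_zeta_mul_moebius, one_mul]
  have h2 := congrArg (fun f : ArithmeticFunction ℤ => f m) h1
  simp only [coe_zeta_mul_apply, natCoe_apply, pow_apply] at h2
  rw [h2]
  simp

/-- `gcd(d, a)² = ∑_{e ∣ d, e ∣ a} J₂(e)`. -/
theorem gcd_sq_eq_sum {d : ℕ} (hd : 0 < d) (a : ℕ) :
    ((Nat.gcd d a : ℕ) : ℤ) ^ 2 = ∑ e ∈ d.divisors, if e ∣ a then jordanTwo e else 0 := by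
  have hg : 0 < Nat.gcd d a := Nat.gcd_pos_of_pos_left a hd
  rw [← sum_divisors_jordanTwo hg, ← Finset.sum_filter]
  refine Finset.sum_congr ?_ (fun _ _ => rfl)
  ext e
  simp only [Nat.mem_divisors, Finset.mem_filter, Nat.dvd_gcd_iff]
  constructor
  · rintro ⟨⟨h1, h2⟩, _⟩
    exact ⟨⟨h1, hd.ne'⟩, h2⟩
  · rintro ⟨⟨h1, _⟩, h2⟩
    exact ⟨⟨h1, h2⟩, hg.ne'⟩

/-- If `∑_{e ∣ d} f e = 0` for all `d ∣ N` then `f d = 0` for all `d ∣ N`. -/
theorem eq_zero_of_sum_divisors_eq_zero {N : ℕ} (hN : 0 < N) (f : ℕ → ℤ)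
    (h : ∀ d, d ∣ N → ∑ e ∈ d.divisors, f e = 0) : ∀ d, d ∣ N → f d = 0 := by
  intro d
  induction d using Nat.strong_induction_on with
  | _ d ih =>
    intro hd
    have h1 := h d hd
    have hd0 : d ≠ 0 := (Nat.pos_of_dvd_of_pos hd hN).ne'
    rw [← Nat.cons_self_properDivisors hd0, Finset.sum_cons] at h1
    have h2 : ∑ e ∈ d.properDivisors, f e = 0 := by
      refine Finset.sum_eq_zero (fun e he => ?_)
      rw [Nat.mem_properDivisors] at he
      exact ih e he.2 (he.1.trans hd)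
    rw [h2, add_zero] at h1
    exact h1

section Main

variable {A : Type*} [Fintype A] [DecidableEq A]

omit [Fintype A] [DecidableEq A] in
/-- rewriting `∑_{α ∈ R} gcd(d, a α)²` through Jordan's totient -/
theorem sum_gcd_sq_eq {d : ℕ} (hd : 0 < d) (a : A → ℕ) (R : Finset A) :
    ((∑ α ∈ R, (Nat.gcd d (a α)) ^ 2 : ℕ) : ℤ) =
      ∑ e ∈ d.divisors, jordanTwo e * ((R.filter (fun α => e ∣ a α)).card : ℤ) := by
  push_cast
  simp_rw [gcd_sq_eq_sum hd]
  rw [Finset.sum_comm]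
  refine Finset.sum_congr rfl (fun e _ => ?_)
  rw [← Finset.sum_filter, Finset.sum_const, nsmul_eq_mul, mul_comm]

omit [Fintype A] [DecidableEq A] in
/-- the key identity `J₂(e) · S_R(e) = φ(e) · |R|` for all `e ∣ N` -/
theorem jordanTwo_mul_card_filter {N : ℕ} (hN : 0 < N) (a : A → ℕ) (R : Finset A)
    (hR : ∀ d, d ∣ N → ∑ α ∈ R, (Nat.gcd d (a α)) ^ 2 = d * R.card) :
    ∀ e, e ∣ N → jordanTwo e * ((R.filter (fun α => e ∣ a α)).card : ℤ) =
      (Nat.totient e : ℤ) * (R.card : ℤ) := by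
  have key := eq_zero_of_sum_divisors_eq_zero hN
    (fun e => jordanTwo e * ((R.filter (fun α => e ∣ a α)).card : ℤ) -
      (Nat.totient e : ℤ) * (R.card : ℤ)) ?_
  · intro e he
    have := key e he
    exact sub_eq_zero.mp this
  · intro d hd
    have hd0 : 0 < d := Nat.pos_of_dvd_of_pos hd hN
    rw [Finset.sum_sub_distrib, ← sum_gcd_sq_eq hd0, hR d hd, ← Finset.sum_mul]
    have h2 : ∑ e ∈ d.divisors, (Nat.totient e : ℤ) = (d : ℤ) := by
      exact_mod_cast Nat.sum_totient d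
    rw [h2]
    push_cast
    ring

omit [DecidableEq A] in
/-- **The combinatorial lemma** (step (7)). -/
theorem eq_univ_of_sum_gcd_sq (N : ℕ) (hN : 0 < N) (a : A → ℕ) (α₀ : A) (ha₀ : N ∣ a α₀)
    (huniq : ∀ α, N ∣ a α → α = α₀) (R : Finset A) (hα₀ : α₀ ∈ R)
    (hR : ∀ d, d ∣ N → ∑ α ∈ R, (Nat.gcd d (a α)) ^ 2 = d * R.card)
    (hA : ∀ d, d ∣ N → ∑ α, (Nat.gcd d (a α)) ^ 2 = d * Fintype.card A) :
    R = Finset.univ := by
  have h1 := jordanTwo_mul_card_filter hN a R hR N dvd_rfl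
  have h2 := jordanTwo_mul_card_filter hN a Finset.univ
    (by simpa [Finset.card_univ] using hA) N dvd_rfl
  have hS1 : R.filter (fun α => N ∣ a α) = {α₀} := by
    ext α
    simp only [Finset.mem_filter, Finset.mem_singleton]
    constructor
    · rintro ⟨_, h⟩; exact huniq α h
    · rintro rfl; exact ⟨hα₀, ha₀⟩
  have hS2 : (Finset.univ : Finset A).filter (fun α => N ∣ a α) = {α₀} := by
    ext α
    simp only [Finset.mem_filter, Finset.mem_univ, true_and, Finset.mem_singleton]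
    constructor
    · intro h; exact huniq α h
    · rintro rfl; exact ha₀
  rw [hS1] at h1
  rw [hS2] at h2
  have hφ : (0 : ℤ) < (Nat.totient N : ℤ) := by exact_mod_cast Nat.totient_pos.mpr hN
  have h3 : (Nat.totient N : ℤ) * (R.card : ℤ) =
      (Nat.totient N : ℤ) * ((Finset.univ : Finset A).card : ℤ) := by
    rw [← h1, ← h2]
  have h4 : (R.card : ℤ) = ((Finset.univ : Finset A).card : ℤ) :=
    mul_left_cancel₀ hφ.ne' h3
  have h5 : R.card = Fintype.card A := by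
    have : R.card = (Finset.univ : Finset A).card := by exact_mod_cast h4
    rw [this, Finset.card_univ]
  exact (Finset.card_eq_iff_eq_univ R).mp h5

end Main

end Fermat.Agent.Igusa
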