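/-
Project S28 (Igusa), package G1: abstract algebra in `Ω = k((t))`.

* (a) a monic divisor `g` (over a subfield `E`) of a product of distinct linear factors
  `∏ (X - r α)` is the product of the linear factors over its own roots, and the product of the
  values `P (r α)` over those roots lies in `E` (it is a resultant);
* (b) an element of `k(J) ⊆ k((t))` which is, together with its inverse, integral over `k[J]`
  is a nonzero constant; in particular its order is `0`.

Mathlib only.
-/
import Mathlib

set_option linter.unusedSectionVars false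
set_option linter.style.haveILetI false

namespace Fermat.Agent.Igusa

open Polynomial WithZero

section Norm

variable {E Ω : Type*} [Field E] [Field Ω] (iE : E →+* Ω)
variable {A : Type*} [Fintype A] (r : A → Ω)

open Classical in
/-- the indices `α` such that `r α` is a root of `g` (mapped to `Ω`). -/
noncomputable def rootIdx (g : E[X]) : Finset A :=
  Finset.univ.filter (fun α => (g.map iE).eval (r α) = 0)

theorem mem_rootIdx {g : E[X]} {α : A} :
    α ∈ rootIdx iE r g ↔ (g.map iE).eval (r α) = 0 := by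
  classical
  simp [rootIdx]

theorem prod_X_sub_C_eq (s : Finset A) :
    ∏ α ∈ s, (X - C (r α)) = ((s.val.map r).map (fun a => X - C a)).prod := by
  rw [Multiset.map_map]
  rfl

theorem roots_map_eq (hr : Function.Injective r) {g : E[X]} (hg : g.Monic)
    (hdvd : g.map iE ∣ ∏ α : A, (X - C (r α))) :
    (g.map iE).roots = (rootIdx iE r g).val.map r := by
  have hΦ : (∏ α : A, (X - C (r α))).roots = (Finset.univ : Finset A).val.map r := by
    rw [prod_X_sub_C_eq, roots_multiset_prod_X_sub_C]
  have hΦ0 : (∏ α : A, (X - C (r α))) ≠ 0 :=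
    (monic_prod_of_monic _ _ (fun α _ => monic_X_sub_C (r α))).ne_zero
  have hle : (g.map iE).roots ≤ (Finset.univ : Finset A).val.map r :=
    hΦ ▸ roots.le_of_dvd hΦ0 hdvd
  have hnd : ((Finset.univ : Finset A).val.map r).Nodup := Finset.univ.nodup.map hr
  have hG0 : g.map iE ≠ 0 := (hg.map iE).ne_zero
  refine (Multiset.Nodup.ext (Multiset.nodup_of_le hle hnd)
    ((rootIdx iE r g).nodup.map hr)).mpr fun x => ?_
  rw [mem_roots hG0, IsRoot.def, Multiset.mem_map]
  constructor
  · intro hx
    have hx' : x ∈ (Finset.univ : Finset A).val.map r :=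
      Multiset.mem_of_le hle ((mem_roots hG0).mpr hx)
    obtain ⟨α, -, rfl⟩ := Multiset.mem_map.mp hx'
    exact ⟨α, (mem_rootIdx iE r).mpr hx, rfl⟩
  · rintro ⟨α, hα, rfl⟩
    exact (mem_rootIdx iE r).mp hα

theorem splits_map (_hr : Function.Injective r) {g : E[X]}
    (hdvd : g.map iE ∣ ∏ α : A, (X - C (r α))) : (g.map iE).Splits := by
  have hΦ0 : (∏ α : A, (X - C (r α))) ≠ 0 :=
    (monic_prod_of_monic _ _ (fun α _ => monic_X_sub_C (r α))).ne_zero
  exact Splits.of_dvd (Splits.prod fun α _ => Splits.X_sub_C (r α)) hΦ0 hdvd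

/-- (a1) a monic divisor of `∏ (X - r α)` (`r` injective) is the product over its roots. -/
theorem map_eq_prod_rootIdx (hr : Function.Injective r) {g : E[X]} (hg : g.Monic)
    (hdvd : g.map iE ∣ ∏ α : A, (X - C (r α))) :
    g.map iE = ∏ α ∈ rootIdx iE r g, (X - C (r α)) := by
  conv_lhs => rw [(splits_map iE r hr hdvd).eq_prod_roots_of_monic (hg.map iE),
    roots_map_eq iE r hr hg hdvd]
  rw [prod_X_sub_C_eq]

theorem card_rootIdx (hr : Function.Injective r) {g : E[X]} (hg : g.Monic)
    (hdvd : g.map iE ∣ ∏ α : A, (X - C (r α))) : (rootIdx iE r g).card = g.natDegree := by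
  rw [← natDegree_map (p := g) iE, (splits_map iE r hr hdvd).natDegree_eq_card_roots,
    roots_map_eq iE r hr hg hdvd, Multiset.card_map]
  rfl

/-- (a2) the product of the values of `P` at the roots of `g` is a resultant, hence lies in `E`. -/
theorem prod_eval_rootIdx_eq (hr : Function.Injective r) {g : E[X]} (hg : g.Monic)
    (hdvd : g.map iE ∣ ∏ α : A, (X - C (r α))) (P : E[X]) :
    ∏ α ∈ rootIdx iE r g, (P.map iE).eval (r α) =
      iE (resultant g P g.natDegree P.natDegree) := by
  have h := resultant_eq_prod_eval (g.map iE) (P.map iE) P.natDegree natDegree_map_le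
    (splits_map iE r hr hdvd)
  rw [natDegree_map, resultant_map_map, (hg.map iE).leadingCoeff, one_pow, one_mul,
    roots_map_eq iE r hr hg hdvd, Multiset.map_map] at h
  rw [h]
  rfl

theorem prod_eval_rootIdx_mem_range (hr : Function.Injective r) {g : E[X]} (hg : g.Monic)
    (hdvd : g.map iE ∣ ∏ α : A, (X - C (r α))) (P : E[X]) :
    ∏ α ∈ rootIdx iE r g, (P.map iE).eval (r α) ∈ iE.range :=
  ⟨_, (prod_eval_rootIdx_eq iE r hr hg hdvd P).symm⟩

end Norm

section Const

variable {k : Type*} [Field k]

/-- An element of valuation `> 1` is transcendental over a subfield of elements of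
valuation `≤ 1`. -/
theorem transcendental_of_one_lt_val {L Γ : Type*} [Field L] [Algebra k L]
    [LinearOrderedCommGroupWithZero Γ] (v : Valuation L Γ)
    (hK : ∀ a : k, v (algebraMap k L a) ≤ 1) {f : L} (hf : 1 < v f) : Transcendental k f := by
  intro halg
  letI : Algebra k v.integer :=
    ((algebraMap k L).codRestrict v.integer
      (fun a => (Valuation.mem_integer_iff _ _).mpr (hK a))).toAlgebra
  haveI : IsScalarTower k v.integer L := IsScalarTower.of_algebraMap_eq (fun _ => rfl)
  have h1 : IsIntegral v.integer f := halg.isIntegral.tower_top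
  have h2 := (Valuation.integer.integers v).mem_of_integral h1
  exact absurd ((Valuation.mem_integer_iff _ _).mp h2) (not_le.mpr hf)

theorem algebraMap_eq_C (c : k) : algebraMap k (LaurentSeries k) c = HahnSeries.C c := by
  have h1 : algebraMap k (PowerSeries k) c = PowerSeries.C c := by simp
  rw [HahnSeries.algebraMap_apply', h1, HahnSeries.ofPowerSeries_C]

/-- a Laurent series with a pole is transcendental over the constants. -/
theorem transcendental_of_order_neg {J : LaurentSeries k} (hJ : J.order < 0) :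
    Transcendental k J := by
  have hJ0 : J ≠ 0 := by
    rintro rfl
    simp at hJ
  have hf : J.coeff J.order ≠ 0 := fun h => hJ0 (HahnSeries.coeff_order_eq_zero.mp h)
  refine transcendental_of_one_lt_val (Valued.v : Valuation (LaurentSeries k) ℤᵐ⁰) ?_ ?_
  · intro a
    have := (LaurentSeries.valuation_le_iff_coeff_lt_eq_zero k (D := 0)
      (f := algebraMap k (LaurentSeries k) a)).mpr (fun m hm => by
        rw [algebraMap_eq_C, HahnSeries.C_apply, HahnSeries.coeff_single_of_ne hm.ne])
    simpa using this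
  · by_contra hle
    have h1 : Valued.v J ≤ exp (-(0 : ℤ)) := by simpa using not_lt.mp hle
    exact hf ((LaurentSeries.valuation_le_iff_coeff_lt_eq_zero k).mp h1 J.order hJ)

/-- the embedding `k(X) → k((t))`, `X ↦ J`, for `J` with a pole. -/
noncomputable def ratFuncHom (J : LaurentSeries k) (hJ : J.order < 0) :
    RatFunc k →+* LaurentSeries k :=
  IsFractionRing.lift (g := (aeval J : k[X] →ₐ[k] LaurentSeries k).toRingHom)
    ((transcendental_iff_injective).mp (transcendental_of_order_neg hJ))

theorem ratFuncHom_algebraMap (J : LaurentSeries k) (hJ : J.order < 0) (p : k[X]) :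
    ratFuncHom J hJ (algebraMap k[X] (RatFunc k) p) = aeval J p := by
  rw [ratFuncHom, IsFractionRing.lift_algebraMap]
  rfl

theorem ratFuncHom_X (J : LaurentSeries k) (hJ : J.order < 0) :
    ratFuncHom J hJ RatFunc.X = J := by
  rw [← RatFunc.algebraMap_X, ratFuncHom_algebraMap, aeval_X]

theorem ratFuncHom_C (J : LaurentSeries k) (hJ : J.order < 0) (c : k) :
    ratFuncHom J hJ (RatFunc.C c) = HahnSeries.C c := by
  rw [← RatFunc.algebraMap_C, ratFuncHom_algebraMap, aeval_C, algebraMap_eq_C]

/-- transfer of an integrality equation along `iE`. -/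
theorem isIntegral_of_eval_map_eq_zero (J : LaurentSeries k)
    (iE : RatFunc k →+* LaurentSeries k)
    (hiE : ∀ p : k[X], iE (algebraMap k[X] (RatFunc k) p) = aeval J p)
    (f : RatFunc k) {Q : k[X][X]} (hQ : Q.Monic)
    (h : (Q.map (aeval J : k[X] →ₐ[k] LaurentSeries k).toRingHom).eval (iE f) = 0) :
    IsIntegral k[X] f := by
  have hcomp : (aeval J : k[X] →ₐ[k] LaurentSeries k).toRingHom =
      iE.comp (algebraMap k[X] (RatFunc k)) := by
    refine RingHom.ext fun p => ?_
    rw [RingHom.comp_apply, hiE]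
    rfl
  rw [hcomp, ← Polynomial.map_map, eval_map, eval₂_at_apply] at h
  refine ⟨Q, hQ, ?_⟩
  rw [eval₂_eq_eval_map]
  exact iE.injective (by rw [h, map_zero])

/-- (b) an element of `k(J)` which is integral over `k[J]` together with its inverse is a nonzero
constant. -/
theorem exists_eq_C_of_integral (J : LaurentSeries k)
    (iE : RatFunc k →+* LaurentSeries k)
    (hiE : ∀ p : k[X], iE (algebraMap k[X] (RatFunc k) p) = aeval J p)
    {w : LaurentSeries k} (hw : w ∈ iE.range) (hw0 : w ≠ 0)
    {Q₁ Q₂ : k[X][X]} (hQ₁ : Q₁.Monic) (hQ₂ : Q₂.Monic)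
    (h₁ : (Q₁.map (aeval J : k[X] →ₐ[k] LaurentSeries k).toRingHom).eval w = 0)
    (h₂ : (Q₂.map (aeval J : k[X] →ₐ[k] LaurentSeries k).toRingHom).eval w⁻¹ = 0) :
    ∃ c : k, c ≠ 0 ∧ w = HahnSeries.C c := by
  obtain ⟨f, rfl⟩ := hw
  have hf0 : f ≠ 0 := by
    rintro rfl
    exact hw0 (map_zero iE)
  rw [← map_inv₀] at h₂
  have hi1 := isIntegral_of_eval_map_eq_zero J iE hiE f hQ₁ h₁
  have hi2 := isIntegral_of_eval_map_eq_zero J iE hiE f⁻¹ hQ₂ h₂
  obtain ⟨p, hp⟩ := IsIntegrallyClosed.isIntegral_iff.mp hi1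
  obtain ⟨p', hp'⟩ := IsIntegrallyClosed.isIntegral_iff.mp hi2
  have hpp : p * p' = 1 := by
    apply IsFractionRing.injective k[X] (RatFunc k)
    rw [map_mul, hp, hp', mul_inv_cancel₀ hf0, map_one]
  have hunit : IsUnit p := IsUnit.of_mul_eq_one p' hpp
  obtain ⟨c, hc, rfl⟩ := Polynomial.isUnit_iff.mp hunit
  refine ⟨c, hc.ne_zero, ?_⟩
  rw [← hp, hiE, aeval_C, algebraMap_eq_C]

theorem order_eq_zero_of_integral (J : LaurentSeries k)
    (iE : RatFunc k →+* LaurentSeries k)
    (hiE : ∀ p : k[X], iE (algebraMap k[X] (RatFunc k) p) = aeval J p)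
    {w : LaurentSeries k} (hw : w ∈ iE.range) (hw0 : w ≠ 0)
    {Q₁ Q₂ : k[X][X]} (hQ₁ : Q₁.Monic) (hQ₂ : Q₂.Monic)
    (h₁ : (Q₁.map (aeval J : k[X] →ₐ[k] LaurentSeries k).toRingHom).eval w = 0)
    (h₂ : (Q₂.map (aeval J : k[X] →ₐ[k] LaurentSeries k).toRingHom).eval w⁻¹ = 0) :
    w.order = 0 := by
  obtain ⟨c, hc, rfl⟩ := exists_eq_C_of_integral J iE hiE hw hw0 hQ₁ hQ₂ h₁ h₂
  exact HahnSeries.order_C

end Const

end Fermat.Agent.Igusa
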