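import Mathlib
import Fermat.Agent.Igusa.CoreNorm
import Fermat.Agent.Igusa.CoreComb

/-!
# Project S28 (Igusa), package G2: the abstract core `(LI)`

`k` a field, `Ω = k((t))`, `J ∈ Ω` of negative order, `r α` (`α : A`) the pairwise distinct roots of
`Φ̄ ∈ k[J][T]`, `u d α` the reduced modular units.  If `P ∈ k[J][T]` has `deg_T P < |A|` and
`P(J, r α₀) = 0` then `P = 0`.
-/

set_option autoImplicit false

open Polynomial Finset

namespace Fermat.Agent.Igusa

section Aux

variable {k : Type*} [Field k]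

/-- the evaluation hom `k[X] → k((t))`, `X ↦ J` -/
noncomputable abbrev evJ (J : LaurentSeries k) : k[X] →+* LaurentSeries k :=
  (aeval J : k[X] →ₐ[k] LaurentSeries k).toRingHom

/-- integrality over `k[J]` through an explicit monic polynomial in `k[X][T]` -/
theorem exists_monic_of_isIntegral_range (J : LaurentSeries k) {w : LaurentSeries k}
    (h : IsIntegral (aeval J : k[X] →ₐ[k] LaurentSeries k).range w) :
    ∃ Q : k[X][X], Q.Monic ∧ (Q.map (evJ J)).eval w = 0 := by
  obtain ⟨p, hp, hpw⟩ := h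
  set rr : k[X] →+* (aeval J : k[X] →ₐ[k] LaurentSeries k).range :=
    (aeval J : k[X] →ₐ[k] LaurentSeries k).rangeRestrict.toRingHom with hrr
  have hsurj : Function.Surjective rr :=
    (aeval J : k[X] →ₐ[k] LaurentSeries k).rangeRestrict_surjective
  have hlift : p ∈ Polynomial.lifts rr := by
    rw [Polynomial.mem_lifts]
    exact Polynomial.map_surjective rr hsurj p
  obtain ⟨q, hq, -, hqm⟩ := Polynomial.lifts_and_degree_eq_and_monic hlift hp
  refine ⟨q, hqm, ?_⟩
  have hcomp : evJ J = (algebraMap (aeval J : k[X] →ₐ[k] LaurentSeries k).range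
      (LaurentSeries k)).comp rr := by
    ext x <;> rfl
  rw [hcomp, ← Polynomial.map_map, hq, Polynomial.eval_map]
  exact hpw

/-- the order of a finite product of nonzero Laurent series -/
theorem order_prod_eq_sum {ι : Type*} (s : Finset ι) (f : ι → LaurentSeries k)
    (h : ∀ i ∈ s, f i ≠ 0) : (∏ i ∈ s, f i).order = ∑ i ∈ s, (f i).order := by
  classical
  induction s using Finset.induction_on with
  | empty => simp
  | insert i s hi ih =>
    rw [Finset.prod_insert hi, Finset.sum_insert hi]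
    have h1 : f i ≠ 0 := h i (Finset.mem_insert_self i s)
    have h2 : ∏ j ∈ s, f j ≠ 0 :=
      Finset.prod_ne_zero_iff.mpr (fun j hj => h j (Finset.mem_insert_of_mem hj))
    rw [HahnSeries.order_mul h1 h2, ih (fun j hj => h j (Finset.mem_insert_of_mem hj))]

end Aux

section Lagrange

variable {Ω : Type*} [Field Ω] {A : Type*} [Fintype A] [DecidableEq A]

/-- evaluation of a Lagrange-type sum at a root -/
theorem eval_lagrange_sum (r : A → Ω) (u : A → Ω) (α : A) :
    (∑ α', C (u α') * ∏ β ∈ Finset.univ.erase α', (X - C (r β))).eval (r α) =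
      u α * ∏ β ∈ Finset.univ.erase α, (r α - r β) := by
  rw [Polynomial.eval_finsetSum]
  rw [Finset.sum_eq_single α]
  · simp [Polynomial.eval_prod]
  · intro α' _ hne
    rw [Polynomial.eval_mul, Polynomial.eval_prod]
    have : ∏ β ∈ Finset.univ.erase α', (X - C (r β)).eval (r α) = 0 := by
      refine Finset.prod_eq_zero (i := α) (Finset.mem_erase.mpr ⟨hne.symm, Finset.mem_univ _⟩) ?_
      simp
    rw [this, mul_zero]
  · intro h; exact absurd (Finset.mem_univ α) h

/-- the derivative of `∏ (X - r β)` at a root -/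
theorem eval_derivative_prod_X_sub_C (r : A → Ω) (α : A) :
    (derivative (∏ β : A, (X - C (r β)))).eval (r α) =
      ∏ β ∈ Finset.univ.erase α, (r α - r β) := by
  rw [Polynomial.derivative_prod_finset]
  have := eval_lagrange_sum r (fun _ => (1 : Ω)) α
  simp only [map_one, one_mul] at this
  rw [← this]
  congr 1
  refine Finset.sum_congr rfl (fun i _ => ?_)
  simp

theorem prod_erase_sub_ne_zero {r : A → Ω} (hr : Function.Injective r) (α : A) :
    ∏ β ∈ Finset.univ.erase α, (r α - r β) ≠ 0 := by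
  refine Finset.prod_ne_zero_iff.mpr (fun β hβ => ?_)
  rw [Finset.mem_erase] at hβ
  exact sub_ne_zero.mpr (fun h => hβ.1 (hr h).symm)

end Lagrange

section Core

variable {k : Type*} [Field k] {A : Type*} [Fintype A] [DecidableEq A]

/-- The key identity `∑_{α ∈ R} gcd(d, a α)² = d |R|` for the root set `R` of any monic factor `g`
of `Φ̄` over `k(J)`. -/
theorem sum_gcd_sq_rootIdx (N : ℕ) (J : LaurentSeries k)
    (iE : RatFunc k →+* LaurentSeries k)
    (hiE : ∀ p : k[X], iE (algebraMap k[X] (RatFunc k) p) = aeval J p)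
    (r : A → LaurentSeries k) (hr : Function.Injective r)
    (Φ₀ : Polynomial (Polynomial k)) (hΦ : Φ₀.map (evJ J) = ∏ α, (X - C (r α)))
    (a : A → ℕ)
    (u : ℕ → A → LaurentSeries k) (hu0 : ∀ d, d ∣ N → ∀ α, u d α ≠ 0)
    (c : ℕ → ℤ) (hc : ∀ d, d ∣ N → c d ≠ 0)
    (hord : ∀ d, d ∣ N → ∀ α, (u d α).order = c d * ((Nat.gcd d (a α) : ℤ) ^ 2 - d))
    (L : ℕ → Polynomial (Polynomial k))
    (hL : ∀ d, d ∣ N → (L d).map (evJ J) =
      ∑ α, C (u d α) * ∏ β ∈ Finset.univ.erase α, (X - C (r β)))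
    (hint : ∀ d, d ∣ N → ∀ α,
      IsIntegral (aeval J : k[X] →ₐ[k] LaurentSeries k).range (u d α))
    (hint' : ∀ d, d ∣ N → ∀ α,
      IsIntegral (aeval J : k[X] →ₐ[k] LaurentSeries k).range (u d α)⁻¹)
    {g : (RatFunc k)[X]} (hg : g.Monic) (hdvd : g.map iE ∣ ∏ α : A, (X - C (r α)))
    (d : ℕ) (hd : d ∣ N) :
    ∑ α ∈ rootIdx iE r g, (Nat.gcd d (a α)) ^ 2 = d * (rootIdx iE r g).card := by
  set R := rootIdx iE r g with hR
  have hcomp : iE.comp (algebraMap k[X] (RatFunc k)) = evJ J := RingHom.ext (fun p => hiE p)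
  -- the two products lie in the range of `iE`
  have hmapL : ((L d).map (algebraMap k[X] (RatFunc k))).map iE = (L d).map (evJ J) := by
    rw [Polynomial.map_map, hcomp]
  have hmapΦ : ((derivative Φ₀).map (algebraMap k[X] (RatFunc k))).map iE =
      derivative (∏ α, (X - C (r α))) := by
    rw [Polynomial.map_map, hcomp, ← Polynomial.derivative_map, hΦ]
  have h1 := prod_eval_rootIdx_mem_range iE r hr hg hdvd
    ((L d).map (algebraMap k[X] (RatFunc k)))
  have h2 := prod_eval_rootIdx_mem_range iE r hr hg hdvd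
    ((derivative Φ₀).map (algebraMap k[X] (RatFunc k)))
  rw [hmapL, hL d hd] at h1
  rw [hmapΦ] at h2
  simp_rw [eval_lagrange_sum] at h1
  simp_rw [eval_derivative_prod_X_sub_C] at h2
  rw [Finset.prod_mul_distrib] at h1
  -- the product of the units
  set w : LaurentSeries k := ∏ α ∈ R, u d α with hw
  set D : LaurentSeries k := ∏ α ∈ R, ∏ β ∈ Finset.univ.erase α, (r α - r β) with hD
  have hD0 : D ≠ 0 := Finset.prod_ne_zero_iff.mpr (fun α _ => prod_erase_sub_ne_zero hr α)
  have hwmem : w ∈ iE.range := by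
    obtain ⟨x1, hx1⟩ := h1
    obtain ⟨x2, hx2⟩ := h2
    refine ⟨x1 / x2, ?_⟩
    rw [map_div₀, hx1, hx2, mul_div_assoc, div_self hD0, mul_one]
  have hw0 : w ≠ 0 := Finset.prod_ne_zero_iff.mpr (fun α _ => hu0 d hd α)
  have hwint : IsIntegral (aeval J : k[X] →ₐ[k] LaurentSeries k).range w :=
    IsIntegral.prod _ (fun α _ => hint d hd α)
  have hwint' : IsIntegral (aeval J : k[X] →ₐ[k] LaurentSeries k).range w⁻¹ := by
    rw [hw, ← Finset.prod_inv_distrib]
    exact IsIntegral.prod _ (fun α _ => hint' d hd α)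
  obtain ⟨Q₁, hQ₁, hQ₁w⟩ := exists_monic_of_isIntegral_range J hwint
  obtain ⟨Q₂, hQ₂, hQ₂w⟩ := exists_monic_of_isIntegral_range J hwint'
  have hword : w.order = 0 := order_eq_zero_of_integral J iE hiE hwmem hw0 hQ₁ hQ₂ hQ₁w hQ₂w
  rw [hw, order_prod_eq_sum _ _ (fun α _ => hu0 d hd α)] at hword
  simp_rw [hord d hd] at hword
  rw [← Finset.mul_sum] at hword
  have h3 : ∑ α ∈ R, (((Nat.gcd d (a α) : ℕ) : ℤ) ^ 2 - (d : ℤ)) = 0 :=
    (mul_eq_zero.mp hword).resolve_left (hc d hd)
  rw [Finset.sum_sub_distrib, Finset.sum_const, nsmul_eq_mul, sub_eq_zero] at h3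
  have h4 : ((∑ α ∈ R, (Nat.gcd d (a α)) ^ 2 : ℕ) : ℤ) = ((d * R.card : ℕ) : ℤ) := by
    push_cast
    rw [h3]; ring
  exact_mod_cast h4

/-- **The abstract core** `(LI)`. -/
theorem core (N : ℕ) (hN : 0 < N) (J : LaurentSeries k) (hJ : J.order < 0)
    (r : A → LaurentSeries k) (hr : Function.Injective r)
    (Φ₀ : Polynomial (Polynomial k)) (hΦ : Φ₀.map (evJ J) = ∏ α, (X - C (r α)))
    (a : A → ℕ) (α₀ : A) (ha₀ : N ∣ a α₀) (huniq : ∀ α, N ∣ a α → α = α₀)
    (u : ℕ → A → LaurentSeries k) (hu0 : ∀ d, d ∣ N → ∀ α, u d α ≠ 0)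
    (c : ℕ → ℤ) (hc : ∀ d, d ∣ N → c d ≠ 0)
    (hord : ∀ d, d ∣ N → ∀ α, (u d α).order = c d * ((Nat.gcd d (a α) : ℤ) ^ 2 - d))
    (L : ℕ → Polynomial (Polynomial k))
    (hL : ∀ d, d ∣ N → (L d).map (evJ J) =
      ∑ α, C (u d α) * ∏ β ∈ Finset.univ.erase α, (X - C (r β)))
    (hint : ∀ d, d ∣ N → ∀ α,
      IsIntegral (aeval J : k[X] →ₐ[k] LaurentSeries k).range (u d α))
    (hint' : ∀ d, d ∣ N → ∀ α,
      IsIntegral (aeval J : k[X] →ₐ[k] LaurentSeries k).range (u d α)⁻¹)
    (P : Polynomial (Polynomial k)) (hdeg : P.natDegree < Fintype.card A)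
    (hP : (P.map (evJ J)).eval (r α₀) = 0) : P = 0 := by
  set iE : RatFunc k →+* LaurentSeries k := ratFuncHom J hJ with hiEdef
  have hiE : ∀ p : k[X], iE (algebraMap k[X] (RatFunc k) p) = aeval J p :=
    ratFuncHom_algebraMap J hJ
  have hcomp : iE.comp (algebraMap k[X] (RatFunc k)) = evJ J := RingHom.ext (fun p => hiE p)
  let _ : Algebra (RatFunc k) (LaurentSeries k) := iE.toAlgebra
  have halg : algebraMap (RatFunc k) (LaurentSeries k) = iE := rfl
  set Y : LaurentSeries k := r α₀ with hY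
  set ΦE : (RatFunc k)[X] := Φ₀.map (algebraMap k[X] (RatFunc k)) with hΦE
  have hΦEmap : ΦE.map iE = ∏ α, (X - C (r α)) := by
    rw [hΦE, Polynomial.map_map, hcomp, hΦ]
  have hinj : Function.Injective (evJ J) := by
    have := transcendental_of_order_neg hJ
    exact transcendental_iff_injective.mp this
  have hΦ₀monic : Φ₀.Monic := by
    apply Polynomial.monic_of_injective hinj
    rw [hΦ]
    exact Polynomial.monic_prod_of_monic _ _ (fun α _ => Polynomial.monic_X_sub_C _)
  have hΦEmonic : ΦE.Monic := hΦ₀monic.map _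
  -- `Y` is integral over `k(J)`
  have hYroot : Polynomial.aeval Y ΦE = 0 := by
    rw [Polynomial.aeval_def, Polynomial.eval₂_eq_eval_map, halg, hΦEmap, Polynomial.eval_prod]
    exact Finset.prod_eq_zero (Finset.mem_univ α₀) (by simp [hY])
  have hYint : IsIntegral (RatFunc k) Y := ⟨ΦE, hΦEmonic, by
    rw [← Polynomial.aeval_def]; exact hYroot⟩
  set g : (RatFunc k)[X] := minpoly (RatFunc k) Y with hg
  have hgmonic : g.Monic := minpoly.monic hYint
  have hgdvdE : g ∣ ΦE := minpoly.dvd _ _ hYroot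
  have hgdvd : g.map iE ∣ ∏ α : A, (X - C (r α)) := by
    rw [← hΦEmap]
    exact Polynomial.map_dvd iE hgdvdE
  have hΦEdvd : ΦE.map iE ∣ ∏ α : A, (X - C (r α)) := by rw [hΦEmap]
  -- the root sets
  have hα₀R : α₀ ∈ rootIdx iE r g := by
    rw [mem_rootIdx, ← halg, ← Polynomial.eval₂_eq_eval_map, ← Polynomial.aeval_def]
    exact minpoly.aeval _ _
  have hRuniv : rootIdx iE r ΦE = Finset.univ := by
    ext α
    simp only [mem_rootIdx, Finset.mem_univ, iff_true]
    rw [hΦEmap, Polynomial.eval_prod]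
    exact Finset.prod_eq_zero (Finset.mem_univ α) (by simp)
  have hsumR := sum_gcd_sq_rootIdx N J iE hiE r hr Φ₀ hΦ a u hu0 c hc hord L hL hint hint'
    hgmonic hgdvd
  have hsumA := sum_gcd_sq_rootIdx N J iE hiE r hr Φ₀ hΦ a u hu0 c hc hord L hL hint hint'
    hΦEmonic hΦEdvd
  rw [hRuniv] at hsumA
  have hRall : rootIdx iE r g = Finset.univ :=
    eq_univ_of_sum_gcd_sq N hN a α₀ ha₀ huniq _ hα₀R hsumR
      (fun d hd => by rw [hsumA d hd, Finset.card_univ])
  have hgdeg : g.natDegree = Fintype.card A := by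
    rw [← card_rootIdx iE r hr hgmonic hgdvd, hRall, Finset.card_univ]
  -- conclusion
  set PE : (RatFunc k)[X] := P.map (algebraMap k[X] (RatFunc k)) with hPE
  have hPEroot : Polynomial.aeval Y PE = 0 := by
    rw [Polynomial.aeval_def, Polynomial.eval₂_eq_eval_map, halg, hPE, Polynomial.map_map, hcomp]
    exact hP
  have hPE0 : PE = 0 := by
    by_contra hne
    have h1 : g ∣ PE := minpoly.dvd _ _ hPEroot
    have h2 := Polynomial.natDegree_le_of_dvd h1 hne
    have h3 : PE.natDegree ≤ P.natDegree := Polynomial.natDegree_map_le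
    omega
  have hinj' : Function.Injective (algebraMap k[X] (RatFunc k)) :=
    IsFractionRing.injective k[X] (RatFunc k)
  exact Polynomial.map_injective _ hinj' (by rw [← hPE, hPE0, Polynomial.map_zero])

omit [DecidableEq A] in
/-- integrality over `k[J]` from a polynomial identity `Ψ(J, T) = ∏ (T - v α)` -/
theorem isIntegral_range_of_map_eq_prod (J : LaurentSeries k) (hJ : J.order < 0)
    (Ψ : Polynomial (Polynomial k)) (v : A → LaurentSeries k)
    (hΨ : Ψ.map (evJ J) = ∏ α, (X - C (v α))) (α : A) :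
    IsIntegral (aeval J : k[X] →ₐ[k] LaurentSeries k).range (v α) := by
  have hinj : Function.Injective (evJ J) :=
    transcendental_iff_injective.mp (transcendental_of_order_neg hJ)
  have hmonic : Ψ.Monic := by
    apply Polynomial.monic_of_injective hinj
    rw [hΨ]
    exact Polynomial.monic_prod_of_monic _ _ (fun α _ => Polynomial.monic_X_sub_C _)
  set rr : k[X] →+* (aeval J : k[X] →ₐ[k] LaurentSeries k).range :=
    (aeval J : k[X] →ₐ[k] LaurentSeries k).rangeRestrict.toRingHom with hrr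
  have hcomp : evJ J = (algebraMap (aeval J : k[X] →ₐ[k] LaurentSeries k).range
      (LaurentSeries k)).comp rr := by
    ext x <;> rfl
  refine ⟨Ψ.map rr, hmonic.map _, ?_⟩
  rw [← Polynomial.eval_map, Polynomial.map_map, ← hcomp, hΨ, Polynomial.eval_prod]
  exact Finset.prod_eq_zero (Finset.mem_univ α) (by simp)

/-- **The abstract core**, variant with the integrality of the units given by polynomial
identities `Ψ±_d(J, T) = ∏ (T - u^{±1})`. -/
theorem core' (N : ℕ) (hN : 0 < N) (J : LaurentSeries k) (hJ : J.order < 0)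
    (r : A → LaurentSeries k) (hr : Function.Injective r)
    (Φ₀ : Polynomial (Polynomial k)) (hΦ : Φ₀.map (evJ J) = ∏ α, (X - C (r α)))
    (a : A → ℕ) (α₀ : A) (ha₀ : N ∣ a α₀) (huniq : ∀ α, N ∣ a α → α = α₀)
    (u : ℕ → A → LaurentSeries k) (hu0 : ∀ d, d ∣ N → ∀ α, u d α ≠ 0)
    (c : ℕ → ℤ) (hc : ∀ d, d ∣ N → c d ≠ 0)
    (hord : ∀ d, d ∣ N → ∀ α, (u d α).order = c d * ((Nat.gcd d (a α) : ℤ) ^ 2 - d))
    (L : ℕ → Polynomial (Polynomial k))
    (hL : ∀ d, d ∣ N → (L d).map (evJ J) =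
      ∑ α, C (u d α) * ∏ β ∈ Finset.univ.erase α, (X - C (r β)))
    (Ψp Ψm : ℕ → Polynomial (Polynomial k))
    (hΨp : ∀ d, d ∣ N → (Ψp d).map (evJ J) = ∏ α, (X - C (u d α)))
    (hΨm : ∀ d, d ∣ N → (Ψm d).map (evJ J) = ∏ α, (X - C (u d α)⁻¹))
    (P : Polynomial (Polynomial k)) (hdeg : P.natDegree < Fintype.card A)
    (hP : (P.map (evJ J)).eval (r α₀) = 0) : P = 0 :=
  core N hN J hJ r hr Φ₀ hΦ a α₀ ha₀ huniq u hu0 c hc hord L hL
    (fun d hd α => isIntegral_range_of_map_eq_prod J hJ (Ψp d) (fun α => u d α) (hΨp d hd) α)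
    (fun d hd α => isIntegral_range_of_map_eq_prod J hJ (Ψm d) (fun α => (u d α)⁻¹) (hΨm d hd) α)
    P hdeg hP

end Core

end Fermat.Agent.Igusa
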