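import Mathlib
import Fermat.Agent.Igusa.Defs
import Fermat.Prelude.Def_ModularCurve_LaurentCoeff
import Fermat.Prelude.Def_ModularCurve_JqCoeff
import Fermat.Prelude.Thm_ModularCurve_coeffMap_qExpand

/-!
# Project S28: descent of the linear independence statement (LI) from `kRes ℓ` to `ZMod ℓ`
-/

set_option autoImplicit false

noncomputable section

namespace Fermat.Agent.Igusa

open Polynomial ModularCurve

variable (ℓ : ℕ) [Fact ℓ.Prime] (N : ℕ) [NeZero N]

/-- The canonical embedding `𝔽_ℓ → kRes ℓ`. -/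
def iotaRes : ZMod ℓ →+* kRes ℓ := ZMod.castHom (dvd_refl ℓ) (kRes ℓ)

theorem iotaRes_injective : Function.Injective (iotaRes ℓ) := (iotaRes ℓ).injective

/-- `𝔽_ℓ((q)) → kRes((t))`, `q ↦ t^N`. -/
def thetaRes : LaurentSeries (ZMod ℓ) →+* LaurentSeries (kRes ℓ) :=
  (qExpand (kRes ℓ) N).comp (coeffMap (iotaRes ℓ))

theorem thetaRes_jq : thetaRes ℓ N (jqModC (ZMod ℓ)) = qExpand (kRes ℓ) N (jqModC (kRes ℓ)) := by
  rw [thetaRes, RingHom.comp_apply]
  congr 1
  exact map_jqModC (iotaRes ℓ)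

theorem thetaRes_jqN : thetaRes ℓ N (qExpand (ZMod ℓ) N (jqModC (ZMod ℓ))) =
    qExpand (kRes ℓ) (N * N) (jqModC (kRes ℓ)) := by
  rw [thetaRes, RingHom.comp_apply, coeffMap_qExpand, qExpand_qExpand]
  congr 1
  exact map_jqModC (iotaRes ℓ)

theorem thetaRes_comp_aeval :
    (thetaRes ℓ N).comp
        ((Polynomial.aeval (jqModC (ZMod ℓ)) : (ZMod ℓ)[X] →ₐ[ZMod ℓ] LaurentSeries (ZMod ℓ)) :
          (ZMod ℓ)[X] →+* LaurentSeries (ZMod ℓ)) =
      ((Polynomial.aeval (qExpand (kRes ℓ) N (jqModC (kRes ℓ))) :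
          (kRes ℓ)[X] →ₐ[kRes ℓ] LaurentSeries (kRes ℓ)) :
          (kRes ℓ)[X] →+* LaurentSeries (kRes ℓ)).comp (Polynomial.mapRingHom (iotaRes ℓ)) := by
  refine Polynomial.ringHom_ext (fun a => ?_) ?_
  · simp only [RingHom.comp_apply, RingHom.coe_coe, Polynomial.aeval_C, Polynomial.coe_mapRingHom,
      Polynomial.map_C]
    rw [algebraMap_laurentSeries_eq_single, algebraMap_laurentSeries_eq_single, thetaRes,
      RingHom.comp_apply, coeffMap_single, qExpand_single, mul_zero]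
  · simp only [RingHom.comp_apply, RingHom.coe_coe, Polynomial.aeval_X, Polynomial.coe_mapRingHom,
      Polynomial.map_X]
    exact thetaRes_jq ℓ N

/-- **Descent of (LI).**  If `j̄(t^{N²})` satisfies no relation of `T`-degree `< n` over
`kRes[j̄(t^N)]`, then `j̄(q^N)` satisfies no relation of `T`-degree `< n` over `𝔽_ℓ[j̄(q)]`. -/
theorem li_modl_of_li_kRes (n : ℕ)
    (H : ∀ P : (kRes ℓ)[X][X], P.natDegree < n →
      (P.map ((Polynomial.aeval (qExpand (kRes ℓ) N (jqModC (kRes ℓ))) :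
          (kRes ℓ)[X] →ₐ[kRes ℓ] LaurentSeries (kRes ℓ)) :
          (kRes ℓ)[X] →+* LaurentSeries (kRes ℓ))).eval
        (qExpand (kRes ℓ) (N * N) (jqModC (kRes ℓ))) = 0 → P = 0)
    (P : (ZMod ℓ)[X][X]) (hdeg : P.natDegree < n)
    (hP : (P.map ((Polynomial.aeval (jqModC (ZMod ℓ)) :
          (ZMod ℓ)[X] →ₐ[ZMod ℓ] LaurentSeries (ZMod ℓ)) :
          (ZMod ℓ)[X] →+* LaurentSeries (ZMod ℓ))).eval
        (qExpand (ZMod ℓ) N (jqModC (ZMod ℓ))) = 0) : P = 0 := by
  have h1 := congrArg (thetaRes ℓ N) hP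
  rw [map_zero, ← Polynomial.eval₂_hom, Polynomial.eval₂_map, thetaRes_jqN,
    thetaRes_comp_aeval, ← Polynomial.eval₂_map, Polynomial.eval₂_eq_eval_map] at h1
  have h2 := H (P.map (Polynomial.mapRingHom (iotaRes ℓ)))
    (lt_of_le_of_lt Polynomial.natDegree_map_le hdeg) h1
  have hinj : Function.Injective (Polynomial.mapRingHom (iotaRes ℓ)) :=
    Polynomial.map_injective _ (iotaRes_injective ℓ)
  exact Polynomial.map_injective _ hinj (by rw [h2, Polynomial.map_zero])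

end Fermat.Agent.Igusa
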