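/-
Igusa / Reduce (package T), part 2: formal Laurent series over an arbitrary commutative ring `R`:
the coefficientwise twist by a unit, the series of `Δ` and `Δ⁻¹`, the generic shapes
`rGen` (expansion of `j ∘ α`), `JGen` (expansion of `j`), `uGen`, `uGenInv` (expansions of the modular
units `W_β` and `W_β⁻¹`), and their naturality under `coeffMap`.
-/
import Mathlib
import Fermat.Prelude.Def_ModularCurve_LaurentCoeff
import Fermat.Prelude.Def_ModularCurve_JqCoeff
import Fermat.Prelude.Thm_ModularCurve_coeffMap_qExpand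
import Fermat.Prelude.Thm_ModularCurve_coeff_jqModC_neg_one
import Fermat.Prelude.Thm_ModularCurve_coeff_jqModC_pow_of_lt

set_option autoImplicit false
set_option linter.unusedSectionVars false

noncomputable section

namespace Fermat.Agent.Igusa

open ModularCurve

section twist

variable {R S : Type*} [CommRing R] [CommRing S]

/-- Coefficientwise twist of a Laurent series by a unit: `∑ c_k X ^ k ↦ ∑ ζ ^ k c_k X ^ k`. -/
def twistFun (ζ : Rˣ) (F : LaurentSeries R) : LaurentSeries R :=
  ⟨fun k => ((ζ ^ k : Rˣ) : R) * F.coeff k, F.isPWO_support.mono fun k hk => by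
    simp only [Function.mem_support, ne_eq] at hk ⊢
    exact fun h => hk (by rw [h, mul_zero])⟩

@[simp] theorem twistFun_coeff (ζ : Rˣ) (F : LaurentSeries R) (k : ℤ) :
    (twistFun ζ F).coeff k = ((ζ ^ k : Rˣ) : R) * F.coeff k := rfl

theorem support_twistFun (ζ : Rˣ) (F : LaurentSeries R) :
    (twistFun ζ F).support = F.support := by
  ext k
  simp only [HahnSeries.mem_support, twistFun_coeff, ne_eq, Units.mul_right_eq_zero]

theorem twistFun_mul (ζ : Rˣ) (F G : LaurentSeries R) :
    twistFun ζ (F * G) = twistFun ζ F * twistFun ζ G := by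
  ext a
  rw [twistFun_coeff, HahnSeries.coeff_mul, HahnSeries.coeff_mul, Finset.mul_sum]
  have hset : Finset.antidiagonal (twistFun ζ F).isPWO_support (twistFun ζ G).isPWO_support a =
      Finset.antidiagonal F.isPWO_support G.isPWO_support a := by
    ext ij
    simp only [Finset.mem_antidiagonal, support_twistFun]
  rw [hset]
  refine Finset.sum_congr rfl fun ij hij => ?_
  have hsum : ij.1 + ij.2 = a := (Finset.mem_antidiagonal.mp hij).2.2
  rw [twistFun_coeff, twistFun_coeff, ← hsum, zpow_add, Units.val_mul]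
  ring

/-- The twist by a unit as a ring endomorphism of `LaurentSeries R`. -/
def twistU (ζ : Rˣ) : LaurentSeries R →+* LaurentSeries R where
  toFun := twistFun ζ
  map_one' := by
    ext k
    rw [twistFun_coeff, HahnSeries.coeff_one]
    split_ifs with h
    · subst h; simp
    · simp
  map_mul' := twistFun_mul ζ
  map_zero' := by
    ext k
    simp
  map_add' F G := by
    ext k
    simp [mul_add]

@[simp] theorem twistU_coeff (ζ : Rˣ) (F : LaurentSeries R) (k : ℤ) :
    (twistU ζ F).coeff k = ((ζ ^ k : Rˣ) : R) * F.coeff k := rfl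

theorem support_twistU (ζ : Rˣ) (F : LaurentSeries R) : (twistU ζ F).support = F.support :=
  support_twistFun ζ F

theorem twistU_one (F : LaurentSeries R) : twistU (1 : Rˣ) F = F := by
  ext k
  simp

theorem twistU_single (ζ : Rˣ) (k : ℤ) (r : R) :
    twistU ζ (HahnSeries.single k r) = HahnSeries.single k (((ζ ^ k : Rˣ) : R) * r) := by
  ext m
  rw [twistU_coeff]
  rcases eq_or_ne m k with rfl | hm
  · simp [HahnSeries.coeff_single_same]
  · simp [HahnSeries.coeff_single_of_ne hm]

theorem twistU_eq_zero_iff (ζ : Rˣ) (F : LaurentSeries R) : twistU ζ F = 0 ↔ F = 0 := by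
  constructor
  · intro h
    ext k
    have := congrArg (fun G : LaurentSeries R => G.coeff k) h
    simpa using this
  · rintro rfl
    exact map_zero _

theorem coeffMap_twistU (f : R →+* S) (ζ : Rˣ) (F : LaurentSeries R) :
    coeffMap f (twistU ζ F) = twistU (Units.map (f : R →* S) ζ) (coeffMap f F) := by
  ext k
  rw [coeffMap_coeff, twistU_coeff, twistU_coeff, coeffMap_coeff, map_mul, ← map_zpow,
    Units.coe_map]
  rfl

theorem coeffMap_ofPowerSeries (f : R →+* S) (P : PowerSeries R) :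
    coeffMap f (HahnSeries.ofPowerSeries ℤ R P) = HahnSeries.ofPowerSeries ℤ S (P.map f) := by
  ext k
  rw [coeffMap_coeff]
  rcases le_or_gt 0 k with hk | hk
  · lift k to ℕ using hk
    rw [HahnSeries.ofPowerSeries_apply_coeff, HahnSeries.ofPowerSeries_apply_coeff,
      PowerSeries.coeff_map]
  · rw [ofPowerSeries_coeff_of_neg _ hk, ofPowerSeries_coeff_of_neg _ hk, map_zero]

theorem coeffMap_C (f : R →+* S) (r : R) :
    coeffMap f (HahnSeries.C r) = HahnSeries.C (f r) := by
  rw [HahnSeries.C_apply, HahnSeries.C_apply, coeffMap_single]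

theorem coeffMap_jqModC (f : R →+* S) : coeffMap f (jqModC R) = jqModC S := map_jqModC f

theorem map_map_intCast (f : R →+* S) (P : PowerSeries ℤ) :
    (P.map (Int.castRingHom R)).map f = P.map (Int.castRingHom S) := by
  ext n
  simp [PowerSeries.coeff_map]

end twist

section delta

variable (R : Type*) [CommRing R] {S : Type*} [CommRing S]

/-- The formal series `q ∏ (1 - qⁿ) ^ 24` of `Δ` over `R`. -/
def deltaS : LaurentSeries R :=
  HahnSeries.single (1 : ℤ) (1 : R) *
    HahnSeries.ofPowerSeries ℤ R (dedekindEtaUnit.map (Int.castRingHom R))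

/-- The formal series of `Δ⁻¹` over `R`. -/
def deltaSinv : LaurentSeries R :=
  HahnSeries.single (-1 : ℤ) (1 : R) *
    HahnSeries.ofPowerSeries ℤ R (dedekindEtaUnitInv.map (Int.castRingHom R))

theorem deltaS_mul_deltaSinv : deltaS R * deltaSinv R = 1 := by
  have hs : HahnSeries.single (1 : ℤ) (1 : R) * HahnSeries.single (-1 : ℤ) (1 : R) = 1 := by
    rw [HahnSeries.single_mul_single]; simp
  have hDD : HahnSeries.ofPowerSeries ℤ R (dedekindEtaUnit.map (Int.castRingHom R)) *
      HahnSeries.ofPowerSeries ℤ R (dedekindEtaUnitInv.map (Int.castRingHom R)) = 1 := by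
    rw [← map_mul, ← map_mul, dedekindEtaUnit_mul_inv, map_one, map_one]
  calc deltaS R * deltaSinv R
      = (HahnSeries.single (1 : ℤ) (1 : R) * HahnSeries.single (-1 : ℤ) (1 : R)) *
        (HahnSeries.ofPowerSeries ℤ R (dedekindEtaUnit.map (Int.castRingHom R)) *
          HahnSeries.ofPowerSeries ℤ R (dedekindEtaUnitInv.map (Int.castRingHom R))) := by
        rw [deltaS, deltaSinv]; ring
    _ = 1 := by rw [hs, hDD, one_mul]

theorem deltaSinv_mul_deltaS : deltaSinv R * deltaS R = 1 := by
  rw [mul_comm, deltaS_mul_deltaSinv]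

theorem deltaS_eq_ofPowerSeries :
    deltaS R = HahnSeries.ofPowerSeries ℤ R
      (PowerSeries.X * dedekindEtaUnit.map (Int.castRingHom R)) := by
  rw [deltaS, map_mul, HahnSeries.ofPowerSeries_X]

variable {R}

theorem coeffMap_deltaS (f : R →+* S) : coeffMap f (deltaS R) = deltaS S := by
  rw [deltaS, deltaS, map_mul, coeffMap_single, map_one, coeffMap_ofPowerSeries, map_map_intCast]

theorem coeffMap_deltaSinv (f : R →+* S) : coeffMap f (deltaSinv R) = deltaSinv S := by
  rw [deltaSinv, deltaSinv, map_mul, coeffMap_single, map_one, coeffMap_ofPowerSeries,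
    map_map_intCast]

end delta

section generic

variable (R : Type*) [CommRing R] {S : Type*} [CommRing S]

/-- `qExpand` with an explicit proof of `e ≠ 0`. -/
def qExp (e : ℕ) (he : e ≠ 0) : LaurentSeries R →+* LaurentSeries R :=
  @qExpand R _ e ⟨he⟩

theorem qExp_eq (e : ℕ) [NeZero e] (he : e ≠ 0) : qExp R e he = qExpand R e := rfl

/-- Generic shape of the expansion of `j ((a τ + b) / d)` in `t = q ^ (1 / N)`:
`e = N a / d`, `ζ = ζ_d ^ b`. -/
def rGen (e : ℕ) (he : e ≠ 0) (ζ : Rˣ) : LaurentSeries R :=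
  qExp R e he (twistU ζ (jqModC R))

/-- Generic shape of the expansion of `j` in `t = q ^ (1 / N)`. -/
def JGen (N : ℕ) (hN : N ≠ 0) : LaurentSeries R := qExp R N hN (jqModC R)

/-- Generic shape of the expansion of `c Δ ((a τ + b) / d) / Δ (τ)` in `t = q ^ (1 / N)`. -/
def uGen (c : R) (e : ℕ) (he : e ≠ 0) (N : ℕ) (hN : N ≠ 0) (ζ : Rˣ) : LaurentSeries R :=
  HahnSeries.C c * qExp R e he (twistU ζ (deltaS R)) * qExp R N hN (deltaSinv R)

/-- Generic shape of the expansion of `c' Δ (τ) / Δ ((a τ + b) / d)` in `t = q ^ (1 / N)`. -/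
def uGenInv (c' : R) (e : ℕ) (he : e ≠ 0) (N : ℕ) (hN : N ≠ 0) (ζ : Rˣ) : LaurentSeries R :=
  HahnSeries.C c' * qExp R e he (twistU ζ (deltaSinv R)) * qExp R N hN (deltaS R)

variable {R}

theorem uGen_mul_uGenInv {c c' : R} (hc : c * c' = 1) (e : ℕ) (he : e ≠ 0) (N : ℕ) (hN : N ≠ 0)
    (ζ : Rˣ) : uGen R c e he N hN ζ * uGenInv R c' e he N hN ζ = 1 := by
  have h1 : qExp R e he (twistU ζ (deltaS R)) * qExp R e he (twistU ζ (deltaSinv R)) = 1 := by
    rw [← map_mul, ← map_mul, deltaS_mul_deltaSinv, map_one, map_one]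
  have h2 : qExp R N hN (deltaSinv R) * qExp R N hN (deltaS R) = 1 := by
    rw [← map_mul, deltaSinv_mul_deltaS, map_one]
  have h3 : (HahnSeries.C c : LaurentSeries R) * HahnSeries.C c' = 1 := by
    rw [← map_mul, hc, map_one]
  calc uGen R c e he N hN ζ * uGenInv R c' e he N hN ζ
      = ((HahnSeries.C c : LaurentSeries R) * HahnSeries.C c') *
        (qExp R e he (twistU ζ (deltaS R)) * qExp R e he (twistU ζ (deltaSinv R))) *
        (qExp R N hN (deltaSinv R) * qExp R N hN (deltaS R)) := by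
        rw [uGen, uGenInv]; ring
    _ = 1 := by rw [h1, h2, h3, one_mul, one_mul]

theorem uGenInv_mul_uGen {c c' : R} (hc : c * c' = 1) (e : ℕ) (he : e ≠ 0) (N : ℕ) (hN : N ≠ 0)
    (ζ : Rˣ) : uGenInv R c' e he N hN ζ * uGen R c e he N hN ζ = 1 := by
  rw [mul_comm, uGen_mul_uGenInv hc]

theorem coeffMap_qExp (f : R →+* S) (e : ℕ) (he : e ≠ 0) (x : LaurentSeries R) :
    coeffMap f (qExp R e he x) = qExp S e he (coeffMap f x) :=
  @coeffMap_qExpand R S _ _ f e ⟨he⟩ x

theorem coeffMap_rGen (f : R →+* S) (e : ℕ) (he : e ≠ 0) (ζ : Rˣ) :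
    coeffMap f (rGen R e he ζ) = rGen S e he (Units.map (f : R →* S) ζ) := by
  rw [rGen, rGen, coeffMap_qExp, coeffMap_twistU, coeffMap_jqModC]

theorem coeffMap_JGen (f : R →+* S) (N : ℕ) (hN : N ≠ 0) :
    coeffMap f (JGen R N hN) = JGen S N hN := by
  rw [JGen, JGen, coeffMap_qExp, coeffMap_jqModC]

theorem coeffMap_uGen (f : R →+* S) (c : R) (e : ℕ) (he : e ≠ 0) (N : ℕ) (hN : N ≠ 0) (ζ : Rˣ) :
    coeffMap f (uGen R c e he N hN ζ) = uGen S (f c) e he N hN (Units.map (f : R →* S) ζ) := by
  rw [uGen, uGen, map_mul, map_mul, coeffMap_C, coeffMap_qExp, coeffMap_qExp, coeffMap_twistU,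
    coeffMap_deltaS, coeffMap_deltaSinv]

theorem coeffMap_uGenInv (f : R →+* S) (c : R) (e : ℕ) (he : e ≠ 0) (N : ℕ) (hN : N ≠ 0)
    (ζ : Rˣ) :
    coeffMap f (uGenInv R c e he N hN ζ) =
      uGenInv S (f c) e he N hN (Units.map (f : R →* S) ζ) := by
  rw [uGenInv, uGenInv, map_mul, map_mul, coeffMap_C, coeffMap_qExp, coeffMap_qExp,
    coeffMap_twistU, coeffMap_deltaS, coeffMap_deltaSinv]

end generic

end Fermat.Agent.Igusa
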