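/-
Igusa / Reduce (package T), part 4: transport of polynomial identities
`P.map (aeval J) = …` in `(LaurentSeries R)[X]` along a coefficient map `coeffMap f`.
-/
import Mathlib
import Fermat.Agent.Igusa.ReduceSeries

set_option autoImplicit false
set_option linter.unusedSectionVars false

noncomputable section

namespace Fermat.Agent.Igusa

open ModularCurve Polynomial

section transport

variable {R S : Type*} [CommRing R] [CommRing S]

/-- The evaluation homomorphism `R[X] → R((t))`, `X ↦ J`, over a commutative ring. -/
abbrev evS (J : LaurentSeries R) : R[X] →+* LaurentSeries R :=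
  (aeval J : R[X] →ₐ[R] LaurentSeries R).toRingHom

theorem algebraMap_laurent_eq_C (r : R) :
    algebraMap R (LaurentSeries R) r = HahnSeries.C r := by
  have h1 : algebraMap R (PowerSeries R) r = PowerSeries.C r := by simp
  rw [HahnSeries.algebraMap_apply', h1, HahnSeries.ofPowerSeries_C]

theorem coeffMap_comp_evS (f : R →+* S) (J : LaurentSeries R) :
    (coeffMap f).comp (evS J) = (evS (coeffMap f J)).comp (Polynomial.mapRingHom f) := by
  refine Polynomial.ringHom_ext (fun a => ?_) ?_
  · simp only [evS, RingHom.comp_apply, AlgHom.toRingHom_eq_coe, RingHom.coe_coe,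
      Polynomial.aeval_C, Polynomial.coe_mapRingHom, Polynomial.map_C]
    rw [algebraMap_laurent_eq_C, algebraMap_laurent_eq_C, coeffMap_C]
  · simp only [evS, RingHom.comp_apply, AlgHom.toRingHom_eq_coe, RingHom.coe_coe,
      Polynomial.aeval_X, Polynomial.coe_mapRingHom, Polynomial.map_X]

/-- Transport of `P.map (evS J)` along `coeffMap f`. -/
theorem map_evS_map_coeffMap (f : R →+* S) (J : LaurentSeries R) (P : R[X][X]) :
    (P.map (evS J)).map (coeffMap f) =
      (P.map (Polynomial.mapRingHom f)).map (evS (coeffMap f J)) := by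
  rw [Polynomial.map_map, Polynomial.map_map, coeffMap_comp_evS]

variable {A : Type*} [Fintype A] [DecidableEq A]

/-- Transport of `Φ₀.map (evS J) = ∏ (X - C (r α))`. -/
theorem transport_prod (f : R →+* S) (J : LaurentSeries R) (P : R[X][X])
    (r : A → LaurentSeries R) (h : P.map (evS J) = ∏ α, (X - C (r α))) :
    (P.map (Polynomial.mapRingHom f)).map (evS (coeffMap f J)) =
      ∏ α, (X - C (coeffMap f (r α))) := by
  rw [← map_evS_map_coeffMap, h, Polynomial.map_prod]
  refine Finset.prod_congr rfl fun α _ => ?_
  rw [Polynomial.map_sub, Polynomial.map_X, Polynomial.map_C]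

/-- Transport of `L.map (evS J) = ∑ α, C (u α) * ∏ β ≠ α, (X - C (r β))`. -/
theorem transport_lagrange (f : R →+* S) (J : LaurentSeries R) (P : R[X][X])
    (u r : A → LaurentSeries R)
    (h : P.map (evS J) = ∑ α, C (u α) * ∏ β ∈ Finset.univ.erase α, (X - C (r β))) :
    (P.map (Polynomial.mapRingHom f)).map (evS (coeffMap f J)) =
      ∑ α, C (coeffMap f (u α)) * ∏ β ∈ Finset.univ.erase α, (X - C (coeffMap f (r β))) := by
  rw [← map_evS_map_coeffMap, h, Polynomial.map_sum]
  refine Finset.sum_congr rfl fun α _ => ?_
  rw [Polynomial.map_mul, Polynomial.map_C, Polynomial.map_prod]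
  congr 1
  refine Finset.prod_congr rfl fun β _ => ?_
  rw [Polynomial.map_sub, Polynomial.map_X, Polynomial.map_C]

end transport

end Fermat.Agent.Igusa
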