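/-
Igusa / Reduce (package T), part 3: orders and leading coefficients of the generic series
`rGen`, `JGen`, `uGen`, `uGenInv` (over a domain), via the predicate `IsLead F m c`
(`F = c X ^ m + higher terms`).
-/
import Mathlib
import Fermat.Agent.Igusa.ReduceSeries

set_option autoImplicit false
set_option linter.unusedSectionVars false

noncomputable section

namespace Fermat.Agent.Igusa

open ModularCurve

section IsLead

variable {R : Type*} [CommRing R]

/-- `F = c X ^ m + (terms of higher degree)`. -/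
def IsLead (F : LaurentSeries R) (m : ℤ) (c : R) : Prop :=
  F.coeff m = c ∧ ∀ i : ℤ, i < m → F.coeff i = 0

namespace IsLead

variable {F G : LaurentSeries R} {m n : ℤ} {c c' : R}

theorem ne_zero (h : IsLead F m c) (hc : c ≠ 0) : F ≠ 0 := by
  rintro rfl
  exact hc (by rw [← h.1, HahnSeries.coeff_zero])

theorem order_eq (h : IsLead F m c) (hc : c ≠ 0) : F.order = m := by
  refine le_antisymm (HahnSeries.order_le_of_coeff_ne_zero (by rw [h.1]; exact hc)) ?_
  exact (HahnSeries.le_order_iff_forall (h.ne_zero hc)).mpr h.2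

theorem leadingCoeff_eq (h : IsLead F m c) (hc : c ≠ 0) : F.leadingCoeff = c := by
  rw [HahnSeries.leadingCoeff_eq, h.order_eq hc, h.1]

theorem of_order (hF : F ≠ 0) : IsLead F F.order F.leadingCoeff :=
  ⟨HahnSeries.leadingCoeff_eq.symm, fun _ hi => HahnSeries.coeff_eq_zero_of_lt_order hi⟩

theorem mul [IsDomain R] (h : IsLead F m c) (h' : IsLead G n c') (hc : c ≠ 0) (hc' : c' ≠ 0) :
    IsLead (F * G) (m + n) (c * c') := by
  have hF := h.ne_zero hc
  have hG := h'.ne_zero hc'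
  have h1 := of_order (mul_ne_zero hF hG)
  rwa [HahnSeries.order_mul hF hG, HahnSeries.leadingCoeff_mul, h.order_eq hc, h'.order_eq hc',
    h.leadingCoeff_eq hc, h'.leadingCoeff_eq hc'] at h1

theorem C (c : R) : IsLead (HahnSeries.C c : LaurentSeries R) 0 c := by
  refine ⟨by simp [HahnSeries.C_apply], fun i hi => ?_⟩
  rw [HahnSeries.C_apply, HahnSeries.coeff_single_of_ne hi.ne]

theorem twistU (h : IsLead F m c) (ζ : Rˣ) : IsLead (twistU ζ F) m (((ζ ^ m : Rˣ) : R) * c) := by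
  refine ⟨by rw [twistU_coeff, h.1], fun i hi => ?_⟩
  rw [twistU_coeff, h.2 i hi, mul_zero]

theorem qExp (h : IsLead F m c) (e : ℕ) (he : e ≠ 0) :
    IsLead (qExp R e he F) ((e : ℤ) * m) c := by
  haveI : NeZero e := ⟨he⟩
  have he0 : (0 : ℤ) < e := by exact_mod_cast Nat.pos_of_ne_zero he
  refine ⟨?_, fun i hi => ?_⟩
  · rw [qExp_eq, qExpand_coeff_mul, h.1]
  · rw [qExp_eq]
    by_cases hd : (e : ℤ) ∣ i
    · obtain ⟨j, rfl⟩ := hd
      rw [qExpand_coeff_mul]
      exact h.2 j (lt_of_mul_lt_mul_left hi he0.le)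
    · exact qExpand_coeff_of_not_dvd e _ hd

end IsLead

variable (R)

theorem isLead_jqModC : IsLead (jqModC R) (-1) 1 := by
  refine ⟨coeff_jqModC_neg_one R, fun i hi => ?_⟩
  have h := coeff_jqModC_pow_of_lt R (b := 1) (m := i) (by simpa using hi)
  rwa [pow_one] at h

theorem isLead_deltaS : IsLead (deltaS R) 1 1 := by
  refine ⟨?_, fun i hi => ?_⟩
  · rw [deltaS, HahnSeries.coeff_single_mul, one_mul, sub_self,
      show (0 : ℤ) = ((0 : ℕ) : ℤ) from rfl, HahnSeries.ofPowerSeries_apply_coeff,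
      PowerSeries.coeff_map, PowerSeries.coeff_zero_eq_constantCoeff,
      constantCoeff_dedekindEtaUnit]
    simp
  · rw [deltaS, HahnSeries.coeff_single_mul, one_mul]
    exact ofPowerSeries_coeff_of_neg _ (by omega)

theorem isLead_deltaSinv : IsLead (deltaSinv R) (-1) 1 := by
  refine ⟨?_, fun i hi => ?_⟩
  · rw [deltaSinv, HahnSeries.coeff_single_mul, one_mul, sub_self,
      show (0 : ℤ) = ((0 : ℕ) : ℤ) from rfl, HahnSeries.ofPowerSeries_apply_coeff,
      PowerSeries.coeff_map, PowerSeries.coeff_zero_eq_constantCoeff,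
      constantCoeff_dedekindEtaUnitInv]
    simp
  · rw [deltaSinv, HahnSeries.coeff_single_mul, one_mul]
    exact ofPowerSeries_coeff_of_neg _ (by omega)

theorem isLead_rGen (e : ℕ) (he : e ≠ 0) (ζ : Rˣ) :
    IsLead (rGen R e he ζ) (-(e : ℤ)) ((ζ⁻¹ : Rˣ) : R) := by
  have h := ((isLead_jqModC R).twistU ζ).qExp e he
  rw [mul_one, zpow_neg_one, mul_neg_one] at h
  exact h

theorem isLead_JGen (N : ℕ) (hN : N ≠ 0) : IsLead (JGen R N hN) (-(N : ℤ)) 1 := by
  have h := (isLead_jqModC R).qExp N hN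
  rwa [mul_neg_one] at h

variable {R}

theorem isLead_uGen [IsDomain R] {c : R} (hc : c ≠ 0) (e : ℕ) (he : e ≠ 0) (N : ℕ) (hN : N ≠ 0)
    (ζ : Rˣ) : IsLead (uGen R c e he N hN ζ) ((e : ℤ) - N) (c * (ζ : R)) := by
  have h1 : IsLead (qExp R e he (Igusa.twistU ζ (deltaS R))) (e : ℤ) (ζ : R) := by
    have h := ((isLead_deltaS R).twistU ζ).qExp e he
    rwa [mul_one, zpow_one, mul_one] at h
  have h2 : IsLead (qExp R N hN (deltaSinv R)) (-(N : ℤ)) 1 := by
    have h := (isLead_deltaSinv R).qExp N hN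
    rwa [mul_neg_one] at h
  have h3 := ((IsLead.C c).mul h1 hc ζ.ne_zero).mul h2 (mul_ne_zero hc ζ.ne_zero) one_ne_zero
  rw [zero_add, mul_one, ← sub_eq_add_neg] at h3
  exact h3

theorem isLead_uGenInv [IsDomain R] {c : R} (hc : c ≠ 0) (e : ℕ) (he : e ≠ 0) (N : ℕ)
    (hN : N ≠ 0) (ζ : Rˣ) :
    IsLead (uGenInv R c e he N hN ζ) ((N : ℤ) - e) (c * ((ζ⁻¹ : Rˣ) : R)) := by
  have h1 : IsLead (qExp R e he (Igusa.twistU ζ (deltaSinv R))) (-(e : ℤ)) ((ζ⁻¹ : Rˣ) : R) := by
    have h := ((isLead_deltaSinv R).twistU ζ).qExp e he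
    rwa [mul_one, zpow_neg_one, mul_neg_one] at h
  have h2 : IsLead (qExp R N hN (deltaS R)) (N : ℤ) 1 := by
    have h := (isLead_deltaS R).qExp N hN
    rwa [mul_one] at h
  have h3 := ((IsLead.C c).mul h1 hc (ζ⁻¹).ne_zero).mul h2
    (mul_ne_zero hc (ζ⁻¹).ne_zero) one_ne_zero
  rw [zero_add, mul_one, neg_add_eq_sub] at h3
  exact h3

end IsLead

end Fermat.Agent.Igusa
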