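/-
Igusa / Reduce (package T), part 1: the arithmetic of the right action of `SL(2, ℤ)` on the
representatives `CosetRep N`:  `((base N).act γ).a = gcd (N, γ 1 0)`, and hence, for `d ∣ N` and
`α : CosetRep N`, `((base d).act α.toSL).a = gcd (d, α.a)`.
-/
import Mathlib
import Fermat.Agent.X0.Mod.ModularPoly

set_option autoImplicit false
set_option linter.unusedSectionVars false

namespace Fermat.Agent.Igusa

open Matrix
open scoped MatrixGroups
open Fermat.Agent.X0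

/-- The `a`-entry of `(N, 0, 1) · γ` is `gcd (N, c)` where `c` is the lower left entry of `γ`. -/
theorem base_act_a_eq_gcd (N : ℕ) [NeZero N] (γ : SL(2, ℤ)) :
    ((CosetRep.base N).act γ).a = Int.gcd (N : ℤ) ((γ : Matrix (Fin 2) (Fin 2) ℤ) 1 0) := by
  set β := (CosetRep.base N).act γ with hβ
  set c := (CosetRep.base N).cofactor γ with hc
  have h := (CosetRep.base N).toMatrix_mul γ
  have h00 := congrFun (congrFun h 0) 0
  have h10 := congrFun (congrFun h 1) 0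
  simp only [Matrix.mul_apply, Fin.sum_univ_two, CosetRep.toMatrix_zero_zero,
    CosetRep.toMatrix_zero_one, CosetRep.toMatrix_one_zero, CosetRep.toMatrix_one_one,
    mul_zero, add_zero, zero_mul, zero_add] at h00 h10
  have hb : (CosetRep.base N).a = N := rfl
  have hbb : (CosetRep.base N).b = 0 := rfl
  have hbd : (CosetRep.base N).d = 1 := rfl
  rw [hb] at h00
  rw [hbb] at h00
  rw [hbd] at h10
  simp only [Nat.cast_zero, zero_mul, add_zero, Nat.cast_one, one_mul] at h00 h10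
  have hdet := Matrix.SpecialLinearGroup.det_coe c
  rw [det_fin_two] at hdet
  -- `β.a ∣ gcd (N, γ 1 0)` and conversely
  apply Nat.dvd_antisymm
  · have h1 : (β.a : ℤ) ∣ (N : ℤ) := by exact_mod_cast β.a_dvd
    have h2 : (β.a : ℤ) ∣ (γ : Matrix (Fin 2) (Fin 2) ℤ) 1 0 := ⟨_, by rw [h10]; ring⟩
    have := Int.dvd_gcd h1 h2
    exact_mod_cast this
  · have hg1 : ((Int.gcd (N : ℤ) ((γ : Matrix (Fin 2) (Fin 2) ℤ) 1 0) : ℕ) : ℤ) ∣ (N : ℤ) :=
      Int.gcd_dvd_left _ _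
    have hg2 : ((Int.gcd (N : ℤ) ((γ : Matrix (Fin 2) (Fin 2) ℤ) 1 0) : ℕ) : ℤ) ∣
        (γ : Matrix (Fin 2) (Fin 2) ℤ) 1 0 := Int.gcd_dvd_right _ _
    have hcomb : (β.a : ℤ) = (c : Matrix (Fin 2) (Fin 2) ℤ) 1 1 *
        ((N : ℤ) * (γ : Matrix (Fin 2) (Fin 2) ℤ) 0 0) -
        (c : Matrix (Fin 2) (Fin 2) ℤ) 0 1 * (γ : Matrix (Fin 2) (Fin 2) ℤ) 1 0 := by
      rw [h00, h10]
      linear_combination (-(β.a : ℤ)) * hdet
    have : ((Int.gcd (N : ℤ) ((γ : Matrix (Fin 2) (Fin 2) ℤ) 1 0) : ℕ) : ℤ) ∣ (β.a : ℤ) := by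
      rw [hcomb]
      exact dvd_sub (Dvd.dvd.mul_left (Dvd.dvd.mul_right hg1 _) _) (Dvd.dvd.mul_left hg2 _)
    exact_mod_cast this

/-- **The gcd lemma**: for `d ∣ N` and `α : CosetRep N`, the representative
`α_d := (base d).act α.toSL` of level `d` has `a`-entry `gcd (d, α.a)`. -/
theorem base_act_toSL_a (N : ℕ) [NeZero N] {d : ℕ} [NeZero d] (hd : d ∣ N) (α : CosetRep N) :
    ((CosetRep.base d).act α.toSL).a = Nat.gcd d α.a := by
  have h1 := base_act_a_eq_gcd d α.toSL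
  have h2 := base_act_a_eq_gcd N α.toSL
  rw [CosetRep.base_act_toSL] at h2
  rw [h1, h2]
  set c := ((α.toSL : SL(2, ℤ)) : Matrix (Fin 2) (Fin 2) ℤ) 1 0 with hc
  have e1 : Int.gcd (d : ℤ) c = Nat.gcd d c.natAbs := by
    rw [Int.gcd_def]; simp
  have e2 : Int.gcd (N : ℤ) c = Nat.gcd N c.natAbs := by
    rw [Int.gcd_def]; simp
  rw [e1, e2, ← Nat.gcd_assoc, Nat.gcd_eq_left hd]

/-- The `d`-entry of `α_d`. -/
theorem base_act_toSL_d (N : ℕ) [NeZero N] {d : ℕ} [NeZero d] (hd : d ∣ N) (α : CosetRep N) :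
    ((CosetRep.base d).act α.toSL).d = d / Nat.gcd d α.a := by
  have h := ((CosetRep.base d).act α.toSL).mul_eq
  rw [base_act_toSL_a N hd α] at h
  have hpos : 0 < Nat.gcd d α.a := Nat.gcd_pos_of_pos_left _ (Nat.pos_of_ne_zero (NeZero.ne d))
  exact (Nat.div_eq_of_eq_mul_right hpos h.symm).symm

end Fermat.Agent.Igusa
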