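/-
Igusa / Reduce (package T), part 5: the formal roots over `OInt ℓ` and their reductions modulo `mId ℓ`.

* `rS ℓ α`, `JS ℓ N : LaurentSeries ↥(OInt ℓ)` with
  `coeffMap (OInt ℓ).subtype (rS ℓ α) = expandFun N (jAt α)`,
  `coeffMap (OInt ℓ).subtype (JS ℓ N) = expandFun N jH`;
* `rbar ℓ α`, `Jbar ℓ N : LaurentSeries (kRes ℓ)`: orders, leading coefficients, injectivity of
  `α ↦ rbar ℓ α` for `ℓ ∤ N`.
-/
import Mathlib
import Fermat.Agent.Igusa.Defs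
import Fermat.Agent.Igusa.ReduceGcd
import Fermat.Agent.Igusa.ReduceField
import Fermat.Agent.X0.Mod.ModularPoly

set_option autoImplicit false
set_option linter.unusedSectionVars false
set_option linter.style.haveILetI false

noncomputable section

namespace Fermat.Agent.Igusa

open ModularCurve Fermat.Agent.X0
open UpperHalfPlane hiding I

/-! ### Roots of unity as units of `OInt ℓ` -/

section zeta

variable (ℓ : ℕ)

theorem zetaO_zero (d : ℕ) : zetaO ℓ 0 d = 1 := by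
  by_cases hd : 0 < d
  · apply Subtype.ext
    rw [coe_zetaO ℓ _ hd, X0.zetaOf_zero]
    rfl
  · simp [zetaO, hd]

/-- `zetaOf b d` as a unit of `OInt ℓ`. -/
def zetaU (b : ℤ) (d : ℕ) : (↥(OInt ℓ))ˣ where
  val := zetaO ℓ b d
  inv := zetaO ℓ (-b) d
  val_inv := by rw [← zetaO_add, add_neg_cancel, zetaO_zero]
  inv_val := by rw [← zetaO_add, neg_add_cancel, zetaO_zero]

@[simp] theorem val_zetaU (b : ℤ) (d : ℕ) : ((zetaU ℓ b d : (↥(OInt ℓ))ˣ) : ↥(OInt ℓ)) = zetaO ℓ b d :=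
  rfl

@[simp] theorem val_inv_zetaU (b : ℤ) (d : ℕ) :
    (((zetaU ℓ b d)⁻¹ : (↥(OInt ℓ))ˣ) : ↥(OInt ℓ)) = zetaO ℓ (-b) d := rfl

theorem zetaU_zero (d : ℕ) : zetaU ℓ 0 d = 1 := Units.ext (zetaO_zero ℓ d)

theorem coe_map_subtype_zetaU (b : ℤ) {d : ℕ} (hd : 0 < d) :
    ((Units.map ((OInt ℓ).subtype : ↥(OInt ℓ) →* ℂ) (zetaU ℓ b d) : ℂˣ) : ℂ) = zetaOf b d := by
  rw [Units.coe_map]
  exact coe_zetaO ℓ b hd

theorem twistU_eq_twistSeries (ζ : ℂˣ) (F : LaurentSeries ℂ) :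
    twistU ζ F = X0.twistSeries (ζ : ℂ) F := by
  ext k
  rw [twistU_coeff, X0.twistSeries_coeff, Units.val_zpow_eq_zpow_val]

end zeta

/-! ### The formal roots over `OInt ℓ` -/

section formal

variable (ℓ : ℕ) {N : ℕ} [NeZero N]

/-- The formal root `r_α`, `α ∈ A_N`, over `OInt ℓ`: the `t`-expansion (`t = q ^ (1 / N)`) of
`j ∘ α`. -/
def rS (α : CosetRep N) : LaurentSeries ↥(OInt ℓ) :=
  rGen ↥(OInt ℓ) (α.expo N) (α.expo_pos dvd_rfl).ne' (zetaU ℓ α.b α.d)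

/-- The `t`-expansion of `j` over `OInt ℓ`. -/
def JS (N : ℕ) [NeZero N] : LaurentSeries ↥(OInt ℓ) := JGen ↥(OInt ℓ) N (NeZero.ne N)

theorem coeffMap_subtype_rS (α : CosetRep N) :
    coeffMap (OInt ℓ).subtype (rS ℓ α) = expandFun N (jAt α : ℍ → ℂ) := by
  rw [rS, coeffMap_rGen, expandFun_jAt dvd_rfl α, rGen, twistU_eq_twistSeries,
    coe_map_subtype_zetaU ℓ _ α.d_pos]
  rfl

theorem coeffMap_subtype_JS :
    coeffMap (OInt ℓ).subtype (JS ℓ N) = expandFun N (jH : ℍ → ℂ) := by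
  rw [JS, coeffMap_JGen, expandFun_coe_jH]
  rfl

end formal

/-! ### Reduction modulo `mId ℓ` -/

section reduction

variable (ℓ : ℕ) [Fact ℓ.Prime] {N : ℕ} [NeZero N]

/-- The reduced root `r̄_α : kRes ℓ ((t))`. -/
def rbar (α : CosetRep N) : LaurentSeries (kRes ℓ) := coeffMap (piRes ℓ) (rS ℓ α)

/-- The reduction of the `t`-expansion of `j`. -/
def Jbar (N : ℕ) [NeZero N] : LaurentSeries (kRes ℓ) := coeffMap (piRes ℓ) (JS ℓ N)

theorem rbar_eq (α : CosetRep N) :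
    rbar ℓ α = rGen (kRes ℓ) (α.expo N) (α.expo_pos dvd_rfl).ne'
      (Units.map (piRes ℓ : ↥(OInt ℓ) →* kRes ℓ) (zetaU ℓ α.b α.d)) := by
  rw [rbar, rS, coeffMap_rGen]

theorem Jbar_eq : Jbar ℓ N = qExpand (kRes ℓ) N (jqModC (kRes ℓ)) := by
  rw [Jbar, JS, coeffMap_JGen]
  rfl

theorem isLead_Jbar : IsLead (Jbar ℓ N) (-(N : ℤ)) 1 := by
  rw [Jbar, JS, coeffMap_JGen]
  exact isLead_JGen _ N _

theorem order_Jbar : (Jbar ℓ N).order = -(N : ℤ) := (isLead_Jbar ℓ).order_eq one_ne_zero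

theorem order_Jbar_neg : (Jbar ℓ N).order < 0 := by
  rw [order_Jbar]
  have : (0 : ℤ) < N := by exact_mod_cast Nat.pos_of_ne_zero (NeZero.ne N)
  omega

theorem isLead_rbar (α : CosetRep N) :
    IsLead (rbar ℓ α) (-(α.expo N : ℤ)) (piRes ℓ (zetaO ℓ (-(α.b : ℤ)) α.d)) := by
  rw [rbar_eq]
  have h := isLead_rGen (kRes ℓ) (α.expo N) (α.expo_pos dvd_rfl).ne'
    (Units.map (piRes ℓ : ↥(OInt ℓ) →* kRes ℓ) (zetaU ℓ α.b α.d))
  rwa [← map_inv, Units.coe_map, val_inv_zetaU] at h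

theorem piRes_zetaO_ne_zero (b : ℤ) (d : ℕ) : piRes ℓ (zetaO ℓ b d) ≠ 0 := by
  have h : piRes ℓ (zetaO ℓ b d) * piRes ℓ (zetaO ℓ (-b) d) = 1 := by
    rw [← map_mul, ← zetaO_add, add_neg_cancel, zetaO_zero, map_one]
  exact left_ne_zero_of_mul_eq_one h

theorem order_rbar (α : CosetRep N) : (rbar ℓ α).order = -((α.a : ℤ) ^ 2) := by
  rw [(isLead_rbar ℓ α).order_eq (piRes_zetaO_ne_zero ℓ _ _), expo_eq_mul_self]
  push_cast
  ring

theorem rbar_ne_zero (α : CosetRep N) : rbar ℓ α ≠ 0 :=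
  (isLead_rbar ℓ α).ne_zero (piRes_zetaO_ne_zero ℓ _ _)

/-- **The reduced roots are pairwise distinct** (for `ℓ ∤ N`). -/
theorem rbar_injective (hℓN : ¬ ℓ ∣ N) : Function.Injective (rbar ℓ : CosetRep N → _) := by
  intro α β h
  have hoα := order_rbar ℓ α
  have hoβ := order_rbar ℓ β
  rw [h, hoβ] at hoα
  have ha : α.a = β.a := by
    have h2 : ((β.a : ℤ)) ^ 2 = (α.a : ℤ) ^ 2 := neg_injective hoα
    have h3 : (β.a : ℤ) = α.a := by
      have hβ0 : (0 : ℤ) ≤ β.a := by positivity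
      have hα0 : (0 : ℤ) ≤ α.a := by positivity
      exact (sq_eq_sq₀ hβ0 hα0).mp h2
    exact_mod_cast h3.symm
  have hd : α.d = β.d := by
    have h1 := α.mul_eq
    have h2 := β.mul_eq
    rw [ha] at h1
    exact Nat.eq_of_mul_eq_mul_left β.a_pos (h1.trans h2.symm)
  have hlα := (isLead_rbar ℓ α).leadingCoeff_eq (piRes_zetaO_ne_zero ℓ _ _)
  have hlβ := (isLead_rbar ℓ β).leadingCoeff_eq (piRes_zetaO_ne_zero ℓ _ _)
  rw [h, hlβ, hd] at hlα
  -- invert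
  have hinv : ∀ b : ℤ, piRes ℓ (zetaO ℓ b β.d) * piRes ℓ (zetaO ℓ (-b) β.d) = 1 := by
    intro b
    rw [← map_mul, ← zetaO_add, add_neg_cancel, zetaO_zero, map_one]
  have hζ : piRes ℓ (zetaO ℓ (α.b : ℤ) β.d) = piRes ℓ (zetaO ℓ (β.b : ℤ) β.d) := by
    have h1 := hinv (α.b : ℤ)
    have h2 := hinv (β.b : ℤ)
    rw [← hlα] at h1
    have h3 : piRes ℓ (zetaO ℓ (-(β.b : ℤ)) β.d) ≠ 0 := piRes_zetaO_ne_zero ℓ _ _
    exact mul_right_cancel₀ h3 (h1.trans h2.symm)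
  have hℓd : ¬ ℓ ∣ β.d := fun hdvd => hℓN (hdvd.trans β.d_dvd)
  have hb : α.b = β.b := piRes_zetaO_inj ℓ β.d_pos hℓd (hd ▸ α.b_lt) β.b_lt hζ
  exact CosetRep.ext ha hb hd

/-- The reduced root at the base point is `j̄ (t ^ (N²))`. -/
theorem rbar_base :
    rbar ℓ (CosetRep.base N) = qExpand (kRes ℓ) (N * N) (jqModC (kRes ℓ)) := by
  rw [rbar_eq]
  have hb : (CosetRep.base N).b = 0 := rfl
  have hz : zetaU ℓ ((CosetRep.base N).b : ℤ) (CosetRep.base N).d = 1 := by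
    rw [hb]
    exact zetaU_zero ℓ _
  rw [hz, map_one, rGen, twistU_one, qExp]
  have he : (CosetRep.base N).expo N = N * N := by
    rw [expo_eq_mul_self]
    rfl
  exact @qExpand_congr _ _ _ _ ⟨((CosetRep.base N).expo_pos dvd_rfl).ne'⟩ _ he _

end reduction

/-! ### The base point -/

section base

variable {N : ℕ} [NeZero N]

theorem base_a_eq : (CosetRep.base N).a = N := rfl

/-- Only the base point `(N, 0, 1)` has `a = N`. -/
theorem eq_base_of_dvd_a (α : CosetRep N) (h : N ∣ α.a) : α = CosetRep.base N := by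
  have ha : α.a = N := Nat.dvd_antisymm α.a_dvd h
  have hN : 0 < N := Nat.pos_of_ne_zero (NeZero.ne N)
  have hd : α.d = 1 := by
    have h1 := α.mul_eq
    rw [ha] at h1
    exact Nat.eq_of_mul_eq_mul_left hN (h1.trans (mul_one N).symm)
  have hb : α.b = 0 := by
    have := α.b_lt
    omega
  exact CosetRep.ext ha hb hd

end base

end Fermat.Agent.Igusa
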