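/-
Igusa / Reduce (package T), part 6: the formal modular units over `OInt ℓ` and their reductions.

* `uS ℓ h α`, `uSinv ℓ h α : LaurentSeries ↥(OInt ℓ)` (`h : d ∣ N`) with
  `coeffMap (OInt ℓ).subtype (uS ℓ h α) = expandFun N (uFam N d α)` (for `ℓ ∤ N`), same for the inverse;
* `ubar ℓ h α`, `ubarInv ℓ h α : LaurentSeries (kRes ℓ)`: `ubar * ubarInv = 1`, the order formula
  `(ubar ℓ h α).order = (N / d) * (gcd (d, α.a) ^ 2 - d)`.
-/
import Mathlib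
import Fermat.Agent.Igusa.Reduce
import Fermat.Agent.Igusa.AnaUnit

set_option autoImplicit false
set_option linter.unusedSectionVars false
set_option linter.style.haveILetI false

noncomputable section

namespace Fermat.Agent.Igusa

open ModularCurve Fermat.Agent.X0
open UpperHalfPlane hiding I

/-! ### Inverses of integers prime to `ℓ` in `OInt ℓ` -/

section invO

variable (ℓ : ℕ)

open Classical in
/-- `1 / D` as an element of `OInt ℓ` (junk value `0` if `1 / D ∉ OInt ℓ`). -/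
def invO (D : ℕ) : ↥(OInt ℓ) := if h : ((D : ℂ))⁻¹ ∈ OInt ℓ then ⟨_, h⟩ else 0

theorem coe_invO [Fact ℓ.Prime] {D : ℕ} (h : ¬ ℓ ∣ D) :
    ((invO ℓ D : ↥(OInt ℓ)) : ℂ) = ((D : ℂ))⁻¹ := by
  rw [invO, dif_pos (inv_natCast_mem_OInt (Fact.out : ℓ.Prime) h)]

theorem invO_mul_natCast [Fact ℓ.Prime] {D : ℕ} (h : ¬ ℓ ∣ D) :
    invO ℓ D * (D : ↥(OInt ℓ)) = 1 := by
  apply Subtype.ext
  have hD : (D : ℂ) ≠ 0 := by
    intro h0
    have : D = 0 := by exact_mod_cast h0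
    exact h (this ▸ dvd_zero ℓ)
  rw [Subring.coe_mul, coe_invO ℓ h, Subring.coe_natCast, Subring.coe_one, inv_mul_cancel₀ hD]

end invO

/-! ### The formal units -/

section formal

variable (ℓ : ℕ) {N : ℕ} [NeZero N] {d : ℕ} [NeZero d]

/-- The representative `α_d = (base d).act α.toSL` of level `d`. -/
abbrev repD (d : ℕ) [NeZero d] (α : CosetRep N) : CosetRep d := (CosetRep.base d).act α.toSL

/-- The formal unit `u_{d,α}` over `OInt ℓ`. -/
def uS (h : d ∣ N) (α : CosetRep N) : LaurentSeries ↥(OInt ℓ) :=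
  haveI : NeZero ((repD d α).expo N) := ⟨((repD d α).expo_pos h).ne'⟩
  unitSer ↥(OInt ℓ) (invO ℓ (repD d α).d ^ 12) (zetaO ℓ (repD d α).b (repD d α).d)
    ((repD d α).expo N) N

/-- The formal unit `1 / u_{d,α}` over `OInt ℓ`. -/
def uSinv (h : d ∣ N) (α : CosetRep N) : LaurentSeries ↥(OInt ℓ) :=
  haveI : NeZero ((repD d α).expo N) := ⟨((repD d α).expo_pos h).ne'⟩
  unitInvSer ↥(OInt ℓ) (((repD d α).d : ↥(OInt ℓ)) ^ 12) (zetaO ℓ (repD d α).b (repD d α).d)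
    (zetaO ℓ (-((repD d α).b : ℤ)) (repD d α).d) ((repD d α).expo N) N

theorem not_dvd_repD_d [Fact ℓ.Prime] (hℓN : ¬ ℓ ∣ N) (h : d ∣ N) (α : CosetRep N) :
    ¬ ℓ ∣ (repD d α).d := fun hdvd => hℓN ((hdvd.trans (repD d α).d_dvd).trans h)

theorem zetaO_mul_neg (b : ℤ) (D : ℕ) : zetaO ℓ b D * zetaO ℓ (-b) D = 1 := by
  rw [← zetaO_add, add_neg_cancel, zetaO_zero]

theorem uS_mul_uSinv [Fact ℓ.Prime] (hℓN : ¬ ℓ ∣ N) (h : d ∣ N) (α : CosetRep N) :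
    uS ℓ h α * uSinv ℓ h α = 1 := by
  haveI : NeZero ((repD d α).expo N) := ⟨((repD d α).expo_pos h).ne'⟩
  rw [uS, uSinv, unitSer_mul_unitInvSer _ (zetaO_mul_neg ℓ _ _), ← mul_pow,
    invO_mul_natCast ℓ (not_dvd_repD_d ℓ hℓN h α), one_pow, map_one]

theorem coeffMap_subtype_uS [Fact ℓ.Prime] (hℓN : ¬ ℓ ∣ N) (h : d ∣ N) (α : CosetRep N) :
    coeffMap (OInt ℓ).subtype (uS ℓ h α) = expandFun N (uFam N d α : ℍ → ℂ) := by
  haveI : NeZero ((repD d α).expo N) := ⟨((repD d α).expo_pos h).ne'⟩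
  rw [uS, coeffMap_unitSer, uFam, expandFun_unitW h]
  have hz1 : (OInt ℓ).subtype (zetaO ℓ ((repD d α).b : ℤ) (repD d α).d) =
      zetaOf (repD d α).b (repD d α).d := by
    rw [Subring.coe_subtype, coe_zetaO ℓ _ (repD d α).d_pos]
  have hc : (OInt ℓ).subtype (invO ℓ (repD d α).d ^ 12) = (((repD d α).d : ℂ) ^ 12)⁻¹ := by
    rw [map_pow, Subring.coe_subtype, coe_invO ℓ (not_dvd_repD_d ℓ hℓN h α), inv_pow]
  rw [hc, hz1]

theorem coeffMap_subtype_uSinv [Fact ℓ.Prime] (h : d ∣ N) (α : CosetRep N) :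
    coeffMap (OInt ℓ).subtype (uSinv ℓ h α) = expandFun N (uFamInv N d α : ℍ → ℂ) := by
  haveI : NeZero ((repD d α).expo N) := ⟨((repD d α).expo_pos h).ne'⟩
  rw [uSinv, coeffMap_unitInvSer, uFamInv, expandFun_unitWInv h]
  have hz1 : (OInt ℓ).subtype (zetaO ℓ ((repD d α).b : ℤ) (repD d α).d) =
      zetaOf (repD d α).b (repD d α).d := by
    rw [Subring.coe_subtype, coe_zetaO ℓ _ (repD d α).d_pos]
  have hz : (OInt ℓ).subtype (zetaO ℓ (-((repD d α).b : ℤ)) (repD d α).d) =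
      (zetaOf (repD d α).b (repD d α).d)⁻¹ := by
    have h1 := congrArg (OInt ℓ).subtype (zetaO_mul_neg ℓ ((repD d α).b : ℤ) (repD d α).d)
    rw [map_mul, map_one, hz1] at h1
    exact eq_inv_of_mul_eq_one_right h1
  have hc : (OInt ℓ).subtype (((repD d α).d : ↥(OInt ℓ)) ^ 12) = ((repD d α).d : ℂ) ^ 12 := by
    rw [map_pow, map_natCast]
  rw [hc, hz1, hz]

end formal

/-! ### Reduction modulo `mId ℓ` -/

section reduction

variable (ℓ : ℕ) [Fact ℓ.Prime] {N : ℕ} [NeZero N] {d : ℕ} [NeZero d]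

/-- The reduced unit `ū_{d,α} : kRes ℓ ((t))`. -/
def ubar (h : d ∣ N) (α : CosetRep N) : LaurentSeries (kRes ℓ) := coeffMap (piRes ℓ) (uS ℓ h α)

/-- The reduced unit `1 / ū_{d,α}`. -/
def ubarInv (h : d ∣ N) (α : CosetRep N) : LaurentSeries (kRes ℓ) :=
  coeffMap (piRes ℓ) (uSinv ℓ h α)

theorem ubar_mul_ubarInv (hℓN : ¬ ℓ ∣ N) (h : d ∣ N) (α : CosetRep N) :
    ubar ℓ h α * ubarInv ℓ h α = 1 := by
  rw [ubar, ubarInv, ← map_mul, uS_mul_uSinv ℓ hℓN h α, map_one]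

theorem ubar_ne_zero (hℓN : ¬ ℓ ∣ N) (h : d ∣ N) (α : CosetRep N) : ubar ℓ h α ≠ 0 :=
  left_ne_zero_of_mul_eq_one (ubar_mul_ubarInv ℓ hℓN h α)

theorem ubarInv_eq_inv (hℓN : ¬ ℓ ∣ N) (h : d ∣ N) (α : CosetRep N) :
    ubarInv ℓ h α = (ubar ℓ h α)⁻¹ :=
  eq_inv_of_mul_eq_one_right (ubar_mul_ubarInv ℓ hℓN h α)

theorem piRes_invO_ne_zero {D : ℕ} (hD : ¬ ℓ ∣ D) : piRes ℓ (invO ℓ D) ≠ 0 := by
  have h1 : piRes ℓ (invO ℓ D) * piRes ℓ (D : ↥(OInt ℓ)) = 1 := by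
    rw [← map_mul, invO_mul_natCast ℓ hD, map_one]
  exact left_ne_zero_of_mul_eq_one h1

theorem order_ubar_expo (hℓN : ¬ ℓ ∣ N) (h : d ∣ N) (α : CosetRep N) :
    (ubar ℓ h α).order = ((repD d α).expo N : ℤ) - N := by
  haveI : NeZero ((repD d α).expo N) := ⟨((repD d α).expo_pos h).ne'⟩
  rw [ubar, uS, coeffMap_unitSer]
  refine order_unitSer ?_ _ _
  rw [map_pow]
  exact mul_ne_zero (pow_ne_zero _ (piRes_invO_ne_zero ℓ (not_dvd_repD_d ℓ hℓN h α)))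
    (piRes_zetaO_ne_zero ℓ _ _)

/-- The arithmetic of the exponent: `(N / (d / g)) g - N = (N / d) (g² - d)` for `g = gcd (d, a)`. -/
theorem expo_repD_sub (h : d ∣ N) (α : CosetRep N) :
    ((repD d α).expo N : ℤ) - N = ((N / d : ℕ) : ℤ) * ((Nat.gcd d α.a : ℤ) ^ 2 - d) := by
  have ha := base_act_toSL_a N h α
  have hdd := base_act_toSL_d N h α
  rw [CosetRep.expo, ha, hdd]
  set g := Nat.gcd d α.a with hg
  have hgpos : 0 < g := Nat.gcd_pos_of_pos_left _ (Nat.pos_of_ne_zero (NeZero.ne d))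
  obtain ⟨d', hd'⟩ : g ∣ d := Nat.gcd_dvd_left d α.a
  obtain ⟨m, hm⟩ := h
  have hdpos : 0 < d := Nat.pos_of_ne_zero (NeZero.ne d)
  have hd'pos : 0 < d' := by
    rcases Nat.eq_zero_or_pos d' with h0 | h0
    · rw [h0, mul_zero] at hd'; omega
    · exact h0
  have e1 : d / g = d' := by rw [hd']; exact Nat.mul_div_cancel_left d' hgpos
  have e2 : N / d' = g * m := by
    rw [hm, hd', mul_assoc, mul_comm d' m, ← mul_assoc]
    exact Nat.mul_div_cancel _ hd'pos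
  have e3 : N / d = m := by rw [hm]; exact Nat.mul_div_cancel_left m hdpos
  rw [e1, e2, e3]
  have hN : (N : ℤ) = (g : ℤ) * d' * m := by rw [hm, hd']; push_cast; ring
  have hdz : (d : ℤ) = (g : ℤ) * d' := by rw [hd']; push_cast; ring
  rw [hN, hdz]
  push_cast
  ring

/-- **The order of the reduced unit.** -/
theorem order_ubar (hℓN : ¬ ℓ ∣ N) (h : d ∣ N) (α : CosetRep N) :
    (ubar ℓ h α).order = ((N / d : ℕ) : ℤ) * ((Nat.gcd d α.a : ℤ) ^ 2 - d) := by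
  rw [order_ubar_expo ℓ hℓN h α, expo_repD_sub h α]

end reduction

end Fermat.Agent.Igusa
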