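/-
Igusa / LIFinal: the linear independence statement (LI) modulo `ℓ`
(the modular polynomial `Φ_N` stays irreducible modulo `ℓ ∤ N`), assembled from

* the abstract core `core'` (Igusa/Core),
* the reduced formal series of package T (Igusa/Reduce, Igusa/ReduceUnit),
* the descent `li_modl_of_li_kRes` (Igusa/LIDescent),

under the hypothesis `IntIdentities ℓ N` (statement (4) of the plan: the four families of polynomial
identities with coefficients in `OInt ℓ [J]`).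
-/
import Mathlib
import Fermat.Agent.Igusa.ReduceUnit
import Fermat.Agent.Igusa.ReduceTransport
import Fermat.Agent.Igusa.Core
import Fermat.Agent.Igusa.LIDescent

set_option autoImplicit false
set_option linter.unusedSectionVars false
set_option linter.style.haveILetI false

noncomputable section

namespace Fermat.Agent.Igusa

open ModularCurve Polynomial Fermat.Agent.X0

/-- **Statement (4)**: the polynomials `∏ (T - r_α)`, `∑ u_{d,α} ∏_{β ≠ α} (T - r_β)`,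
`∏ (T - u_{d,α})`, `∏ (T - 1 / u_{d,α})` have coefficients in `OInt ℓ [J]`. -/
structure IntIdentities (ℓ : ℕ) (N : ℕ) [NeZero N] : Prop where
  phi : ∃ Φ0 : (↥(OInt ℓ))[X][X],
    Φ0.map (evS (JS ℓ N)) = ∏ α : CosetRep N, (X - C (rS ℓ α))
  lag : ∀ (d : ℕ) [NeZero d] (h : d ∣ N), ∃ L : (↥(OInt ℓ))[X][X],
    L.map (evS (JS ℓ N)) =
      ∑ α : CosetRep N, C (uS ℓ h α) * ∏ β ∈ Finset.univ.erase α, (X - C (rS ℓ β))
  psiP : ∀ (d : ℕ) [NeZero d] (h : d ∣ N), ∃ Ψ : (↥(OInt ℓ))[X][X],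
    Ψ.map (evS (JS ℓ N)) = ∏ α : CosetRep N, (X - C (uS ℓ h α))
  psiM : ∀ (d : ℕ) [NeZero d] (h : d ∣ N), ∃ Ψ : (↥(OInt ℓ))[X][X],
    Ψ.map (evS (JS ℓ N)) = ∏ α : CosetRep N, (X - C (uSinv ℓ h α))

section assembly

variable (ℓ : ℕ) [Fact ℓ.Prime] (N : ℕ) [NeZero N]

/-- The reduced units as a total function of `d` (junk value `1` for `d ∤ N`). -/
def ubarFun (d : ℕ) (α : CosetRep N) : LaurentSeries (kRes ℓ) :=
  if h : d ∣ N then
    haveI : NeZero d := ⟨ne_zero_of_dvd_ne_zero (NeZero.ne N) h⟩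
    ubar ℓ h α
  else 1

theorem ubarFun_eq {d : ℕ} [NeZero d] (h : d ∣ N) (α : CosetRep N) :
    ubarFun ℓ N d α = ubar ℓ h α := by
  rw [ubarFun, dif_pos h]

variable {N}

/-- **(LI) over the residue field `kRes ℓ`**, in the variable `t = q ^ (1 / N)`. -/
theorem li_kRes (hℓN : ¬ ℓ ∣ N) (H : IntIdentities ℓ N) (P : (kRes ℓ)[X][X])
    (hdeg : P.natDegree < Fintype.card (CosetRep N))
    (hP : (P.map ((Polynomial.aeval (qExpand (kRes ℓ) N (jqModC (kRes ℓ))) :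
          (kRes ℓ)[X] →ₐ[kRes ℓ] LaurentSeries (kRes ℓ)) :
          (kRes ℓ)[X] →+* LaurentSeries (kRes ℓ))).eval
        (qExpand (kRes ℓ) (N * N) (jqModC (kRes ℓ))) = 0) : P = 0 := by
  have hN : 0 < N := Nat.pos_of_ne_zero (NeZero.ne N)
  rw [← rbar_base ℓ (N := N), ← Jbar_eq ℓ (N := N)] at hP
  -- (4a)
  obtain ⟨Φ0, hΦ0⟩ := H.phi
  have hΦ : (Φ0.map (Polynomial.mapRingHom (piRes ℓ))).map (evJ (Jbar ℓ N)) =
      ∏ α : CosetRep N, (X - C (rbar ℓ α)) :=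
    transport_prod (piRes ℓ) (JS ℓ N) Φ0 (rS ℓ) hΦ0
  -- (4b)
  have hLall : ∀ d, d ∣ N → ∃ L : (kRes ℓ)[X][X], L.map (evJ (Jbar ℓ N)) =
      ∑ α : CosetRep N, C (ubarFun ℓ N d α) *
        ∏ β ∈ Finset.univ.erase α, (X - C (rbar ℓ β)) := by
    intro d hd
    haveI : NeZero d := ⟨ne_zero_of_dvd_ne_zero (NeZero.ne N) hd⟩
    obtain ⟨L, hL⟩ := H.lag d hd
    refine ⟨L.map (Polynomial.mapRingHom (piRes ℓ)), ?_⟩
    have := transport_lagrange (piRes ℓ) (JS ℓ N) L (uS ℓ hd) (rS ℓ) hL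
    simp only [ubarFun_eq ℓ N hd]
    exact this
  -- (4c)
  have hPall : ∀ d, d ∣ N → ∃ Ψ : (kRes ℓ)[X][X], Ψ.map (evJ (Jbar ℓ N)) =
      ∏ α : CosetRep N, (X - C (ubarFun ℓ N d α)) := by
    intro d hd
    haveI : NeZero d := ⟨ne_zero_of_dvd_ne_zero (NeZero.ne N) hd⟩
    obtain ⟨Ψ, hΨ⟩ := H.psiP d hd
    refine ⟨Ψ.map (Polynomial.mapRingHom (piRes ℓ)), ?_⟩
    have := transport_prod (piRes ℓ) (JS ℓ N) Ψ (uS ℓ hd) hΨ
    simp only [ubarFun_eq ℓ N hd]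
    exact this
  -- (4d)
  have hMall : ∀ d, d ∣ N → ∃ Ψ : (kRes ℓ)[X][X], Ψ.map (evJ (Jbar ℓ N)) =
      ∏ α : CosetRep N, (X - C (ubarFun ℓ N d α)⁻¹) := by
    intro d hd
    haveI : NeZero d := ⟨ne_zero_of_dvd_ne_zero (NeZero.ne N) hd⟩
    obtain ⟨Ψ, hΨ⟩ := H.psiM d hd
    refine ⟨Ψ.map (Polynomial.mapRingHom (piRes ℓ)), ?_⟩
    have := transport_prod (piRes ℓ) (JS ℓ N) Ψ (uSinv ℓ hd) hΨ
    simp only [ubarFun_eq ℓ N hd, ← ubarInv_eq_inv ℓ hℓN hd]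
    exact this
  choose! L hL using hLall
  choose! Ψp hΨp using hPall
  choose! Ψm hΨm using hMall
  refine core' N hN (Jbar ℓ N) (order_Jbar_neg ℓ) (rbar ℓ) (rbar_injective ℓ hℓN)
    (Φ0.map (Polynomial.mapRingHom (piRes ℓ))) hΦ (fun α => α.a) (CosetRep.base N)
    (dvd_refl N) (fun α h => eq_base_of_dvd_a α h) (ubarFun ℓ N) ?_
    (fun d => ((N / d : ℕ) : ℤ)) ?_ ?_ L hL Ψp Ψm hΨp hΨm P hdeg hP
  · intro d hd α
    haveI : NeZero d := ⟨ne_zero_of_dvd_ne_zero (NeZero.ne N) hd⟩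
    rw [ubarFun_eq ℓ N hd]
    exact ubar_ne_zero ℓ hℓN hd α
  · intro d hd
    have hdpos : 0 < d := Nat.pos_of_ne_zero (ne_zero_of_dvd_ne_zero (NeZero.ne N) hd)
    have : 0 < N / d := Nat.div_pos (Nat.le_of_dvd hN hd) hdpos
    exact_mod_cast this.ne'
  · intro d hd α
    haveI : NeZero d := ⟨ne_zero_of_dvd_ne_zero (NeZero.ne N) hd⟩
    rw [ubarFun_eq ℓ N hd]
    exact order_ubar ℓ hℓN hd α

/-- **(LI) modulo `ℓ`**: `j̄(q^N)` satisfies no polynomial relation of `T`-degree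
`< ψ(N) = #(CosetRep N)` over `𝔽_ℓ[j̄(q)]` (for `ℓ ∤ N`), under statement (4). -/
theorem li_modl_of_intIdentities (hℓN : ¬ ℓ ∣ N) (H : IntIdentities ℓ N)
    (P : (ZMod ℓ)[X][X]) (hdeg : P.natDegree < Fintype.card (CosetRep N))
    (hP : (P.map ((Polynomial.aeval (jqModC (ZMod ℓ)) :
          (ZMod ℓ)[X] →ₐ[ZMod ℓ] LaurentSeries (ZMod ℓ)) :
          (ZMod ℓ)[X] →+* LaurentSeries (ZMod ℓ))).eval
        (qExpand (ZMod ℓ) N (jqModC (ZMod ℓ))) = 0) : P = 0 :=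
  li_modl_of_li_kRes ℓ N (Fintype.card (CosetRep N))
    (fun Q hQ hQ0 => li_kRes ℓ hℓN H Q hQ hQ0) P hdeg hP

end assembly

end Fermat.Agent.Igusa
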