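/-
Igusa / LIModl: statement (4) for `O = OInt ℓ` in the shape `IntIdentities ℓ N`, and the final
linear independence statement `li_modl` (`Φ_N` is irreducible modulo `ℓ ∤ N`).
-/
import Mathlib
import Fermat.Agent.Igusa.LIFinal
import Fermat.Agent.Igusa.CharZero

set_option autoImplicit false
set_option linter.unusedSectionVars false
set_option linter.style.haveILetI false

noncomputable section

namespace Fermat.Agent.Igusa

open ModularCurve Polynomial Fermat.Agent.X0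
open UpperHalfPlane hiding I

variable (ℓ : ℕ) [Fact ℓ.Prime] (N : ℕ) [NeZero N]

theorem jSerHom_eq_evS_JS : jSerHom ↥(OInt ℓ) N = evS (JS ℓ N) := rfl

/-- **Statement (4)** for `O = OInt ℓ`, `ℓ ∤ N`. -/
theorem intIdentities (hℓN : ¬ ℓ ∣ N) : IntIdentities ℓ N where
  phi := by
    obtain ⟨Φ₀, -, -, hΦ⟩ := exists_rootsPoly_formal (O := OInt ℓ) (N := N) CosetRep.actPerm
      (jAt : CosetRep N → HolH) compSL_jAt_actPerm (fun α => isMerInf_jAt dvd_rfl α)
      (rS ℓ) (coeffMap_subtype_rS ℓ)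
    exact ⟨Φ₀, hΦ⟩
  lag := by
    intro d _ h
    obtain ⟨L₀, hL⟩ := exists_lagrangePoly_formal (O := OInt ℓ) (N := N) CosetRep.actPerm
      (uFam N d) (jAt : CosetRep N → HolH) (compSL_uFam h) compSL_jAt_actPerm
      (fun α => isMerInf_uFam h α) (fun α => isMerInf_jAt dvd_rfl α)
      (uS ℓ h) (rS ℓ) (coeffMap_subtype_uS ℓ hℓN h) (coeffMap_subtype_rS ℓ)
    exact ⟨L₀, hL⟩
  psiP := by
    intro d _ h
    obtain ⟨Ψ, -, -, hΨ⟩ := exists_rootsPoly_formal (O := OInt ℓ) (N := N) CosetRep.actPerm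
      (uFam N d) (compSL_uFam h) (fun α => isMerInf_uFam h α)
      (uS ℓ h) (coeffMap_subtype_uS ℓ hℓN h)
    exact ⟨Ψ, hΨ⟩
  psiM := by
    intro d _ h
    obtain ⟨Ψ, -, -, hΨ⟩ := exists_rootsPoly_formal (O := OInt ℓ) (N := N) CosetRep.actPerm
      (uFamInv N d) (compSL_uFamInv h) (fun α => isMerInf_uFamInv h α)
      (uSinv ℓ h) (coeffMap_subtype_uSinv ℓ h)
    exact ⟨Ψ, hΨ⟩

/-- **(LI) modulo `ℓ`**: for `ℓ ∤ N`, the series `j̄(q^N)` satisfies no polynomial relation of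
`T`-degree `< ψ(N) = #(CosetRep N)` over `𝔽_ℓ[j̄(q)]`; equivalently the modular polynomial `Φ_N`
remains irreducible modulo `ℓ`. -/
theorem li_modl (hℓN : ¬ ℓ ∣ N) (P : (ZMod ℓ)[X][X])
    (hdeg : P.natDegree < Fintype.card (CosetRep N))
    (hP : (P.map ((Polynomial.aeval (jqModC (ZMod ℓ)) :
          (ZMod ℓ)[X] →ₐ[ZMod ℓ] LaurentSeries (ZMod ℓ)) :
          (ZMod ℓ)[X] →+* LaurentSeries (ZMod ℓ))).eval
        (qExpand (ZMod ℓ) N (jqModC (ZMod ℓ))) = 0) : P = 0 :=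
  li_modl_of_intIdentities ℓ hℓN (intIdentities ℓ N hℓN) P hdeg hP

end Fermat.Agent.Igusa
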