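/-
Igusa/RationalBar (S28 project, package Q): Galois descent from `ℚ̄` to `ℚ` for the modular
polynomial.  Over `Kb = ℚ̄` the library knows `[FN N : Kb(xF)] = n`; here we deduce the
linear independence statement (LI) over `Kb`, the invariance of the bivariate modular polynomial
under `Gal(Kb/ℚ)` and hence its rationality.
-/
import Mathlib
import Fermat.Agent.X0.Mod.Assembly

set_option autoImplicit false
set_option linter.unusedSectionVars false
set_option linter.style.haveILetI false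

noncomputable section

namespace Fermat.Agent.Igusa.RatQ

open ModularCurve Polynomial IntermediateField
open Fermat.Agent.X0 Fermat.Agent.X0.FormalSide
open UpperHalfPlane hiding I
open scoped MatrixGroups

variable (N : ℕ) [NeZero N]

/-- evaluation of a bivariate polynomial over `Kb` at `(xF, yF) = (j(q), j(q^N))`. -/
def evBar : Kb[X][X] →+* FN N :=
  eval₂RingHom ((aeval (xF N) : Kb[X] →ₐ[Kb] FN N) : Kb[X] →+* FN N) (yF N)

theorem evBar_X : evBar N X = yF N := by simp [evBar]

theorem evBar_C_X : evBar N (C X) = xF N := by simp [evBar]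

theorem evBar_C_C (a : Kb) : evBar N (C (C a)) = algebraMap Kb (FN N) a := by simp [evBar]

/-- `Kb[X] → Kb(xF)`. -/
def toEBar : Kb[X] →+* Kb⟮xF N⟯ :=
  ((aeval (⟨xF N, mem_adjoin_simple_self Kb (xF N)⟩ : Kb⟮xF N⟯) : Kb[X] →ₐ[Kb] Kb⟮xF N⟯) :
    Kb[X] →+* Kb⟮xF N⟯)

theorem algebraMap_toEBar (p : Kb[X]) :
    algebraMap Kb⟮xF N⟯ (FN N) (toEBar N p) = aeval (xF N) p := by
  rw [toEBar, RingHom.coe_coe, ← aeval_algebraMap_apply]
  rfl

theorem toEBar_injective : Function.Injective (toEBar N) := by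
  intro p q h
  have h1 := congrArg (algebraMap Kb⟮xF N⟯ (FN N)) h
  rw [algebraMap_toEBar, algebraMap_toEBar] at h1
  exact (transcendental_iff_injective.mp (transcendental_xF N)) h1

theorem aeval_yF_map_toEBar (P : Kb[X][X]) :
    aeval (yF N) (P.map (toEBar N)) = evBar N P := by
  rw [aeval_def, eval₂_map, evBar, coe_eval₂RingHom]
  congr 1
  exact RingHom.ext fun p => algebraMap_toEBar N p

theorem natDegree_minpoly_yF_bar :
    (minpoly Kb⟮xF N⟯ (yF N)).natDegree = Fintype.card (CosetRep N) :=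
  (EmbCount.natDegree_minpoly_yF (xF N) (yF N) (phi N) (rL N) (rL_injective N) (CosetRep.base N)
    (phi_yF N) (coeff_modularPoly_phi N) (exists_sigmaL_base N)).1

theorem isIntegral_yF_bar : IsIntegral Kb⟮xF N⟯ (yF N) :=
  (EmbCount.natDegree_minpoly_yF (xF N) (yF N) (phi N) (rL N) (rL_injective N) (CosetRep.base N)
    (phi_yF N) (coeff_modularPoly_phi N) (exists_sigmaL_base N)).2

/-- **(LI) over `Kb`**: `1, y, …, y^(n-1)` are linearly independent over `Kb[j]`. -/
theorem eq_zero_of_evBar_eq_zero (P : Kb[X][X]) (hdeg : P.natDegree < Fintype.card (CosetRep N))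
    (hP : evBar N P = 0) : P = 0 := by
  have h1 : aeval (yF N) (P.map (toEBar N)) = 0 := by rw [aeval_yF_map_toEBar, hP]
  have h2 : P.map (toEBar N) = 0 := by
    by_contra hne
    have h3 := minpoly.degree_le_of_ne_zero Kb⟮xF N⟯ (yF N) hne h1
    have h4 : (minpoly Kb⟮xF N⟯ (yF N)).natDegree ≤ (P.map (toEBar N)).natDegree :=
      natDegree_le_natDegree h3
    rw [natDegree_minpoly_yF_bar] at h4
    have h5 := natDegree_map_le (f := toEBar N) (p := P)
    omega
  exact (Polynomial.map_eq_zero_iff (toEBar_injective N)).mp h2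

/-! ### The modular polynomial over `Kb` -/

/-- the bivariate modular polynomial over `Kb`. -/
theorem exists_modPolyBar :
    ∃ P₀ : Kb[X][X], P₀.map ((aeval jH : Kb[X] →ₐ[Kb] HolH) : Kb[X] →+* HolH) =
      rootsPoly (jAt : CosetRep N → HolH) :=
  exists_map_aeval_jH_eq_Kb (N := N) (rootsPoly jAt)
    (rootsPoly_map_compSL CosetRep.actPerm jAt compSL_jAt_actPerm)
    (rootsPoly_coeff_mem (RK N).toSubring jAt jAt_mem_RK_self)

/-- evaluation at `(xF, yF)` corresponds to evaluation at `(j, j ∘ base)` in `MerH`. -/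
theorem coe_phi_evBar (P : Kb[X][X]) :
    ((phi N (evBar N P) : fieldL N) : MerH) =
      algebraMap HolH MerH
        ((P.map ((aeval jH : Kb[X] →ₐ[Kb] HolH) : Kb[X] →+* HolH)).eval
          (jAt (CosetRep.base N))) := by
  let Ψ₁ : Kb[X][X] →+* MerH :=
    ((fieldL N).val : fieldL N →+* MerH).comp ((phi N : FN N →+* fieldL N).comp (evBar N))
  let Ψ₂ : Kb[X][X] →+* MerH :=
    (algebraMap HolH MerH).comp ((evalRingHom (jAt (CosetRep.base N))).comp
      (mapRingHom ((aeval jH : Kb[X] →ₐ[Kb] HolH) : Kb[X] →+* HolH)))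
  have h : Ψ₁ = Ψ₂ := by
    refine Polynomial.ringHom_ext' (Polynomial.ringHom_ext' ?_ ?_) ?_
    · ext a
      simp only [Ψ₁, Ψ₂, RingHom.comp_apply, evBar_C_C, coe_mapRingHom, map_C, coe_evalRingHom,
        eval_C, RingHom.coe_coe, aeval_C, AlgHom.commutes, IntermediateField.coe_val,
        IntermediateField.algebraMap_apply]
      rw [← IsScalarTower.algebraMap_apply]
    · simp only [Ψ₁, Ψ₂, RingHom.comp_apply, evBar_C_X, coe_mapRingHom, map_C, coe_evalRingHom,
        eval_C, RingHom.coe_coe, aeval_X, phi_xF, IntermediateField.coe_val]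
      rfl
    · simp only [Ψ₁, Ψ₂, RingHom.comp_apply, evBar_X, coe_mapRingHom, map_X, coe_evalRingHom,
        eval_X, RingHom.coe_coe, phi_yF, IntermediateField.coe_val]
      rfl
  exact DFunLike.congr_fun h P

theorem evBar_modPolyBar {P₀ : Kb[X][X]}
    (hP₀ : P₀.map ((aeval jH : Kb[X] →ₐ[Kb] HolH) : Kb[X] →+* HolH) =
      rootsPoly (jAt : CosetRep N → HolH)) : evBar N P₀ = 0 := by
  have h1 := coe_phi_evBar N P₀
  rw [hP₀, rootsPoly, eval_prod,
    Finset.prod_eq_zero (Finset.mem_univ (CosetRep.base N)) (by simp), map_zero] at h1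
  have h2 : phi N (evBar N P₀) = 0 := Subtype.ext h1
  exact (map_eq_zero (phi N)).mp h2

/-! ### The Galois action on coefficients -/

/-- the action of `σ ∈ Gal(Kb/ℚ)` on bivariate polynomials. -/
def galAct (σ : Kb ≃ₐ[ℚ] Kb) : Kb[X][X] →+* Kb[X][X] :=
  mapRingHom (mapRingHom (σ : Kb →+* Kb))

theorem galAct_coeff_coeff (σ : Kb ≃ₐ[ℚ] Kb) (P : Kb[X][X]) (i j : ℕ) :
    ((galAct σ P).coeff i).coeff j = σ ((P.coeff i).coeff j) := by
  simp [galAct, coeff_map]

theorem coe_xF_eq : ((xF N : FN N) : LaurentSeries Kb) = coeffEmb Kb jq := rfl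

theorem coe_yF_eq : ((yF N : FN N) : LaurentSeries Kb) = coeffEmb Kb (qExpand ℚ N jq) := rfl

/-- evaluation commutes with the Galois action (`xF`, `yF` have rational coefficients). -/
theorem coe_evBar_galAct (σ : Kb ≃ₐ[ℚ] Kb) (P : Kb[X][X]) :
    ((evBar N (galAct σ P) : FN N) : LaurentSeries Kb) =
      coeffMap (σ : Kb →+* Kb) ((evBar N P : FN N) : LaurentSeries Kb) := by
  let Ψ₁ : Kb[X][X] →+* LaurentSeries Kb :=
    (algebraMap (FN N) (LaurentSeries Kb)).comp ((evBar N).comp (galAct σ))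
  let Ψ₂ : Kb[X][X] →+* LaurentSeries Kb :=
    (coeffMap (σ : Kb →+* Kb)).comp ((algebraMap (FN N) (LaurentSeries Kb)).comp (evBar N))
  have h : Ψ₁ = Ψ₂ := by
    refine Polynomial.ringHom_ext' (Polynomial.ringHom_ext' ?_ ?_) ?_
    · ext a
      simp only [Ψ₁, Ψ₂, RingHom.comp_apply, galAct, coe_mapRingHom, map_C, evBar_C_C,
        RingHom.coe_coe]
      rw [← IsScalarTower.algebraMap_apply, ← IsScalarTower.algebraMap_apply,
        coeffMap_algebraMap]
      rfl
    · simp only [Ψ₁, Ψ₂, RingHom.comp_apply, galAct, coe_mapRingHom, map_C, map_X, evBar_C_X]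
      show ((xF N : FN N) : LaurentSeries Kb) = coeffMap _ ((xF N : FN N) : LaurentSeries Kb)
      rw [coe_xF_eq, coeffMap_coeffEmb]
    · simp only [Ψ₁, Ψ₂, RingHom.comp_apply, galAct, coe_mapRingHom, map_X, evBar_X]
      show ((yF N : FN N) : LaurentSeries Kb) = coeffMap _ ((yF N : FN N) : LaurentSeries Kb)
      rw [coe_yF_eq, coeffMap_coeffEmb]
  exact DFunLike.congr_fun h P

theorem evBar_galAct_eq_zero (σ : Kb ≃ₐ[ℚ] Kb) {P : Kb[X][X]} (hP : evBar N P = 0) :
    evBar N (galAct σ P) = 0 := by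
  apply Subtype.ext
  rw [coe_evBar_galAct, hP]
  simp

/-- a Galois-twisted polynomial of small degree with the same value is the same polynomial. -/
theorem galAct_eq_self_of_evBar_eq (σ : Kb ≃ₐ[ℚ] Kb) {P : Kb[X][X]}
    (hdeg : (galAct σ P - P).natDegree < Fintype.card (CosetRep N))
    (h : evBar N (galAct σ P) = evBar N P) : galAct σ P = P := by
  have h1 : evBar N (galAct σ P - P) = 0 := by rw [map_sub, h, sub_self]
  exact sub_eq_zero.mp (eq_zero_of_evBar_eq_zero N _ hdeg h1)

theorem aeval_jH_Kb_injective :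
    Function.Injective ((aeval jH : Kb[X] →ₐ[Kb] HolH) : Kb[X] →+* HolH) := by
  intro p q h
  have h1 : ∀ r : Kb[X], ((aeval jH : Kb[X] →ₐ[Kb] HolH) : Kb[X] →+* HolH) r =
      aeval (R := ℂ) jH (r.map (algebraMap Kb ℂ)) := fun r => by
    rw [RingHom.coe_coe, aeval_map_algebraMap]
  rw [h1, h1] at h
  exact Polynomial.map_injective _ (algebraMap Kb ℂ).injective (aeval_jH_injective h)

theorem card_cosetRep_pos : 0 < Fintype.card (CosetRep N) :=
  Fintype.card_pos_iff.mpr ⟨CosetRep.base N⟩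

theorem monic_rootsPoly {R : Type*} [CommRing R] {A : Type*} [Fintype A] (r : A → R) :
    (rootsPoly r).Monic := monic_prod_of_monic _ _ fun α _ => monic_X_sub_C (r α)

theorem natDegree_rootsPoly {R : Type*} [CommRing R] [Nontrivial R] {A : Type*} [Fintype A]
    (r : A → R) : (rootsPoly r).natDegree = Fintype.card A := by
  rw [rootsPoly, natDegree_prod_of_monic _ _ fun α _ => monic_X_sub_C (r α)]
  simp

section descent

variable {N}
variable {P₀ : Kb[X][X]}
  (hP₀ : P₀.map ((aeval jH : Kb[X] →ₐ[Kb] HolH) : Kb[X] →+* HolH) =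
    rootsPoly (jAt : CosetRep N → HolH))

include hP₀

theorem monic_modPolyBar : P₀.Monic := by
  refine monic_of_injective (aeval_jH_Kb_injective) ?_
  rw [hP₀]
  exact monic_rootsPoly _

theorem natDegree_modPolyBar : P₀.natDegree = Fintype.card (CosetRep N) := by
  rw [← natDegree_map_eq_of_injective aeval_jH_Kb_injective P₀, hP₀, natDegree_rootsPoly]

theorem galAct_modPolyBar (σ : Kb ≃ₐ[ℚ] Kb) : galAct σ P₀ = P₀ := by
  have hm := monic_modPolyBar hP₀
  have hd := natDegree_modPolyBar hP₀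
  have hm' : (galAct σ P₀).Monic := hm.map _
  have hd' : (galAct σ P₀).natDegree = Fintype.card (CosetRep N) := by
    rw [galAct, coe_mapRingHom, hm.natDegree_map, hd]
  refine galAct_eq_self_of_evBar_eq N σ ?_ ?_
  · by_cases h0 : galAct σ P₀ - P₀ = 0
    · rw [h0, natDegree_zero]; exact card_cosetRep_pos N
    · have h1 : (galAct σ P₀ - P₀).degree < (galAct σ P₀).degree := by
        refine degree_sub_lt_left ?_ hm'.ne_zero ?_
        · rw [degree_eq_natDegree hm'.ne_zero, degree_eq_natDegree hm.ne_zero, hd', hd]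
        · rw [hm'.leadingCoeff, hm.leadingCoeff]
      have h2 := natDegree_lt_natDegree h0 h1
      rwa [hd'] at h2
  · rw [evBar_galAct_eq_zero N σ (evBar_modPolyBar N hP₀), evBar_modPolyBar N hP₀]

end descent

/-- a bivariate polynomial over `Kb` fixed by `Gal(Kb/ℚ)` is defined over `ℚ`. -/
theorem exists_map_eq_of_galAct_eq {P : Kb[X][X]} (h : ∀ σ : Kb ≃ₐ[ℚ] Kb, galAct σ P = P) :
    ∃ Φ : ℚ[X][X], Φ.map (mapRingHom (algebraMap ℚ Kb)) = P := by
  rw [← Polynomial.mem_lifts, Polynomial.lifts_iff_coeff_lifts]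
  intro i
  show P.coeff i ∈ Set.range (Polynomial.map (algebraMap ℚ Kb))
  have h1 : P.coeff i ∈ Polynomial.lifts (algebraMap ℚ Kb) := by
    rw [Polynomial.lifts_iff_coeff_lifts]
    intro j
    haveI : Algebra.IsAlgebraic ℚ Kb := AlgebraicClosure.isAlgebraic ℚ
    haveI : IsAlgClosure ℚ Kb := ⟨inferInstance, inferInstance⟩
    haveI : IsGalois ℚ Kb := IsAlgClosure.isGalois ℚ Kb
    rw [InfiniteGalois.mem_range_algebraMap_iff_fixed]
    intro σ
    have := galAct_coeff_coeff σ P i j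
    rwa [h σ, eq_comm] at this
  obtain ⟨q, hq⟩ := (Polynomial.mem_lifts _).mp h1
  exact ⟨q, hq⟩

end Fermat.Agent.Igusa.RatQ
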