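/-
Igusa/Rational (S28 project, package Q): the modular polynomial `Φ_N ∈ ℚ[X][T]`, linear
independence of `1, y, …, y^(n-1)` over `ℚ[j]` and the generation of the modular function field
by `j(q)` and `j(q^N)` over `ℚ`.
-/
import Mathlib
import Fermat.Agent.Igusa.RationalBar

set_option autoImplicit false
set_option linter.unusedSectionVars false
set_option linter.style.haveILetI false

noncomputable section

namespace Fermat.Agent.Igusa.RatQ

open ModularCurve Polynomial IntermediateField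
open Fermat.Agent.X0 Fermat.Agent.X0.FormalSide
open UpperHalfPlane hiding I
open scoped MatrixGroups

variable (N : ℕ) [NeZero N]

/-- evaluation of a bivariate polynomial over `ℚ` at `(jq, jqN N) = (j(q), j(q^N))`. -/
def evQ : ℚ[X][X] →+* LaurentSeries ℚ :=
  eval₂RingHom ((aeval jq : ℚ[X] →ₐ[ℚ] LaurentSeries ℚ) : ℚ[X] →+* LaurentSeries ℚ) (jqN N)

theorem evQ_apply (P : ℚ[X][X]) :
    evQ N P =
      (P.map ((aeval jq : ℚ[X] →ₐ[ℚ] LaurentSeries ℚ) : ℚ[X] →+* LaurentSeries ℚ)).eval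
        (jqN N) := by
  rw [evQ, coe_eval₂RingHom, eval_map]

theorem evQ_X : evQ N X = jqN N := by simp [evQ]

theorem evQ_C_X : evQ N (C X) = jq := by simp [evQ]

/-- base change of bivariate polynomials `ℚ → Kb`. -/
def toBar : ℚ[X][X] →+* Kb[X][X] := mapRingHom (mapRingHom (algebraMap ℚ Kb))

theorem toBar_apply (P : ℚ[X][X]) : toBar P = P.map (mapRingHom (algebraMap ℚ Kb)) := rfl

theorem mapRingHom_Kb_injective : Function.Injective (mapRingHom (algebraMap ℚ Kb)) :=
  Polynomial.map_injective _ (algebraMap ℚ Kb).injective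

theorem toBar_injective : Function.Injective toBar :=
  Polynomial.map_injective _ mapRingHom_Kb_injective

theorem coeffEmb_Kb_injective : Function.Injective (coeffEmb Kb) := by
  intro x y h
  ext k
  have := congrArg (fun z : LaurentSeries Kb => z.coeff k) h
  simp only [coeffEmb_coeff] at this
  exact (algebraMap ℚ Kb).injective this

/-- evaluation at `(j(q), j(q^N))` commutes with the base change `ℚ → Kb`. -/
theorem coeffEmb_evQ (P : ℚ[X][X]) :
    coeffEmb Kb (evQ N P) = ((evBar N (toBar P) : FN N) : LaurentSeries Kb) := by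
  let Ψ₁ : ℚ[X][X] →+* LaurentSeries Kb := (coeffEmb Kb).comp (evQ N)
  let Ψ₂ : ℚ[X][X] →+* LaurentSeries Kb :=
    (algebraMap (FN N) (LaurentSeries Kb)).comp ((evBar N).comp toBar)
  have h : Ψ₁ = Ψ₂ := by
    refine Polynomial.ringHom_ext' (Polynomial.ringHom_ext' (Subsingleton.elim _ _) ?_) ?_
    · simp only [Ψ₁, Ψ₂, RingHom.comp_apply, toBar, coe_mapRingHom, map_C, map_X, evBar_C_X,
        evQ_C_X]
      rfl
    · simp only [Ψ₁, Ψ₂, RingHom.comp_apply, toBar, coe_mapRingHom, map_X, evBar_X, evQ_X]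
      rfl
  exact DFunLike.congr_fun h P

theorem evQ_eq_zero_iff (P : ℚ[X][X]) : evQ N P = 0 ↔ evBar N (toBar P) = 0 := by
  constructor
  · intro h
    apply Subtype.ext
    rw [← coeffEmb_evQ, h, map_zero]
    rfl
  · intro h
    apply coeffEmb_Kb_injective
    rw [coeffEmb_evQ, h, map_zero]
    rfl

/-- **(Q2)**, `evQ` form. -/
theorem eq_zero_of_evQ_eq_zero (P : ℚ[X][X]) (hdeg : P.natDegree < Fintype.card (CosetRep N))
    (hP : evQ N P = 0) : P = 0 := by
  have h1 : evBar N (toBar P) = 0 := (evQ_eq_zero_iff N P).mp hP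
  have h2 : (toBar P).natDegree < Fintype.card (CosetRep N) :=
    lt_of_le_of_lt natDegree_map_le hdeg
  have h3 := eq_zero_of_evBar_eq_zero N _ h2 h1
  exact toBar_injective (by rw [h3, map_zero])

/-- **(Q2)** `1, y, …, y^(n-1)` are linearly independent over `ℚ[j]`. -/
theorem eq_zero_of_eval_eq_zero (P : ℚ[X][X]) (hdeg : P.natDegree < Fintype.card (CosetRep N))
    (hP : (P.map ((aeval jq : ℚ[X] →ₐ[ℚ] LaurentSeries ℚ) : ℚ[X] →+* LaurentSeries ℚ)).eval
      (jqN N) = 0) : P = 0 :=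
  eq_zero_of_evQ_eq_zero N P hdeg (by rw [evQ_apply, hP])

/-- the two ways of evaluating a rational polynomial at `jH`. -/
theorem aeval_jH_comp_map :
    (((aeval jH : Kb[X] →ₐ[Kb] HolH) : Kb[X] →+* HolH)).comp (mapRingHom (algebraMap ℚ Kb)) =
      (((aeval jH : ℂ[X] →ₐ[ℂ] HolH) : ℂ[X] →+* HolH)).comp (mapRingHom (algebraMap ℚ ℂ)) := by
  refine Polynomial.ringHom_ext' (Subsingleton.elim _ _) ?_
  simp

/-- **(Q1)** the modular polynomial over `ℚ`. -/
theorem exists_modularPolyQ :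
    ∃ Φ : ℚ[X][X], Φ.Monic ∧ Φ.natDegree = Fintype.card (CosetRep N) ∧
      (Φ.map ((aeval jq : ℚ[X] →ₐ[ℚ] LaurentSeries ℚ) : ℚ[X] →+* LaurentSeries ℚ)).eval
        (jqN N) = 0 ∧
      (Φ.map (mapRingHom (algebraMap ℚ ℂ))).map
          ((aeval jH : ℂ[X] →ₐ[ℂ] HolH) : ℂ[X] →+* HolH) =
        rootsPoly (jAt : CosetRep N → HolH) := by
  obtain ⟨P₀, hP₀⟩ := exists_modPolyBar N
  obtain ⟨Φ, hΦ⟩ := exists_map_eq_of_galAct_eq (galAct_modPolyBar hP₀)
  have hΦ' : toBar Φ = P₀ := hΦ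
  refine ⟨Φ, ?_, ?_, ?_, ?_⟩
  · refine monic_of_injective mapRingHom_Kb_injective ?_
    rw [hΦ]
    exact monic_modPolyBar hP₀
  · rw [← natDegree_map_eq_of_injective mapRingHom_Kb_injective Φ, hΦ]
    exact natDegree_modPolyBar hP₀
  · rw [← evQ_apply, evQ_eq_zero_iff, hΦ']
    exact evBar_modPolyBar N hP₀
  · rw [← hP₀, ← hΦ, Polynomial.map_map, Polynomial.map_map, aeval_jH_comp_map]

/-- the modular polynomial `Φ_N ∈ ℚ[X][T]`. -/
def modPolyQ : ℚ[X][X] := (exists_modularPolyQ N).choose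

theorem modPolyQ_monic : (modPolyQ N).Monic := (exists_modularPolyQ N).choose_spec.1

theorem natDegree_modPolyQ : (modPolyQ N).natDegree = Fintype.card (CosetRep N) :=
  (exists_modularPolyQ N).choose_spec.2.1

theorem modPolyQ_eval :
    ((modPolyQ N).map
      ((aeval jq : ℚ[X] →ₐ[ℚ] LaurentSeries ℚ) : ℚ[X] →+* LaurentSeries ℚ)).eval (jqN N) = 0 :=
  (exists_modularPolyQ N).choose_spec.2.2.1

theorem modPolyQ_link :
    ((modPolyQ N).map (mapRingHom (algebraMap ℚ ℂ))).map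
        ((aeval jH : ℂ[X] →ₐ[ℂ] HolH) : ℂ[X] →+* HolH) =
      rootsPoly (jAt : CosetRep N → HolH) :=
  (exists_modularPolyQ N).choose_spec.2.2.2

theorem evQ_modPolyQ : evQ N (modPolyQ N) = 0 := by rw [evQ_apply, modPolyQ_eval]

end Fermat.Agent.Igusa.RatQ
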