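/-
Igusa/RationalZl (S28 project, package Q4): the modular polynomial `Φ_N ∈ ℚ[X][T]` has
coefficients in `ℤ_(ℓ)[X]`, and the resulting polynomial over `ℤ_(ℓ)` still kills
`(j(q), j(q^N))` in `ℤ_(ℓ)((q))`.
-/
import Mathlib
import Fermat.Agent.Igusa.Defs
import Fermat.Agent.Igusa.AnaUnitInt
import Fermat.Agent.Igusa.CharZero
import Fermat.Agent.Igusa.Rational

set_option autoImplicit false

noncomputable section

namespace Fermat.Agent.Igusa

open Polynomial ModularCurve Fermat.Agent.X0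
open UpperHalfPlane hiding I
open scoped MatrixGroups

/-! ### Lifting bivariate polynomials to a subring -/

/-- A bivariate polynomial all of whose coefficients lie in a subring `S` comes from `S[X][X]`. -/
theorem modPolyZl_exists_lift {R : Type*} [CommRing R] (S : Subring R) (P : R[X][X])
    (h : ∀ i j, ((P.coeff i).coeff j) ∈ S) :
    ∃ P' : (↥S)[X][X], P'.map (mapRingHom S.subtype) = P := by
  rw [← Polynomial.mem_lifts, Polynomial.lifts_iff_coeff_lifts]
  intro i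
  have h1 : P.coeff i ∈ Polynomial.lifts S.subtype := by
    rw [Polynomial.lifts_iff_coeff_lifts]
    intro j
    exact ⟨⟨_, h i j⟩, rfl⟩
  obtain ⟨Q, hQ⟩ := (Polynomial.mem_lifts _).mp h1
  exact ⟨Q, hQ⟩

theorem modPolyZl_coeffMap_algebraMap {R C : Type*} [CommRing R] [Field C] (ι : R →+* C) (a : R) :
    coeffMap ι (algebraMap R (LaurentSeries R) a) = algebraMap C (LaurentSeries C) (ι a) := by
  have h1 : algebraMap R (PowerSeries R) a = PowerSeries.C a := by
    simp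
  rw [HahnSeries.algebraMap_apply', h1, HahnSeries.ofPowerSeries_C,
    algebraMap_laurentSeries_eq_single]
  exact coeffMap_single ι 0 a

theorem modPolyZl_mapRingHom_subtype_injective {R : Type*} [CommRing R] (S : Subring R) :
    Function.Injective (mapRingHom S.subtype) :=
  Polynomial.map_injective _ Subtype.val_injective

section

variable (ℓ : ℕ) [Fact ℓ.Prime] (N : ℕ) [NeZero N]

omit [Fact ℓ.Prime] in
theorem isIntInf_jAt_OInt (α : CosetRep N) : IsIntInf (OInt ℓ) N ((jAt α : HolH) : ℍ → ℂ) :=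
  ⟨isMerInf_jAt dvd_rfl α, coeff_expandFun_jAt_mem_OInt dvd_rfl α⟩

/-- all coefficients of the modular polynomial lie in `ℤ_(ℓ)`. -/
theorem coeff_coeff_modPolyQ_mem (i j : ℕ) :
    ((RatQ.modPolyQ N).coeff i).coeff j ∈ GaloisRep.ratLocalizedAt ℓ := by
  obtain ⟨P₀, hP₀⟩ := exists_rootsPoly_jHomInt (O := OInt ℓ) (N := N) CosetRep.actPerm
    (jAt : CosetRep N → HolH) compSL_jAt_actPerm (isIntInf_jAt_OInt ℓ N)
  rw [← RatQ.modPolyQ_link N, jHomInt, ← Polynomial.map_map] at hP₀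
  have h1 : P₀.map (mapRingHom (OInt ℓ).subtype) =
      (RatQ.modPolyQ N).map (mapRingHom (algebraMap ℚ ℂ)) :=
    Polynomial.map_injective _ aeval_jH_injective hP₀
  have h2 := congrArg (fun Q : ℂ[X][X] => (Q.coeff i).coeff j) h1
  simp only [Polynomial.coeff_map, coe_mapRingHom] at h2
  rw [← ratCast_mem_OInt_iff ℓ]
  have h3 : ((((RatQ.modPolyQ N).coeff i).coeff j : ℚ) : ℂ) =
      algebraMap ℚ ℂ (((RatQ.modPolyQ N).coeff i).coeff j) := (eq_ratCast _ _).symm
  rw [h3, ← h2]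
  exact ((P₀.coeff i).coeff j).2

omit [Fact ℓ.Prime] in
/-- evaluation `ℤ_(ℓ)[X] → ℤ_(ℓ)((q))`, `X ↦ j(q)` commutes with the inclusion into `ℚ`. -/
theorem coeffMap_comp_aeval_jqModC_Zl :
    (coeffMap (GaloisRep.ratLocalizedAt ℓ).subtype).comp
      ((aeval (jqModC ↥(GaloisRep.ratLocalizedAt ℓ)) :
        (↥(GaloisRep.ratLocalizedAt ℓ))[X] →ₐ[↥(GaloisRep.ratLocalizedAt ℓ)]
          LaurentSeries ↥(GaloisRep.ratLocalizedAt ℓ)) :
        (↥(GaloisRep.ratLocalizedAt ℓ))[X] →+* LaurentSeries ↥(GaloisRep.ratLocalizedAt ℓ)) =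
    (((aeval jq : ℚ[X] →ₐ[ℚ] LaurentSeries ℚ) : ℚ[X] →+* LaurentSeries ℚ)).comp
      (mapRingHom (GaloisRep.ratLocalizedAt ℓ).subtype) := by
  refine Polynomial.ringHom_ext (fun a => ?_) ?_
  · simp only [RingHom.comp_apply, RingHom.coe_coe, aeval_C, coe_mapRingHom, map_C]
    exact modPolyZl_coeffMap_algebraMap _ a
  · simp only [RingHom.comp_apply, RingHom.coe_coe, aeval_X, coe_mapRingHom, map_X]
    exact coeffMap_jqModC _

/-- **(Q4)** the modular polynomial over `ℤ_(ℓ)`. -/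
theorem exists_modPolyZl :
    ∃ Φl : (↥(GaloisRep.ratLocalizedAt ℓ))[X][X], Φl.Monic ∧
      Φl.natDegree = Fintype.card (CosetRep N) ∧
      Φl.map (mapRingHom (GaloisRep.ratLocalizedAt ℓ).subtype) = RatQ.modPolyQ N ∧
      (Φl.map ((aeval (jqModC ↥(GaloisRep.ratLocalizedAt ℓ)) :
        (↥(GaloisRep.ratLocalizedAt ℓ))[X] →ₐ[↥(GaloisRep.ratLocalizedAt ℓ)]
          LaurentSeries ↥(GaloisRep.ratLocalizedAt ℓ)) :
        (↥(GaloisRep.ratLocalizedAt ℓ))[X] →+* LaurentSeries ↥(GaloisRep.ratLocalizedAt ℓ))).eval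
        (qExpand ↥(GaloisRep.ratLocalizedAt ℓ) N (jqModC ↥(GaloisRep.ratLocalizedAt ℓ))) = 0 := by
  obtain ⟨Φl, hΦl⟩ := modPolyZl_exists_lift (GaloisRep.ratLocalizedAt ℓ) (RatQ.modPolyQ N)
    (coeff_coeff_modPolyQ_mem ℓ N)
  have hinj := modPolyZl_mapRingHom_subtype_injective (GaloisRep.ratLocalizedAt ℓ)
  refine ⟨Φl, ?_, ?_, hΦl, ?_⟩
  · refine monic_of_injective hinj ?_
    rw [hΦl]
    exact RatQ.modPolyQ_monic N
  · rw [← natDegree_map_eq_of_injective hinj Φl, hΦl]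
    exact RatQ.natDegree_modPolyQ N
  · have hcinj : Function.Injective (coeffMap (GaloisRep.ratLocalizedAt ℓ).subtype) := by
      intro x y h
      ext k
      have := congrArg (fun z : LaurentSeries ℚ => z.coeff k) h
      simpa [coeffMap_coeff] using this
    apply hcinj
    rw [map_zero, Polynomial.eval_map, Polynomial.hom_eval₂, coeffMap_comp_aeval_jqModC_Zl,
      ← Polynomial.eval₂_map, hΦl, coeffMap_qExpand_jqModC_ring, ← Polynomial.eval_map]
    exact RatQ.modPolyQ_eval N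

/-- the modular polynomial `Φ_N` over `ℤ_(ℓ)`. -/
def modPolyZl : (↥(GaloisRep.ratLocalizedAt ℓ))[X][X] := (exists_modPolyZl ℓ N).choose

theorem modPolyZl_monic : (modPolyZl ℓ N).Monic := (exists_modPolyZl ℓ N).choose_spec.1

theorem natDegree_modPolyZl : (modPolyZl ℓ N).natDegree = Fintype.card (CosetRep N) :=
  (exists_modPolyZl ℓ N).choose_spec.2.1

theorem map_modPolyZl :
    (modPolyZl ℓ N).map (mapRingHom (GaloisRep.ratLocalizedAt ℓ).subtype) = RatQ.modPolyQ N :=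
  (exists_modPolyZl ℓ N).choose_spec.2.2.1

theorem map_modPolyZl_algebraMap :
    (modPolyZl ℓ N).map (mapRingHom (algebraMap ↥(GaloisRep.ratLocalizedAt ℓ) ℚ)) =
      RatQ.modPolyQ N :=
  map_modPolyZl ℓ N

theorem modPolyZl_eval :
    ((modPolyZl ℓ N).map ((aeval (jqModC ↥(GaloisRep.ratLocalizedAt ℓ)) :
        (↥(GaloisRep.ratLocalizedAt ℓ))[X] →ₐ[↥(GaloisRep.ratLocalizedAt ℓ)]
          LaurentSeries ↥(GaloisRep.ratLocalizedAt ℓ)) :
        (↥(GaloisRep.ratLocalizedAt ℓ))[X] →+* LaurentSeries ↥(GaloisRep.ratLocalizedAt ℓ))).eval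
        (qExpand ↥(GaloisRep.ratLocalizedAt ℓ) N (jqModC ↥(GaloisRep.ratLocalizedAt ℓ))) = 0 :=
  (exists_modPolyZl ℓ N).choose_spec.2.2.2

theorem coeff_modPolyZl_map (i : ℕ) :
    ((modPolyZl ℓ N).coeff i).map (GaloisRep.ratLocalizedAt ℓ).subtype =
      (RatQ.modPolyQ N).coeff i := by
  rw [← map_modPolyZl ℓ N, Polynomial.coeff_map, coe_mapRingHom]

theorem natDegree_coeff_modPolyZl (i : ℕ) :
    ((modPolyZl ℓ N).coeff i).natDegree = ((RatQ.modPolyQ N).coeff i).natDegree := by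
  rw [← coeff_modPolyZl_map ℓ N i,
    natDegree_map_eq_of_injective (Subtype.val_injective)]

/-- the derivative of `Φ_N` commutes with the passage `ℤ_(ℓ) → ℚ`. -/
theorem map_derivative_modPolyZl :
    (derivative (modPolyZl ℓ N)).map (mapRingHom (GaloisRep.ratLocalizedAt ℓ).subtype) =
      derivative (RatQ.modPolyQ N) := by
  rw [← Polynomial.derivative_map, map_modPolyZl]

end

end Fermat.Agent.Igusa
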