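/-
Igusa/ChartInfData (S28 project, package V2): the data of the chart at infinity
`u = 1/j`, `y_u = j(q^N) / j^N` in the literal shape of the hypotheses of the chart bridge:
the reflected modular polynomial `Φ_inf(T) = u^(N n) Φ_N(T / u^N)` over `ℤ_(ℓ)`, its root,
the unit `Φ_inf'(y_u)`, linear independence modulo `ℓ`, generation and transcendence.
-/
import Mathlib
import Fermat.Prelude.Def_ModularCurve_IgusaScheme
import Fermat.Agent.Igusa.RationalZl
import Fermat.Agent.Igusa.ReflectChart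
import Fermat.Agent.Igusa.LIModl
import Fermat.Agent.Igusa.ZlResidue
import Fermat.Agent.Igusa.GenH3Shape

set_option autoImplicit false
set_option linter.unusedSectionVars false

noncomputable section

namespace Fermat.Agent.Igusa

open Polynomial ModularCurve ModularCurve.IgusaScheme Fermat.Agent.X0

section

variable (ℓ : ℕ) [Fact ℓ.Prime] (N : ℕ) [NeZero N]

set_option quotPrecheck false in
local notation "Zl" => ↥(GaloisRep.ratLocalizedAt ℓ)
set_option quotPrecheck false in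
local notation "F" => ↥(modularFunctionFieldFull N)

/-- the modular polynomial at infinity `Φ_inf(T) = u^(N n) Φ_N(T / u^N)` over `ℤ_(ℓ)`. -/
def modPolyInfZl : Zl[X][X] :=
  ReflectChart.reflectPoly N (Fintype.card (CosetRep N)) (modPolyZl ℓ N)

theorem modPolyInfZl_monic : (modPolyInfZl ℓ N).Monic :=
  ReflectChart.reflectPoly_monic N (modPolyZl_monic ℓ N) (natDegree_modPolyZl ℓ N)

theorem natDegree_modPolyInfZl :
    (modPolyInfZl ℓ N).natDegree = Fintype.card (CosetRep N) :=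
  ReflectChart.natDegree_reflectPoly N (modPolyZl_monic ℓ N) (natDegree_modPolyZl ℓ N)

/-- the degree bound (Q5), transported to `ℤ_(ℓ)` in the shape needed by `ReflectChart`. -/
theorem chartInf_hdeg
    (hQ5 : ∀ k, ((RatQ.modPolyQ N).coeff (Fintype.card (CosetRep N) - k)).natDegree ≤ k * N)
    (i : ℕ) : ((modPolyZl ℓ N).coeff i).natDegree ≤ (Fintype.card (CosetRep N) - i) * N :=
  ReflectChart.natDegree_coeff_le_of_sub (natDegree_modPolyZl ℓ N)
    (fun k => by rw [natDegree_coeff_modPolyZl]; exact hQ5 k) i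

variable {ℓ N}

/-- **(hroot)** at infinity. -/
theorem chartInf_hroot {uZ' : LaurentSeries Zl}
    (hQ5 : ∀ k, ((RatQ.modPolyQ N).coeff (Fintype.card (CosetRep N) - k)).natDegree ≤ k * N)
    (huZ : jqModC Zl * uZ' = 1) :
    ((modPolyInfZl ℓ N).map ((aeval uZ' : Zl[X] →ₐ[Zl] LaurentSeries Zl) :
      Zl[X] →+* LaurentSeries Zl)).eval (qExpand Zl N (jqModC Zl) * uZ' ^ N) = 0 := by
  rw [modPolyInfZl, ReflectChart.eval_reflectPoly (natDegree_modPolyZl ℓ N)
    (chartInf_hdeg ℓ N hQ5) huZ, modPolyZl_eval, mul_zero]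

/-- **(hunit)** at infinity from (Q6). -/
theorem chartInf_hunit {uZ' : LaurentSeries Zl}
    (hQ5 : ∀ k, ((RatQ.modPolyQ N).coeff (Fintype.card (CosetRep N) - k)).natDegree ≤ k * N)
    (huZ : jqModC Zl * uZ' = 1)
    (hQ6 : ∃ vZ : LaurentSeries Zl,
      ((derivative (modPolyZl ℓ N)).map ((aeval (jqModC Zl) : Zl[X] →ₐ[Zl] LaurentSeries Zl) :
        Zl[X] →+* LaurentSeries Zl)).eval (qExpand Zl N (jqModC Zl)) * vZ = 1) :
    ∃ vZ' : LaurentSeries Zl,
      ((derivative (modPolyInfZl ℓ N)).map ((aeval uZ' : Zl[X] →ₐ[Zl] LaurentSeries Zl) :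
        Zl[X] →+* LaurentSeries Zl)).eval (qExpand Zl N (jqModC Zl) * uZ' ^ N) * vZ' = 1 :=
  ReflectChart.exists_unit_reflectPoly (natDegree_modPolyZl ℓ N) (chartInf_hdeg ℓ N hQ5) huZ _ hQ6

/-- **(hli)** at infinity, from `li_modl`. -/
theorem chartInf_hli {uZ' : LaurentSeries Zl} (hℓN : ¬ ℓ ∣ N) (huZ : jqModC Zl * uZ' = 1) (P : (ZMod ℓ)[X][X])
    (hdeg : P.natDegree < (modPolyInfZl ℓ N).natDegree)
    (hP : (P.map ((aeval (coeffMap (zlResidue ℓ) uZ') :
        (ZMod ℓ)[X] →ₐ[ZMod ℓ] LaurentSeries (ZMod ℓ)) :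
        (ZMod ℓ)[X] →+* LaurentSeries (ZMod ℓ))).eval
      (coeffMap (zlResidue ℓ) (qExpand Zl N (jqModC Zl) * uZ' ^ N)) = 0) : P = 0 := by
  have h1 : jqModC (ZMod ℓ) * coeffMap (zlResidue ℓ) uZ' = 1 := by
    have := congrArg (coeffMap (zlResidue ℓ)) huZ
    rwa [map_mul, map_one, coeffMap_jqModC] at this
  rw [natDegree_modPolyInfZl] at hdeg
  rw [map_mul, map_pow, coeffMap_qExpand, coeffMap_jqModC] at hP
  exact ReflectChart.li_reflect h1 _ N (fun Q hQ hQ0 => li_modl ℓ N hℓN Q hQ hQ0) P hdeg hP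

/-- `coeffMap` of the inverse series is `jq⁻¹`. -/
theorem chartInf_coeffMap_inv {uZ' : LaurentSeries Zl} (huZ : jqModC Zl * uZ' = 1) :
    coeffMap (GaloisRep.ratLocalizedAt ℓ).subtype uZ' = jq⁻¹ := by
  have := congrArg (coeffMap (GaloisRep.ratLocalizedAt ℓ).subtype) huZ
  rw [map_mul, map_one, coeffMap_jqModC, jqModC_rat] at this
  exact eq_inv_of_mul_eq_one_right this

/-- **(hu)** at infinity. -/
theorem chartInf_hu {uZ' : LaurentSeries Zl} (huZ : jqModC Zl * uZ' = 1) :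
    coeffMap (GaloisRep.ratLocalizedAt ℓ).subtype uZ' = (((jFull N)⁻¹ : F) : LaurentSeries ℚ) := by
  rw [chartInf_coeffMap_inv huZ]
  rfl

variable (N) in
/-- `y_u = j(q^N) / j^N` as an element of the function field. -/
def yInfFull : F := ⟨qExpand ℚ N jq, jqd_mem_full N dvd_rfl⟩ * (jFull N)⁻¹ ^ N

variable (N) in
theorem coe_yInfFull : ((yInfFull N : F) : LaurentSeries ℚ) = qExpand ℚ N jq * jq⁻¹ ^ N := rfl

/-- **(hy)** at infinity. -/
theorem chartInf_hy {uZ' : LaurentSeries Zl} (huZ : jqModC Zl * uZ' = 1) :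
    coeffMap (GaloisRep.ratLocalizedAt ℓ).subtype (qExpand Zl N (jqModC Zl) * uZ' ^ N) =
      ((yInfFull N : F) : LaurentSeries ℚ) := by
  rw [map_mul, map_pow, chartInf_coeffMap_inv huZ, coeffMap_qExpand, coeffMap_jqModC, jqModC_rat,
    coe_yInfFull]

theorem chartInf_transcendental_jq : Transcendental ℚ jq :=
  FormalSide.transcendental_of_coeff_neg_ne_zero jq (n := -1) (by norm_num)
    (by rw [coeff_jq_neg_one]; exact one_ne_zero)

theorem chartInf_transcendental_jq_inv : Transcendental ℚ jq⁻¹ := by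
  intro h
  exact chartInf_transcendental_jq (by simpa using h.inv)

variable (N) in
/-- **(htr)** at infinity. -/
theorem chartInf_htr : Transcendental ℚ (((jFull N)⁻¹ : F) : LaurentSeries ℚ) :=
  chartInf_transcendental_jq_inv

/-- the root identity at infinity over `ℚ`. -/
theorem chartInf_hroot_rat {uZ' : LaurentSeries Zl}
    (hQ5 : ∀ k, ((RatQ.modPolyQ N).coeff (Fintype.card (CosetRep N) - k)).natDegree ≤ k * N)
    (huZ : jqModC Zl * uZ' = 1) :
    (((modPolyInfZl ℓ N).map (mapRingHom (GaloisRep.ratLocalizedAt ℓ).subtype)).map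
      ((aeval jq⁻¹ : ℚ[X] →ₐ[ℚ] LaurentSeries ℚ) : ℚ[X] →+* LaurentSeries ℚ)).eval
      (qExpand ℚ N jq * jq⁻¹ ^ N) = 0 := by
  have h := congrArg (coeffMap (GaloisRep.ratLocalizedAt ℓ).subtype) (chartInf_hroot hQ5 huZ)
  rw [map_zero, Polynomial.eval_map, Polynomial.hom_eval₂] at h
  have h2 := coeffMap_comp_evS (GaloisRep.ratLocalizedAt ℓ).subtype uZ'
  rw [chartInf_coeffMap_inv huZ] at h2
  have h3 : coeffMap (GaloisRep.ratLocalizedAt ℓ).subtype (qExpand Zl N (jqModC Zl) * uZ' ^ N) =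
      qExpand ℚ N jq * jq⁻¹ ^ N := by
    rw [chartInf_hy huZ, coe_yInfFull]
  rw [h3] at h
  rw [Polynomial.eval_map, Polynomial.eval₂_map]
  exact h2 ▸ h

/-- **(hgen)** at infinity. -/
theorem chartInf_hgen {uZ' : LaurentSeries Zl} (hgenQ : FunctionFieldGeneration N)
    (hQ5 : ∀ k, ((RatQ.modPolyQ N).coeff (Fintype.card (CosetRep N) - k)).natDegree ≤ k * N)
    (huZ : jqModC Zl * uZ' = 1) (x : F) :
    ∃ (Q : ℚ[X]) (c : ℕ → ℚ[X]), Q ≠ 0 ∧
      aeval (((jFull N)⁻¹ : F) : LaurentSeries ℚ) Q * (x : LaurentSeries ℚ) =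
        ∑ i ∈ Finset.range (modPolyInfZl ℓ N).natDegree,
          aeval (((jFull N)⁻¹ : F) : LaurentSeries ℚ) (c i) *
            ((yInfFull N : F) : LaurentSeries ℚ) ^ i := by
  have hinj := modPolyZl_mapRingHom_subtype_injective (GaloisRep.ratLocalizedAt ℓ)
  obtain ⟨Q, c, hQ, hc⟩ := genH3_inf' N hgenQ
    ((modPolyInfZl ℓ N).map (mapRingHom (GaloisRep.ratLocalizedAt ℓ).subtype))
    ((modPolyInfZl_monic ℓ N).map _) (chartInf_hroot_rat hQ5 huZ) x
  rw [natDegree_map_eq_of_injective hinj] at hc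
  exact ⟨Q, c, hQ, hc⟩

end

end Fermat.Agent.Igusa
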