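import Mathlib
import Fermat.Agent.X0.Mod.Field
import Fermat.Agent.Igusa.Defs
import Fermat.Agent.Igusa.Core
import Fermat.Prelude.Def_ModularCurve_X0ModL

/-!
# Project S28 (Igusa), packages Q5 + Q6: orders of the roots of the modular polynomial

For ANY `Φ : ℚ[X][X]` satisfying the LINK conjunct of (Q1),
`(Φ.map (mapRingHom (algebraMap ℚ ℂ))).map (aeval jH) = rootsPoly (jAt : CosetRep N → HolH)`:

* `map_aeval_Jt_eq` : the LINK transferred to `ℂ((t))`, `t = exp (2 π i τ / N)`: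
  `Φ(J_t, T) = ∏ α, (T - R_t α)`;
* `natDegree_coeff_le_of_link` (Q5) : `(Φ.coeff (n - k)).natDegree ≤ k * N`;
* `coeff_derivative_eval_of_link` (Q6a) : `w = ∂Φ/∂T (j_q, j_q(q^N))` has lowest term
  `q ^ (-(n-1) N)` with coefficient `1`;
* `coeff_derivative_eval_mem_of_link` (Q6b) : all coefficients of `w` lie in `ℤ_(ℓ)`;
* `exists_inv_derivative_eval_of_link` (Q6) : `w` has an inverse with coefficients in `ℤ_(ℓ)`.
-/

set_option autoImplicit false
set_option linter.unusedSectionVars false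
set_option linter.style.haveILetI false

noncomputable section

namespace Fermat.Agent.Igusa.RootOrders

open Polynomial ModularCurve Fermat.Agent.X0
open UpperHalfPlane hiding I

/-! ### Abstract lemmas on Laurent series -/

section Abstract

variable {K : Type*} [Field K]

/-- lowest term from coefficients -/
theorem orderTop_leadingCoeff_of_coeff {R : Type*} [Zero R] {x : HahnSeries ℤ R} {a : ℤ} {r : R}
    (hr : r ≠ 0) (h1 : x.coeff a = r) (h0 : ∀ m < a, x.coeff m = 0) :
    x.orderTop = (a : WithTop ℤ) ∧ x.leadingCoeff = r := by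
  have hord : x.orderTop = (a : WithTop ℤ) := by
    refine HahnSeries.orderTop_eq_of_le ?_ ?_
    · rw [HahnSeries.mem_support, h1]; exact hr
    · intro g hg
      by_contra hlt
      rw [not_le] at hlt
      exact (HahnSeries.mem_support _ _).mp hg (h0 g hlt)
  refine ⟨hord, ?_⟩
  simp [HahnSeries.leadingCoeff, hord, h1]

/-- coefficients from the lowest term -/
theorem coeff_of_orderTop_leadingCoeff {R : Type*} [Zero R] {x : HahnSeries ℤ R} {a : ℤ} {r : R}
    (hord : x.orderTop = (a : WithTop ℤ)) (hlead : x.leadingCoeff = r) :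
    x.coeff a = r ∧ ∀ m < a, x.coeff m = 0 := by
  refine ⟨?_, fun m hm => HahnSeries.coeff_eq_zero_of_lt_orderTop ?_⟩
  · simpa [HahnSeries.leadingCoeff, hord] using hlead
  · rw [hord]; exact_mod_cast hm

/-- a product of series with lowest term `t ^ a` has lowest term `t ^ (card * a)` -/
theorem orderTop_leadingCoeff_prod {ι : Type*} (s : Finset ι) (f : ι → LaurentSeries K) (a : ℤ)
    (h : ∀ i ∈ s, (f i).orderTop = (a : WithTop ℤ) ∧ (f i).leadingCoeff = 1) :
    (∏ i ∈ s, f i).orderTop = (((s.card : ℤ) * a : ℤ) : WithTop ℤ) ∧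
      (∏ i ∈ s, f i).leadingCoeff = 1 := by
  classical
  induction s using Finset.induction_on with
  | empty => simp [HahnSeries.orderTop_one, HahnSeries.leadingCoeff_one]
  | insert i s hi ih =>
    obtain ⟨h1, h2⟩ := ih fun j hj => h j (Finset.mem_insert_of_mem hj)
    obtain ⟨h3, h4⟩ := h i (Finset.mem_insert_self i s)
    rw [Finset.prod_insert hi, HahnSeries.orderTop_mul, HahnSeries.leadingCoeff_mul, h1, h2, h3, h4,
      Finset.card_insert_of_notMem hi]
    refine ⟨?_, one_mul 1⟩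
    rw [← WithTop.coe_add]
    congr 1
    push_cast
    ring

/-- the coefficients of `∏ (X - x α)` have controlled orders -/
theorem orderTop_coeff_prod_X_sub_C {A : Type*} (s : Finset A) (x : A → LaurentSeries K) (M : ℤ)
    (hx : ∀ α ∈ s, ((-M : ℤ) : WithTop ℤ) ≤ (x α).orderTop) (i : ℕ) :
    ((((i : ℤ) - s.card) * M : ℤ) : WithTop ℤ) ≤
      ((∏ α ∈ s, (X - C (x α))).coeff i).orderTop := by
  classical
  induction s using Finset.induction_on generalizing i with
  | empty =>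
    rw [Finset.prod_empty, Polynomial.coeff_one]
    split_ifs with h
    · subst h
      simp [HahnSeries.orderTop_one]
    · simp
  | insert a s ha ih =>
    have ih' := fun j => ih (fun α hα => hx α (Finset.mem_insert_of_mem hα)) j
    have hxa := hx a (Finset.mem_insert_self a s)
    rw [Finset.prod_insert ha, mul_comm (X - C (x a)), Finset.card_insert_of_notMem ha]
    cases i with
    | zero =>
      rw [Polynomial.mul_coeff_zero]
      refine le_trans ?_ HahnSeries.orderTop_add_le_mul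
      have h1 : (X - C (x a)).coeff 0 = - x a := by simp
      rw [h1, HahnSeries.orderTop_neg]
      refine le_trans (le_of_eq ?_) (add_le_add (ih' 0) hxa)
      rw [← WithTop.coe_add]
      congr 1
      push_cast
      ring
    | succ k =>
      rw [Polynomial.coeff_mul_X_sub_C]
      refine le_trans (le_min ?_ ?_) HahnSeries.min_orderTop_le_orderTop_sub
      · refine le_trans (le_of_eq ?_) (ih' k)
        congr 1
        push_cast
        ring
      · refine le_trans ?_ HahnSeries.orderTop_add_le_mul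
        refine le_trans (le_of_eq ?_) (add_le_add (ih' (k + 1)) hxa)
        rw [← WithTop.coe_add]
        congr 1
        push_cast
        ring

theorem orderTop_pow_eq {J : LaurentSeries K} {m : ℤ} (hJ : J.orderTop = (m : WithTop ℤ)) (n : ℕ) :
    (J ^ n).orderTop = (((n : ℤ) * m : ℤ) : WithTop ℤ) := by
  induction n with
  | zero => simp [HahnSeries.orderTop_one]
  | succ n ih =>
    rw [pow_succ, HahnSeries.orderTop_mul, ih, hJ, ← WithTop.coe_add]
    congr 1
    push_cast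
    ring

/-- the order of a polynomial in a series of negative order -/
theorem orderTop_aeval_eq {J : LaurentSeries K} {m : ℤ} (hJ : J.orderTop = (m : WithTop ℤ))
    (hm : m < 0) (c : K[X]) (hc : c ≠ 0) :
    (aeval J c).orderTop = (((c.natDegree : ℤ) * m : ℤ) : WithTop ℤ) := by
  induction hn : c.natDegree using Nat.strong_induction_on generalizing c with
  | _ n ih =>
    have hlc : c.leadingCoeff ≠ 0 := leadingCoeff_ne_zero.mpr hc
    have hdec := c.eraseLead_add_C_mul_X_pow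
    have htop : (aeval J (C c.leadingCoeff * X ^ c.natDegree)).orderTop =
        (((n : ℤ) * m : ℤ) : WithTop ℤ) := by
      rw [map_mul, aeval_C, map_pow, aeval_X, HahnSeries.orderTop_mul, orderTop_pow_eq hJ,
        ModularCurve.algebraMap_laurentSeries_eq_single, HahnSeries.orderTop_single hlc, hn]
      simp
    rw [← hdec, map_add]
    by_cases h0 : c.eraseLead = 0
    · rw [h0, map_zero, zero_add]
      exact htop
    · have hlt : c.eraseLead.natDegree < n := by
        rcases c.eraseLead_natDegree_lt_or_eraseLead_eq_zero with h | h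
        · rwa [hn] at h
        · exact absurd h h0
      have h1 := ih _ hlt c.eraseLead h0 rfl
      rw [HahnSeries.orderTop_add_eq_right, htop]
      rw [htop, h1]
      have : ((n : ℤ) * m) < (c.eraseLead.natDegree : ℤ) * m :=
        mul_lt_mul_of_neg_right (by exact_mod_cast hlt) hm
      exact_mod_cast this

/-- a series over a field with coefficients in a subring and lowest coefficient `1` has an inverse
with coefficients in the subring -/
theorem exists_inv_of_coeff_mem (S : Subring K) (w : LaurentSeries K) (e : ℤ)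
    (h1 : w.coeff e = 1) (h0 : ∀ m < e, w.coeff m = 0) (hS : ∀ i, w.coeff i ∈ S) :
    ∃ v : LaurentSeries K, (∀ i, v.coeff i ∈ S) ∧ w * v = 1 := by
  classical
  have hsupp : Function.support (fun k => (⟨w.coeff k, hS k⟩ : S)) ⊆ w.support := by
    intro k hk
    rw [Function.mem_support] at hk
    rw [HahnSeries.mem_support]
    exact fun h => hk (Subtype.ext h)
  set wS : LaurentSeries S := ⟨fun k => ⟨w.coeff k, hS k⟩, w.isPWO_support.mono hsupp⟩ with hwS
  have hmap : coeffMap S.subtype wS = w := by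
    ext k
    rw [coeffMap_coeff]
    rfl
  obtain ⟨-, hlead⟩ := orderTop_leadingCoeff_of_coeff (x := wS) (a := e) (r := (1 : S)) one_ne_zero
    (Subtype.ext h1) (fun m hm => Subtype.ext (h0 m hm))
  have hunit : IsUnit wS := by
    rw [HahnSeries.isUnit_iff, hlead]
    exact isUnit_one
  obtain ⟨u, hu⟩ := hunit
  refine ⟨coeffMap S.subtype (↑u⁻¹ : LaurentSeries S), fun i => ?_, ?_⟩
  · rw [coeffMap_coeff]
    exact Subtype.property _
  · rw [← hmap, ← map_mul, ← hu, Units.mul_inv, map_one]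

end Abstract

section Transfer

variable {k H L : Type*} [Field k] [CommRing H] [CommRing L] [Algebra k H] [Algebra k L]

/-- transfer of a factorisation `P(x, T) = ∏ (T - r α)` along an algebra homomorphism defined on a
subalgebra containing `x` and the `r α` -/
theorem map_aeval_eq_prod_of_subalgebra (M : Subalgebra k H) (e : M →ₐ[k] L) {A : Type*}
    [Fintype A] (P : k[X][X]) (x : H) (hx : x ∈ M) (r : A → H) (hr : ∀ α, r α ∈ M)
    (h : P.map ((aeval x : k[X] →ₐ[k] H) : k[X] →+* H) = ∏ α, (X - C (r α))) :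
    P.map ((aeval (e ⟨x, hx⟩) : k[X] →ₐ[k] L) : k[X] →+* L) =
      ∏ α, (X - C (e ⟨r α, hr α⟩)) := by
  have hval : (M.val : M →+* H).comp ((aeval (⟨x, hx⟩ : M) : k[X] →ₐ[k] M) : k[X] →+* M) =
      ((aeval x : k[X] →ₐ[k] H) : k[X] →+* H) := by
    refine Polynomial.ringHom_ext (fun a => ?_) ?_
    · simp
    · simp
  have h1 : P.map ((aeval (⟨x, hx⟩ : M) : k[X] →ₐ[k] M) : k[X] →+* M) =
      ∏ α, (X - C (⟨r α, hr α⟩ : M)) := by
    apply Polynomial.map_injective (M.val : M →+* H) Subtype.val_injective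
    rw [Polynomial.map_map, hval, h, Polynomial.map_prod]
    refine Finset.prod_congr rfl fun α _ => ?_
    rw [Polynomial.map_sub, map_X, map_C]
    rfl
  have hexp : (e : M →+* L).comp ((aeval (⟨x, hx⟩ : M) : k[X] →ₐ[k] M) : k[X] →+* M) =
      ((aeval (e ⟨x, hx⟩) : k[X] →ₐ[k] L) : k[X] →+* L) := by
    refine Polynomial.ringHom_ext (fun a => ?_) ?_
    · simp
    · simp
  have h2 := congrArg (Polynomial.map (e : M →+* L)) h1
  rw [Polynomial.map_map, hexp, Polynomial.map_prod] at h2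
  rw [h2]
  refine Finset.prod_congr rfl fun α _ => ?_
  rw [Polynomial.map_sub, map_X, map_C]
  rfl

end Transfer

section Expansions

variable (N : ℕ) [NeZero N]

/-- the `t`-expansion of `j` (`t = exp (2 π i τ / N)`) -/
abbrev Jt : LaurentSeries ℂ := expandFun N (jH : ℍ → ℂ)

/-- the `t`-expansions of the roots `j ∘ α` -/
abbrev Rt (α : CosetRep N) : LaurentSeries ℂ := expandFun N (jAt α : ℍ → ℂ)

theorem jH_mem_merInfH : jH ∈ merInfH N := by
  have h := jAt_base_mem_merInfH N (d := 1) (one_dvd N)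
  rwa [jAt_base_one] at h

theorem jAt_mem_merInfH (α : CosetRep N) : jAt α ∈ merInfH N :=
  mem_merInfH.mpr (isMerInf_jAt dvd_rfl α)

/-- **Transfer of the LINK to Laurent series.** -/
theorem map_aeval_Jt_eq (Φ : ℚ[X][X])
    (hlink : (Φ.map (mapRingHom (algebraMap ℚ ℂ))).map
      ((aeval jH : ℂ[X] →ₐ[ℂ] HolH) : ℂ[X] →+* HolH) = rootsPoly (jAt : CosetRep N → HolH)) :
    (Φ.map (mapRingHom (algebraMap ℚ ℂ))).map
      ((aeval (Jt N) : ℂ[X] →ₐ[ℂ] LaurentSeries ℂ) : ℂ[X] →+* LaurentSeries ℂ) =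
      ∏ α : CosetRep N, (X - C (Rt N α)) :=
  map_aeval_eq_prod_of_subalgebra (merInfH N) (expandH N) _ jH (jH_mem_merInfH N) jAt
    (jAt_mem_merInfH N) hlink

/-- `j` has order `-N` in `t`, with leading coefficient `1`. -/
theorem orderTop_Jt : (Jt N).orderTop = ((-(N : ℤ) : ℤ) : WithTop ℤ) ∧ (Jt N).leadingCoeff = 1 := by
  refine orderTop_leadingCoeff_of_coeff one_ne_zero ?_ ?_
  · rw [Jt, expandFun_coe_jH]
    have h : (-(N : ℤ)) = (N : ℤ) * (-1) := by ring
    rw [h, qExpand_coeff_mul, coeff_jqModC_neg_one]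
  · intro m hm
    rw [Jt, expandFun_coe_jH]
    by_cases hd : (N : ℤ) ∣ m
    · obtain ⟨k, rfl⟩ := hd
      rw [qExpand_coeff_mul]
      have hN : (0 : ℤ) < N := by exact_mod_cast Nat.pos_of_ne_zero (NeZero.ne N)
      have hk : k < -((1 : ℕ) : ℤ) := by
        by_contra hk
        rw [not_lt] at hk
        have := mul_le_mul_of_nonneg_left hk hN.le
        push_cast at this
        linarith
      have h0 := ModularCurve.coeff_jqModC_pow_of_lt ℂ (b := 1) hk
      rwa [pow_one] at h0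
    · exact qExpand_coeff_of_not_dvd _ _ hd

theorem a_le (α : CosetRep N) : α.a ≤ N :=
  Nat.le_of_dvd (Nat.pos_of_ne_zero (NeZero.ne N)) α.a_dvd

theorem a_lt_of_ne_base {α : CosetRep N} (hα : α ≠ CosetRep.base N) : α.a < N := by
  refine lt_of_le_of_ne (a_le N α) fun ha => hα ?_
  have hN : 0 < N := Nat.pos_of_ne_zero (NeZero.ne N)
  have hd : α.d = 1 := by
    have h := α.mul_eq
    rw [ha] at h
    exact Nat.eq_of_mul_eq_mul_left hN (h.trans (mul_one N).symm)
  have hb : α.b = 0 := by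
    have := α.b_lt
    omega
  exact CosetRep.ext ha hb hd

/-- the roots have order `≥ -N²` in `t` -/
theorem le_orderTop_Rt (α : CosetRep N) :
    ((-((α.a : ℤ) * α.a) : ℤ) : WithTop ℤ) ≤ (Rt N α).orderTop := by
  rw [HahnSeries.le_orderTop_iff_forall]
  intro m hm
  refine coeff_expandFun_jAt_low α ?_
  rw [expo_eq_mul_self]
  push_cast
  exact_mod_cast hm

theorem le_orderTop_Rt' (α : CosetRep N) :
    ((-((N : ℤ) * N) : ℤ) : WithTop ℤ) ≤ (Rt N α).orderTop := by
  refine le_trans ?_ (le_orderTop_Rt N α)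
  have h : (α.a : ℤ) ≤ N := by exact_mod_cast a_le N α
  have h0 : (0 : ℤ) ≤ α.a := Int.natCast_nonneg _
  have : (α.a : ℤ) * α.a ≤ (N : ℤ) * N := mul_le_mul h h h0 (h0.trans h)
  exact_mod_cast neg_le_neg this

/-- the root `j (N τ)` has order exactly `-N²`, leading coefficient `1` -/
theorem orderTop_Rt_base :
    (Rt N (CosetRep.base N)).orderTop = ((-((N : ℤ) * N) : ℤ) : WithTop ℤ) ∧
      (Rt N (CosetRep.base N)).leadingCoeff = 1 := by
  have he : ((CosetRep.base N).expo N : ℤ) = (N : ℤ) * N := by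
    rw [expo_eq_mul_self]
    push_cast
    rfl
  refine orderTop_leadingCoeff_of_coeff one_ne_zero ?_ ?_
  · have h := coeff_expandFun_jAt_top (CosetRep.base N)
    rw [he] at h
    rw [h]
    show (zetaOf ((0 : ℕ) : ℤ) 1)⁻¹ = 1
    simp [zetaOf]
  · intro m hm
    refine coeff_expandFun_jAt_low _ ?_
    rw [he]
    exact hm

theorem lt_orderTop_Rt_of_ne_base {α : CosetRep N} (hα : α ≠ CosetRep.base N) :
    ((-((N : ℤ) * N) : ℤ) : WithTop ℤ) < (Rt N α).orderTop := by
  refine lt_of_lt_of_le ?_ (le_orderTop_Rt N α)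
  have h : (α.a : ℤ) < N := by exact_mod_cast a_lt_of_ne_base N hα
  have h0 : (0 : ℤ) ≤ α.a := Int.natCast_nonneg _
  have : (α.a : ℤ) * α.a < (N : ℤ) * N := mul_lt_mul'' h h h0 h0
  exact_mod_cast neg_lt_neg this

/-- **(Q5)** the degree in `j` of the coefficient of `T ^ (n - k)` of the modular polynomial is at
most `k N`. -/
theorem natDegree_coeff_le_of_link (Φ : ℚ[X][X])
    (hlink : (Φ.map (mapRingHom (algebraMap ℚ ℂ))).map
      ((aeval jH : ℂ[X] →ₐ[ℂ] HolH) : ℂ[X] →+* HolH) = rootsPoly (jAt : CosetRep N → HolH))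
    (k : ℕ) :
    (Φ.coeff (Fintype.card (CosetRep N) - k)).natDegree ≤ k * N := by
  set n := Fintype.card (CosetRep N) with hn
  set c := Φ.coeff (n - k) with hc
  by_cases hc0 : c = 0
  · rw [hc0, natDegree_zero]
    exact Nat.zero_le _
  have hN : (0 : ℤ) < N := by exact_mod_cast Nat.pos_of_ne_zero (NeZero.ne N)
  have hinj : Function.Injective (algebraMap ℚ ℂ) := (algebraMap ℚ ℂ).injective
  have hc' : c.map (algebraMap ℚ ℂ) ≠ 0 := (Polynomial.map_ne_zero_iff hinj).mpr hc0
  have hdeg : (c.map (algebraMap ℚ ℂ)).natDegree = c.natDegree := natDegree_map_eq_of_injective hinj c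
  have h1 := congrArg (fun Q : (LaurentSeries ℂ)[X] => Q.coeff (n - k)) (map_aeval_Jt_eq N Φ hlink)
  simp only [coeff_map, coe_mapRingHom] at h1
  have h2 := orderTop_aeval_eq (orderTop_Jt N).1 (neg_neg_of_pos hN) _ hc'
  have h3 := orderTop_coeff_prod_X_sub_C (Finset.univ : Finset (CosetRep N)) (Rt N) ((N : ℤ) * N)
    (fun α _ => le_orderTop_Rt' N α) (n - k)
  rw [← h1, RingHom.coe_coe, h2, hdeg, Finset.card_univ, ← hn] at h3
  have h4 : (((n - k : ℕ) : ℤ) - n) * ((N : ℤ) * N) ≤ (c.natDegree : ℤ) * (-(N : ℤ)) := by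
    exact_mod_cast h3
  have h5 : -(k : ℤ) ≤ ((n - k : ℕ) : ℤ) - n := by omega
  have h6 : (c.natDegree : ℤ) * N ≤ (k : ℤ) * N * N := by nlinarith
  have h7 : (c.natDegree : ℤ) ≤ (k : ℤ) * N := by
    by_contra hcon
    rw [not_le] at hcon
    have := mul_lt_mul_of_pos_right hcon hN
    linarith
  exact_mod_cast h7

/-! ### (Q6): the derivative of the modular polynomial at `y = j(q^N)` -/

/-- `f(q) ↦ f(t^N)` with coefficients cast to `ℂ`. -/
def thetaQ : LaurentSeries ℚ →+* LaurentSeries ℂ := (qExpand ℂ N).comp (coeffMap (algebraMap ℚ ℂ))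

theorem thetaQ_coeff (f : LaurentSeries ℚ) (k : ℤ) :
    (thetaQ N f).coeff ((N : ℤ) * k) = ((f.coeff k : ℚ) : ℂ) := by
  rw [thetaQ, RingHom.comp_apply, qExpand_coeff_mul, coeffMap_coeff]
  rfl

theorem thetaQ_jq : thetaQ N jq = Jt N := by
  rw [thetaQ, RingHom.comp_apply, Jt, expandFun_coe_jH, ← jqModC_rat, coeffMap_jqModC]

theorem thetaQ_jqN : thetaQ N (jqN N) = Rt N (CosetRep.base N) := by
  haveI : NeZero (N * N) := ⟨Nat.mul_ne_zero (NeZero.ne N) (NeZero.ne N)⟩
  rw [thetaQ, RingHom.comp_apply, Rt, expandFun_jAt_base, jqN, coeffMap_qExpand, qExpand_qExpand,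
    ← jqModC_rat, coeffMap_jqModC]

theorem thetaQ_comp_aeval :
    (thetaQ N).comp ((aeval jq : ℚ[X] →ₐ[ℚ] LaurentSeries ℚ) : ℚ[X] →+* LaurentSeries ℚ) =
      (((aeval (Jt N) : ℂ[X] →ₐ[ℂ] LaurentSeries ℂ) : ℂ[X] →+* LaurentSeries ℂ)).comp
        (mapRingHom (algebraMap ℚ ℂ)) := by
  refine Polynomial.ringHom_ext (fun a => ?_) ?_
  · simp only [RingHom.comp_apply, RingHom.coe_coe, aeval_C, coe_mapRingHom, map_C]
    rw [thetaQ, RingHom.comp_apply, ModularCurve.algebraMap_laurentSeries_eq_single,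
      ModularCurve.algebraMap_laurentSeries_eq_single, coeffMap_single, qExpand_single, mul_zero]
  · simp only [RingHom.comp_apply, RingHom.coe_coe, aeval_X, coe_mapRingHom, Polynomial.map_X]
    exact thetaQ_jq N

/-- the image of `∂Φ/∂T (j, j_N)` in `ℂ((t))` is `∏_{β ≠ base} (r_base - r_β)` -/
theorem thetaQ_derivative_eval (Φ : ℚ[X][X])
    (hlink : (Φ.map (mapRingHom (algebraMap ℚ ℂ))).map
      ((aeval jH : ℂ[X] →ₐ[ℂ] HolH) : ℂ[X] →+* HolH) = rootsPoly (jAt : CosetRep N → HolH)) :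
    thetaQ N (((derivative Φ).map
      ((aeval jq : ℚ[X] →ₐ[ℚ] LaurentSeries ℚ) : ℚ[X] →+* LaurentSeries ℚ)).eval (jqN N)) =
      ∏ β ∈ Finset.univ.erase (CosetRep.base N), (Rt N (CosetRep.base N) - Rt N β) := by
  rw [Polynomial.eval_map, Polynomial.hom_eval₂, thetaQ_comp_aeval, thetaQ_jqN,
    ← Polynomial.eval_map, ← Polynomial.map_map, ← derivative_map, ← derivative_map,
    map_aeval_Jt_eq N Φ hlink]
  exact eval_derivative_prod_X_sub_C (Rt N) (CosetRep.base N)

/-- lowest term of `∏_{β ≠ base} (r_base - r_β)` -/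
theorem orderTop_prod_Rt_sub :
    (∏ β ∈ Finset.univ.erase (CosetRep.base N), (Rt N (CosetRep.base N) - Rt N β)).orderTop =
      (((((Fintype.card (CosetRep N) - 1 : ℕ) : ℤ)) * (-((N : ℤ) * N)) : ℤ) : WithTop ℤ) ∧
    (∏ β ∈ Finset.univ.erase (CosetRep.base N),
      (Rt N (CosetRep.base N) - Rt N β)).leadingCoeff = 1 := by
  have h := orderTop_leadingCoeff_prod (Finset.univ.erase (CosetRep.base N))
    (fun β => Rt N (CosetRep.base N) - Rt N β) (-((N : ℤ) * N)) (fun β hβ => by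
      have hne : β ≠ CosetRep.base N := (Finset.mem_erase.mp hβ).1
      have hlt : (Rt N (CosetRep.base N)).orderTop < (Rt N β).orderTop := by
        rw [(orderTop_Rt_base N).1]
        exact lt_orderTop_Rt_of_ne_base N hne
      exact ⟨(HahnSeries.orderTop_sub hlt).trans (orderTop_Rt_base N).1,
        (HahnSeries.leadingCoeff_sub hlt).trans (orderTop_Rt_base N).2⟩)
  rwa [Finset.card_erase_of_mem (Finset.mem_univ _), Finset.card_univ] at h

/-- **(Q6a)** `w = ∂Φ/∂T (j, j_N)` has lowest term `q ^ (-(n-1) N)` with coefficient `1`. -/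
theorem coeff_derivative_eval_of_link (Φ : ℚ[X][X])
    (hlink : (Φ.map (mapRingHom (algebraMap ℚ ℂ))).map
      ((aeval jH : ℂ[X] →ₐ[ℂ] HolH) : ℂ[X] →+* HolH) = rootsPoly (jAt : CosetRep N → HolH)) :
    (((derivative Φ).map ((aeval jq : ℚ[X] →ₐ[ℚ] LaurentSeries ℚ) : ℚ[X] →+* LaurentSeries ℚ)).eval
        (jqN N)).coeff (-(((Fintype.card (CosetRep N) - 1 : ℕ) : ℤ) * N)) = 1 ∧
    ∀ m : ℤ, m < -(((Fintype.card (CosetRep N) - 1 : ℕ) : ℤ) * N) →
      (((derivative Φ).map
        ((aeval jq : ℚ[X] →ₐ[ℚ] LaurentSeries ℚ) : ℚ[X] →+* LaurentSeries ℚ)).eval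
        (jqN N)).coeff m = 0 := by
  set w := ((derivative Φ).map
    ((aeval jq : ℚ[X] →ₐ[ℚ] LaurentSeries ℚ) : ℚ[X] →+* LaurentSeries ℚ)).eval (jqN N) with hw
  have hN : (0 : ℤ) < N := by exact_mod_cast Nat.pos_of_ne_zero (NeZero.ne N)
  obtain ⟨h1, h2⟩ := orderTop_prod_Rt_sub N
  rw [← thetaQ_derivative_eval N Φ hlink, ← hw] at h1 h2
  obtain ⟨h3, h4⟩ := coeff_of_orderTop_leadingCoeff h1 h2
  constructor
  · have h5 := thetaQ_coeff N w (-(((Fintype.card (CosetRep N) - 1 : ℕ) : ℤ) * N))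
    have h6 : (N : ℤ) * (-(((Fintype.card (CosetRep N) - 1 : ℕ) : ℤ) * N)) =
        ((Fintype.card (CosetRep N) - 1 : ℕ) : ℤ) * (-((N : ℤ) * N)) := by ring
    rw [h6, h3] at h5
    exact_mod_cast h5.symm
  · intro m hm
    have h5 := thetaQ_coeff N w m
    rw [h4 ((N : ℤ) * m) (by nlinarith)] at h5
    exact_mod_cast h5.symm

/-! ### Integrality of the coefficients -/

variable (ℓ : ℕ)

theorem zetaOf_zpow_mem_OInt (b : ℤ) {d : ℕ} (hd : 0 < d) (m : ℤ) :
    zetaOf b d ^ m ∈ OInt ℓ := by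
  have h : zetaOf b d ^ m = zetaOf (b * m) d := by
    rw [zetaOf, zetaOf, ← Complex.exp_int_mul]
    congr 1
    push_cast
    ring
  rw [h]
  exact zetaOf_mem_OInt ℓ _ hd

theorem coeff_Rt_mem_OInt (α : CosetRep N) (k : ℤ) : (Rt N α).coeff k ∈ OInt ℓ := by
  haveI : NeZero (α.expo N) := ⟨(α.expo_pos dvd_rfl).ne'⟩
  rw [Rt, expandFun_jAt dvd_rfl α]
  by_cases hk : ((α.expo N : ℕ) : ℤ) ∣ k
  · obtain ⟨m, rfl⟩ := hk
    rw [qExpand_coeff_mul, twistSeries_coeff, coeff_jqModC_eq_intCast]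
    exact mul_mem (zetaOf_zpow_mem_OInt ℓ _ α.d_pos m) (intCast_mem_OInt ℓ _)
  · rw [qExpand_coeff_of_not_dvd _ _ hk]
    exact zero_mem _

theorem mem_range_coeffMap_subtype {C : Type*} [CommRing C] (O : Subring C) {F : LaurentSeries C}
    (h : ∀ k : ℤ, F.coeff k ∈ O) : F ∈ (coeffMap O.subtype).range := by
  classical
  have hsupp : Function.support (fun k => (⟨F.coeff k, h k⟩ : O)) ⊆ F.support := by
    intro k hk
    rw [Function.mem_support] at hk
    rw [HahnSeries.mem_support]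
    exact fun h0 => hk (Subtype.ext h0)
  refine ⟨⟨fun k => ⟨F.coeff k, h k⟩, F.isPWO_support.mono hsupp⟩, ?_⟩
  ext k
  rw [coeffMap_coeff]
  rfl

theorem coeff_mem_of_mem_range_coeffMap_subtype {C : Type*} [CommRing C] (O : Subring C)
    {F : LaurentSeries C} (h : F ∈ (coeffMap O.subtype).range) (k : ℤ) : F.coeff k ∈ O := by
  obtain ⟨G, rfl⟩ := h
  rw [coeffMap_coeff]
  exact Subtype.property _

/-- **(Q6b)** the coefficients of `w = ∂Φ/∂T (j, j_N)` lie in `ℤ_(ℓ)`. -/
theorem coeff_derivative_eval_mem_of_link [Fact ℓ.Prime] (Φ : ℚ[X][X])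
    (hlink : (Φ.map (mapRingHom (algebraMap ℚ ℂ))).map
      ((aeval jH : ℂ[X] →ₐ[ℂ] HolH) : ℂ[X] →+* HolH) = rootsPoly (jAt : CosetRep N → HolH))
    (i : ℤ) :
    (((derivative Φ).map ((aeval jq : ℚ[X] →ₐ[ℚ] LaurentSeries ℚ) : ℚ[X] →+* LaurentSeries ℚ)).eval
        (jqN N)).coeff i ∈ GaloisRep.ratLocalizedAt ℓ := by
  set w := ((derivative Φ).map
    ((aeval jq : ℚ[X] →ₐ[ℚ] LaurentSeries ℚ) : ℚ[X] →+* LaurentSeries ℚ)).eval (jqN N) with hw
  have hmem : thetaQ N w ∈ (coeffMap (OInt ℓ).subtype).range := by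
    rw [hw, thetaQ_derivative_eval N Φ hlink]
    refine Subring.prod_mem _ fun β _ => Subring.sub_mem _ ?_ ?_
    · exact mem_range_coeffMap_subtype _ (coeff_Rt_mem_OInt N ℓ _)
    · exact mem_range_coeffMap_subtype _ (coeff_Rt_mem_OInt N ℓ _)
  have h1 := coeff_mem_of_mem_range_coeffMap_subtype _ hmem ((N : ℤ) * i)
  rw [thetaQ_coeff] at h1
  exact (ratCast_mem_OInt_iff ℓ).mp h1

/-- **(Q6)** `∂Φ/∂T (j, j_N)` is invertible in `ℤ_(ℓ)((q))`. -/
theorem exists_inv_derivative_eval_of_link [Fact ℓ.Prime] (Φ : ℚ[X][X])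
    (hlink : (Φ.map (mapRingHom (algebraMap ℚ ℂ))).map
      ((aeval jH : ℂ[X] →ₐ[ℂ] HolH) : ℂ[X] →+* HolH) = rootsPoly (jAt : CosetRep N → HolH)) :
    ∃ v : LaurentSeries ℚ, (∀ i, v.coeff i ∈ GaloisRep.ratLocalizedAt ℓ) ∧
      ((derivative Φ).map
        ((aeval jq : ℚ[X] →ₐ[ℚ] LaurentSeries ℚ) : ℚ[X] →+* LaurentSeries ℚ)).eval (jqN N) * v = 1 :=
  exists_inv_of_coeff_mem (GaloisRep.ratLocalizedAt ℓ) _ _
    (coeff_derivative_eval_of_link N Φ hlink).1 (coeff_derivative_eval_of_link N Φ hlink).2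
    (coeff_derivative_eval_mem_of_link N ℓ Φ hlink)

end Expansions

end Fermat.Agent.Igusa.RootOrders
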