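/-
Igusa/ChartData (S28 project, package V2): the complete data of the two charts `u = j` and
`u = 1/j` in the literal shape of the hypotheses of the chart bridge, with `(Q5)`, `(Q6)` and the
inverse series of `j` discharged; the only remaining input is `FunctionFieldGeneration N` (Q3).
-/
import Mathlib
import Fermat.Agent.Igusa.ChartInfData
import Fermat.Agent.Igusa.RootOrders
import Fermat.Agent.Igusa.LiftCoeff

set_option autoImplicit false
set_option linter.unusedSectionVars false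

noncomputable section

namespace Fermat.Agent.Igusa

open Polynomial ModularCurve ModularCurve.IgusaScheme Fermat.Agent.X0

/-- `coeffMap` commutes with evaluation of a bivariate polynomial at a pair of series. -/
theorem chartData_coeffMap_eval {R S : Type*} [CommRing R] [CommRing S] (f : R →+* S)
    (J y : LaurentSeries R) (P : R[X][X]) :
    coeffMap f ((P.map (evS J)).eval y) =
      ((P.map (mapRingHom f)).map (evS (coeffMap f J))).eval (coeffMap f y) := by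
  rw [Polynomial.eval_map, Polynomial.hom_eval₂, coeffMap_comp_evS, ← Polynomial.eval₂_map,
    ← Polynomial.eval_map]

section

variable (ℓ : ℕ) [Fact ℓ.Prime] (N : ℕ) [NeZero N]

set_option quotPrecheck false in
local notation "Zl" => ↥(GaloisRep.ratLocalizedAt ℓ)
set_option quotPrecheck false in
local notation "F" => ↥(modularFunctionFieldFull N)

/-- **(Q5)** for the modular polynomial. -/
theorem chartData_hQ5 (k : ℕ) :
    ((RatQ.modPolyQ N).coeff (Fintype.card (CosetRep N) - k)).natDegree ≤ k * N :=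
  RootOrders.natDegree_coeff_le_of_link N (RatQ.modPolyQ N) (RatQ.modPolyQ_link N) k

theorem chartData_coeffMap_jqModC :
    coeffMap (GaloisRep.ratLocalizedAt ℓ).subtype (jqModC Zl) = jq := by
  rw [coeffMap_jqModC, jqModC_rat]

theorem chartData_coeffMap_y :
    coeffMap (GaloisRep.ratLocalizedAt ℓ).subtype (qExpand Zl N (jqModC Zl)) = qExpand ℚ N jq := by
  rw [coeffMap_qExpand, coeffMap_jqModC, jqModC_rat]

/-- the inverse series of `j` over `ℤ_(ℓ)`. -/
theorem chartData_exists_inv : ∃ uZ' : LaurentSeries Zl, jqModC Zl * uZ' = 1 := by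
  have hmem : ∀ i : ℤ, jq.coeff i ∈ GaloisRep.ratLocalizedAt ℓ := by
    intro i
    rw [← jqModC_rat, coeff_jqModC_eq_intCast]
    exact intCast_mem _ _
  obtain ⟨v, hv, hjv⟩ := RootOrders.exists_inv_of_coeff_mem (GaloisRep.ratLocalizedAt ℓ) jq (-1)
    coeff_jq_neg_one (fun m hm => coeff_jq_of_lt hm) hmem
  refine ⟨liftSeries (GaloisRep.ratLocalizedAt ℓ) v hv, ?_⟩
  apply coeffMap_subtype_injective (GaloisRep.ratLocalizedAt ℓ)
  rw [map_mul, map_one, coeffMap_liftSeries, chartData_coeffMap_jqModC, hjv]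

/-- **(Q6)** over `ℤ_(ℓ)`: `Φ_N'(y)` is a unit of `ℤ_(ℓ)((q))`. -/
theorem chartData_hQ6 :
    ∃ vZ : LaurentSeries Zl,
      ((derivative (modPolyZl ℓ N)).map ((aeval (jqModC Zl) : Zl[X] →ₐ[Zl] LaurentSeries Zl) :
        Zl[X] →+* LaurentSeries Zl)).eval (qExpand Zl N (jqModC Zl)) * vZ = 1 := by
  obtain ⟨v, hv, hwv⟩ := RootOrders.exists_inv_derivative_eval_of_link N ℓ (RatQ.modPolyQ N)
    (RatQ.modPolyQ_link N)
  refine ⟨liftSeries (GaloisRep.ratLocalizedAt ℓ) v hv, ?_⟩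
  apply coeffMap_subtype_injective (GaloisRep.ratLocalizedAt ℓ)
  rw [map_mul, map_one, coeffMap_liftSeries]
  have h := chartData_coeffMap_eval (GaloisRep.ratLocalizedAt ℓ).subtype (jqModC Zl)
    (qExpand Zl N (jqModC Zl)) (derivative (modPolyZl ℓ N))
  rw [map_derivative_modPolyZl, chartData_coeffMap_jqModC, chartData_coeffMap_y] at h
  rw [← hwv]
  congr 1

/-! ### The chart `u = j` -/

/-- `y = j(q^N)` as an element of the function field. -/
def yFinFull : F := ⟨qExpand ℚ N jq, jqd_mem_full N dvd_rfl⟩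

theorem coe_yFinFull : ((yFinFull N : F) : LaurentSeries ℚ) = qExpand ℚ N jq := rfl

theorem chartFin_hu :
    coeffMap (GaloisRep.ratLocalizedAt ℓ).subtype (jqModC Zl) =
      ((jFull N : F) : LaurentSeries ℚ) := by
  rw [chartData_coeffMap_jqModC]
  rfl

theorem chartFin_hy :
    coeffMap (GaloisRep.ratLocalizedAt ℓ).subtype (qExpand Zl N (jqModC Zl)) =
      ((yFinFull N : F) : LaurentSeries ℚ) := by
  rw [chartData_coeffMap_y, coe_yFinFull]

theorem chartFin_htr : Transcendental ℚ ((jFull N : F) : LaurentSeries ℚ) :=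
  chartInf_transcendental_jq

theorem chartFin_hroot :
    ((modPolyZl ℓ N).map ((aeval (jqModC Zl) : Zl[X] →ₐ[Zl] LaurentSeries Zl) :
      Zl[X] →+* LaurentSeries Zl)).eval (qExpand Zl N (jqModC Zl)) = 0 :=
  modPolyZl_eval ℓ N

theorem chartFin_hgen (hgenQ : FunctionFieldGeneration N) (x : F) :
    ∃ (Q : ℚ[X]) (c : ℕ → ℚ[X]), Q ≠ 0 ∧
      aeval ((jFull N : F) : LaurentSeries ℚ) Q * (x : LaurentSeries ℚ) =
        ∑ i ∈ Finset.range (modPolyZl ℓ N).natDegree,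
          aeval ((jFull N : F) : LaurentSeries ℚ) (c i) *
            ((yFinFull N : F) : LaurentSeries ℚ) ^ i := by
  obtain ⟨Q, c, hQ, hc⟩ := genH3_fin' N hgenQ (RatQ.modPolyQ N) (RatQ.modPolyQ_monic N)
    (RatQ.modPolyQ_eval N) x
  rw [RatQ.natDegree_modPolyQ, ← natDegree_modPolyZl ℓ N] at hc
  exact ⟨Q, c, hQ, hc⟩

theorem chartFin_hli (hℓN : ¬ ℓ ∣ N) (P : (ZMod ℓ)[X][X])
    (hdeg : P.natDegree < (modPolyZl ℓ N).natDegree)
    (hP : (P.map ((aeval (coeffMap (zlResidue ℓ) (jqModC Zl)) :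
        (ZMod ℓ)[X] →ₐ[ZMod ℓ] LaurentSeries (ZMod ℓ)) :
        (ZMod ℓ)[X] →+* LaurentSeries (ZMod ℓ))).eval
      (coeffMap (zlResidue ℓ) (qExpand Zl N (jqModC Zl))) = 0) : P = 0 := by
  rw [natDegree_modPolyZl] at hdeg
  rw [coeffMap_qExpand, coeffMap_jqModC] at hP
  exact li_modl ℓ N hℓN P hdeg hP

theorem chartFin_hunit :
    ∃ vZ : LaurentSeries Zl,
      ((derivative (modPolyZl ℓ N)).map ((aeval (jqModC Zl) : Zl[X] →ₐ[Zl] LaurentSeries Zl) :
        Zl[X] →+* LaurentSeries Zl)).eval (qExpand Zl N (jqModC Zl)) * vZ = 1 :=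
  chartData_hQ6 ℓ N

/-- **All the data of the chart `u = j`**, in the order of the hypotheses of the chart bridge:
`hu`, `hy`, `htr`, `Φ.Monic`, `hroot`, `hgen`, `hli`, `hunit`. -/
theorem chartFin_data (hℓN : ¬ ℓ ∣ N) (hgenQ : FunctionFieldGeneration N) :
    coeffMap (GaloisRep.ratLocalizedAt ℓ).subtype (jqModC Zl) =
        ((jFull N : F) : LaurentSeries ℚ) ∧
    coeffMap (GaloisRep.ratLocalizedAt ℓ).subtype (qExpand Zl N (jqModC Zl)) =
        ((yFinFull N : F) : LaurentSeries ℚ) ∧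
    Transcendental ℚ ((jFull N : F) : LaurentSeries ℚ) ∧
    (modPolyZl ℓ N).Monic ∧
    ((modPolyZl ℓ N).map ((aeval (jqModC Zl) : Zl[X] →ₐ[Zl] LaurentSeries Zl) :
      Zl[X] →+* LaurentSeries Zl)).eval (qExpand Zl N (jqModC Zl)) = 0 ∧
    (∀ x : F, ∃ (Q : ℚ[X]) (c : ℕ → ℚ[X]), Q ≠ 0 ∧
      aeval ((jFull N : F) : LaurentSeries ℚ) Q * (x : LaurentSeries ℚ) =
        ∑ i ∈ Finset.range (modPolyZl ℓ N).natDegree,
          aeval ((jFull N : F) : LaurentSeries ℚ) (c i) *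
            ((yFinFull N : F) : LaurentSeries ℚ) ^ i) ∧
    (∀ P : (ZMod ℓ)[X][X], P.natDegree < (modPolyZl ℓ N).natDegree →
      (P.map ((aeval (coeffMap (zlResidue ℓ) (jqModC Zl)) :
        (ZMod ℓ)[X] →ₐ[ZMod ℓ] LaurentSeries (ZMod ℓ)) :
        (ZMod ℓ)[X] →+* LaurentSeries (ZMod ℓ))).eval
      (coeffMap (zlResidue ℓ) (qExpand Zl N (jqModC Zl))) = 0 → P = 0) ∧
    (∃ vZ : LaurentSeries Zl,
      ((derivative (modPolyZl ℓ N)).map ((aeval (jqModC Zl) : Zl[X] →ₐ[Zl] LaurentSeries Zl) :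
        Zl[X] →+* LaurentSeries Zl)).eval (qExpand Zl N (jqModC Zl)) * vZ = 1) :=
  ⟨chartFin_hu ℓ N, chartFin_hy ℓ N, chartFin_htr N, modPolyZl_monic ℓ N, chartFin_hroot ℓ N,
    chartFin_hgen ℓ N hgenQ, chartFin_hli ℓ N hℓN, chartFin_hunit ℓ N⟩

/-! ### The chart `u = 1/j` -/

/-- **All the data of the chart `u = 1/j`**: there is an inverse series `uZ'` of `j` over `ℤ_(ℓ)`
such that, with `yZ' = j(q^N) uZ'^N` and `Φ = modPolyInfZl ℓ N`: `hu`, `hy`, `htr`, `Φ.Monic`,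
`hroot`, `hgen`, `hli`, `hunit`. -/
theorem chartInf_data (hℓN : ¬ ℓ ∣ N) (hgenQ : FunctionFieldGeneration N) :
    ∃ uZ' : LaurentSeries Zl, jqModC Zl * uZ' = 1 ∧
    coeffMap (GaloisRep.ratLocalizedAt ℓ).subtype uZ' =
        (((jFull N)⁻¹ : F) : LaurentSeries ℚ) ∧
    coeffMap (GaloisRep.ratLocalizedAt ℓ).subtype (qExpand Zl N (jqModC Zl) * uZ' ^ N) =
        ((yInfFull N : F) : LaurentSeries ℚ) ∧
    Transcendental ℚ (((jFull N)⁻¹ : F) : LaurentSeries ℚ) ∧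
    (modPolyInfZl ℓ N).Monic ∧
    ((modPolyInfZl ℓ N).map ((aeval uZ' : Zl[X] →ₐ[Zl] LaurentSeries Zl) :
      Zl[X] →+* LaurentSeries Zl)).eval (qExpand Zl N (jqModC Zl) * uZ' ^ N) = 0 ∧
    (∀ x : F, ∃ (Q : ℚ[X]) (c : ℕ → ℚ[X]), Q ≠ 0 ∧
      aeval (((jFull N)⁻¹ : F) : LaurentSeries ℚ) Q * (x : LaurentSeries ℚ) =
        ∑ i ∈ Finset.range (modPolyInfZl ℓ N).natDegree,
          aeval (((jFull N)⁻¹ : F) : LaurentSeries ℚ) (c i) *
            ((yInfFull N : F) : LaurentSeries ℚ) ^ i) ∧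
    (∀ P : (ZMod ℓ)[X][X], P.natDegree < (modPolyInfZl ℓ N).natDegree →
      (P.map ((aeval (coeffMap (zlResidue ℓ) uZ') :
        (ZMod ℓ)[X] →ₐ[ZMod ℓ] LaurentSeries (ZMod ℓ)) :
        (ZMod ℓ)[X] →+* LaurentSeries (ZMod ℓ))).eval
      (coeffMap (zlResidue ℓ) (qExpand Zl N (jqModC Zl) * uZ' ^ N)) = 0 → P = 0) ∧
    (∃ vZ' : LaurentSeries Zl,
      ((derivative (modPolyInfZl ℓ N)).map ((aeval uZ' : Zl[X] →ₐ[Zl] LaurentSeries Zl) :
        Zl[X] →+* LaurentSeries Zl)).eval (qExpand Zl N (jqModC Zl) * uZ' ^ N) * vZ' = 1) := by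
  obtain ⟨uZ', huZ⟩ := chartData_exists_inv ℓ
  have hQ5 := chartData_hQ5 N
  exact ⟨uZ', huZ, chartInf_hu huZ, chartInf_hy huZ, chartInf_htr N, modPolyInfZl_monic ℓ N,
    chartInf_hroot hQ5 huZ, chartInf_hgen hgenQ hQ5 huZ, chartInf_hli hℓN huZ,
    chartInf_hunit hQ5 huZ (chartData_hQ6 ℓ N)⟩

end

end Fermat.Agent.Igusa
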