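import Mathlib
import Fermat.Prelude.Def_ModularCurve_LaurentCoeff

/-!
# Igusa / V2: an algebra with integral `q`-expansions and saturated reduction stays a domain after
base change to a field of the residue characteristic

Abstract statement.  `R` a commutative ring, `ρ : R →+* k₀` a surjection onto a field with kernel
`(π)`.  `A` an `R`-algebra with a ring hom `ι : A →+* R((q))` (the `q`-expansion), compatible with
constants, such that "`red (ι a) = 0 ⇒ a ∈ π A`".  Then for every field `K` which is a `k₀`-algebra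
(compatibly with an `R`-algebra structure) the ring `A ⊗[R] K` embeds into `K((q))`, hence is a
domain.
-/

set_option autoImplicit false

open TensorProduct ModularCurve

namespace Fermat.Agent.Igusa

section TensorEmbed

variable {R : Type*} [CommRing R] {k₀ : Type*} [Field k₀]
variable {A : Type*} [CommRing A] [Algebra R A]
variable {K : Type*} [Field K] [Algebra R K] [Algebra k₀ K]

/-- the reduced expansion `A → K((q))`. -/
noncomputable def redExp (K : Type*) [Field K] [Algebra R K] (ι : A →+* LaurentSeries R) :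
    A →+* LaurentSeries K :=
  (coeffMap (algebraMap R K)).comp ι

lemma redExp_coeff (ι : A →+* LaurentSeries R) (a : A) (n : ℤ) :
    (redExp K ι a).coeff n = algebraMap R K ((ι a).coeff n) := rfl

lemma redExp_algebraMap (ι : A →+* LaurentSeries R)
    (hι : ∀ r : R, ι (algebraMap R A r) = HahnSeries.C r) (r : R) :
    redExp K ι (algebraMap R A r) = HahnSeries.C (algebraMap R K r) := by
  rw [redExp, RingHom.comp_apply, hι]
  exact coeffMap_single _ _ _

/-- the map `A ⊗[R] K → K((q))`, `a ⊗ c ↦ red (ι a) * c`. -/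
noncomputable def tensorExp (ι : A →+* LaurentSeries R)
    (hι : ∀ r : R, ι (algebraMap R A r) = HahnSeries.C r) :
    A ⊗[R] K →+* LaurentSeries K :=
  letI : Algebra R (LaurentSeries K) :=
    ((HahnSeries.C : K →+* LaurentSeries K).comp (algebraMap R K)).toAlgebra
  (Algebra.TensorProduct.productMap
    ({ redExp K ι with commutes' := fun r => redExp_algebraMap ι hι r } : A →ₐ[R] LaurentSeries K)
    ({ (HahnSeries.C : K →+* LaurentSeries K) with commutes' := fun _ => rfl } :
      K →ₐ[R] LaurentSeries K)).toRingHom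

lemma tensorExp_tmul (ι : A →+* LaurentSeries R)
    (hι : ∀ r : R, ι (algebraMap R A r) = HahnSeries.C r) (a : A) (c : K) :
    tensorExp (K := K) ι hι (a ⊗ₜ[R] c) = redExp K ι a * HahnSeries.C c := by
  letI : Algebra R (LaurentSeries K) :=
    ((HahnSeries.C : K →+* LaurentSeries K).comp (algebraMap R K)).toAlgebra
  exact Algebra.TensorProduct.productMap_apply_tmul _ _ a c

lemma tensorExp_tmul_coeff (ι : A →+* LaurentSeries R)
    (hι : ∀ r : R, ι (algebraMap R A r) = HahnSeries.C r) (a : A) (c : K) (n : ℤ) :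
    (tensorExp (K := K) ι hι (a ⊗ₜ[R] c)).coeff n = algebraMap R K ((ι a).coeff n) * c := by
  rw [tensorExp_tmul, HahnSeries.C_apply, HahnSeries.coeff_mul_single_zero, redExp_coeff]

variable (ρ : R →+* k₀)

/-- every element of `A ⊗[R] K` is a finite sum `∑ f i ⊗ b i` along a `k₀`-basis `b` of `K`. -/
lemma exists_eq_sum_tmul_basis (hρ : Function.Surjective ρ)
    (hK : ∀ r : R, algebraMap R K r = algebraMap k₀ K (ρ r)) {I : Type*} (b : Module.Basis I k₀ K)
    (z : A ⊗[R] K) : ∃ (s : Finset I) (f : I → A), z = ∑ i ∈ s, f i ⊗ₜ[R] b i := by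
  classical
  induction z using TensorProduct.induction_on with
  | zero => exact ⟨∅, fun _ => 0, by simp⟩
  | tmul a c =>
    refine ⟨(b.repr c).support, fun i => Function.surjInv hρ (b.repr c i) • a, ?_⟩
    have h1 : ∀ i, (Function.surjInv hρ (b.repr c i) • a) ⊗ₜ[R] b i =
        a ⊗ₜ[R] (b.repr c i • b i) := by
      intro i
      rw [TensorProduct.smul_tmul, Algebra.smul_def, hK, Function.surjInv_eq hρ, Algebra.smul_def]
    simp_rw [h1]
    rw [← TensorProduct.tmul_sum]
    congr 1
    have := b.linearCombination_repr c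
    rw [Finsupp.linearCombination_apply, Finsupp.sum] at this
    exact this.symm
  | add x y hx hy =>
    obtain ⟨s₁, f₁, rfl⟩ := hx
    obtain ⟨s₂, f₂, rfl⟩ := hy
    refine ⟨s₁ ∪ s₂, fun i => (if i ∈ s₁ then f₁ i else 0) + (if i ∈ s₂ then f₂ i else 0), ?_⟩
    simp_rw [TensorProduct.add_tmul, Finset.sum_add_distrib]
    congr 1
    · rw [← Finset.sum_subset (Finset.subset_union_left (s₂ := s₂))]
      · exact Finset.sum_congr rfl fun i hi => by rw [if_pos hi]
      · intro i _ hi
        rw [if_neg hi, TensorProduct.zero_tmul]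
    · rw [← Finset.sum_subset (Finset.subset_union_right (s₁ := s₁))]
      · exact Finset.sum_congr rfl fun i hi => by rw [if_pos hi]
      · intro i _ hi
        rw [if_neg hi, TensorProduct.zero_tmul]

/-- **the embedding**: `A ⊗[R] K → K((q))` is injective. -/
theorem tensorExp_injective (hρ : Function.Surjective ρ) (πR : R) (hπ : ρ πR = 0)
    (hK : ∀ r : R, algebraMap R K r = algebraMap k₀ K (ρ r))
    (ι : A →+* LaurentSeries R) (hι : ∀ r : R, ι (algebraMap R A r) = HahnSeries.C r)
    (hred : ∀ a : A, (∀ n, ρ ((ι a).coeff n) = 0) → ∃ b : A, a = πR • b) :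
    Function.Injective (tensorExp (K := K) ι hι) := by
  classical
  rw [injective_iff_map_eq_zero]
  intro z hz
  set b := Module.Basis.ofVectorSpace k₀ K with hb
  obtain ⟨s, f, rfl⟩ := exists_eq_sum_tmul_basis (A := A) ρ hρ hK b z
  rw [map_sum] at hz
  -- coefficientwise linear independence
  have hcoef : ∀ i ∈ s, ∀ n, ρ ((ι (f i)).coeff n) = 0 := by
    intro i hi n
    have h1 := congrArg (fun x : LaurentSeries K => x.coeff n) hz
    simp only [HahnSeries.coeff_sum, HahnSeries.coeff_zero, tensorExp_tmul_coeff] at h1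
    have h2 : ∑ j ∈ s, ρ ((ι (f j)).coeff n) • b j = 0 := by
      rw [← h1]
      exact Finset.sum_congr rfl fun j _ => by rw [Algebra.smul_def, hK]
    exact (linearIndependent_iff'.mp b.linearIndependent) s _ h2 i hi
  refine Finset.sum_eq_zero fun i hi => ?_
  obtain ⟨g, hg⟩ := hred (f i) (hcoef i hi)
  rw [hg, TensorProduct.smul_tmul, Algebra.smul_def, hK, hπ, map_zero, zero_mul,
    TensorProduct.tmul_zero]

/-- hence `A ⊗[R] K` is a domain. -/
theorem isDomain_tensor (hρ : Function.Surjective ρ) (πR : R) (hπ : ρ πR = 0)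
    (hK : ∀ r : R, algebraMap R K r = algebraMap k₀ K (ρ r))
    (ι : A →+* LaurentSeries R) (hι : ∀ r : R, ι (algebraMap R A r) = HahnSeries.C r)
    (hred : ∀ a : A, (∀ n, ρ ((ι a).coeff n) = 0) → ∃ b : A, a = πR • b) :
    IsDomain (A ⊗[R] K) :=
  Function.Injective.isDomain (tensorExp (K := K) ι hι)
    (tensorExp_injective ρ hρ πR hπ hK ι hι hred)

end TensorEmbed

end Fermat.Agent.Igusa
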