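import Mathlib
import Fermat.Prelude.Def_ModularCurve_IgusaScheme
import Fermat.Agent.Igusa.TensorEmbed
import Fermat.Agent.Igusa.ZlResidue
import Fermat.Agent.Igusa.LiftCoeff

/-!
# Igusa / V2: from `ℓ`-integrality and saturation of a chart algebra to `IsDomain (A ⊗ K)`
-/

set_option autoImplicit false
set_option linter.unusedSectionVars false

open ModularCurve ModularCurve.IgusaScheme TensorProduct GaloisRep

namespace Fermat.Agent.Igusa

section ChartsTensor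

variable (N : ℕ) [NeZero N] (ℓ : ℕ) [hℓ : Fact ℓ.Prime]

set_option quotPrecheck false in
local notation "ℤℓ" => ↥(GaloisRep.ratLocalizedAt ℓ)
set_option quotPrecheck false in
local notation "F" => ↥(modularFunctionFieldFull N)

/-- the `q`-expansion of the elements of a `ℤ_(ℓ)`-subalgebra of the function field. -/
noncomputable def chartExp (A : Subalgebra ℤℓ F) : A →+* LaurentSeries ℚ :=
  (algebraMap F (LaurentSeries ℚ)).comp A.val.toRingHom

variable {N ℓ}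

lemma chartExp_apply (A : Subalgebra ℤℓ F) (x : A) :
    chartExp N ℓ A x = ((x : F) : LaurentSeries ℚ) := rfl

lemma chartExp_algebraMap (A : Subalgebra ℤℓ F) (r : ℤℓ) :
    chartExp N ℓ A (algebraMap ℤℓ A r) = HahnSeries.C (r : ℚ) := by
  rw [chartExp_apply]
  show algebraMap F (LaurentSeries ℚ) (algebraMap ℚ F (r : ℚ)) = HahnSeries.C (r : ℚ)
  rw [eq_ratCast (algebraMap ℚ F), map_ratCast, ← eq_ratCast (algebraMap ℚ (LaurentSeries ℚ))]
  exact algebraMap_laurentSeries_eq_single ℚ (r : ℚ)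

/-- the integral `q`-expansion `A → ℤ_(ℓ)((q))` of a subalgebra with `ℓ`-integral expansions. -/
noncomputable def chartExpInt (A : Subalgebra ℤℓ F)
    (hVa : ∀ x : A, ∀ n : ℤ, (chartExp N ℓ A x).coeff n ∈ ratLocalizedAt ℓ) :
    A →+* LaurentSeries ℤℓ :=
  liftCoeff (ratLocalizedAt ℓ) (chartExp N ℓ A) hVa

lemma chartExpInt_coeff (A : Subalgebra ℤℓ F)
    (hVa : ∀ x : A, ∀ n : ℤ, (chartExp N ℓ A x).coeff n ∈ ratLocalizedAt ℓ) (x : A) (n : ℤ) :
    (((chartExpInt A hVa x).coeff n : ℤℓ) : ℚ) = ((x : F) : LaurentSeries ℚ).coeff n := rfl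

lemma chartExpInt_algebraMap (A : Subalgebra ℤℓ F)
    (hVa : ∀ x : A, ∀ n : ℤ, (chartExp N ℓ A x).coeff n ∈ ratLocalizedAt ℓ) (r : ℤℓ) :
    chartExpInt A hVa (algebraMap ℤℓ A r) = HahnSeries.C r := by
  apply coeffMap_subtype_injective (ratLocalizedAt ℓ)
  rw [chartExpInt, coeffMap_liftCoeff, chartExp_algebraMap]
  exact (coeffMap_single (ratLocalizedAt ℓ).subtype 0 r).symm

/-- the saturation hypothesis in the form needed by the abstract engine. -/
lemma chartExpInt_hred (A : Subalgebra ℤℓ F)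
    (hVa : ∀ x : A, ∀ n : ℤ, (chartExp N ℓ A x).coeff n ∈ ratLocalizedAt ℓ)
    (hVb : ∀ x : A, (∀ n : ℤ, ∃ c ∈ ratLocalizedAt ℓ,
      ((x : F) : LaurentSeries ℚ).coeff n = (ℓ : ℚ) * c) → ∃ y : A, (x : F) = (ℓ : F) * (y : F))
    (a : A) (ha : ∀ n, zlResidue ℓ ((chartExpInt A hVa a).coeff n) = 0) :
    ∃ b : A, a = (ℓ : ℤℓ) • b := by
  obtain ⟨y, hy⟩ := hVb a (fun n => by
    obtain ⟨s, hs⟩ := exists_eq_mul_of_zlResidue_eq_zero ℓ (ha n)
    refine ⟨(s : ℚ), s.2, ?_⟩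
    rw [← chartExpInt_coeff A hVa a n, hs]
    push_cast
    rfl)
  refine ⟨y, Subtype.ext ?_⟩
  rw [hy, Algebra.smul_def, map_natCast]
  push_cast
  rfl

/-- **`A ⊗ K` is a domain** for a `ℤ_(ℓ)`-subalgebra `A` of the function field with `ℓ`-integral
expansions (`hVa`) which is saturated (`hVb`: zero reduction implies divisible by `ℓ` in `A`). -/
theorem isDomain_tensor_of_saturated (A : Subalgebra ℤℓ F)
    (hVa : ∀ x : A, ∀ n : ℤ, (chartExp N ℓ A x).coeff n ∈ ratLocalizedAt ℓ)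
    (hVb : ∀ x : A, (∀ n : ℤ, ∃ c ∈ ratLocalizedAt ℓ,
      ((x : F) : LaurentSeries ℚ).coeff n = (ℓ : ℚ) * c) → ∃ y : A, (x : F) = (ℓ : F) * (y : F))
    (K : Type*) [Field K] [CharP K ℓ] [Algebra ℤℓ K] : IsDomain (↥A ⊗[ℤℓ] K) := by
  let _ : Algebra (ZMod ℓ) K := (ZMod.castHom (dvd_refl ℓ) K).toAlgebra
  exact isDomain_tensor (zlResidue ℓ) (zlResidue_surjective ℓ) (ℓ : ℤℓ) (zlResidue_prime ℓ)
    (fun r => algebraMap_eq_zlResidue ℓ r) (chartExpInt A hVa) (chartExpInt_algebraMap A hVa)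
    (chartExpInt_hred A hVa hVb)

/-- the reduced expansion of `a ⊗ 1`. -/
theorem tensorExp_tmul_one_coeff (A : Subalgebra ℤℓ F)
    (hVa : ∀ x : A, ∀ n : ℤ, (chartExp N ℓ A x).coeff n ∈ ratLocalizedAt ℓ)
    (K : Type*) [Field K] [Algebra ℤℓ K] (a : A) (n : ℤ) :
    (tensorExp (K := K) (chartExpInt A hVa) (chartExpInt_algebraMap A hVa) (a ⊗ₜ[ℤℓ] 1)).coeff n =
      algebraMap ℤℓ K ((chartExpInt A hVa a).coeff n) := by
  rw [tensorExp_tmul_coeff, mul_one]

/-- an element some coefficient of which is a unit mod `ℓ` stays nonzero in `A ⊗ K`. -/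
theorem tmul_one_ne_zero_of_coeff (A : Subalgebra ℤℓ F)
    (hVa : ∀ x : A, ∀ n : ℤ, (chartExp N ℓ A x).coeff n ∈ ratLocalizedAt ℓ)
    (K : Type*) [Field K] [CharP K ℓ] [Algebra ℤℓ K] (a : A) (n : ℤ)
    (hn : ((a : F) : LaurentSeries ℚ).coeff n = 1) : a ⊗ₜ[ℤℓ] (1 : K) ≠ 0 := by
  intro h
  have h1 := congrArg (fun z => (tensorExp (K := K) (chartExpInt A hVa)
    (chartExpInt_algebraMap A hVa) z).coeff n) h
  simp only [map_zero, HahnSeries.coeff_zero, tensorExp_tmul_one_coeff] at h1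
  have h2 : (chartExpInt A hVa a).coeff n = 1 := by
    apply Subtype.ext
    rw [chartExpInt_coeff, hn]
    rfl
  rw [h2, map_one] at h1
  exact one_ne_zero h1

end ChartsTensor

end Fermat.Agent.Igusa
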