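import Mathlib
import Fermat.Prelude.Def_ModularCurve_IgusaScheme
import Fermat.Agent.Igusa.ChartsTensor
import Fermat.Agent.Igusa.ChartBridgeMain

/-!
# Igusa / V2: `A ⊗ K` is a domain for the chart algebra `A = chartAlg N ℓ {u}` given the data
`H(u, yu, Φ)`
-/

set_option autoImplicit false
set_option linter.unusedSectionVars false

open Polynomial ModularCurve ModularCurve.IgusaScheme TensorProduct GaloisRep

namespace Fermat.Agent.Igusa

section ChartSaturated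

variable (N : ℕ) [NeZero N] (ℓ : ℕ) [hℓ : Fact ℓ.Prime]

set_option quotPrecheck false in
local notation "Zl" => ↥(GaloisRep.ratLocalizedAt ℓ)
set_option quotPrecheck false in
local notation "F" => ↥(modularFunctionFieldFull N)

variable {N ℓ}

theorem algebraMap_full_zl (r : Zl) :
    algebraMap F (LaurentSeries ℚ) (algebraMap Zl F r) = HahnSeries.C (r : ℚ) := by
  show algebraMap F (LaurentSeries ℚ) (algebraMap ℚ F (r : ℚ)) = HahnSeries.C (r : ℚ)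
  rw [eq_ratCast (algebraMap ℚ F), map_ratCast, ← eq_ratCast (algebraMap ℚ (LaurentSeries ℚ))]
  exact algebraMap_laurentSeries_eq_single ℚ (r : ℚ)

/-- **(c1) and (c2) for the chart algebra** `chartAlg N ℓ {u}` from the data `H(u, yu, Φ)`. -/
theorem chartAlg_saturated (u yu : F) (uZ yZ : LaurentSeries Zl)
    (hu : coeffMap (ratLocalizedAt ℓ).subtype uZ = (u : LaurentSeries ℚ))
    (hy : coeffMap (ratLocalizedAt ℓ).subtype yZ = (yu : LaurentSeries ℚ))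
    (htr : Transcendental ℚ (u : LaurentSeries ℚ)) (Φ : Zl[X][X]) (hΦm : Φ.Monic)
    (hroot : (Φ.map ((aeval uZ : Zl[X] →ₐ[Zl] LaurentSeries Zl) : Zl[X] →+* LaurentSeries Zl)).eval
      yZ = 0)
    (hgen : ∀ x : F, ∃ (Q : ℚ[X]) (c : ℕ → ℚ[X]), Q ≠ 0 ∧
      aeval (u : LaurentSeries ℚ) Q * (x : LaurentSeries ℚ) =
        ∑ i ∈ Finset.range Φ.natDegree, aeval (u : LaurentSeries ℚ) (c i) *
          (yu : LaurentSeries ℚ) ^ i)
    (hli : ∀ P : (ZMod ℓ)[X][X], P.natDegree < Φ.natDegree →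
      (P.map ((aeval (coeffMap (zlResidue ℓ) uZ) : (ZMod ℓ)[X] →ₐ[ZMod ℓ] LaurentSeries (ZMod ℓ)) :
        (ZMod ℓ)[X] →+* LaurentSeries (ZMod ℓ))).eval (coeffMap (zlResidue ℓ) yZ) = 0 → P = 0)
    (hunit : ∃ vZ : LaurentSeries Zl,
      (Φ.derivative.map ((aeval uZ : Zl[X] →ₐ[Zl] LaurentSeries Zl) :
        Zl[X] →+* LaurentSeries Zl)).eval yZ * vZ = 1) :
    (∀ x : chartAlg N ℓ {u}, ∀ n : ℤ,
      (chartExp N ℓ (chartAlg N ℓ {u}) x).coeff n ∈ ratLocalizedAt ℓ) ∧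
    (∀ x : chartAlg N ℓ {u}, (∀ n : ℤ, ∃ c ∈ ratLocalizedAt ℓ,
      ((x : F) : LaurentSeries ℚ).coeff n = (ℓ : ℚ) * c) →
      ∃ y : chartAlg N ℓ {u}, (x : F) = (ℓ : F) * (y : F)) := by
  obtain ⟨h1, h2⟩ := chart_saturated_generic ℓ (algebraMap F (LaurentSeries ℚ))
    algebraMap_full_zl u yu uZ yZ hu hy htr Φ hΦm hroot hgen hli hunit
  refine ⟨fun x n => h1 (x : F) x.2 n, fun x hx => ?_⟩
  obtain ⟨y, hy1, hy2⟩ := h2 (x : F) x.2 hx
  exact ⟨⟨y, hy1⟩, hy2⟩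

/-- **`chartAlg N ℓ {u} ⊗ K` is a domain** given the data `H(u, yu, Φ)`. -/
theorem isDomain_chartAlg_tensor (u yu : F) (uZ yZ : LaurentSeries Zl)
    (hu : coeffMap (ratLocalizedAt ℓ).subtype uZ = (u : LaurentSeries ℚ))
    (hy : coeffMap (ratLocalizedAt ℓ).subtype yZ = (yu : LaurentSeries ℚ))
    (htr : Transcendental ℚ (u : LaurentSeries ℚ)) (Φ : Zl[X][X]) (hΦm : Φ.Monic)
    (hroot : (Φ.map ((aeval uZ : Zl[X] →ₐ[Zl] LaurentSeries Zl) : Zl[X] →+* LaurentSeries Zl)).eval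
      yZ = 0)
    (hgen : ∀ x : F, ∃ (Q : ℚ[X]) (c : ℕ → ℚ[X]), Q ≠ 0 ∧
      aeval (u : LaurentSeries ℚ) Q * (x : LaurentSeries ℚ) =
        ∑ i ∈ Finset.range Φ.natDegree, aeval (u : LaurentSeries ℚ) (c i) *
          (yu : LaurentSeries ℚ) ^ i)
    (hli : ∀ P : (ZMod ℓ)[X][X], P.natDegree < Φ.natDegree →
      (P.map ((aeval (coeffMap (zlResidue ℓ) uZ) : (ZMod ℓ)[X] →ₐ[ZMod ℓ] LaurentSeries (ZMod ℓ)) :
        (ZMod ℓ)[X] →+* LaurentSeries (ZMod ℓ))).eval (coeffMap (zlResidue ℓ) yZ) = 0 → P = 0)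
    (hunit : ∃ vZ : LaurentSeries Zl,
      (Φ.derivative.map ((aeval uZ : Zl[X] →ₐ[Zl] LaurentSeries Zl) :
        Zl[X] →+* LaurentSeries Zl)).eval yZ * vZ = 1)
    (K : Type*) [Field K] [CharP K ℓ] [Algebra Zl K] :
    IsDomain (↥(chartAlg N ℓ {u}) ⊗[Zl] K) := by
  obtain ⟨h1, h2⟩ := chartAlg_saturated u yu uZ yZ hu hy htr Φ hΦm hroot hgen hli hunit
  exact isDomain_tensor_of_saturated (chartAlg N ℓ {u}) h1 h2 K

end ChartSaturated

end Fermat.Agent.Igusa
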