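/-
Igusa/Charts (S28 project): the three facts about the chart algebras of the Igusa model needed by
the scheme-theoretic part, given generation of the function field (`FunctionFieldGeneration N`).
-/
import Mathlib
import Fermat.Prelude.Def_ModularCurve_IgusaScheme
import Fermat.Agent.Igusa.ChartSaturated
import Fermat.Agent.Igusa.ChartData

set_option autoImplicit false
set_option linter.unusedSectionVars false

open Polynomial ModularCurve ModularCurve.IgusaScheme TensorProduct GaloisRep

namespace Fermat.Agent.Igusa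

section Charts

variable (N : ℕ) [NeZero N] (ℓ : ℕ) [hℓ : Fact ℓ.Prime]

set_option quotPrecheck false in
local notation "Zl" => ↥(GaloisRep.ratLocalizedAt ℓ)
set_option quotPrecheck false in
local notation "F" => ↥(modularFunctionFieldFull N)

/-- the finite chart algebra becomes a domain after base change to a field of characteristic `ℓ`. -/
theorem isDomain_chartAlgFin_tensor (hℓN : ¬ ℓ ∣ N) (hgenQ : FunctionFieldGeneration N)
    (K : Type*) [Field K] [CharP K ℓ] [Algebra Zl K] :
    IsDomain (↥(chartAlgFin N ℓ) ⊗[Zl] K) := by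
  obtain ⟨hu, hy, htr, hΦm, hroot, hgen, hli, hunit⟩ := chartFin_data ℓ N hℓN hgenQ
  exact isDomain_chartAlg_tensor (jFull N) (yFinFull N) _ _ hu hy htr _ hΦm hroot hgen hli hunit K

/-- the chart algebra at infinity becomes a domain after base change to a field of
characteristic `ℓ`. -/
theorem isDomain_chartAlgInf_tensor (hℓN : ¬ ℓ ∣ N) (hgenQ : FunctionFieldGeneration N)
    (K : Type*) [Field K] [CharP K ℓ] [Algebra Zl K] :
    IsDomain (↥(chartAlgInf N ℓ) ⊗[Zl] K) := by
  obtain ⟨uZ', -, hu, hy, htr, hΦm, hroot, hgen, hli, hunit⟩ := chartInf_data ℓ N hℓN hgenQ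
  exact isDomain_chartAlg_tensor ((jFull N)⁻¹) (yInfFull N) _ _ hu hy htr _ hΦm hroot hgen hli
    hunit K

/-- `j ⊗ 1` is nonzero in the base change of the finite chart algebra. -/
theorem jChartFin_tmul_one_ne_zero (hℓN : ¬ ℓ ∣ N) (hgenQ : FunctionFieldGeneration N)
    (K : Type*) [Field K] [CharP K ℓ] [Algebra Zl K] :
    (jChartFin N ℓ) ⊗ₜ[Zl] (1 : K) ≠ 0 := by
  obtain ⟨hu, hy, htr, hΦm, hroot, hgen, hli, hunit⟩ := chartFin_data ℓ N hℓN hgenQ
  have hsat := chartAlg_saturated (jFull N) (yFinFull N) _ _ hu hy htr _ hΦm hroot hgen hli hunit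
  exact tmul_one_ne_zero_of_coeff (chartAlgFin N ℓ) hsat.1 K (jChartFin N ℓ) (-1)
    (by rw [coe_jChartFin, coe_jFull]; exact coeff_jq_neg_one)

end Charts

end Fermat.Agent.Igusa
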