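import Mathlib
import Fermat.Prelude.Def_ModularCurve_X0

/-!
# Igusa / GenH3: every element of `k(u, y)` is a `k(u)`-combination of `1, y, …, y^(n-1)`

Generic field theory: if `y` is a root of a polynomial `Φ(u, T)`, monic in `T` of degree `n` with
coefficients in `k[u]`, every `x ∈ k(u, y)` satisfies `Q(u) x = ∑_{i<n} c_i(u) y^i` with
`Q, c_i ∈ k[X]`, `Q(u) ≠ 0`.  Instantiation for the modular function field.
-/

set_option autoImplicit false

open Polynomial IntermediateField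

namespace Fermat.Agent.Igusa

section Generic

variable {k Ω : Type*} [Field k] [Field Ω] [Algebra k Ω]

/-- finitely many elements of `k(u)` have a common denominator. -/
theorem genH3_common_denom (u : Ω) (n : ℕ) (a : ℕ → Ω) (ha : ∀ i, a i ∈ k⟮u⟯) :
    ∃ (Q : k[X]) (c : ℕ → k[X]), aeval u Q ≠ 0 ∧ ∀ i < n, aeval u Q * a i = aeval u (c i) := by
  induction n with
  | zero => exact ⟨1, fun _ => 0, by simp, by simp⟩
  | succ n ih =>
    obtain ⟨Q, c, hQ, hc⟩ := ih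
    obtain ⟨r, s, hrs⟩ := (mem_adjoin_simple_iff k (a n)).mp (ha n)
    by_cases hs : aeval u s = 0
    · have han : a n = 0 := by rw [hrs, hs, div_zero]
      refine ⟨Q, Function.update c n 0, hQ, fun i hi => ?_⟩
      rcases Nat.lt_succ_iff_lt_or_eq.mp hi with h | rfl
      · rw [Function.update_of_ne (Nat.ne_of_lt h)]; exact hc i h
      · rw [Function.update_self, han, mul_zero, map_zero]
    · refine ⟨Q * s, fun i => if i = n then Q * r else c i * s, ?_, fun i hi => ?_⟩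
      · rw [map_mul]; exact mul_ne_zero hQ hs
      · rcases Nat.lt_succ_iff_lt_or_eq.mp hi with h | rfl
        · show _ = aeval u (if i = n then Q * r else c i * s)
          rw [if_neg (Nat.ne_of_lt h), map_mul, map_mul, ← hc i h]; ring
        · show _ = aeval u (if i = i then Q * r else c i * s)
          rw [if_pos rfl, map_mul, map_mul, hrs]; field_simp

/-- **(h3), generic form.** -/
theorem exists_clear_denom (u y : Ω) (Φ : k[X][X]) (hΦm : Φ.Monic)
    (hΦ : (Φ.map ((aeval u : k[X] →ₐ[k] Ω) : k[X] →+* Ω)).eval y = 0) {x : Ω}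
    (hx : x ∈ IntermediateField.adjoin k {u, y}) :
    ∃ (Q : k[X]) (c : ℕ → k[X]), aeval u Q ≠ 0 ∧
      aeval u Q * x = ∑ i ∈ Finset.range Φ.natDegree, aeval u (c i) * y ^ i := by
  let uK : k⟮u⟯ := ⟨u, mem_adjoin_simple_self k u⟩
  let φ : k[X] →+* k⟮u⟯ := ((aeval uK : k[X] →ₐ[k] k⟮u⟯) : k[X] →+* k⟮u⟯)
  have hφ : ∀ p : k[X], ((φ p : k⟮u⟯) : Ω) = aeval u p := by
    intro p
    change algebraMap k⟮u⟯ Ω (aeval uK p) = aeval u p
    rw [← aeval_algebraMap_apply]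
    rfl
  have hcomp : (algebraMap k⟮u⟯ Ω).comp φ = ((aeval u : k[X] →ₐ[k] Ω) : k[X] →+* Ω) :=
    RingHom.ext fun p => hφ p
  set ΦK : k⟮u⟯[X] := Φ.map φ with hΦK
  have hΦKm : ΦK.Monic := hΦm.map _
  have hΦKy : aeval y ΦK = 0 := by
    rw [aeval_def, hΦK, eval₂_map, hcomp, ← eval_map]
    exact hΦ
  have hdegK : ΦK.natDegree = Φ.natDegree := hΦm.natDegree_map _
  have hint : IsIntegral k⟮u⟯ y := ⟨ΦK, hΦKm, hΦKy⟩
  have hx' : x ∈ k⟮u⟯⟮y⟯ := by
    have h := adjoin_simple_adjoin_simple k u y (E := Ω)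
    rw [← h] at hx
    exact hx
  rw [← IntermediateField.mem_toSubalgebra,
    adjoin_simple_toSubalgebra_of_isAlgebraic hint.isAlgebraic,
    Algebra.adjoin_singleton_eq_range_aeval] at hx'
  obtain ⟨p, rfl⟩ := hx'
  have hne1 : ΦK ≠ 1 := by
    intro h1
    rw [h1, map_one] at hΦKy
    exact one_ne_zero hΦKy
  have hlt : (p %ₘ ΦK).natDegree < Φ.natDegree := by
    rw [← hdegK]
    exact natDegree_modByMonic_lt p hΦKm hne1
  have hp' : aeval y (p %ₘ ΦK) = aeval y p := aeval_modByMonic_eq_self_of_root hΦKy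
  obtain ⟨Q, c, hQ, hc⟩ := genH3_common_denom (k := k) u Φ.natDegree
    (fun i => (((p %ₘ ΦK).coeff i : k⟮u⟯) : Ω)) (fun i => ((p %ₘ ΦK).coeff i).2)
  refine ⟨Q, c, hQ, ?_⟩
  change aeval u Q * aeval y p = _
  rw [← hp', aeval_eq_sum_range' hlt, Finset.mul_sum]
  refine Finset.sum_congr rfl fun i hi => ?_
  rw [Algebra.smul_def, ← mul_assoc]
  congr 1
  exact hc i (Finset.mem_range.mp hi)

end Generic

section Modular

open ModularCurve

variable (N : ℕ) [NeZero N]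

/-- under `FunctionFieldGeneration`, the full modular function field is `ℚ(j, j(q^N))`. -/
theorem full_le_adjoin (h : FunctionFieldGeneration N) :
    modularFunctionFieldFull N ≤ IntermediateField.adjoin ℚ {jq, qExpand ℚ N jq} := by
  rw [modularFunctionFieldFull, adjoin_le_iff]
  rintro x ⟨d, hd0, hd, rfl⟩
  exact h d hd hd0

/-- the generators at infinity generate the same field. -/
theorem adjoin_inv_eq (u y : LaurentSeries ℚ) (hu : u ≠ 0) (m : ℕ) :
    IntermediateField.adjoin ℚ {u⁻¹, y * u⁻¹ ^ m} = IntermediateField.adjoin ℚ {u, y} := by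
  apply le_antisymm
  · rw [adjoin_le_iff]
    have hu' : u ∈ IntermediateField.adjoin ℚ {u, y} := subset_adjoin ℚ _ (Set.mem_insert _ _)
    have hy' : y ∈ IntermediateField.adjoin ℚ {u, y} :=
      subset_adjoin ℚ _ (Set.mem_insert_of_mem _ rfl)
    intro x hx
    rcases hx with hx | hx
    · rw [hx]; exact inv_mem hu'
    · rw [Set.mem_singleton_iff.mp hx]; exact mul_mem hy' (pow_mem (inv_mem hu') m)
  · rw [adjoin_le_iff]
    have hu' : u⁻¹ ∈ IntermediateField.adjoin ℚ {u⁻¹, y * u⁻¹ ^ m} :=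
      subset_adjoin ℚ _ (Set.mem_insert _ _)
    have hy' : y * u⁻¹ ^ m ∈ IntermediateField.adjoin ℚ {u⁻¹, y * u⁻¹ ^ m} :=
      subset_adjoin ℚ _ (Set.mem_insert_of_mem _ rfl)
    have hu'' : u ∈ IntermediateField.adjoin ℚ {u⁻¹, y * u⁻¹ ^ m} := by
      have := inv_mem hu'
      rwa [inv_inv] at this
    intro x hx
    rcases hx with hx | hx
    · rw [hx]; exact hu''
    · rw [Set.mem_singleton_iff.mp hx]
      have h := mul_mem hy' (pow_mem hu'' m)
      have hcalc : y * u⁻¹ ^ m * u ^ m = y := by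
        rw [mul_assoc, ← mul_pow, inv_mul_cancel₀ hu, one_pow, mul_one]
      rwa [hcalc] at h

/-- **(h3) for the finite chart** `(u, y) = (j, j(q^N))`. -/
theorem genH3_fin (h : FunctionFieldGeneration N) (Φ : ℚ[X][X]) (hΦm : Φ.Monic)
    (hΦ : (Φ.map ((aeval jq : ℚ[X] →ₐ[ℚ] LaurentSeries ℚ) : ℚ[X] →+* LaurentSeries ℚ)).eval
      (qExpand ℚ N jq) = 0) (x : modularFunctionFieldFull N) :
    ∃ (Q : ℚ[X]) (c : ℕ → ℚ[X]), aeval jq Q ≠ 0 ∧
      aeval jq Q * (x : LaurentSeries ℚ) =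
        ∑ i ∈ Finset.range Φ.natDegree, aeval jq (c i) * (qExpand ℚ N jq) ^ i :=
  exists_clear_denom jq (qExpand ℚ N jq) Φ hΦm hΦ (full_le_adjoin N h x.2)

/-- **(h3) for the chart at infinity** `(u, y) = (1/j, j(q^N)/j^N)`. -/
theorem genH3_inf (h : FunctionFieldGeneration N) (Φ : ℚ[X][X]) (hΦm : Φ.Monic)
    (hΦ : (Φ.map ((aeval jq⁻¹ : ℚ[X] →ₐ[ℚ] LaurentSeries ℚ) : ℚ[X] →+* LaurentSeries ℚ)).eval
      (qExpand ℚ N jq * jq⁻¹ ^ N) = 0) (x : modularFunctionFieldFull N) :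
    ∃ (Q : ℚ[X]) (c : ℕ → ℚ[X]), aeval jq⁻¹ Q ≠ 0 ∧
      aeval jq⁻¹ Q * (x : LaurentSeries ℚ) =
        ∑ i ∈ Finset.range Φ.natDegree, aeval jq⁻¹ (c i) * (qExpand ℚ N jq * jq⁻¹ ^ N) ^ i := by
  refine exists_clear_denom jq⁻¹ (qExpand ℚ N jq * jq⁻¹ ^ N) Φ hΦm hΦ ?_
  rw [adjoin_inv_eq jq (qExpand ℚ N jq) jq_ne_zero N]
  exact full_le_adjoin N h x.2

end Modular

end Fermat.Agent.Igusa
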