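/-
Igusa/RationalGen (S28 project, package Q): generation of the modular function field over `ℚ`:
`j(q^d) ∈ ℚ(j(q), j(q^N))` for `d ∣ N`, by Lagrange interpolation and Galois descent.
-/
import Mathlib
import Fermat.Agent.Igusa.Rational

set_option autoImplicit false
set_option linter.unusedSectionVars false
set_option linter.style.haveILetI false

noncomputable section

namespace Fermat.Agent.Igusa.RatQ

open ModularCurve Polynomial IntermediateField
open Fermat.Agent.X0 Fermat.Agent.X0.FormalSide
open UpperHalfPlane hiding I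
open scoped MatrixGroups

/-! ### Lagrange polynomials -/

section lagrange

variable {R : Type*} [CommRing R] {A : Type*} [Fintype A] [DecidableEq A]

theorem eval_lagrangePoly (g r : A → R) (α : A) :
    (lagrangePoly g r).eval (r α) = g α * ∏ β ∈ Finset.univ.erase α, (r α - r β) := by
  rw [lagrangePoly, eval_finsetSum, Finset.sum_eq_single α]
  · simp [eval_prod]
  · intro α' _ hne
    rw [eval_mul, eval_prod]
    have : ∏ β ∈ Finset.univ.erase α', (X - C (r β)).eval (r α) = 0 := by
      refine Finset.prod_eq_zero (i := α) (Finset.mem_erase.mpr ⟨hne.symm, Finset.mem_univ _⟩) ?_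
      simp
    rw [this, mul_zero]
  · intro h; exact absurd (Finset.mem_univ α) h

theorem derivative_rootsPoly (r : A → R) :
    derivative (rootsPoly r) = lagrangePoly (fun _ => (1 : R)) r := by
  rw [rootsPoly, derivative_prod_finset, lagrangePoly]
  refine Finset.sum_congr rfl fun α _ => ?_
  simp

theorem eval_lagrangePoly_eq (g r : A → R) (α : A) :
    (lagrangePoly g r).eval (r α) = g α * (derivative (rootsPoly r)).eval (r α) := by
  rw [derivative_rootsPoly, eval_lagrangePoly, eval_lagrangePoly, one_mul]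

theorem natDegree_lagrangePoly_lt [Nontrivial R] [Nonempty A] (g r : A → R) :
    (lagrangePoly g r).natDegree < Fintype.card A := by
  have hpos : 0 < Fintype.card A := Fintype.card_pos
  have h1 : (lagrangePoly g r).natDegree ≤ Fintype.card A - 1 := by
    rw [lagrangePoly]
    refine natDegree_sum_le_of_forall_le _ _ fun α _ => ?_
    refine (natDegree_C_mul_le _ _).trans ?_
    rw [natDegree_prod_of_monic _ _ fun β _ => monic_X_sub_C (r β)]
    simp [Finset.card_erase_of_mem]
  omega

end lagrange

variable (N : ℕ) [NeZero N]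

section gen

variable {d : ℕ} [NeZero d] (hd : d ∣ N)

include hd in
/-- the Lagrange polynomial of the family `j_d ∘ γ_α` over `Kb`. -/
theorem exists_lagrangeBar :
    ∃ L₀ : Kb[X][X], L₀.map ((aeval jH : Kb[X] →ₐ[Kb] HolH) : Kb[X] →+* HolH) =
      lagrangePoly (gFam N d) (jAt : CosetRep N → HolH) :=
  exists_map_aeval_jH_eq_Kb (N := N) (lagrangePoly (gFam N d) jAt)
    (lagrangePoly_map_compSL CosetRep.actPerm (gFam N d) jAt (compSL_gFam hd)
      compSL_jAt_actPerm)
    (lagrangePoly_coeff_mem (RK N).toSubring (gFam N d) jAt (fun α => jAt_mem_RK hd _)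
      jAt_mem_RK_self)

/-- `d` as an element of `N.divisors`. -/
def divOf : N.divisors := ⟨d, Nat.mem_divisors.mpr ⟨hd, NeZero.ne N⟩⟩

variable {L₀ P₀ : Kb[X][X]}
  (hL₀ : L₀.map ((aeval jH : Kb[X] →ₐ[Kb] HolH) : Kb[X] →+* HolH) =
    lagrangePoly (gFam N d) (jAt : CosetRep N → HolH))
  (hP₀ : P₀.map ((aeval jH : Kb[X] →ₐ[Kb] HolH) : Kb[X] →+* HolH) =
    rootsPoly (jAt : CosetRep N → HolH))

include hL₀ in
theorem natDegree_lagrangeBar_lt : L₀.natDegree < Fintype.card (CosetRep N) := by
  haveI : Nonempty (CosetRep N) := ⟨CosetRep.base N⟩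
  rw [← natDegree_map_eq_of_injective aeval_jH_Kb_injective L₀, hL₀]
  exact natDegree_lagrangePoly_lt _ _

include hL₀ hP₀ in
/-- `L_d(j, y) = j_d · Φ'(j, y)` in the formal function field over `Kb`. -/
theorem evBar_lagrangeBar :
    evBar N L₀ = jF N (divOf N hd) * evBar N (derivative P₀) := by
  apply (phi N).toRingHom.injective
  apply Subtype.ext
  show ((phi N (evBar N L₀) : fieldL N) : MerH) =
    ((phi N (jF N (divOf N hd) * evBar N (derivative P₀)) : fieldL N) : MerH)
  rw [map_mul, MulMemClass.coe_mul, coe_phi_evBar, coe_phi_evBar, hL₀, ← derivative_map, hP₀,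
    eval_lagrangePoly_eq, map_mul, gFam_base hd, coe_phi, phiMer_jF]
  rfl

include hd hL₀ hP₀ in
/-- the Lagrange polynomial over `Kb` is Galois invariant. -/
theorem galAct_lagrangeBar (σ : Kb ≃ₐ[ℚ] Kb) : galAct σ L₀ = L₀ := by
  refine galAct_eq_self_of_evBar_eq N σ ?_ ?_
  · have h1 := natDegree_lagrangeBar_lt N hL₀
    have h2 : (galAct σ L₀).natDegree ≤ L₀.natDegree := natDegree_map_le
    exact lt_of_le_of_lt ((natDegree_sub_le _ _).trans (max_le h2 le_rfl)) h1
  · have h3 : galAct σ (derivative P₀) = derivative P₀ := by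
      rw [galAct, coe_mapRingHom, ← derivative_map]
      exact congrArg derivative (galAct_modPolyBar hP₀ σ)
    apply Subtype.ext
    rw [coe_evBar_galAct, evBar_lagrangeBar N hd hL₀ hP₀, MulMemClass.coe_mul, map_mul,
      ← coe_evBar_galAct, h3]
    congr 1
    exact coeffMap_coeffEmb σ _

/-- `toBar (modPolyQ N)` is the modular polynomial over `Kb`. -/
theorem map_toBar_modPolyQ :
    (toBar (modPolyQ N)).map ((aeval jH : Kb[X] →ₐ[Kb] HolH) : Kb[X] →+* HolH) =
      rootsPoly (jAt : CosetRep N → HolH) := by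
  rw [toBar_apply, Polynomial.map_map, aeval_jH_comp_map, ← Polynomial.map_map, modPolyQ_link]

include hd in
/-- **Lagrange polynomial over `ℚ`**: `L_d(j, y) = j_d · Φ'(j, y)`. -/
theorem exists_lagrangeQ :
    ∃ L : ℚ[X][X], L.natDegree < Fintype.card (CosetRep N) ∧
      evQ N L = qExpand ℚ d jq * evQ N (derivative (modPolyQ N)) := by
  obtain ⟨L₀, hL₀⟩ := exists_lagrangeBar N hd
  have hP₀ := map_toBar_modPolyQ N
  obtain ⟨L, hL⟩ := exists_map_eq_of_galAct_eq (galAct_lagrangeBar N hd hL₀ hP₀)
  have hL' : toBar L = L₀ := hL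
  refine ⟨L, ?_, ?_⟩
  · have := natDegree_lagrangeBar_lt N hL₀
    rwa [← hL', toBar, coe_mapRingHom,
      natDegree_map_eq_of_injective mapRingHom_Kb_injective] at this
  · apply coeffEmb_Kb_injective
    have h1 : derivative (toBar (modPolyQ N)) = toBar (derivative (modPolyQ N)) := by
      rw [toBar, coe_mapRingHom, derivative_map]
    rw [coeffEmb_evQ, hL', evBar_lagrangeBar N hd hL₀ hP₀, MulMemClass.coe_mul, map_mul,
      coeffEmb_evQ, h1]
    rfl

end gen

/-- `Φ'(j, y) ≠ 0`. -/
theorem evQ_derivative_modPolyQ_ne_zero : evQ N (derivative (modPolyQ N)) ≠ 0 := by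
  intro h
  have hn : (modPolyQ N).natDegree ≠ 0 := by
    rw [natDegree_modPolyQ]; exact (card_cosetRep_pos N).ne'
  have h1 : (derivative (modPolyQ N)).natDegree < Fintype.card (CosetRep N) := by
    rw [← natDegree_modPolyQ N]; exact natDegree_derivative_lt hn
  have h2 := eq_zero_of_evQ_eq_zero N _ h1 h
  exact hn (Polynomial.derivative_eq_zero.mp h2)

/-- values of `evQ` lie in `ℚ(j, y)`. -/
theorem evQ_mem (P : ℚ[X][X]) : evQ N P ∈ modularFunctionField N := by
  have hx : jq ∈ modularFunctionField N := jq_mem N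
  have hy : jqN N ∈ modularFunctionField N := jqN_mem N
  rw [evQ_apply, eval_eq_sum_range]
  refine sum_mem fun i _ => mul_mem ?_ (pow_mem hy _)
  rw [coeff_map, RingHom.coe_coe, aeval_eq_sum_range]
  refine sum_mem fun k _ => ?_
  exact IntermediateField.smul_mem _ (pow_mem hx _)

/-- **(Q3)** the modular function field is generated by `j(q)` and `j(q^N)` over `ℚ`. -/
theorem functionFieldGeneration : ModularCurve.FunctionFieldGeneration N := by
  intro d hd hne
  haveI := hne
  obtain ⟨L, -, hL⟩ := exists_lagrangeQ N hd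
  have h0 := evQ_derivative_modPolyQ_ne_zero N
  have h1 : qExpand ℚ d jq = evQ N L / evQ N (derivative (modPolyQ N)) := by
    rw [hL, mul_div_cancel_right₀ _ h0]
  rw [h1]
  exact div_mem (evQ_mem N L) (evQ_mem N _)

/-- the full modular function field is `ℚ(j(q), j(q^N))`. -/
theorem modularFunctionFieldFull_eq :
    modularFunctionFieldFull N = modularFunctionField N := by
  refine le_antisymm ?_ (modularFunctionField_le_full N)
  rw [modularFunctionFieldFull, adjoin_le_iff]
  rintro x ⟨d, hne, hd, rfl⟩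
  exact functionFieldGeneration N d hd hne

end Fermat.Agent.Igusa.RatQ
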