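/-
Igusa/RationalGenPack (S28 project, package Q3, packaging): from Lagrange-type identities
`L_d(j, y) = j(q^d) · Φ'(j, y)` over `ℚ` (one for every `d ∣ N`) deduce the Prelude statement
`ModularCurve.FunctionFieldGeneration N` (every `j(q^d)`, `d ∣ N`, lies in `ℚ(j(q), j(q^N))`).
The non-vanishing of `Φ'(j, y)` is proved here (from the linear independence (Q2)).
-/
import Mathlib
import Fermat.Agent.Igusa.Rational

set_option autoImplicit false
set_option linter.unusedSectionVars false
set_option linter.style.haveILetI false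

noncomputable section

namespace Fermat.Agent.Igusa.RatQ

open ModularCurve Polynomial IntermediateField
open Fermat.Agent.X0

variable (N : ℕ) [NeZero N]

/-- Every value `P(j(q), j(q^N))`, `P ∈ ℚ[X][T]`, lies in `ℚ(j(q), j(q^N))`. -/
theorem genPack_evQ_mem_adjoin (P : ℚ[X][X]) :
    evQ N P ∈ IntermediateField.adjoin ℚ ({jq, qExpand ℚ N jq} : Set (LaurentSeries ℚ)) := by
  set F := IntermediateField.adjoin ℚ ({jq, qExpand ℚ N jq} : Set (LaurentSeries ℚ)) with hF
  have hj : jq ∈ F := IntermediateField.subset_adjoin ℚ _ (Set.mem_insert _ _)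
  have hy : jqN N ∈ F := IntermediateField.subset_adjoin ℚ _ (Set.mem_insert_of_mem _ rfl)
  have hA : ∀ p : ℚ[X], aeval jq p ∈ F := by
    intro p
    induction p using Polynomial.induction_on' with
    | add p q hp hq => rw [map_add]; exact add_mem hp hq
    | monomial n a =>
      rw [aeval_monomial]
      exact mul_mem (F.algebraMap_mem a) (pow_mem hj n)
  have hC : ∀ p : ℚ[X], evQ N (C p) ∈ F := by
    intro p
    have h1 : evQ N (C p) = aeval jq p := by simp [evQ]
    rw [h1]
    exact hA p
  induction P using Polynomial.induction_on' with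
  | add p q hp hq => rw [map_add]; exact add_mem hp hq
  | monomial n a =>
    rw [← Polynomial.C_mul_X_pow_eq_monomial, map_mul, map_pow, evQ_X]
    exact mul_mem (hC a) (pow_mem hy n)

theorem genPack_card_pos : 0 < Fintype.card (CosetRep N) :=
  Fintype.card_pos_iff.mpr ⟨CosetRep.base N⟩

/-- The `T`-derivative of the modular polynomial is nonzero. -/
theorem genPack_derivative_ne_zero : derivative (modPolyQ N) ≠ 0 := by
  intro h
  have hpos : 0 < (modPolyQ N).natDegree := by
    rw [natDegree_modPolyQ]
    exact genPack_card_pos N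
  have h1 := Polynomial.derivative_eq_zero.mp h
  omega

/-- `Φ'(j(q), j(q^N)) ≠ 0`. -/
theorem genPack_evQ_derivative_ne_zero : evQ N (derivative (modPolyQ N)) ≠ 0 := by
  intro h
  refine genPack_derivative_ne_zero N (eq_zero_of_evQ_eq_zero N _ ?_ h)
  have hpos : 0 < (modPolyQ N).natDegree := by
    rw [natDegree_modPolyQ]
    exact genPack_card_pos N
  rw [← natDegree_modPolyQ N]
  exact Polynomial.natDegree_derivative_lt (by omega)

/-- **Packaging, `evQ` form.** -/
theorem functionFieldGeneration_of_lagrange_evQ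
    (h : ∀ d : ℕ, d ∣ N → ∀ (_ : NeZero d), ∃ L : ℚ[X][X],
      evQ N L = qExpand ℚ d jq * evQ N (derivative (modPolyQ N))) :
    FunctionFieldGeneration N := by
  intro d hd hne
  obtain ⟨L, hL⟩ := h d hd hne
  have hw := genPack_evQ_derivative_ne_zero N
  have h1 : qExpand ℚ d jq = evQ N L / evQ N (derivative (modPolyQ N)) := by
    rw [hL, mul_div_cancel_right₀ _ hw]
  rw [h1]
  exact div_mem (genPack_evQ_mem_adjoin N L) (genPack_evQ_mem_adjoin N _)

/-- **Packaging, literal form.** From the Lagrange identities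
`L_d(j, y) = j(q^d) · Φ'(j, y)` for all `d ∣ N` deduce `FunctionFieldGeneration N`. -/
theorem functionFieldGeneration_of_lagrange
    (h : ∀ d : ℕ, d ∣ N → ∀ (_ : NeZero d), ∃ L : ℚ[X][X],
      (L.map ((aeval jq : ℚ[X] →ₐ[ℚ] LaurentSeries ℚ) : ℚ[X] →+* LaurentSeries ℚ)).eval (jqN N) =
        qExpand ℚ d jq *
          ((derivative (modPolyQ N)).map
            ((aeval jq : ℚ[X] →ₐ[ℚ] LaurentSeries ℚ) : ℚ[X] →+* LaurentSeries ℚ)).eval
            (jqN N)) :
    FunctionFieldGeneration N := by
  refine functionFieldGeneration_of_lagrange_evQ N fun d hd hne => ?_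
  obtain ⟨L, hL⟩ := h d hd hne
  exact ⟨L, by rw [evQ_apply, evQ_apply, hL]⟩

end Fermat.Agent.Igusa.RatQ
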