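/-
S28 project (helper4): generic algebra for the chart at infinity.

From a two-variable polynomial `Φ ∈ R[X][T]`, monic of `T`-degree `n`, whose coefficient of `T^i`
has `X`-degree `≤ (n - i) N`, we build `reflectPoly N n Φ = X^(N n) Φ(1/X, T / X^N) ∈ R[X][T]`
and prove: it is monic of degree `n`; its value (and the value of its `T`-derivative) at
`(u', y u'^N)` is a power of `u'` times the value of `Φ` (resp. `Φ'`) at `(u, y)` when `u u' = 1`;
linear independence of `1, y, …, y^(n-1)` over `R[u]` transfers to `(u', y u'^N)`.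
-/
import Mathlib

namespace Fermat.Agent.Igusa.ReflectChart

open Polynomial

section Basic

variable {R Ω : Type*} [CommRing R] [CommRing Ω] [Algebra R Ω]

/-- `p(u) u'^M = (X^M p(1/X))(u')` when `u u' = 1` and `deg p ≤ M`. -/
theorem aeval_reflect {u u' : Ω} (h : u * u' = 1) (M : ℕ) (p : R[X]) (hp : p.natDegree ≤ M) :
    aeval u' (reflect M p) = u' ^ M * aeval u p := by
  letI : Invertible u := ⟨u', by rw [mul_comm]; exact h, h⟩
  have h1 := eval₂_reflect_mul_pow (algebraMap R Ω) u M p hp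
  have h2 : (⅟u : Ω) = u' := rfl
  rw [h2] at h1
  rw [aeval_def, aeval_def, ← h1, mul_comm (u' ^ M), mul_assoc, ← mul_pow, h, one_pow, mul_one]

/-- The reflected polynomial `X^(N n) Φ(1/X, T/X^N)`. -/
noncomputable def reflectPoly (N n : ℕ) (Φ : R[X][X]) : R[X][X] :=
  ∑ i ∈ Finset.range (n + 1), C (reflect ((n - i) * N) (Φ.coeff i)) * X ^ i

theorem coeff_reflectPoly (N n : ℕ) (Φ : R[X][X]) (i : ℕ) :
    (reflectPoly N n Φ).coeff i =
      if i < n + 1 then reflect ((n - i) * N) (Φ.coeff i) else 0 := by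
  simp only [reflectPoly, finsetSum_coeff, coeff_C_mul, coeff_X_pow, mul_ite, mul_one, mul_zero]
  rw [Finset.sum_ite_eq]
  simp only [Finset.mem_range]

theorem natDegree_reflectPoly_le (N n : ℕ) (Φ : R[X][X]) : (reflectPoly N n Φ).natDegree ≤ n := by
  apply natDegree_sum_le_of_forall_le
  intro i hi
  exact (natDegree_C_mul_X_pow_le _ _).trans (Nat.lt_succ_iff.mp (Finset.mem_range.mp hi))

theorem coeff_reflectPoly_top (N : ℕ) {n : ℕ} {Φ : R[X][X]} (hΦm : Φ.Monic)
    (hn : Φ.natDegree = n) : (reflectPoly N n Φ).coeff n = 1 := by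
  rw [coeff_reflectPoly, if_pos (Nat.lt_succ_self n), Nat.sub_self, zero_mul]
  have : Φ.coeff n = 1 := by rw [← hn]; exact hΦm.coeff_natDegree
  rw [this, ← C_1, reflect_C, pow_zero, mul_one]

theorem reflectPoly_monic (N : ℕ) {n : ℕ} {Φ : R[X][X]} (hΦm : Φ.Monic) (hn : Φ.natDegree = n) :
    (reflectPoly N n Φ).Monic :=
  monic_of_natDegree_le_of_coeff_eq_one n (natDegree_reflectPoly_le N n Φ)
    (coeff_reflectPoly_top N hΦm hn)

theorem natDegree_reflectPoly [Nontrivial R] (N : ℕ) {n : ℕ} {Φ : R[X][X]} (hΦm : Φ.Monic)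
    (hn : Φ.natDegree = n) : (reflectPoly N n Φ).natDegree = n := by
  apply le_antisymm (natDegree_reflectPoly_le N n Φ)
  apply le_natDegree_of_ne_zero
  rw [coeff_reflectPoly_top N hΦm hn]
  exact one_ne_zero

/-- Conversion of the degree bound from the `n - k` indexing. -/
theorem natDegree_coeff_le_of_sub {N n : ℕ} {Φ : R[X][X]} (hn : Φ.natDegree = n)
    (hdeg : ∀ k, (Φ.coeff (n - k)).natDegree ≤ k * N) (i : ℕ) :
    (Φ.coeff i).natDegree ≤ (n - i) * N := by
  by_cases hi : i ≤ n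
  · have := hdeg (n - i)
    rwa [Nat.sub_sub_self hi] at this
  · rw [coeff_eq_zero_of_natDegree_lt (by omega), natDegree_zero]
    exact Nat.zero_le _

/-- The key identity in `Ω[T]`: `Φ_inf(u', T) = u'^(N n) Φ(u, u^N T)`. -/
theorem map_reflectPoly {N n : ℕ} {Φ : R[X][X]} (hn : Φ.natDegree = n)
    (hdeg : ∀ i, (Φ.coeff i).natDegree ≤ (n - i) * N) {u u' : Ω} (h : u * u' = 1) :
    (reflectPoly N n Φ).map ((aeval u' : R[X] →ₐ[R] Ω) : R[X] →+* Ω) =
      C (u' ^ (N * n)) *
        (Φ.map ((aeval u : R[X] →ₐ[R] Ω) : R[X] →+* Ω)).comp (C (u ^ N) * X) := by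
  ext i
  rw [coeff_map, coeff_reflectPoly, coeff_C_mul, comp_C_mul_X_coeff, coeff_map]
  by_cases hi : i < n + 1
  · rw [if_pos hi]
    change aeval u' (reflect ((n - i) * N) (Φ.coeff i)) = u' ^ (N * n) * (aeval u (Φ.coeff i) * _)
    rw [aeval_reflect h _ _ (hdeg i)]
    have hi' : i ≤ n := Nat.lt_succ_iff.mp hi
    have e1 : u' ^ (N * n) = u' ^ ((n - i) * N) * u' ^ (N * i) := by
      rw [← pow_add]
      congr 1
      rw [mul_comm (n - i) N, ← Nat.mul_add, Nat.sub_add_cancel hi']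
    have e2 : u' ^ (N * i) * (u ^ N) ^ i = 1 := by
      rw [← pow_mul, ← mul_pow, mul_comm u' u, h, one_pow]
    rw [e1]
    calc u' ^ ((n - i) * N) * aeval u (Φ.coeff i)
        = u' ^ ((n - i) * N) * aeval u (Φ.coeff i) * (u' ^ (N * i) * (u ^ N) ^ i) := by
          rw [e2, mul_one]
      _ = _ := by ring
  · rw [if_neg hi]
    have : Φ.coeff i = 0 := coeff_eq_zero_of_natDegree_lt (by omega)
    rw [this]
    simp

/-- Value of the reflected polynomial: `Φ_inf(u', y u'^N) = u'^(N n) Φ(u, y)`. -/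
theorem eval_reflectPoly {N n : ℕ} {Φ : R[X][X]} (hn : Φ.natDegree = n)
    (hdeg : ∀ i, (Φ.coeff i).natDegree ≤ (n - i) * N) {u u' : Ω} (h : u * u' = 1) (y : Ω) :
    ((reflectPoly N n Φ).map ((aeval u' : R[X] →ₐ[R] Ω) : R[X] →+* Ω)).eval (y * u' ^ N) =
      u' ^ (N * n) * (Φ.map ((aeval u : R[X] →ₐ[R] Ω) : R[X] →+* Ω)).eval y := by
  rw [map_reflectPoly hn hdeg h, eval_mul, eval_C, eval_comp, eval_mul, eval_C, eval_X]
  have : u ^ N * (y * u' ^ N) = y := by
    rw [mul_left_comm, ← mul_pow, h, one_pow, mul_one]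
  rw [this]

/-- Value of the `T`-derivative of the reflected polynomial:
`Φ_inf'(u', y u'^N) = u'^(N (n-1)) Φ'(u, y)`. -/
theorem eval_derivative_reflectPoly {N n : ℕ} {Φ : R[X][X]} (hn : Φ.natDegree = n)
    (hdeg : ∀ i, (Φ.coeff i).natDegree ≤ (n - i) * N) {u u' : Ω} (h : u * u' = 1) (y : Ω) :
    ((derivative (reflectPoly N n Φ)).map ((aeval u' : R[X] →ₐ[R] Ω) : R[X] →+* Ω)).eval
        (y * u' ^ N) =
      u' ^ (N * (n - 1)) *
        ((derivative Φ).map ((aeval u : R[X] →ₐ[R] Ω) : R[X] →+* Ω)).eval y := by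
  rw [← derivative_map, map_reflectPoly hn hdeg h, derivative_mul, derivative_C, zero_mul, zero_add,
    derivative_comp, derivative_mul, derivative_C, zero_mul, zero_add, derivative_X, mul_one,
    derivative_map]
  simp only [eval_mul, eval_C, eval_comp, eval_X]
  have e : u ^ N * (y * u' ^ N) = y := by
    rw [mul_left_comm, ← mul_pow, h, one_pow, mul_one]
  rw [e]
  rcases Nat.eq_zero_or_pos n with h0 | hpos
  · -- `Φ` is constant in `T`: both derivatives vanish
    have hΦ : derivative Φ = 0 := by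
      rw [eq_C_of_natDegree_eq_zero (hn.trans h0), derivative_C]
    rw [hΦ]
    simp
  · have e2 : u' ^ (N * n) * u ^ N = u' ^ (N * (n - 1)) := by
      have : N * n = N * (n - 1) + N := by
        rw [← Nat.mul_succ, Nat.succ_eq_add_one, Nat.sub_add_cancel hpos]
      rw [this, pow_add, mul_assoc, ← mul_pow, mul_comm u' u, h, one_pow, mul_one]
    rw [← mul_assoc, e2]

/-- Invertibility of `Φ'(u, y)` implies invertibility of `Φ_inf'(u', y u'^N)`. -/
theorem exists_unit_reflectPoly {N n : ℕ} {Φ : R[X][X]} (hn : Φ.natDegree = n)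
    (hdeg : ∀ i, (Φ.coeff i).natDegree ≤ (n - i) * N) {u u' : Ω} (h : u * u' = 1) (y : Ω)
    (hunit : ∃ v : Ω,
      ((derivative Φ).map ((aeval u : R[X] →ₐ[R] Ω) : R[X] →+* Ω)).eval y * v = 1) :
    ∃ v' : Ω, ((derivative (reflectPoly N n Φ)).map
      ((aeval u' : R[X] →ₐ[R] Ω) : R[X] →+* Ω)).eval (y * u' ^ N) * v' = 1 := by
  obtain ⟨v, hv⟩ := hunit
  refine ⟨u ^ (N * (n - 1)) * v, ?_⟩
  rw [eval_derivative_reflectPoly hn hdeg h]
  calc u' ^ (N * (n - 1)) *
        ((derivative Φ).map ((aeval u : R[X] →ₐ[R] Ω) : R[X] →+* Ω)).eval y *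
        (u ^ (N * (n - 1)) * v)
      = (u * u') ^ (N * (n - 1)) *
        (((derivative Φ).map ((aeval u : R[X] →ₐ[R] Ω) : R[X] →+* Ω)).eval y * v) := by
        rw [mul_pow]; ring
    _ = 1 := by rw [h, one_pow, one_mul, hv]

end Basic

section LI

variable {R Ω : Type*} [CommRing R] [CommRing Ω] [Algebra R Ω]

/-- Linear independence of `1, y, …, y^(n-1)` over `R[u]` (in the form: a two-variable
polynomial of `T`-degree `< n` vanishing at `(u, y)` is zero) transfers to
`(u', y u'^N)` when `u u' = 1`. -/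
theorem li_reflect {u u' y : Ω} (h : u * u' = 1) (n N : ℕ)
    (hLI : ∀ P : R[X][X], P.natDegree < n →
      (P.map ((aeval u : R[X] →ₐ[R] Ω) : R[X] →+* Ω)).eval y = 0 → P = 0)
    (P : R[X][X]) (hP : P.natDegree < n)
    (h0 : (P.map ((aeval u' : R[X] →ₐ[R] Ω) : R[X] →+* Ω)).eval (y * u' ^ N) = 0) : P = 0 := by
  classical
  -- a uniform bound for the `X`-degrees of the coefficients
  set B : ℕ := P.support.sup (fun i => (P.coeff i).natDegree) with hB
  have hBi : ∀ i, (P.coeff i).natDegree ≤ B := by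
    intro i
    by_cases hi : i ∈ P.support
    · exact Finset.le_sup (f := fun i => (P.coeff i).natDegree) hi
    · rw [notMem_support_iff.mp hi, natDegree_zero]
      exact Nat.zero_le _
  set M : ℕ := N * n + B with hM
  have hMi : ∀ i, i < n → (P.coeff i).natDegree ≤ M - N * i := by
    intro i hi
    have h1 : N * i ≤ N * n := Nat.mul_le_mul_left N hi.le
    have := hBi i
    omega
  -- the transformed polynomial
  set Pt : R[X][X] := ∑ i ∈ Finset.range n, C (reflect (M - N * i) (P.coeff i)) * X ^ i with hPt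
  have hn0 : 0 < n := lt_of_le_of_lt (Nat.zero_le _) hP
  have hPtdeg : Pt.natDegree < n := by
    have : Pt.natDegree ≤ n - 1 := by
      apply natDegree_sum_le_of_forall_le
      intro i hi
      have := Finset.mem_range.mp hi
      exact (natDegree_C_mul_X_pow_le _ _).trans (by omega)
    omega
  have hPtcoeff : ∀ i, Pt.coeff i = if i < n then reflect (M - N * i) (P.coeff i) else 0 := by
    intro i
    simp only [hPt, finsetSum_coeff, coeff_C_mul, coeff_X_pow, mul_ite, mul_one, mul_zero]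
    rw [Finset.sum_ite_eq]
    simp only [Finset.mem_range]
  have hu' : u' * u = 1 := by rw [mul_comm]; exact h
  have hPteval : (Pt.map ((aeval u : R[X] →ₐ[R] Ω) : R[X] →+* Ω)).eval y =
      u ^ M * (P.map ((aeval u' : R[X] →ₐ[R] Ω) : R[X] →+* Ω)).eval (y * u' ^ N) := by
    rw [eval_map, eval_map, eval₂_eq_sum_range' _ hPtdeg, eval₂_eq_sum_range' _ hP, Finset.mul_sum]
    apply Finset.sum_congr rfl
    intro i hi
    have hi' := Finset.mem_range.mp hi
    rw [hPtcoeff, if_pos hi']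
    change aeval u (reflect (M - N * i) (P.coeff i)) * y ^ i =
      u ^ M * (aeval u' (P.coeff i) * (y * u' ^ N) ^ i)
    rw [aeval_reflect hu' _ _ (hMi i hi')]
    have h1 : N * i ≤ M := by
      have : N * i ≤ N * n := Nat.mul_le_mul_left N hi'.le
      omega
    have e1 : u ^ M = u ^ (M - N * i) * u ^ (N * i) := by
      rw [← pow_add, Nat.sub_add_cancel h1]
    have e2 : u ^ (N * i) * (u' ^ N) ^ i = 1 := by
      rw [← pow_mul, ← mul_pow, h, one_pow]
    rw [e1, mul_pow]
    calc u ^ (M - N * i) * aeval u' (P.coeff i) * y ^ i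
        = u ^ (M - N * i) * aeval u' (P.coeff i) * y ^ i * (u ^ (N * i) * (u' ^ N) ^ i) := by
          rw [e2, mul_one]
      _ = _ := by ring
  have hPt0 : Pt = 0 := hLI Pt hPtdeg (by rw [hPteval, h0, mul_zero])
  refine Polynomial.ext (fun i => ?_)
  rw [coeff_zero]
  by_cases hi : i < n
  · have := congrArg (fun Q => Q.coeff i) hPt0
    simp only [hPtcoeff, if_pos hi, coeff_zero] at this
    exact reflect_eq_zero_iff.mp this
  · exact coeff_eq_zero_of_natDegree_lt (by omega)

end LI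

end Fermat.Agent.Igusa.ReflectChart
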