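import Fermat.Statements.S28

/-!
# Igusa / package S (scheme level)

`S28` from ring-level statements: if `chartAlgFin ⊗ K` and `chartAlgInf ⊗ K` are domains and
`chartAlgMid ⊗ K` is nontrivial, then the base change of the Igusa scheme to `K` is integral.
-/

set_option autoImplicit false
set_option linter.style.haveILetI false

open AlgebraicGeometry CategoryTheory CategoryTheory.Limits ModularCurve ModularCurve.IgusaScheme
open TensorProduct

noncomputable section

namespace Fermat.Agent.Igusa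

section Topology

variable {X : Type*} [TopologicalSpace X]

/-- the union of two irreducible open sets with nonempty intersection which cover the space makes
the space irreducible. -/
theorem irreducibleSpace_of_cover {Z₁ Z₂ : Set X} (h₁ : IsIrreducible Z₁) (h₂ : IsIrreducible Z₂)
    (ho₁ : IsOpen Z₁) (_ho₂ : IsOpen Z₂) (hcov : Z₁ ∪ Z₂ = Set.univ) (hne : (Z₁ ∩ Z₂).Nonempty) :
    IrreducibleSpace X := by
  have key : ∀ u : Set X, IsOpen u → u.Nonempty → (Z₁ ∩ u).Nonempty := by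
    rintro u hu ⟨x, hx⟩
    have hx' : x ∈ Z₁ ∪ Z₂ := hcov ▸ Set.mem_univ x
    rcases hx' with hx1 | hx2
    · exact ⟨x, hx1, hx⟩
    · obtain ⟨y, hy2, hyu, hy1⟩ := h₂.2 u Z₁ hu ho₁ ⟨x, hx2, hx⟩
        (by rw [Set.inter_comm]; exact hne)
      exact ⟨y, hy1, hyu⟩
  refine (irreducibleSpace_def X).mpr ⟨⟨hne.some, Set.mem_univ _⟩, ?_⟩
  rintro u v hu hv ⟨x, -, hxu⟩ ⟨y, -, hyv⟩
  obtain ⟨z, -, hz⟩ := h₁.2 u v hu hv (key u hu ⟨x, hxu⟩) (key v hv ⟨y, hyv⟩)
  exact ⟨z, Set.mem_univ _, hz⟩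

end Topology

variable (N : ℕ) [NeZero N] (ℓ : ℕ) [Fact ℓ.Prime]
variable (K : Type) [Field K] [Algebra ↥(GaloisRep.ratLocalizedAt ℓ) K]

set_option quotPrecheck false in
local notation "Zl" => ↥(GaloisRep.ratLocalizedAt ℓ)

/-- the base-change morphism `Spec K ⟶ Spec ℤ_(ℓ)`. -/
abbrev baseK : Spec (CommRingCat.of K) ⟶ Spec (CommRingCat.of Zl) :=
  Spec.map (CommRingCat.ofHom (algebraMap Zl K))

/-- the base change of the Igusa scheme to `K`. -/
abbrev igusaK : Scheme.{0} := pullback (igusaTo N ℓ) (baseK ℓ K)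

section Chart

variable {N ℓ K}

/-- the chart `Spec (A ⊗ K) ⟶ igusaK`. -/
def chartMap (A : Type) [CommRing A] [Algebra Zl A]
    (ι : Spec (CommRingCat.of A) ⟶ ModularCurve.IgusaScheme N ℓ)
    (hι : ι ≫ igusaTo N ℓ = Spec.map (CommRingCat.ofHom (algebraMap Zl A))) :
    Spec (CommRingCat.of (A ⊗[Zl] K)) ⟶ igusaK N ℓ K :=
  (pullbackSpecIso Zl A K).inv ≫
    pullback.map (Spec.map (CommRingCat.ofHom (algebraMap Zl A))) (baseK ℓ K)
      (igusaTo N ℓ) (baseK ℓ K) ι (𝟙 _) (𝟙 _)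
      (by rw [Category.comp_id, hι]) (by rw [Category.comp_id, Category.id_comp])

instance chartMap_isOpenImmersion (A : Type) [CommRing A] [Algebra Zl A]
    (ι : Spec (CommRingCat.of A) ⟶ ModularCurve.IgusaScheme N ℓ)
    (hι : ι ≫ igusaTo N ℓ = Spec.map (CommRingCat.ofHom (algebraMap Zl A)))
    [IsOpenImmersion ι] : IsOpenImmersion (chartMap (K := K) A ι hι) := by
  unfold chartMap
  infer_instance

theorem range_chartMap (A : Type) [CommRing A] [Algebra Zl A]
    (ι : Spec (CommRingCat.of A) ⟶ ModularCurve.IgusaScheme N ℓ)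
    (hι : ι ≫ igusaTo N ℓ = Spec.map (CommRingCat.ofHom (algebraMap Zl A))) :
    Set.range (chartMap (K := K) A ι hι) =
      (pullback.fst (igusaTo N ℓ) (baseK ℓ K)) ⁻¹' Set.range ι := by
  unfold chartMap
  have hs : Function.Surjective ⇑(pullbackSpecIso Zl A K).inv :=
    (pullbackSpecIso Zl A K).inv.surjective
  rw [Scheme.Hom.comp_base, TopCat.coe_comp, Set.range_comp,
    Set.range_eq_univ.mpr hs, Set.image_univ,
    Scheme.Pullback.range_map]
  simp

end Chart

section Main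

/-- the middle chart inside the Igusa scheme. -/
abbrev ιMid : XMid N ℓ ⟶ ModularCurve.IgusaScheme N ℓ := fFin N ℓ ≫ ιFin N ℓ

theorem ιMid_igusaTo : ιMid N ℓ ≫ igusaTo N ℓ =
    Spec.map (CommRingCat.ofHom (algebraMap Zl (chartAlgMid N ℓ))) := by
  rw [Category.assoc, ιFin_igusaTo, ← Spec.map_comp, ← CommRingCat.ofHom_comp]
  congr 2

theorem range_ιMid_subset_fin : Set.range (ιMid N ℓ) ⊆ Set.range (ιFin N ℓ) := by
  rintro _ ⟨x, rfl⟩
  exact ⟨fFin N ℓ x, rfl⟩

theorem range_ιMid_subset_inf : Set.range (ιMid N ℓ) ⊆ Set.range (ιInf N ℓ) := by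
  rintro _ ⟨x, rfl⟩
  refine ⟨fInf N ℓ x, ?_⟩
  rw [← Scheme.Hom.comp_apply, ← glue_condition]

/-- the three charts of the base change. -/
abbrev φFin : Spec (CommRingCat.of (↥(chartAlgFin N ℓ) ⊗[Zl] K)) ⟶ igusaK N ℓ K :=
  chartMap (chartAlgFin N ℓ) (ιFin N ℓ) (ιFin_igusaTo N ℓ)

abbrev φInf : Spec (CommRingCat.of (↥(chartAlgInf N ℓ) ⊗[Zl] K)) ⟶ igusaK N ℓ K :=
  chartMap (chartAlgInf N ℓ) (ιInf N ℓ) (ιInf_igusaTo N ℓ)

abbrev φMid : Spec (CommRingCat.of (↥(chartAlgMid N ℓ) ⊗[Zl] K)) ⟶ igusaK N ℓ K :=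
  chartMap (chartAlgMid N ℓ) (ιMid N ℓ) (ιMid_igusaTo N ℓ)

theorem range_φFin_union_range_φInf :
    Set.range (φFin N ℓ K) ∪ Set.range (φInf N ℓ K) = Set.univ := by
  rw [range_chartMap, range_chartMap, ← Set.preimage_union]
  refine Set.eq_univ_of_forall fun x => ?_
  exact mem_range_ιFin_or_mem_range_ιInf N ℓ _

theorem range_φMid_subset :
    Set.range (φMid N ℓ K) ⊆ Set.range (φFin N ℓ K) ∩ Set.range (φInf N ℓ K) := by
  rw [range_chartMap, range_chartMap, range_chartMap]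
  exact fun x hx => ⟨range_ιMid_subset_fin N ℓ hx, range_ιMid_subset_inf N ℓ hx⟩

theorem isIrreducible_range_chart {R : Type} [CommRing R] [IsDomain R] {Y : Scheme.{0}}
    (φ : Spec (CommRingCat.of R) ⟶ Y) : IsIrreducible (Set.range φ) := by
  haveI : IrreducibleSpace (Spec (CommRingCat.of R)) :=
    inferInstanceAs (IrreducibleSpace (PrimeSpectrum R))
  rw [← Set.image_univ]
  exact (IrreducibleSpace.isIrreducible_univ _).image _ φ.continuous.continuousOn

/-- **package S**: the base change of the Igusa scheme to `K` is integral as soon as the two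
affine charts are domains after base change and the middle chart stays nontrivial. -/
theorem isIntegral_pullback_igusaTo
    (hFin : IsDomain (↥(chartAlgFin N ℓ) ⊗[Zl] K))
    (hInf : IsDomain (↥(chartAlgInf N ℓ) ⊗[Zl] K))
    (hMid : Nontrivial (↥(chartAlgMid N ℓ) ⊗[Zl] K)) :
    AlgebraicGeometry.IsIntegral
      (pullback (igusaTo N ℓ) (Spec.map (CommRingCat.ofHom (algebraMap Zl K)))) := by
  -- irreducibility
  have hne : (Set.range (φFin N ℓ K) ∩ Set.range (φInf N ℓ K)).Nonempty := by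
    haveI : Nonempty (Spec (CommRingCat.of (↥(chartAlgMid N ℓ) ⊗[Zl] K))) :=
      inferInstanceAs (Nonempty (PrimeSpectrum (↥(chartAlgMid N ℓ) ⊗[Zl] K)))
    obtain ⟨x⟩ := this
    exact ⟨_, range_φMid_subset N ℓ K ⟨x, rfl⟩⟩
  haveI : IrreducibleSpace (igusaK N ℓ K) :=
    irreducibleSpace_of_cover (isIrreducible_range_chart (φFin N ℓ K))
      (isIrreducible_range_chart (φInf N ℓ K)) (φFin N ℓ K).isOpenEmbedding.isOpen_range
      (φInf N ℓ K).isOpenEmbedding.isOpen_range (range_φFin_union_range_φInf N ℓ K) hne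
  -- reducedness
  haveI : IsReduced (igusaK N ℓ K) := by
    let U : Bool → (igusaK N ℓ K).Opens := fun b =>
      cond b (φFin N ℓ K).opensRange (φInf N ℓ K).opensRange
    have hU : TopologicalSpace.IsOpenCover U := by
      rw [TopologicalSpace.IsOpenCover, eq_top_iff]
      intro x _
      have hx : x ∈ Set.range (φFin N ℓ K) ∪ Set.range (φInf N ℓ K) :=
        range_φFin_union_range_φInf N ℓ K ▸ Set.mem_univ x
      rw [TopologicalSpace.Opens.mem_iSup]
      rcases hx with hx | hx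
      · exact ⟨true, hx⟩
      · exact ⟨false, hx⟩
    refine @IsReduced.of_openCover _ ((igusaK N ℓ K).openCoverOfIsOpenCover U hU) ?_
    intro b
    cases b
    · exact isReduced_of_isOpenImmersion (φInf N ℓ K).isoOpensRange.inv
    · exact isReduced_of_isOpenImmersion (φFin N ℓ K).isoOpensRange.inv
  exact isIntegral_of_irreducibleSpace_of_isReduced _

/-- ring-level bridge: the middle chart is the localisation of the finite chart at `j`, so its base
change to `K` is nontrivial as soon as `j ⊗ 1 ≠ 0` in the domain `chartAlgFin ⊗ K`. -/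
theorem nontrivial_chartAlgMid_tensor
    (hFin : IsDomain (↥(chartAlgFin N ℓ) ⊗[Zl] K))
    (hj : (jChartFin N ℓ) ⊗ₜ[Zl] (1 : K) ≠ 0) :
    Nontrivial (↥(chartAlgMid N ℓ) ⊗[Zl] K) := by
  letI := (inclFin N ℓ).toRingHom.toAlgebra
  haveI := isLocalization_away_inclFin N ℓ
  let Q := FractionRing (↥(chartAlgFin N ℓ) ⊗[Zl] K)
  let g : ↥(chartAlgFin N ℓ) →+* Q :=
    (algebraMap (↥(chartAlgFin N ℓ) ⊗[Zl] K) Q).comp Algebra.TensorProduct.includeLeftRingHom
  have hg : IsUnit (g (jChartFin N ℓ)) := by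
    rw [isUnit_iff_ne_zero]
    intro h0
    apply hj
    have : algebraMap (↥(chartAlgFin N ℓ) ⊗[Zl] K) Q ((jChartFin N ℓ) ⊗ₜ[Zl] (1 : K)) = 0 := h0
    exact (IsFractionRing.injective (↥(chartAlgFin N ℓ) ⊗[Zl] K) Q)
      (this.trans (map_zero _).symm)
  let f : ↥(chartAlgMid N ℓ) →+* Q := IsLocalization.Away.lift (jChartFin N ℓ) hg
  have hf : ∀ a : ↥(chartAlgFin N ℓ), f (inclFin N ℓ a) = g a := fun a =>
    IsLocalization.Away.lift_eq (jChartFin N ℓ) hg a
  let fA : ↥(chartAlgMid N ℓ) →ₐ[Zl] Q :=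
    { f with
      commutes' := fun z => by
        have h1 : algebraMap Zl ↥(chartAlgMid N ℓ) z =
            inclFin N ℓ (algebraMap Zl ↥(chartAlgFin N ℓ) z) := ((inclFin N ℓ).commutes z).symm
        change f (algebraMap Zl ↥(chartAlgMid N ℓ) z) = _
        rw [h1, hf]
        change algebraMap (↥(chartAlgFin N ℓ) ⊗[Zl] K) Q
          ((algebraMap Zl ↥(chartAlgFin N ℓ) z) ⊗ₜ[Zl] (1 : K)) = _
        rw [IsScalarTower.algebraMap_apply Zl (↥(chartAlgFin N ℓ) ⊗[Zl] K) Q]
        rfl }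
  let gK : K →ₐ[Zl] Q :=
    ((IsScalarTower.toAlgHom Zl (↥(chartAlgFin N ℓ) ⊗[Zl] K) Q)).comp
      Algebra.TensorProduct.includeRight
  let Φ : ↥(chartAlgMid N ℓ) ⊗[Zl] K →ₐ[Zl] Q := Algebra.TensorProduct.productMap fA gK
  exact Φ.toRingHom.domain_nontrivial

end Main

end Fermat.Agent.Igusa
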