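/-
Igusa / UnitQ6 (package Q6): for the modular polynomial `Φ` (linked to `∏ (T - j ∘ α)`), the series
`Φ'(j, j(q^N)) = ∏_{β ≠ base} (j(q^N) - r_β)` has lowest coefficient `1` (`q`-order `-(n - 1) N`), hence
is invertible among the series with coefficients in any subring (e.g. `ℤ_(ℓ)`).
-/
import Mathlib
import Fermat.Agent.Igusa.Reduce
import Fermat.Agent.Igusa.ReduceTransport
import Fermat.Agent.Igusa.CharZero
import Fermat.Agent.Igusa.Core

set_option autoImplicit false
set_option linter.unusedSectionVars false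
set_option linter.style.haveILetI false

noncomputable section

namespace Fermat.Agent.Igusa

open ModularCurve Polynomial Fermat.Agent.X0
open UpperHalfPlane hiding I

/-! ### Series with lowest coefficient `1` are invertible -/

section invert

variable {R : Type*} [CommRing R]

/-- A Laurent series with lowest coefficient `1` is invertible (over any commutative ring). -/
theorem exists_mul_eq_one_of_isLead {F : LaurentSeries R} {m : ℤ} (h : IsLead F m 1) :
    ∃ G : LaurentSeries R, F * G = 1 := by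
  rcases subsingleton_or_nontrivial R with hR | hR
  · exact ⟨0, Subsingleton.elim _ _⟩
  have hord : F.order = m := h.order_eq one_ne_zero
  have hF : HahnSeries.single m (1 : R) * HahnSeries.ofPowerSeries ℤ R F.powerSeriesPart = F := by
    rw [← hord]
    exact LaurentSeries.single_order_mul_powerSeriesPart F
  have hc : PowerSeries.constantCoeff F.powerSeriesPart = ((1 : Rˣ) : R) := by
    rw [← PowerSeries.coeff_zero_eq_constantCoeff_apply, LaurentSeries.powerSeriesPart_coeff, hord]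
    simpa using h.1
  refine ⟨HahnSeries.single (-m) (1 : R) *
    HahnSeries.ofPowerSeries ℤ R (PowerSeries.invOfUnit F.powerSeriesPart 1), ?_⟩
  have h1 : HahnSeries.ofPowerSeries ℤ R F.powerSeriesPart *
      HahnSeries.ofPowerSeries ℤ R (PowerSeries.invOfUnit F.powerSeriesPart 1) = 1 := by
    rw [← map_mul, PowerSeries.mul_invOfUnit _ _ hc, map_one]
  have h2 : HahnSeries.single m (1 : R) * HahnSeries.single (-m) (1 : R) = 1 := by
    rw [HahnSeries.single_mul_single, add_neg_cancel, one_mul]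
    rfl
  calc F * (HahnSeries.single (-m) (1 : R) *
        HahnSeries.ofPowerSeries ℤ R (PowerSeries.invOfUnit F.powerSeriesPart 1))
      = (HahnSeries.single m (1 : R) * HahnSeries.ofPowerSeries ℤ R F.powerSeriesPart) *
        (HahnSeries.single (-m) (1 : R) *
          HahnSeries.ofPowerSeries ℤ R (PowerSeries.invOfUnit F.powerSeriesPart 1)) := by rw [hF]
    _ = (HahnSeries.single m (1 : R) * HahnSeries.single (-m) (1 : R)) *
        (HahnSeries.ofPowerSeries ℤ R F.powerSeriesPart *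
          HahnSeries.ofPowerSeries ℤ R (PowerSeries.invOfUnit F.powerSeriesPart 1)) := by ring
    _ = 1 := by rw [h1, h2, one_mul]

theorem IsLead.sub_of_coeff_eq_zero {F G : LaurentSeries R} {m : ℤ} {c : R} (h : IsLead F m c)
    (hG : ∀ i : ℤ, i ≤ m → G.coeff i = 0) : IsLead (F - G) m c := by
  refine ⟨by rw [HahnSeries.coeff_sub, h.1, hG m le_rfl, sub_zero], fun i hi => ?_⟩
  rw [HahnSeries.coeff_sub, h.2 i hi, hG i hi.le, sub_zero]

theorem IsLead.one : IsLead (1 : LaurentSeries R) 0 1 := by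
  have h := IsLead.C (1 : R)
  rwa [map_one] at h

theorem IsLead.prod_one [IsDomain R] {ι : Type*} (s : Finset ι) (f : ι → LaurentSeries R)
    (m : ι → ℤ) (h : ∀ i ∈ s, IsLead (f i) (m i) 1) :
    IsLead (∏ i ∈ s, f i) (∑ i ∈ s, m i) 1 := by
  classical
  induction s using Finset.induction_on with
  | empty => simpa using (IsLead.one (R := R))
  | insert a s ha ih =>
    rw [Finset.prod_insert ha, Finset.sum_insert ha]
    have h1 := h a (Finset.mem_insert_self a s)
    have h2 := ih (fun i hi => h i (Finset.mem_insert_of_mem hi))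
    have h3 := h1.mul h2 one_ne_zero one_ne_zero
    rwa [one_mul] at h3

theorem IsLead.of_coeffMap {S : Type*} [CommRing S] (f : R →+* S) (hf : Function.Injective f)
    {F : LaurentSeries R} {m : ℤ} {c : R} (h : IsLead (coeffMap f F) m (f c)) : IsLead F m c := by
  refine ⟨hf ?_, fun i hi => hf ?_⟩
  · rw [← coeffMap_coeff]
    exact h.1
  · rw [map_zero, ← coeffMap_coeff]
    exact h.2 i hi

theorem IsLead.of_qExp {F : LaurentSeries R} {m : ℤ} {c : R} (e : ℕ) (he : e ≠ 0)
    (h : IsLead (Igusa.qExp R e he F) ((e : ℤ) * m) c) : IsLead F m c := by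
  haveI : NeZero e := ⟨he⟩
  have he0 : (0 : ℤ) < e := by exact_mod_cast Nat.pos_of_ne_zero he
  refine ⟨?_, fun i hi => ?_⟩
  · rw [← h.1, qExp_eq, qExpand_coeff_mul]
  · have h1 := h.2 ((e : ℤ) * i) (mul_lt_mul_of_pos_left hi he0)
    rwa [qExp_eq, qExpand_coeff_mul] at h1

end invert

/-! ### Transport of evaluations -/

section transport

variable {R S : Type*} [CommRing R] [CommRing S]

theorem coeffMap_eval_map_evS (f : R →+* S) (J y : LaurentSeries R) (P : R[X][X]) :
    coeffMap f ((P.map (evS J)).eval y) =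
      ((P.map (Polynomial.mapRingHom f)).map (evS (coeffMap f J))).eval (coeffMap f y) := by
  rw [Polynomial.eval_map, Polynomial.eval_map, Polynomial.hom_eval₂, Polynomial.eval₂_map,
    coeffMap_comp_evS]

theorem qExp_comp_evS (e : ℕ) (he : e ≠ 0) (J : LaurentSeries R) :
    (qExp R e he).comp (evS J) = evS (qExp R e he J) := by
  haveI : NeZero e := ⟨he⟩
  refine Polynomial.ringHom_ext (fun a => ?_) ?_
  · simp only [evS, RingHom.comp_apply, AlgHom.toRingHom_eq_coe, RingHom.coe_coe,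
      Polynomial.aeval_C]
    rw [algebraMap_laurent_eq_C, qExp_eq, qExpand_C]
  · simp only [evS, RingHom.comp_apply, AlgHom.toRingHom_eq_coe, RingHom.coe_coe,
      Polynomial.aeval_X]

theorem qExp_eval_map_evS (e : ℕ) (he : e ≠ 0) (J y : LaurentSeries R) (P : R[X][X]) :
    qExp R e he ((P.map (evS J)).eval y) =
      (P.map (evS (qExp R e he J))).eval (qExp R e he y) := by
  rw [← qExp_comp_evS, Polynomial.eval_map, Polynomial.eval_map, Polynomial.hom_eval₂]

end transport

/-! ### The expansions of `j ∘ α` over `ℂ` -/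

section expansions

variable {N : ℕ} [NeZero N]

theorem rGen_one (R : Type*) [CommRing R] (e : ℕ) (he : e ≠ 0) :
    rGen R e he 1 = qExp R e he (jqModC R) := by
  rw [rGen, twistU_one]

theorem expandFun_jAt_eq_rGen (α : CosetRep N) :
    expandFun N (jAt α : ℍ → ℂ) = rGen ℂ (α.expo N) (α.expo_pos dvd_rfl).ne'
      (Units.map ((OInt 0).subtype : ↥(OInt 0) →* ℂ) (zetaU 0 α.b α.d)) := by
  rw [← coeffMap_subtype_rS 0 α, rS, coeffMap_rGen]

theorem isLead_expandFun_jAt (α : CosetRep N) :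
    ∃ c : ℂ, IsLead (expandFun N (jAt α : ℍ → ℂ)) (-(α.expo N : ℤ)) c := by
  rw [expandFun_jAt_eq_rGen]
  exact ⟨_, isLead_rGen ℂ _ _ _⟩

theorem expandFun_jAt_base :
    expandFun N (jAt (CosetRep.base N) : ℍ → ℂ) =
      qExp ℂ ((CosetRep.base N).expo N) ((CosetRep.base N).expo_pos dvd_rfl).ne' (jqModC ℂ) := by
  rw [expandFun_jAt_eq_rGen]
  have hb : (CosetRep.base N).b = 0 := rfl
  have hz : zetaU 0 ((CosetRep.base N).b : ℤ) (CosetRep.base N).d = 1 := by
    rw [hb]
    exact zetaU_zero 0 _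
  rw [hz, map_one, rGen_one]

theorem expo_base : (CosetRep.base N).expo N = N * N := by
  rw [expo_eq_mul_self]
  rfl

theorem isLead_expandFun_jAt_base :
    IsLead (expandFun N (jAt (CosetRep.base N) : ℍ → ℂ))
      (-((CosetRep.base N).expo N : ℤ)) 1 := by
  rw [expandFun_jAt_base]
  have h := (isLead_jqModC ℂ).qExp ((CosetRep.base N).expo N)
    ((CosetRep.base N).expo_pos dvd_rfl).ne'
  rwa [mul_neg_one] at h

theorem expo_lt_of_ne_base {β : CosetRep N} (hβ : β ≠ CosetRep.base N) :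
    β.expo N < (CosetRep.base N).expo N := by
  rw [expo_eq_mul_self, expo_base]
  have hle : β.a ≤ N := Nat.le_of_dvd (Nat.pos_of_ne_zero (NeZero.ne N)) β.a_dvd
  have hne : β.a ≠ N := fun h => hβ (eq_base_of_dvd_a β (by rw [h]))
  have hlt : β.a < N := lt_of_le_of_ne hle hne
  exact Nat.mul_self_lt_mul_self hlt

/-- `∏_{β ≠ base} (r_base - r_β)` has `t`-order `-(n - 1) N²` and lowest coefficient `1`. -/
theorem isLead_prod_sub :
    IsLead (∏ β ∈ Finset.univ.erase (CosetRep.base N),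
        (expandFun N (jAt (CosetRep.base N) : ℍ → ℂ) - expandFun N (jAt β : ℍ → ℂ)))
      (∑ _β ∈ Finset.univ.erase (CosetRep.base N), (-((CosetRep.base N).expo N : ℤ))) 1 := by
  refine IsLead.prod_one _ _ _ fun β hβ => ?_
  have hne : β ≠ CosetRep.base N := (Finset.mem_erase.mp hβ).1
  obtain ⟨c, hc⟩ := isLead_expandFun_jAt β
  refine (isLead_expandFun_jAt_base (N := N)).sub_of_coeff_eq_zero fun i hi => hc.2 i ?_
  have hlt : ((β.expo N : ℕ) : ℤ) < ((CosetRep.base N).expo N : ℕ) := by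
    exact_mod_cast expo_lt_of_ne_base hne
  omega

end expansions

/-! ### The formal identity over `ℂ` from the link with `∏ (T - j ∘ α)` -/

section link

variable {N : ℕ} [NeZero N]

theorem map_jSerHom_eq_prod_abs {O : Subring ℂ} {M : Type*} [CommRing M] (v : M →+* HolH)
    (e : M →+* LaurentSeries ℂ) (j' : (↥O)[X] →+* M) {A : Type*} [Fintype A]
    (hv : Function.Injective v) (hj : v.comp j' = jHomInt O)
    (hje : e.comp j' = (coeffMap O.subtype).comp (jSerHom ↥O N))
    (r' : A → M) (P₀ : (↥O)[X][X]) (h : P₀.map (jHomInt O) = rootsPoly (v ∘ r')) :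
    (P₀.map (jSerHom ↥O N)).map (coeffMap O.subtype) = ∏ α, (X - C (e (r' α))) := by
  have h1 : P₀.map (jHomInt O) = (rootsPoly r').map v := by
    rw [h, rootsPoly_map]
  have h2 := map_eq_of_map_jHomInt_abs v e j' hv hj hje P₀ (rootsPoly r') h1
  rw [h2, rootsPoly_map, rootsPoly]
  rfl

/-- The formal identity `Φ(J, T) = ∏ (T - r_α)` over `ℂ` (in `t = q ^ (1 / N)`), for any
`P₀ ∈ O[X][T]` inducing `∏ (T - j ∘ α)`. -/
theorem map_jSerHom_eq_prod_jAt (O : Subring ℂ) (P₀ : (↥O)[X][X])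
    (h : P₀.map (jHomInt O) = rootsPoly (jAt : CosetRep N → HolH)) :
    (P₀.map (Polynomial.mapRingHom O.subtype)).map (jSerHom ℂ N) =
      ∏ α : CosetRep N, (X - C (expandFun N (jAt α : ℍ → ℂ))) := by
  rw [← map_coeffMap_map_jSerHom]
  exact @map_jSerHom_eq_prod_abs N _ O (merInfH N) (Subalgebra.toCommRing (merInfH N))
    (valMer N) (expMer N) (jHomMer' O N) (CosetRep N) _ valMer_injective valMer_comp_jHomMer
    expMer_comp_jHomMer
    (fun α => ⟨jAt α, mem_merInfH.mpr (isMerInf_jAt dvd_rfl α)⟩) P₀ h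

/-- The embedding `ℚ → (⊤ : Subring ℂ)`. -/
def ratTop : ℚ →+* ↥(⊤ : Subring ℂ) :=
  (algebraMap ℚ ℂ).codRestrict (⊤ : Subring ℂ) (fun _ => Subring.mem_top _)

theorem subtype_comp_ratTop : (⊤ : Subring ℂ).subtype.comp ratTop = algebraMap ℚ ℂ := rfl

/-- The formal identity over `ℂ` for a polynomial over `ℚ` linked to `∏ (T - j ∘ α)`. -/
theorem map_jSerHom_eq_prod_of_link (Φ : ℚ[X][X])
    (hlink : (Φ.map (Polynomial.mapRingHom (algebraMap ℚ ℂ))).map
        ((Polynomial.aeval jH : ℂ[X] →ₐ[ℂ] HolH) : ℂ[X] →+* HolH) =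
      rootsPoly (jAt : CosetRep N → HolH)) :
    (Φ.map (Polynomial.mapRingHom (algebraMap ℚ ℂ))).map (jSerHom ℂ N) =
      ∏ α : CosetRep N, (X - C (expandFun N (jAt α : ℍ → ℂ))) := by
  have hcomp : (Polynomial.mapRingHom (⊤ : Subring ℂ).subtype).comp (Polynomial.mapRingHom ratTop) =
      Polynomial.mapRingHom (algebraMap ℚ ℂ) := by
    refine RingHom.ext fun p => ?_
    simp only [RingHom.comp_apply, Polynomial.coe_mapRingHom, Polynomial.map_map,
      subtype_comp_ratTop]
  have hΦ : (Φ.map (Polynomial.mapRingHom ratTop)).map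
      (Polynomial.mapRingHom (⊤ : Subring ℂ).subtype) =
      Φ.map (Polynomial.mapRingHom (algebraMap ℚ ℂ)) := by
    rw [Polynomial.map_map, hcomp]
  have h := map_jSerHom_eq_prod_jAt (N := N) (⊤ : Subring ℂ)
    (Φ.map (Polynomial.mapRingHom ratTop)) (by
      rw [← hlink, Polynomial.map_map, Polynomial.map_map]
      congr 1
      rw [← hcomp]
      rfl)
  rwa [hΦ] at h

/-- `Φ'(J, r_base) = ∏_{β ≠ base} (r_base - r_β)` over `ℂ`. -/
theorem eval_derivative_of_link (Φ : ℚ[X][X])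
    (hlink : (Φ.map (Polynomial.mapRingHom (algebraMap ℚ ℂ))).map
        ((Polynomial.aeval jH : ℂ[X] →ₐ[ℂ] HolH) : ℂ[X] →+* HolH) =
      rootsPoly (jAt : CosetRep N → HolH)) :
    (((derivative Φ).map (Polynomial.mapRingHom (algebraMap ℚ ℂ))).map (jSerHom ℂ N)).eval
        (expandFun N (jAt (CosetRep.base N) : ℍ → ℂ)) =
      ∏ β ∈ Finset.univ.erase (CosetRep.base N),
        (expandFun N (jAt (CosetRep.base N) : ℍ → ℂ) - expandFun N (jAt β : ℍ → ℂ)) := by
  have h := map_jSerHom_eq_prod_of_link Φ hlink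
  rw [← eval_derivative_prod_X_sub_C (fun α : CosetRep N => expandFun N (jAt α : ℍ → ℂ))
    (CosetRep.base N), ← h, Polynomial.derivative_map, Polynomial.derivative_map]

end link

/-! ### The unit `Φ'(j, j(q^N))` -/

section final

variable (N : ℕ) [NeZero N]

/-- **(Q6), over `ℂ`**: `Φ'(j(q), j(q^N))` has `q`-order `-(n - 1) N` and lowest coefficient `1`. -/
theorem isLead_derivative_complex (Φ : ℚ[X][X])
    (hlink : (Φ.map (Polynomial.mapRingHom (algebraMap ℚ ℂ))).map
        ((Polynomial.aeval jH : ℂ[X] →ₐ[ℂ] HolH) : ℂ[X] →+* HolH) =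
      rootsPoly (jAt : CosetRep N → HolH)) :
    IsLead ((((derivative Φ).map (Polynomial.mapRingHom (algebraMap ℚ ℂ))).map
        (evS (jqModC ℂ))).eval (qExpand ℂ N (jqModC ℂ)))
      (-(((Fintype.card (CosetRep N) - 1) * N : ℕ) : ℤ)) 1 := by
  apply IsLead.of_qExp N (NeZero.ne N)
  rw [qExp_eval_map_evS]
  have hy : qExp ℂ N (NeZero.ne N) (qExpand ℂ N (jqModC ℂ)) =
      expandFun N (jAt (CosetRep.base N) : ℍ → ℂ) := by
    rw [expandFun_jAt_base, qExp_eq, qExpand_qExpand]
    exact (@qExpand_congr _ _ _ _ ⟨((CosetRep.base N).expo_pos dvd_rfl).ne'⟩ _ expo_base _).symm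
  have hJ : evS (qExp ℂ N (NeZero.ne N) (jqModC ℂ)) = jSerHom ℂ N := rfl
  rw [hy, hJ, eval_derivative_of_link Φ hlink]
  have h := isLead_prod_sub (N := N)
  have hexp : (∑ _β ∈ Finset.univ.erase (CosetRep.base N), (-((CosetRep.base N).expo N : ℤ))) =
      (N : ℤ) * (-(((Fintype.card (CosetRep N) - 1) * N : ℕ) : ℤ)) := by
    rw [Finset.sum_const, Finset.card_erase_of_mem (Finset.mem_univ _), Finset.card_univ,
      expo_base]
    generalize Fintype.card (CosetRep N) - 1 = k
    rw [nsmul_eq_mul]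
    push_cast
    ring
  rwa [hexp] at h

/-- **(Q6), over `ℤ_(ℓ)`**: `Φ'(j, j(q^N))` is invertible in `ℤ_(ℓ)((q))`, for every `Φl` over `ℤ_(ℓ)`
whose image over `ℚ` is linked to `∏ (T - j ∘ α)`. -/
theorem exists_unit_of_link (ℓ : ℕ) (Φ : ℚ[X][X])
    (hlink : (Φ.map (Polynomial.mapRingHom (algebraMap ℚ ℂ))).map
        ((Polynomial.aeval jH : ℂ[X] →ₐ[ℂ] HolH) : ℂ[X] →+* HolH) =
      rootsPoly (jAt : CosetRep N → HolH))
    (Φl : (↥(GaloisRep.ratLocalizedAt ℓ))[X][X])
    (hΦl : Φl.map (Polynomial.mapRingHom (algebraMap ↥(GaloisRep.ratLocalizedAt ℓ) ℚ)) = Φ) :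
    ∃ vZ : LaurentSeries ↥(GaloisRep.ratLocalizedAt ℓ),
      ((derivative Φl).map
        ((Polynomial.aeval (jqModC ↥(GaloisRep.ratLocalizedAt ℓ)) :
          (↥(GaloisRep.ratLocalizedAt ℓ))[X] →ₐ[↥(GaloisRep.ratLocalizedAt ℓ)]
            LaurentSeries ↥(GaloisRep.ratLocalizedAt ℓ)) :
          (↥(GaloisRep.ratLocalizedAt ℓ))[X] →+* LaurentSeries ↥(GaloisRep.ratLocalizedAt ℓ))).eval
        (qExpand ↥(GaloisRep.ratLocalizedAt ℓ) N (jqModC ↥(GaloisRep.ratLocalizedAt ℓ))) * vZ = 1 := by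
  set f : ↥(GaloisRep.ratLocalizedAt ℓ) →+* ℂ :=
    (algebraMap ℚ ℂ).comp (algebraMap ↥(GaloisRep.ratLocalizedAt ℓ) ℚ) with hf_def
  have hf : Function.Injective f :=
    (algebraMap ℚ ℂ).injective.comp Subtype.val_injective
  apply exists_mul_eq_one_of_isLead (m := -(((Fintype.card (CosetRep N) - 1) * N : ℕ) : ℤ))
  apply IsLead.of_coeffMap f hf
  rw [map_one]
  have h1 := coeffMap_eval_map_evS f (jqModC ↥(GaloisRep.ratLocalizedAt ℓ))
    (qExpand ↥(GaloisRep.ratLocalizedAt ℓ) N (jqModC ↥(GaloisRep.ratLocalizedAt ℓ)))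
    (derivative Φl)
  have hd : (derivative Φl).map (Polynomial.mapRingHom f) =
      (derivative Φ).map (Polynomial.mapRingHom (algebraMap ℚ ℂ)) := by
    rw [← hΦl, Polynomial.derivative_map, Polynomial.map_map]
    congr 1
    refine RingHom.ext fun p => ?_
    simp only [RingHom.comp_apply, Polynomial.coe_mapRingHom, Polynomial.map_map, hf_def]
  rw [coeffMap_jqModC, coeffMap_qExpand, coeffMap_jqModC, hd] at h1
  have h2 := isLead_derivative_complex N Φ hlink
  rw [← h1] at h2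
  exact h2

/-- **(Q6), `ℚ`-form**: an `ℓ`-integral inverse series of `Φ'(j, j(q^N))`. -/
theorem exists_integral_inverse_of_link (ℓ : ℕ) (Φ : ℚ[X][X])
    (hlink : (Φ.map (Polynomial.mapRingHom (algebraMap ℚ ℂ))).map
        ((Polynomial.aeval jH : ℂ[X] →ₐ[ℂ] HolH) : ℂ[X] →+* HolH) =
      rootsPoly (jAt : CosetRep N → HolH))
    (Φl : (↥(GaloisRep.ratLocalizedAt ℓ))[X][X])
    (hΦl : Φl.map (Polynomial.mapRingHom (algebraMap ↥(GaloisRep.ratLocalizedAt ℓ) ℚ)) = Φ) :
    ∃ v : LaurentSeries ℚ, (∀ i : ℤ, v.coeff i ∈ GaloisRep.ratLocalizedAt ℓ) ∧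
      ((derivative Φ).map
        ((Polynomial.aeval jq : ℚ[X] →ₐ[ℚ] LaurentSeries ℚ) : ℚ[X] →+* LaurentSeries ℚ)).eval
        (jqN N) * v = 1 := by
  obtain ⟨vZ, hvZ⟩ := exists_unit_of_link N ℓ Φ hlink Φl hΦl
  refine ⟨coeffMap (algebraMap ↥(GaloisRep.ratLocalizedAt ℓ) ℚ) vZ, fun i => ?_, ?_⟩
  · rw [coeffMap_coeff]
    exact (vZ.coeff i).2
  · have h1 := congrArg (coeffMap (algebraMap ↥(GaloisRep.ratLocalizedAt ℓ) ℚ)) hvZ
    rw [map_mul, map_one] at h1
    have h2 := coeffMap_eval_map_evS (algebraMap ↥(GaloisRep.ratLocalizedAt ℓ) ℚ)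
      (jqModC ↥(GaloisRep.ratLocalizedAt ℓ))
      (qExpand ↥(GaloisRep.ratLocalizedAt ℓ) N (jqModC ↥(GaloisRep.ratLocalizedAt ℓ)))
      (derivative Φl)
    have hd' : (derivative Φl).map
        (Polynomial.mapRingHom (algebraMap ↥(GaloisRep.ratLocalizedAt ℓ) ℚ)) = derivative Φ := by
      rw [← hΦl, Polynomial.derivative_map]
    rw [coeffMap_jqModC, coeffMap_qExpand, coeffMap_jqModC, hd'] at h2
    simp only [evS, AlgHom.toRingHom_eq_coe] at h2
    rw [h2] at h1
    exact h1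

end final

end Fermat.Agent.Igusa
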